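/-
S14 helper library (piece TRANS, core): lifting of decomposition and inertia groups from a normal
subextension `E` of an algebraic Galois extension `Ω/ℚ` to `Ω`, in the valuation-subring language of
the prelude (`ValuationSubring.decompositionSubgroup`, `ValuationSubring.inertiaSubgroupIn`).

Main results (namespace `Fermat.Agent.S14`):
* `mem_inertiaSubgroupIn_iff`: elementwise description of the prelude's inertia subgroup.
* `stabilizer_centerIdeal_eq`, `inertia_centerIdeal_eq`: decomposition / inertia group of a valuation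
  subring `A` of `L` = stabilizer / inertia group (Mathlib's `Ideal.inertia`) of the center of `A`
  on `integralClosure ℤ L`.
* `exists_mem_decompositionSubgroup_restrictNormalHom_eq`,
  `exists_mem_inertiaSubgroupIn_restrictNormalHom_eq`: surjectivity of `D_A → D_{A ∩ E}` and
  `I_A → I_{A ∩ E}` (via Mathlib's profinite invariant theory).
* `exists_valuationSubring_centerIdeal_comap_eq`: every maximal ideal of the integers of `E` is the
  center of the restriction of a valuation subring of `Ω`.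
-/
import Mathlib
import Fermat.Prelude.Def_FLTPrelim_Ramification
import Fermat.Agent.S54.FrobExists

set_option autoImplicit false

namespace Fermat.Agent.S14

open scoped Pointwise
open Fermat.Agent.S54.FrobExists

universe u

section General

variable {L : Type*} [Field L]

theorem valuation_lt_one_iff_inv (A : ValuationSubring L) (x : L) :
    A.valuation x < 1 ↔ x = 0 ∨ x⁻¹ ∉ A := by
  rcases eq_or_ne x 0 with rfl | hx
  · simp
  · simp only [hx, false_or]
    rw [← A.valuation_le_one_iff, map_inv₀, not_le, one_lt_inv₀]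
    exact zero_lt_iff.mpr ((Valuation.ne_zero_iff _).mpr hx)

variable {K : Type*} [Field K] [Algebra K L]

theorem valuation_smul_lt_one_iff (σ : L ≃ₐ[K] L) (A : ValuationSubring L) (x : L) :
    (σ • A).valuation x < 1 ↔ A.valuation (σ⁻¹ x) < 1 := by
  rw [valuation_lt_one_iff_inv, valuation_lt_one_iff_inv,
    ValuationSubring.mem_pointwise_smul_iff_inv_smul_mem]
  have h1 : σ⁻¹ x = 0 ↔ x = 0 := by
    constructor
    · intro h; simpa using congrArg σ h
    · rintro rfl; simp
  have h2 : σ⁻¹ • x⁻¹ = (σ⁻¹ x)⁻¹ := by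
    show σ⁻¹ x⁻¹ = _
    rw [map_inv₀]
  rw [h1, h2]

theorem centerIdeal_smul (σ : L ≃ₐ[K] L) (A : ValuationSubring L) :
    centerIdeal (σ • A) = σ • centerIdeal A := by
  ext b
  rw [mem_centerIdeal_iff, valuation_smul_lt_one_iff, Ideal.mem_pointwise_smul_iff_inv_smul_mem,
    mem_centerIdeal_iff]
  rfl

theorem valuation_comap_lt_one_iff {E : Type*} [Field E] (f : E →+* L) (A : ValuationSubring L)
    (x : E) : (A.comap f).valuation x < 1 ↔ A.valuation (f x) < 1 := by
  rw [valuation_lt_one_iff_inv, valuation_lt_one_iff_inv, ValuationSubring.mem_comap, map_inv₀,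
    map_eq_zero]

theorem mem_inertiaSubgroupIn_iff (A : ValuationSubring L) (σ : L ≃ₐ[K] L) :
    σ ∈ A.inertiaSubgroupIn K ↔
      σ ∈ A.decompositionSubgroup K ∧ ∀ x ∈ A, A.valuation (σ x - x) < 1 := by
  constructor
  · rintro ⟨s, hs, rfl⟩
    refine ⟨s.2, fun x hx => ?_⟩
    have h1 : MulSemiringAction.toRingAut (A.decompositionSubgroup K)
        (IsLocalRing.ResidueField A) s = 1 := hs
    have h2 : s • IsLocalRing.residue A ⟨x, hx⟩ = IsLocalRing.residue A ⟨x, hx⟩ := by
      have := DFunLike.congr_fun h1 (IsLocalRing.residue A ⟨x, hx⟩)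
      simpa using this
    rw [← IsLocalRing.ResidueField.residue_smul, ← sub_eq_zero, ← map_sub,
      IsLocalRing.residue_eq_zero_iff, A.valuation_lt_one_iff] at h2
    exact h2
  · rintro ⟨hD, hI⟩
    refine ⟨⟨σ, hD⟩, ?_, rfl⟩
    show MulSemiringAction.toRingAut (A.decompositionSubgroup K)
        (IsLocalRing.ResidueField A) ⟨σ, hD⟩ = 1
    ext y
    obtain ⟨x, rfl⟩ := IsLocalRing.residue_surjective y
    show (⟨σ, hD⟩ : A.decompositionSubgroup K) • IsLocalRing.residue A x = IsLocalRing.residue A x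
    rw [← IsLocalRing.ResidueField.residue_smul, ← sub_eq_zero, ← map_sub,
      IsLocalRing.residue_eq_zero_iff, A.valuation_lt_one_iff]
    exact hI x x.2

theorem valuation_apply_lt_one_iff_of_mem_decompositionSubgroup (A : ValuationSubring L)
    {σ : L ≃ₐ[K] L} (hσ : σ ∈ A.decompositionSubgroup K) (x : L) :
    A.valuation (σ x) < 1 ↔ A.valuation x < 1 := by
  have h : σ⁻¹ • A = A := by
    have h' : σ • A = A := hσ
    rw [inv_smul_eq_iff, h']
  have := valuation_smul_lt_one_iff σ⁻¹ A x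
  rw [h, inv_inv] at this
  exact this.symm

end General

section FiniteLevel

variable {K L : Type*} [Field K] [Field L] [CharZero L] [Algebra K L]

/-- The decomposition group of a valuation subring is the stabilizer of its center on the
algebraic integers. -/
theorem stabilizer_centerIdeal_eq (halg : ∀ x : L, IsAlgebraic ℤ x) (A : ValuationSubring L) :
    MulAction.stabilizer (L ≃ₐ[K] L) (centerIdeal A) = A.decompositionSubgroup K := by
  ext σ
  constructor
  · intro h
    exact mem_decompositionSubgroup_of_smul_centerIdeal_eq halg A σ h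
  · intro h
    have h' : σ • A = A := h
    show σ • centerIdeal A = centerIdeal A
    rw [← centerIdeal_smul, h']

/-- The inertia group of a valuation subring of positive residue characteristic is the inertia
group of its center on the algebraic integers. -/
theorem inertia_centerIdeal_eq (halg : ∀ x : L, IsAlgebraic ℤ x) (A : ValuationSubring L)
    {ℓ : ℕ} (hℓ : ℓ.Prime) (hA : A.LiesOverPrime ℓ) :
    (centerIdeal A).inertia (L ≃ₐ[K] L) = A.inertiaSubgroupIn K := by
  have hV : A.valuation (ℓ : L) < 1 := (A.mem_nonunits_iff).mp hA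
  ext σ
  rw [mem_inertiaSubgroupIn_iff]
  constructor
  · intro h
    have hD : σ ∈ A.decompositionSubgroup K := by
      rw [← stabilizer_centerIdeal_eq halg]
      exact Ideal.inertia_le_stabilizer _ h
    refine ⟨hD, fun x hx => ?_⟩
    obtain ⟨c, hc⟩ := exists_integral_sub_lt halg A hℓ hV hx
    have h2 : A.valuation (σ (x - (c : L))) < 1 :=
      (valuation_apply_lt_one_iff_of_mem_decompositionSubgroup A hD _).mpr hc
    have h3 : σ x - x = σ (x - (c : L)) + ((σ (c : L) - (c : L)) - (x - (c : L))) := by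
      rw [map_sub]; ring
    have h4 : A.valuation (σ (c : L) - (c : L)) < 1 := by
      have := h c
      rw [Submodule.mem_toAddSubgroup, mem_centerIdeal_iff] at this
      exact this
    rw [h3]
    exact Valuation.map_add_lt _ h2 (Valuation.map_sub_lt _ h4 hc)
  · rintro ⟨-, hI⟩ b
    rw [Submodule.mem_toAddSubgroup, mem_centerIdeal_iff]
    exact hI (b : L) (integral_mem_valuationSubring A b.2)

end FiniteLevel

section Lift

variable {Ω : Type u} [Field Ω] [CharZero Ω] [Algebra ℚ Ω] [IsGalois ℚ Ω]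

theorem isAlgebraic_int (x : Ω) : IsAlgebraic ℤ x :=
  (IsFractionRing.isAlgebraic_iff ℤ ℚ Ω).mpr (Algebra.IsAlgebraic.isAlgebraic x)

variable (E : Type*) [Field E] [Algebra ℚ E] [Algebra E Ω] [IsScalarTower ℚ E Ω]

/-- The ring of algebraic integers of `Ω`, with the discrete topology, as a continuous
`Gal(Ω/E)`-module. -/
theorem continuousSMul_integralClosure :
    letI : TopologicalSpace (integralClosure ℤ Ω) := ⊥
    ContinuousSMul (Ω ≃ₐ[E] Ω) (integralClosure ℤ Ω) := by
  letI : TopologicalSpace (integralClosure ℤ Ω) := ⊥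
  haveI : DiscreteTopology (integralClosure ℤ Ω) := ⟨rfl⟩
  haveI : Algebra.IsIntegral E Ω := Algebra.IsIntegral.tower_top ℚ
  rw [continuousSMul_iff_stabilizer_isOpen]
  intro b
  have h : (MulAction.stabilizer (Ω ≃ₐ[E] Ω) b : Set (Ω ≃ₐ[E] Ω)) =
      (MulAction.stabilizer (Ω ≃ₐ[E] Ω) (b : Ω) : Set (Ω ≃ₐ[E] Ω)) := by
    ext g
    simp [MulAction.mem_stabilizer_iff, Subtype.ext_iff]
  rw [h]
  exact stabilizer_isOpen_of_isIntegral (b : Ω)

/-- An element fixed by `Gal(Ω/E)` lies in `E`. -/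
theorem mem_of_forall_smul_eq {b : Ω} (hb : ∀ g : Ω ≃ₐ[E] Ω, g b = b) :
    ∃ e : E, algebraMap E Ω e = b := by
  haveI : IsGalois E Ω := IsGalois.tower_top_of_isGalois ℚ E Ω
  have h1 : b ∈ IntermediateField.fixedField (⊤ : Subgroup (Ω ≃ₐ[E] Ω)) := by
    rintro ⟨g, -⟩
    exact hb g
  have h2 : IntermediateField.fixedField (⊤ : Subgroup (Ω ≃ₐ[E] Ω)) = ⊥ := by
    rw [← IntermediateField.fixingSubgroup_bot]
    exact InfiniteGalois.fixedField_fixingSubgroup ⊥
  rw [h2, IntermediateField.mem_bot] at h1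
  exact h1

theorem restrictNormalHom_apply_coe [Normal ℚ E] (σ : Ω ≃ₐ[ℚ] Ω) (e : E) :
    algebraMap E Ω (AlgEquiv.restrictNormalHom E σ e) = σ (algebraMap E Ω e) :=
  AlgEquiv.restrictNormal_commutes σ E e

theorem restrictNormalHom_restrictScalars_eq_one [Normal ℚ E] (g : Ω ≃ₐ[E] Ω) :
    AlgEquiv.restrictNormalHom E (g.restrictScalars ℚ) = 1 := by
  ext e
  apply (algebraMap E Ω).injective
  rw [restrictNormalHom_apply_coe]
  show g (algebraMap E Ω e) = _
  rw [AlgEquiv.commutes]
  rfl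

/-- **Lifting decomposition groups.** Every element of the decomposition group of the restriction
of `A` to a normal subextension `E` lifts to the decomposition group of `A`. -/
theorem exists_mem_decompositionSubgroup_restrictNormalHom_eq [Normal ℚ E]
    (A : ValuationSubring Ω) (τ : E ≃ₐ[ℚ] E)
    (hτ : τ ∈ (A.comap (algebraMap E Ω)).decompositionSubgroup ℚ) :
    ∃ σ ∈ A.decompositionSubgroup ℚ, AlgEquiv.restrictNormalHom E σ = τ := by
  obtain ⟨σ₀, hσ₀⟩ := AlgEquiv.restrictNormalHom_surjective (F := ℚ) (K₁ := E) Ω τ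
  haveI : IsGalois E Ω := IsGalois.tower_top_of_isGalois ℚ E Ω
  letI : TopologicalSpace (integralClosure ℤ Ω) := ⊥
  haveI : DiscreteTopology (integralClosure ℤ Ω) := ⟨rfl⟩
  haveI : ContinuousSMul (Ω ≃ₐ[E] Ω) (integralClosure ℤ Ω) := continuousSMul_integralClosure E
  haveI : Algebra.IsInvariant (FixedPoints.subalgebra ℤ (integralClosure ℤ Ω) (Ω ≃ₐ[E] Ω))
      (integralClosure ℤ Ω) (Ω ≃ₐ[E] Ω) := ⟨fun b hb => ⟨⟨b, hb⟩, rfl⟩⟩
  have hτ' : τ • (A.comap (algebraMap E Ω)) = A.comap (algebraMap E Ω) := hτ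
  have hunder : (centerIdeal A).under
        (FixedPoints.subalgebra ℤ (integralClosure ℤ Ω) (Ω ≃ₐ[E] Ω))
      = (σ₀ • centerIdeal A).under
        (FixedPoints.subalgebra ℤ (integralClosure ℤ Ω) (Ω ≃ₐ[E] Ω)) := by
    ext a
    rw [Ideal.under_def, Ideal.mem_comap, Ideal.mem_comap,
      Ideal.mem_pointwise_smul_iff_inv_smul_mem, mem_centerIdeal_iff, mem_centerIdeal_iff]
    obtain ⟨e, he⟩ : ∃ e : E, algebraMap E Ω e = ((a : integralClosure ℤ Ω) : Ω) := by
      apply mem_of_forall_smul_eq E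
      intro g
      have := congrArg (fun z : integralClosure ℤ Ω => (z : Ω)) (a.2 g)
      simpa using this
    have h1 : ((σ₀⁻¹ • (a : integralClosure ℤ Ω) : integralClosure ℤ Ω) : Ω)
        = algebraMap E Ω (τ⁻¹ e) := by
      rw [← hσ₀, ← map_inv, restrictNormalHom_apply_coe, he]
      rfl
    show A.valuation ((a : integralClosure ℤ Ω) : Ω) < 1 ↔ A.valuation
      ((σ₀⁻¹ • (a : integralClosure ℤ Ω) : integralClosure ℤ Ω) : Ω) < 1
    rw [h1, ← he]
    have h2 := valuation_smul_lt_one_iff τ (A.comap (algebraMap E Ω)) e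
    rw [hτ', valuation_comap_lt_one_iff, valuation_comap_lt_one_iff] at h2
    exact h2
  obtain ⟨g, hg⟩ := Algebra.IsInvariant.exists_smul_of_under_eq_of_profinite
    (A := FixedPoints.subalgebra ℤ (integralClosure ℤ Ω) (Ω ≃ₐ[E] Ω)) (G := Ω ≃ₐ[E] Ω)
    (centerIdeal A) (σ₀ • centerIdeal A) hunder
  refine ⟨(g⁻¹).restrictScalars ℚ * σ₀, ?_, ?_⟩
  · apply mem_decompositionSubgroup_of_smul_centerIdeal_eq isAlgebraic_int
    rw [mul_smul, hg]
    show g⁻¹ • g • centerIdeal A = centerIdeal A
    rw [inv_smul_smul]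
  · rw [map_mul, hσ₀, restrictNormalHom_restrictScalars_eq_one, one_mul]

/-- **Lifting inertia groups.** Every element of the inertia group of the restriction of `A` to a
normal subextension `E` lifts to the inertia group of `A`. -/
theorem exists_mem_inertiaSubgroupIn_restrictNormalHom_eq [Normal ℚ E]
    (A : ValuationSubring Ω) {ℓ : ℕ} (hℓ : ℓ.Prime) (hA : A.LiesOverPrime ℓ) (τ : E ≃ₐ[ℚ] E)
    (hτ : τ ∈ (A.comap (algebraMap E Ω)).inertiaSubgroupIn ℚ) :
    ∃ σ ∈ A.inertiaSubgroupIn ℚ, AlgEquiv.restrictNormalHom E σ = τ := by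
  rw [mem_inertiaSubgroupIn_iff] at hτ
  obtain ⟨hτD, hτI⟩ := hτ
  obtain ⟨σ₁, hσ₁D, hσ₁⟩ := exists_mem_decompositionSubgroup_restrictNormalHom_eq E A τ hτD
  have hV : A.valuation (ℓ : Ω) < 1 := (A.mem_nonunits_iff).mp hA
  haveI : IsGalois E Ω := IsGalois.tower_top_of_isGalois ℚ E Ω
  letI : TopologicalSpace (integralClosure ℤ Ω) := ⊥
  haveI : DiscreteTopology (integralClosure ℤ Ω) := ⟨rfl⟩
  haveI : ContinuousSMul (Ω ≃ₐ[E] Ω) (integralClosure ℤ Ω) := continuousSMul_integralClosure E
  haveI : Algebra.IsInvariant (FixedPoints.subalgebra ℤ (integralClosure ℤ Ω) (Ω ≃ₐ[E] Ω))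
      (integralClosure ℤ Ω) (Ω ≃ₐ[E] Ω) := ⟨fun b hb => ⟨⟨b, hb⟩, rfl⟩⟩
  haveI hPmax : (centerIdeal A).IsMaximal := centerIdeal_isMaximal A hℓ hV
  have hP : σ₁ • centerIdeal A = centerIdeal A := by
    rw [← centerIdeal_smul]
    congr 1
  -- the automorphism of the residue field induced by `σ₁`
  let e₀ := Ideal.Quotient.stabilizerHom (centerIdeal A) ((centerIdeal A).under ℤ)
    (Ω ≃ₐ[ℚ] Ω) ⟨σ₁, hP⟩
  have he₀ : ∀ b : integralClosure ℤ Ω, e₀ (Ideal.Quotient.mk _ b)
      = Ideal.Quotient.mk _ (σ₁ • b) := fun b => rfl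
  let e : (integralClosure ℤ Ω ⧸ centerIdeal A) ≃ₐ[
      FixedPoints.subalgebra ℤ (integralClosure ℤ Ω) (Ω ≃ₐ[E] Ω) ⧸ (centerIdeal A).under
        (FixedPoints.subalgebra ℤ (integralClosure ℤ Ω) (Ω ≃ₐ[E] Ω))]
      (integralClosure ℤ Ω ⧸ centerIdeal A) :=
    AlgEquiv.ofRingEquiv (f := e₀.toRingEquiv) (by
      intro r
      obtain ⟨a, rfl⟩ := Ideal.Quotient.mk_surjective r
      rw [Ideal.Quotient.algebraMap_mk_of_liesOver]
      show e₀ (Ideal.Quotient.mk _ _) = _
      rw [he₀, Ideal.Quotient.eq, mem_centerIdeal_iff]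
      obtain ⟨x, hx⟩ : ∃ e : E, algebraMap E Ω e = ((a : integralClosure ℤ Ω) : Ω) := by
        apply mem_of_forall_smul_eq E
        intro g
        have := congrArg (fun z : integralClosure ℤ Ω => (z : Ω)) (a.2 g)
        simpa using this
      have h1 := hτI x (by
        rw [ValuationSubring.mem_comap, hx]
        exact integral_mem_valuationSubring A (a : integralClosure ℤ Ω).2)
      rw [valuation_comap_lt_one_iff, map_sub, ← hσ₁, restrictNormalHom_apply_coe, hx] at h1
      exact h1)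
  obtain ⟨⟨ρ, hρ⟩, hρe⟩ := Ideal.Quotient.stabilizerHom_surjective_of_profinite
    (G := Ω ≃ₐ[E] Ω) ((centerIdeal A).under
      (FixedPoints.subalgebra ℤ (integralClosure ℤ Ω) (Ω ≃ₐ[E] Ω))) (centerIdeal A) e
  have hρ' : ρ⁻¹ • centerIdeal A = centerIdeal A := by
    rw [inv_smul_eq_iff]; exact hρ.symm
  -- congruence `ρ b ≡ σ₁ b`
  have hcong : ∀ b : integralClosure ℤ Ω, ρ • b - σ₁ • b ∈ centerIdeal A := by
    intro b
    have := DFunLike.congr_fun hρe (Ideal.Quotient.mk _ b)
    rw [Ideal.Quotient.stabilizerHom_apply] at this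
    rw [← Ideal.Quotient.eq]
    exact this
  have hσD : (ρ⁻¹).restrictScalars ℚ * σ₁ ∈ A.decompositionSubgroup ℚ := by
    apply mem_decompositionSubgroup_of_smul_centerIdeal_eq isAlgebraic_int
    rw [mul_smul, hP]
    exact hρ'
  refine ⟨(ρ⁻¹).restrictScalars ℚ * σ₁, ?_, ?_⟩
  · rw [mem_inertiaSubgroupIn_iff]
    refine ⟨hσD, fun x hx => ?_⟩
    -- first for algebraic integers
    have hint : ∀ b : integralClosure ℤ Ω,
        A.valuation (((ρ⁻¹).restrictScalars ℚ * σ₁) (b : Ω) - (b : Ω)) < 1 := by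
      intro b
      have h1 : ρ⁻¹ • (σ₁ • b - ρ • b) ∈ centerIdeal A := by
        rw [← hρ']
        apply Ideal.smul_mem_pointwise_smul
        have := hcong b
        rw [← neg_sub]
        exact neg_mem this
      rw [smul_sub, inv_smul_smul, mem_centerIdeal_iff] at h1
      exact h1
    obtain ⟨c, hc⟩ := exists_integral_sub_lt isAlgebraic_int A hℓ hV hx
    have h2 : A.valuation (((ρ⁻¹).restrictScalars ℚ * σ₁) (x - (c : Ω))) < 1 :=
      (valuation_apply_lt_one_iff_of_mem_decompositionSubgroup A hσD _).mpr hc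
    have h3 : ((ρ⁻¹).restrictScalars ℚ * σ₁) x - x
        = ((ρ⁻¹).restrictScalars ℚ * σ₁) (x - (c : Ω))
          + ((((ρ⁻¹).restrictScalars ℚ * σ₁) (c : Ω) - (c : Ω)) - (x - (c : Ω))) := by
      rw [map_sub]; ring
    rw [h3]
    exact Valuation.map_add_lt _ h2 (Valuation.map_sub_lt _ (hint c) hc)
  · rw [map_mul, hσ₁, restrictNormalHom_restrictScalars_eq_one, one_mul]

/-- Every maximal ideal of the ring of integers of a subfield `E` is the center of (the
restriction to `E` of) a valuation subring of `Ω`. -/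
theorem exists_valuationSubring_centerIdeal_comap_eq
    (𝔓 : Ideal (integralClosure ℤ E)) [h𝔓 : 𝔓.IsMaximal] :
    ∃ A : ValuationSubring Ω, centerIdeal (A.comap (algebraMap E Ω)) = 𝔓 := by
  let f : integralClosure ℤ E →+* Ω :=
    (algebraMap E Ω).comp (algebraMap (integralClosure ℤ E) E)
  have hf : Function.Injective f := (algebraMap E Ω).injective.comp Subtype.val_injective
  have hbij : Function.Bijective f.rangeRestrict :=
    ⟨fun x y h => hf (congrArg (Subtype.val : f.range → Ω) h), f.rangeRestrict_surjective⟩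
  have hI : 𝔓.map f.rangeRestrict ≠ ⊤ :=
    fun h => h𝔓.ne_top ((Ideal.map_eq_top_of_bijective _ hbij).mp h)
  obtain ⟨A, -, hA⟩ := Ideal.image_subset_nonunits_valuationSubring _ hI
  refine ⟨A, ?_⟩
  have hle : 𝔓 ≤ centerIdeal (A.comap (algebraMap E Ω)) := by
    intro b hb
    rw [mem_centerIdeal_iff, valuation_comap_lt_one_iff, ← A.mem_nonunits_iff]
    apply hA
    exact ⟨f.rangeRestrict b, Ideal.mem_map_of_mem _ hb, rfl⟩
  exact (h𝔓.eq_of_le (centerIdeal_isPrime _).ne_top hle).symm

end Lift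

end Fermat.Agent.S14
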