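import Mathlib

/-!
# An index inequality for modules over a cyclic group of prime order

`A` is an additive commutative group with an endomorphism `s` such that `s ^ p = 1`
(`p` prime).  Put `δ = 1 - s`, `ν = 1 + s + ⋯ + s ^ (p - 1)`, `F = ker δ` (the fixed points),
`A₁ = ker ν`.  Under numerical hypotheses on `[A : pA]` and `[F : pF]` (which hold for unit
groups of number fields containing the `p`-th roots of unity by Dirichlet's unit theorem) we
prove `p * [F : ν A] ≤ [A₁ : δ A]`, i.e. `|H^1| ≥ p |Ĥ^0|` (half of the computation of the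
Herbrand quotient of the units), by elementary index counting.
-/

set_option autoImplicit false

namespace Fermat.Agent.S14.UnitIndex

open Finset

variable {A : Type*} [AddCommGroup A]

/-- `δ = 1 - s`. -/
def delta (s : AddMonoid.End A) : AddMonoid.End A := 1 - s

/-- `ν = ∑_{k < p} s ^ k`. -/
def nu (s : AddMonoid.End A) (p : ℕ) : AddMonoid.End A := ∑ k ∈ range p, s ^ k

/-- multiplication by `p`. -/
def mulP (A : Type*) [AddCommGroup A] (p : ℕ) : AddMonoid.End A := nsmulAddMonoidHom p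

@[simp] lemma mulP_apply (p : ℕ) (x : A) : mulP A p x = p • x := rfl

lemma delta_apply (s : AddMonoid.End A) (x : A) : delta s x = x - s x := rfl

lemma delta_mul_nu (s : AddMonoid.End A) (p : ℕ) (hs : s ^ p = 1) : delta s * nu s p = 0 := by
  rw [delta, nu, mul_neg_geom_sum, hs, sub_self]

lemma nu_mul_delta (s : AddMonoid.End A) (p : ℕ) (hs : s ^ p = 1) : nu s p * delta s = 0 := by
  rw [delta, nu, geom_sum_mul_neg, hs, sub_self]

lemma pow_apply_of_fixed (s : AddMonoid.End A) {x : A} (hx : s x = x) (k : ℕ) :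
    (s ^ k) x = x := by
  induction k with
  | zero => simp
  | succ k ih => rw [pow_succ, AddMonoid.End.coe_mul, Function.comp_apply, hx, ih]

lemma end_sum_apply {ι : Type*} (t : Finset ι) (f : ι → AddMonoid.End A) (x : A) :
    (∑ k ∈ t, f k) x = ∑ k ∈ t, f k x := by
  classical
  induction t using Finset.induction_on with
  | empty => simp
  | insert a t ha ih =>
    rw [sum_insert ha, sum_insert ha, ← ih]
    rfl

lemma nu_apply_of_fixed (s : AddMonoid.End A) (p : ℕ) {x : A} (hx : s x = x) :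
    nu s p x = p • x := by
  rw [nu, end_sum_apply]
  simp [pow_apply_of_fixed s hx]

open Polynomial in
/-- `(1 - X) ^ (p - 1) ≡ 1 + X + ⋯ + X ^ (p - 1)` modulo `p` in `ℤ[X]`. -/
lemma exists_poly_identity (p : ℕ) [hp : Fact p.Prime] :
    ∃ h : ℤ[X], (1 - X) ^ (p - 1) = (∑ k ∈ range p, X ^ k) + C (p : ℤ) * h := by
  set f : ℤ[X] := (1 - X) ^ (p - 1) - ∑ k ∈ range p, X ^ k with hf
  have key : f.map (Int.castRingHom (ZMod p)) = 0 := by
    have h1 : ((1 : (ZMod p)[X]) - X) * f.map (Int.castRingHom (ZMod p)) = 0 := by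
      simp only [hf, Polynomial.map_sub, Polynomial.map_pow, Polynomial.map_one, Polynomial.map_X,
        Polynomial.map_sum]
      rw [mul_sub, ← pow_succ', Nat.sub_add_cancel hp.out.one_le, mul_neg_geom_sum,
        sub_pow_char, one_pow, sub_self]
    have h2 : ((1 : (ZMod p)[X]) - X) ≠ 0 := by
      intro h
      have := congrArg (fun q => Polynomial.coeff q 1) h
      simp [Polynomial.coeff_one, Polynomial.coeff_X] at this
    exact (mul_eq_zero.mp h1).resolve_left h2
  have hdvd : C (p : ℤ) ∣ f := by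
    rw [Polynomial.C_dvd_iff_dvd_coeff]
    intro i
    have := congrArg (fun q => Polynomial.coeff q i) key
    simp only [Polynomial.coeff_map, Polynomial.coeff_zero, eq_intCast] at this
    exact (ZMod.intCast_zmod_eq_zero_iff_dvd _ p).mp this
  obtain ⟨h, hh⟩ := hdvd
  exact ⟨h, by rw [← hh, hf]; ring⟩

/-- In `End A`, with `s ^ p = 1`: `δ ^ (p - 1) = ν + p * h` for some `h` commuting with `s`. -/
lemma exists_end_identity (s : AddMonoid.End A) (p : ℕ) [hp : Fact p.Prime] :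
    ∃ h : AddMonoid.End A, Commute h s ∧
      delta s ^ (p - 1) = nu s p + (p : AddMonoid.End A) * h := by
  obtain ⟨h, hh⟩ := exists_poly_identity p
  refine ⟨Polynomial.aeval s h, ?_, ?_⟩
  · have : Polynomial.aeval s (h * Polynomial.X) = Polynomial.aeval s (Polynomial.X * h) := by
      rw [mul_comm]
    rw [map_mul, map_mul, Polynomial.aeval_X] at this
    exact this
  · have := congrArg (Polynomial.aeval s) hh
    simp only [map_pow, map_sub, map_one, Polynomial.aeval_X, map_add, map_sum, map_mul,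
      map_natCast] at this
    exact this

/-! ### General index lemmas -/

lemma relIndex_sup_dvd (H K N : AddSubgroup A) (hHK : H ≤ K) :
    (H ⊔ N).relIndex (K ⊔ N) ∣ H.relIndex K := by
  have h1 : K ⊔ N = K ⊔ (H ⊔ N) := by
    rw [← sup_assoc, sup_eq_left.mpr hHK]
  rw [h1, AddSubgroup.relIndex_sup_right]
  exact AddSubgroup.relIndex_dvd_of_le_left K le_sup_left

lemma relIndex_eq_pow_of_smul_le (p : ℕ) [hp : Fact p.Prime] (H K : AddSubgroup A)
    (h : ∀ x ∈ K, p • x ∈ H) (hfin : H.relIndex K ≠ 0) : ∃ c, H.relIndex K = p ^ c := by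
  have hfi : (H.addSubgroupOf K).FiniteIndex := ⟨hfin⟩
  have : Finite (K ⧸ H.addSubgroupOf K) := AddSubgroup.finite_quotient_of_finiteIndex
  have hP : IsPGroup p (Multiplicative (K ⧸ H.addSubgroupOf K)) := by
    intro g
    refine ⟨1, ?_⟩
    obtain ⟨x, hx⟩ := QuotientAddGroup.mk_surjective (Multiplicative.toAdd g)
    rw [pow_one]
    apply Multiplicative.toAdd.injective
    rw [toAdd_pow, ← hx, toAdd_one, ← QuotientAddGroup.mk_nsmul, QuotientAddGroup.eq_zero_iff]
    rw [AddSubgroup.mem_addSubgroupOf]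
    simpa using h x x.2
  obtain ⟨c, hc⟩ := IsPGroup.iff_card.mp hP
  exact ⟨c, by rw [AddSubgroup.relIndex, AddSubgroup.index, ← hc]; rfl⟩

/-- `[f K : f H] = [K + ker f : H + ker f]`, specialised to `K = ⊤`. -/
lemma relIndex_map_range (f : A →+ A) (H : AddSubgroup A) :
    (H.map f).relIndex f.range = (H ⊔ f.ker).index := by
  rw [AddMonoidHom.range_eq_map, AddSubgroup.relIndex_map_map, top_sup_eq,
    AddSubgroup.relIndex_top_right]

/-! ### The four subgroups -/

section Main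

variable (s : AddMonoid.End A) (p : ℕ)

/-- `δ` as an additive monoid hom. -/
def dHom : A →+ A := delta s

/-- `ν` as an additive monoid hom. -/
def nHom : A →+ A := nu s p

/-- multiplication by `p` as an additive monoid hom. -/
def pHom (A : Type*) [AddCommGroup A] (p : ℕ) : A →+ A := nsmulAddMonoidHom p

lemma dHom_apply (x : A) : dHom s x = x - s x := rfl

lemma nHom_apply (x : A) : nHom s p x = nu s p x := rfl

@[simp] lemma pHom_apply (x : A) : pHom A p x = p • x := rfl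

/-- The fixed points `F = ker (1 - s)`. -/
def Fx : AddSubgroup A := (dHom s).ker

/-- The kernel of the norm `A₁ = ker ν`. -/
def A1 : AddSubgroup A := (nHom s p).ker

/-- `δ A`. -/
def Dl : AddSubgroup A := (dHom s).range

/-- `ν A`. -/
def Nu : AddSubgroup A := (nHom s p).range

variable {s p}

lemma mem_Fx {x : A} : x ∈ Fx s ↔ s x = x := by
  rw [Fx, AddMonoidHom.mem_ker, dHom_apply, sub_eq_zero, eq_comm]

lemma mem_A1 {x : A} : x ∈ A1 s p ↔ nu s p x = 0 := AddMonoidHom.mem_ker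

lemma nu_delta_apply (hs : s ^ p = 1) (y : A) : nu s p (delta s y) = 0 :=
  DFunLike.congr_fun (nu_mul_delta s p hs) y

lemma delta_nu_apply (hs : s ^ p = 1) (y : A) : delta s (nu s p y) = 0 :=
  DFunLike.congr_fun (delta_mul_nu s p hs) y

lemma Dl_le_A1 (hs : s ^ p = 1) : Dl s ≤ A1 s p := by
  rintro _ ⟨y, rfl⟩
  rw [mem_A1]
  exact nu_delta_apply hs y

lemma Nu_le_Fx (hs : s ^ p = 1) : Nu s p ≤ Fx s := by
  rintro _ ⟨y, rfl⟩
  rw [Fx, AddMonoidHom.mem_ker]
  exact delta_nu_apply hs y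

lemma map_nu_Fx : (Fx s).map (nHom s p) = (Fx s).map (pHom A p) := by
  ext y
  simp only [AddSubgroup.mem_map]
  constructor
  · rintro ⟨x, hx, rfl⟩
    exact ⟨x, hx, by rw [pHom_apply, nHom_apply, nu_apply_of_fixed s p (mem_Fx.mp hx)]⟩
  · rintro ⟨x, hx, rfl⟩
    exact ⟨x, hx, by rw [pHom_apply, nHom_apply, nu_apply_of_fixed s p (mem_Fx.mp hx)]⟩

/-- The basic index identity `[A₁ : δA₁] * [F : νA] = [A₁ : δA] * [F : pF]`. -/
lemma index_identity (hs : s ^ p = 1) :
    ((A1 s p).map (dHom s)).relIndex (A1 s p) * (Nu s p).relIndex (Fx s) =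
      (Dl s).relIndex (A1 s p) * ((Fx s).map (pHom A p)).relIndex (Fx s) := by
  have h1 : ((A1 s p).map (dHom s)).relIndex (Dl s) * (Dl s).relIndex (A1 s p) =
      ((A1 s p).map (dHom s)).relIndex (A1 s p) :=
    AddSubgroup.relIndex_mul_relIndex _ _ _ (AddSubgroup.map_le_range _ _) (Dl_le_A1 hs)
  have h2 : ((A1 s p).map (dHom s)).relIndex (Dl s) = (A1 s p ⊔ Fx s).index :=
    relIndex_map_range (dHom s) (A1 s p)
  have h3 : ((Fx s).map (nHom s p)).relIndex (Nu s p) = (Fx s ⊔ A1 s p).index :=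
    relIndex_map_range (nHom s p) (Fx s)
  have h4 : ((Fx s).map (pHom A p)).relIndex (Nu s p) * (Nu s p).relIndex (Fx s) =
      ((Fx s).map (pHom A p)).relIndex (Fx s) := by
    refine AddSubgroup.relIndex_mul_relIndex _ _ _ ?_ (Nu_le_Fx hs)
    rw [← map_nu_Fx]
    exact AddSubgroup.map_le_range _ _
  rw [← h1, h2, ← h4, ← map_nu_Fx, h3, sup_comm]
  ring

/-! ### The filtration by powers of `δ` -/

variable (s) in
/-- `δ ^ i` as an additive monoid hom. -/
def dPow (i : ℕ) : A →+ A := (delta s ^ i : AddMonoid.End A)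

lemma dPow_succ (i : ℕ) : dPow s (i + 1) = (dPow s i).comp (dHom s) := by
  show (delta s ^ (i + 1) : AddMonoid.End A) = (delta s ^ i : AddMonoid.End A) * delta s
  rw [pow_succ]

lemma dPow_zero : dPow s 0 = AddMonoidHom.id A := by
  show (delta s ^ 0 : AddMonoid.End A) = 1
  rw [pow_zero]

lemma A1_map_dHom_le (hs : s ^ p = 1) : (A1 s p).map (dHom s) ≤ A1 s p :=
  (AddSubgroup.map_le_range _ _).trans (Dl_le_A1 hs)

lemma map_dPow_succ (i : ℕ) :
    (A1 s p).map (dPow s (i + 1)) = ((A1 s p).map (dHom s)).map (dPow s i) := by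
  rw [dPow_succ, AddSubgroup.map_map]

lemma map_dPow_succ_le (hs : s ^ p = 1) (i : ℕ) :
    (A1 s p).map (dPow s (i + 1)) ≤ (A1 s p).map (dPow s i) := by
  rw [map_dPow_succ]
  exact AddSubgroup.map_mono (A1_map_dHom_le hs)

lemma map_dPow_le (hs : s ^ p = 1) (i : ℕ) : (A1 s p).map (dPow s i) ≤ A1 s p := by
  induction i with
  | zero => rw [dPow_zero, AddSubgroup.map_id]
  | succ i ih => exact (map_dPow_succ_le hs i).trans ih

lemma relIndex_map_dPow_succ_dvd (hs : s ^ p = 1) (i : ℕ) :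
    ((A1 s p).map (dPow s (i + 1))).relIndex ((A1 s p).map (dPow s i)) ∣
      ((A1 s p).map (dHom s)).relIndex (A1 s p) := by
  rw [map_dPow_succ, AddSubgroup.relIndex_map_map]
  exact relIndex_sup_dvd _ _ _ (A1_map_dHom_le hs)

lemma relIndex_map_dPow_dvd (hs : s ^ p = 1) (n : ℕ) :
    ((A1 s p).map (dPow s n)).relIndex (A1 s p) ∣
      (((A1 s p).map (dHom s)).relIndex (A1 s p)) ^ n := by
  induction n with
  | zero => rw [dPow_zero, AddSubgroup.map_id, AddSubgroup.relIndex_self, pow_zero]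
  | succ n ih =>
    rw [← AddSubgroup.relIndex_mul_relIndex _ _ _ (map_dPow_succ_le hs n) (map_dPow_le hs n),
      pow_succ, mul_comm]
    exact mul_dvd_mul ih (relIndex_map_dPow_succ_dvd hs n)

lemma commute_nu {h : AddMonoid.End A} (hh : Commute h s) : Commute h (nu s p) := by
  rw [nu]
  exact Commute.sum_right _ _ _ fun k _ => hh.pow_right k

lemma apply_mem_A1 {h : AddMonoid.End A} (hh : Commute h s) {x : A} (hx : x ∈ A1 s p) :
    h x ∈ A1 s p := by
  rw [mem_A1] at hx ⊢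
  have := DFunLike.congr_fun (commute_nu (p := p) hh).eq x
  have h2 : nu s p (h x) = h (nu s p x) := this.symm
  rw [h2, hx, map_zero]

lemma map_dPow_pred_le [hp : Fact p.Prime] :
    (A1 s p).map (dPow s (p - 1)) ≤ (A1 s p).map (pHom A p) := by
  obtain ⟨h, hcomm, hid⟩ := exists_end_identity s p
  rintro _ ⟨x, hx, rfl⟩
  refine ⟨h x, apply_mem_A1 hcomm hx, ?_⟩
  have h1 : (delta s ^ (p - 1) : AddMonoid.End A) x = nu s p x + (p : AddMonoid.End A) (h x) := by
    rw [hid]; rfl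
  show p • h x = (delta s ^ (p - 1) : AddMonoid.End A) x
  rw [h1, mem_A1.mp hx, zero_add, AddMonoid.End.natCast_apply]

/-- `[A₁ : pA₁]` divides `[A₁ : δA₁] ^ (p - 1)`. -/
lemma relIndex_pA1_dvd (hs : s ^ p = 1) [hp : Fact p.Prime] :
    ((A1 s p).map (pHom A p)).relIndex (A1 s p) ∣
      (((A1 s p).map (dHom s)).relIndex (A1 s p)) ^ (p - 1) :=
  (AddSubgroup.relIndex_dvd_of_le_left _ map_dPow_pred_le).trans (relIndex_map_dPow_dvd hs _)

/-- `p - ν = δ * g` with `g = ∑_{k<p} ∑_{j<k} s^j`. -/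
lemma natCast_sub_nu (s : AddMonoid.End A) (p : ℕ) :
    (p : AddMonoid.End A) - nu s p = delta s * ∑ k ∈ range p, ∑ j ∈ range k, s ^ j := by
  rw [Finset.mul_sum, nu]
  have : (p : AddMonoid.End A) = ∑ _k ∈ range p, (1 : AddMonoid.End A) := by
    rw [Finset.sum_const, card_range, nsmul_eq_mul, mul_one]
  rw [this, ← Finset.sum_sub_distrib]
  refine Finset.sum_congr rfl fun k _ => ?_
  rw [delta, mul_neg_geom_sum]

lemma pA1_le_map_dHom : (A1 s p).map (pHom A p) ≤ (A1 s p).map (dHom s) := by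
  rintro _ ⟨x, hx, rfl⟩
  set g : AddMonoid.End A := ∑ k ∈ range p, ∑ j ∈ range k, s ^ j with hg
  have hcomm : Commute g s := by
    rw [hg]
    exact Commute.sum_left _ _ _ fun k _ => Commute.sum_left _ _ _ fun j _ =>
      (Commute.refl s).pow_left j
  refine ⟨g x, apply_mem_A1 hcomm hx, ?_⟩
  have h1 : ((p : AddMonoid.End A) - nu s p) x = (delta s * g) x := by
    rw [natCast_sub_nu]
  have h2 : ((p : AddMonoid.End A) - nu s p) x = p • x - nu s p x := rfl
  rw [h2, mem_A1.mp hx, sub_zero] at h1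
  show delta s (g x) = p • x
  rw [h1]; rfl

lemma smul_mem_map_dHom {x : A} (hx : x ∈ A1 s p) : p • x ∈ (A1 s p).map (dHom s) :=
  pA1_le_map_dHom ⟨x, hx, rfl⟩

/-! ### Comparing `[A : pA]` with `[A₁ : pA₁] * [F : pF]` -/

lemma map_pHom_le (H : AddSubgroup A) : H.map (pHom A p) ≤ H := by
  rintro _ ⟨x, hx, rfl⟩
  exact H.nsmul_mem hx p

/-- If `H` has finite index and contains the `p`-torsion, then `[H : pH] = [A : pA]`. -/
lemma relIndex_map_pHom_eq (H : AddSubgroup A) (hH : H.index ≠ 0) (hker : (pHom A p).ker ≤ H) :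
    (H.map (pHom A p)).relIndex H = (pHom A p).range.index := by
  have ha : (H.map (pHom A p)).relIndex (pHom A p).range = H.index := by
    rw [relIndex_map_range, sup_eq_left.mpr hker]
  have hb := AddSubgroup.relIndex_mul_index (AddSubgroup.map_le_range (pHom A p) H)
  have hc := AddSubgroup.relIndex_mul_index (map_pHom_le (p := p) H)
  rw [ha] at hb
  rw [← hb, mul_comm] at hc
  exact Nat.eq_of_mul_eq_mul_left (Nat.pos_of_ne_zero hH) hc

/-- `s ^ k y = y + k • (s y - y)` when `s y - y` is fixed by `s`. -/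
lemma pow_apply_of_sub_fixed {y : A} (ht : s (s y - y) = s y - y) (k : ℕ) :
    (s ^ k) y = y + k • (s y - y) := by
  induction k with
  | zero => simp
  | succ k ih =>
    rw [pow_succ', AddMonoid.End.coe_mul, Function.comp_apply, ih, map_add, map_nsmul, ht,
      succ_nsmul]
    abel

/-- A nonzero fixed `p`-torsion element is not `p` times an element of norm zero (`p` odd). -/
lemma not_mem_pA1 [hp : Fact p.Prime] (hp2 : p ≠ 2)
    (htors : ∀ x : A, p • x = 0 → s x = x)
    {z : A} (hz : s z = z) (hz0 : z ≠ 0) : z ∉ (A1 s p).map (pHom A p) := by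
  rintro ⟨y, hy0, hyz⟩
  rw [pHom_apply] at hyz
  have hy : nu s p y = 0 := mem_A1.mp hy0
  set t := s y - y with ht
  have hpt : p • t = 0 := by
    rw [ht, smul_sub, ← map_nsmul, hyz, hz, sub_self]
  have hst : s t = t := htors t hpt
  have hnu : nu s p y = p • y + (∑ k ∈ range p, k) • t := by
    rw [nu, end_sum_apply]
    simp_rw [pow_apply_of_sub_fixed hst]
    rw [Finset.sum_add_distrib, Finset.sum_const, card_range, Finset.sum_smul]
  obtain ⟨m, hm⟩ := hp.out.odd_of_ne_two hp2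
  have hsum : ∑ k ∈ range p, k = p * m := by
    have h2 : (∑ k ∈ range p, k) * 2 = p * (p - 1) := Finset.sum_range_id_mul_two p
    have h3 : p - 1 = 2 * m := by omega
    rw [h3] at h2
    have h4 : (∑ k ∈ range p, k) * 2 = (p * m) * 2 := by rw [h2]; ring
    exact Nat.eq_of_mul_eq_mul_right (by norm_num) h4
  rw [hsum, mul_comm, mul_smul, hpt, smul_zero, add_zero, hyz] at hnu
  exact hz0 (hnu.symm.trans hy)

lemma key_ineq [hp : Fact p.Prime] (hp2 : p ≠ 2) (hs : s ^ p = 1)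
    (htors : ∀ x : A, p • x = 0 → s x = x)
    {z : A} (hz : s z = z) (hpz : p • z = 0) (hz0 : z ≠ 0)
    (hsF : ((Fx s).map (pHom A p)).relIndex (Fx s) ≠ 0)
    (ha1 : ((A1 s p).map (pHom A p)).relIndex (A1 s p) ≠ 0) :
    p * (pHom A p).range.index ≤
      ((A1 s p).map (pHom A p)).relIndex (A1 s p) * ((Fx s).map (pHom A p)).relIndex (Fx s) := by
  have hznot : z ∉ (A1 s p).map (pHom A p) := not_mem_pA1 hp2 htors hz hz0
  set F := Fx s with hF
  set A₁ := A1 s p with hA₁
  set P := pHom A p with hP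
  set H := A₁ ⊔ F with hH
  have hpF_le : F.map P ≤ F := map_pHom_le F
  have hpA_le : A₁.map P ≤ A₁ := map_pHom_le A₁
  have hzF : z ∈ F := mem_Fx.mpr hz
  have hzA1 : z ∈ A₁ := by
    rw [hA₁, mem_A1, nu_apply_of_fixed s p hz, hpz]
  -- `H` has finite index
  have hHindex : H.index ≠ 0 := by
    have h3 : ((Fx s).map (nHom s p)).relIndex (Nu s p) = (Fx s ⊔ A1 s p).index :=
      relIndex_map_range (nHom s p) (Fx s)
    have h4 : ((Fx s).map (pHom A p)).relIndex (Nu s p) * (Nu s p).relIndex (Fx s) =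
        ((Fx s).map (pHom A p)).relIndex (Fx s) := by
      refine AddSubgroup.relIndex_mul_relIndex _ _ _ ?_ (Nu_le_Fx hs)
      rw [← map_nu_Fx]
      exact AddSubgroup.map_le_range _ _
    rw [hH, sup_comm, ← h3, map_nu_Fx]
    intro h0
    rw [h0, zero_mul] at h4
    exact hsF h4.symm
  have hker : P.ker ≤ H := by
    intro x hx
    exact le_sup_right (a := A₁) (mem_Fx.mpr (htors x hx))
  have h1 : (H.map P).relIndex H = P.range.index := relIndex_map_pHom_eq H hHindex hker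
  -- the chain `pH ≤ pA₁ ⊔ F ≤ H`
  have hmap : H.map P = A₁.map P ⊔ F.map P := AddSubgroup.map_sup _ _ _
  have hle1 : H.map P ≤ A₁.map P ⊔ F := by
    rw [hmap]; exact sup_le_sup_left hpF_le _
  have hle2 : A₁.map P ⊔ F ≤ H := sup_le_sup_right hpA_le _
  have hchain := AddSubgroup.relIndex_mul_relIndex _ _ _ hle1 hle2
  have hd1 : (H.map P).relIndex (A₁.map P ⊔ F) ∣ (F.map P).relIndex F := by
    rw [hmap, sup_comm (A₁.map P) (F.map P), sup_comm (A₁.map P) F]
    exact relIndex_sup_dvd _ _ _ hpF_le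
  -- the second factor
  have hH' : H = A₁ ⊔ (A₁.map P ⊔ F) := by
    rw [hH, ← sup_assoc, sup_eq_left.mpr hpA_le]
  have hd2 : (A₁.map P ⊔ F).relIndex H = (A₁.map P ⊔ F).relIndex A₁ := by
    rw [hH', AddSubgroup.relIndex_sup_right]
  set A₁' := (A₁.map P ⊔ F) ⊓ A₁ with hA₁'
  have hA'le : A₁' ≤ A₁ := inf_le_right
  have hpA_le' : A₁.map P ≤ A₁' := le_inf le_sup_left hpA_le
  have hd3 : (A₁.map P ⊔ F).relIndex A₁ = A₁'.relIndex A₁ := by
    rw [hA₁', AddSubgroup.inf_relIndex_right]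
  have hprod := AddSubgroup.relIndex_mul_relIndex _ _ _ hpA_le' hA'le
  have hne : (A₁.map P).relIndex A₁' ≠ 0 := by
    intro h0; rw [h0, zero_mul] at hprod; exact ha1 hprod.symm
  obtain ⟨c, hc⟩ := relIndex_eq_pow_of_smul_le p (A₁.map P) A₁'
    (fun x hx => ⟨x, hA'le hx, rfl⟩) hne
  have hc1 : c ≠ 0 := by
    intro h0
    rw [h0, pow_zero, AddSubgroup.relIndex_eq_one] at hc
    exact hznot (hc ⟨le_sup_right (a := A₁.map P) hzF, hzA1⟩)
  have hpdvd : p ∣ (A₁.map P).relIndex A₁' := by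
    rw [hc]; exact dvd_pow_self p hc1
  -- assemble
  obtain ⟨a, haa⟩ := hd1
  obtain ⟨q, hq⟩ := hpdvd
  have e1 : P.range.index = (H.map P).relIndex (A₁.map P ⊔ F) * A₁'.relIndex A₁ := by
    rw [← h1, ← hchain, hd2, hd3]
  have e2 : (A₁.map P).relIndex A₁ = p * q * A₁'.relIndex A₁ := by
    rw [← hprod, hq]
  rw [e1, haa, e2]
  have hq0 : q ≠ 0 := by
    rintro rfl
    rw [mul_zero] at hq; exact hne hq
  have ha0 : a ≠ 0 := by
    rintro rfl
    rw [mul_zero] at haa; exact hsF haa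
  calc p * ((H.map P).relIndex (A₁.map P ⊔ F) * A₁'.relIndex A₁)
      ≤ p * ((H.map P).relIndex (A₁.map P ⊔ F) * A₁'.relIndex A₁) * (a * q) :=
        Nat.le_mul_of_pos_right _ (Nat.mul_pos (Nat.pos_of_ne_zero ha0) (Nat.pos_of_ne_zero hq0))
    _ = p * q * A₁'.relIndex A₁ * ((H.map P).relIndex (A₁.map P ⊔ F) * a) := by ring

/-- **The abstract index inequality** `p * [F : νA] ≤ [A₁ : δA]` (and `[A₁ : δA]` is finite). -/
theorem abstract_index_ineq [hp : Fact p.Prime] (hs : s ^ p = 1) (b : ℕ)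
    (hA : p ^ (p * b) ≤ (pHom A p).range.index)
    (hsF : ((Fx s).map (pHom A p)).relIndex (Fx s) ≠ 0)
    (hsF' : ((Fx s).map (pHom A p)).relIndex (Fx s) ≤ p ^ b)
    (ha1 : ((A1 s p).map (pHom A p)).relIndex (A1 s p) ≠ 0)
    (htors : ∀ x : A, p • x = 0 → s x = x)
    (hp2 : p ≠ 2) {z : A} (hz : s z = z) (hpz : p • z = 0) (hz0 : z ≠ 0) :
    (Dl s).relIndex (A1 s p) ≠ 0 ∧
      p * (Nu s p).relIndex (Fx s) ≤ (Dl s).relIndex (A1 s p) := by
  have hp1 : 1 < p := hp.out.one_lt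
  have hp0 : 0 < p := hp.out.pos
  set Q := ((A1 s p).map (dHom s)).relIndex (A1 s p) with hQ
  set a1 := ((A1 s p).map (pHom A p)).relIndex (A1 s p) with ha1'
  set sF := ((Fx s).map (pHom A p)).relIndex (Fx s) with hsF''
  set sA := (pHom A p).range.index with hsA
  -- `Q ∣ a1`, so `Q ≠ 0`
  have hQa1 : Q ∣ a1 := AddSubgroup.relIndex_dvd_of_le_left _ pA1_le_map_dHom
  have hQ0 : Q ≠ 0 := fun h0 => ha1 (by rw [h0] at hQa1; exact zero_dvd_iff.mp hQa1)
  -- `a1 ∣ Q ^ (p - 1)`
  have ha1Q : a1 ∣ Q ^ (p - 1) := relIndex_pA1_dvd hs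
  have ha1le : a1 ≤ Q ^ (p - 1) := Nat.le_of_dvd (Nat.pos_of_ne_zero (pow_ne_zero _ hQ0)) ha1Q
  -- `Q` is a power of `p`
  obtain ⟨c, hc⟩ := relIndex_eq_pow_of_smul_le p ((A1 s p).map (dHom s)) (A1 s p)
    (fun x hx => smul_mem_map_dHom hx) hQ0
  -- the key inequality
  have hkey : p * sA ≤ a1 * sF := key_ineq hp2 hs htors hz hpz hz0 hsF ha1
  -- deduce `b + 1 ≤ c`
  have hbc : b + 1 ≤ c := by
    by_contra hlt
    push Not at hlt
    have hcb : c ≤ b := Nat.lt_succ_iff.mp hlt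
    have h1 : p * p ^ (p * b) ≤ (p ^ c) ^ (p - 1) * p ^ b := by
      calc p * p ^ (p * b) ≤ p * sA := Nat.mul_le_mul_left _ hA
        _ ≤ a1 * sF := hkey
        _ ≤ Q ^ (p - 1) * p ^ b := Nat.mul_le_mul ha1le hsF'
        _ = (p ^ c) ^ (p - 1) * p ^ b := by rw [← hc]
    have h2 : (p ^ c) ^ (p - 1) * p ^ b ≤ (p ^ b) ^ (p - 1) * p ^ b :=
      Nat.mul_le_mul_right _ (Nat.pow_le_pow_left (Nat.pow_le_pow_right hp0 hcb) _)
    have h3 : (p ^ b) ^ (p - 1) * p ^ b = p ^ (p * b) := by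
      rw [← pow_mul, ← pow_add]
      congr 1
      obtain ⟨k, hk⟩ : ∃ k, p = k + 1 := ⟨p - 1, (Nat.sub_add_cancel hp0).symm⟩
      rw [hk, Nat.add_sub_cancel]
      ring
    rw [h3] at h2
    have h4 : p * p ^ (p * b) ≤ p ^ (p * b) := h1.trans h2
    have h5 : 0 < p ^ (p * b) := pow_pos hp0 _
    nlinarith
  -- the index identity
  have hid : Q * (Nu s p).relIndex (Fx s) = (Dl s).relIndex (A1 s p) * sF := index_identity hs
  have hD0 : (Dl s).relIndex (A1 s p) ≠ 0 := by
    have : (Dl s).relIndex (A1 s p) ∣ Q :=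
      AddSubgroup.relIndex_dvd_of_le_left _ (AddSubgroup.map_le_range _ _)
    exact fun h0 => hQ0 (by rw [h0] at this; exact zero_dvd_iff.mp this)
  refine ⟨hD0, ?_⟩
  have h6 : p ^ (b + 1) * (Nu s p).relIndex (Fx s) ≤ (Dl s).relIndex (A1 s p) * p ^ b := by
    calc p ^ (b + 1) * (Nu s p).relIndex (Fx s) ≤ p ^ c * (Nu s p).relIndex (Fx s) :=
          Nat.mul_le_mul_right _ (Nat.pow_le_pow_right hp0 hbc)
      _ = (Dl s).relIndex (A1 s p) * sF := by rw [← hc, hid]
      _ ≤ (Dl s).relIndex (A1 s p) * p ^ b := Nat.mul_le_mul_left _ hsF'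
  have h7 : p ^ b * (p * (Nu s p).relIndex (Fx s)) ≤ p ^ b * (Dl s).relIndex (A1 s p) := by
    calc p ^ b * (p * (Nu s p).relIndex (Fx s)) = p ^ (b + 1) * (Nu s p).relIndex (Fx s) := by
          rw [pow_succ]; ring
      _ ≤ (Dl s).relIndex (A1 s p) * p ^ b := h6
      _ = p ^ b * (Dl s).relIndex (A1 s p) := mul_comm _ _
  exact Nat.le_of_mul_le_mul_left h7 (pow_pos hp0 b)

end Main

end Fermat.Agent.S14.UnitIndex
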