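import Mathlib
import Fermat.Prelude.Def_ExtCitation_AdmissibleExtension_v2

/-!
# S14, piece ALG: the algebra of an admissible extension, as statements about subgroups of `G_ℚ`

`V` is an admissible extension of `μ_p`-type quotient by a trivial line `C`. We study the pointwise
fixer `H` of `V` in `G_ℚ`, the kernel `N` of the mod `p` cyclotomic character `χ`, and prove:

* `fixer_le_ker_chi` : `H ≤ N`;
* `splitsGlobally_of_ker_chi_le_fixer` : if `N ≤ H` then the extension splits globally;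
* `relIndex_fixer_ker_chi` : otherwise `[N : H] = p`;
* `conj_mul_inv_pow_mem_fixer` : `σ⁻¹ n σ ≡ n ^ k` modulo `H` for `n ∈ N`, `k ≡ χ(σ)`;
* `mem_fixer_of_mem_decomposition` : decomposition groups above `p` meet `N` inside `H`;
* `mem_fixer_of_mem_inertia` : inertia groups above `ℓ ≠ p` are inside `H`.
-/

set_option autoImplicit false

namespace Fermat.Agent.S14.AlgGQ

open ExtCitation

local notation "Qb" => AlgebraicClosure ℚ
local notation "GQ" => (AlgebraicClosure ℚ ≃ₐ[ℚ] AlgebraicClosure ℚ)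

section Chi

variable (p : ℕ) [hp : Fact p.Prime]

/-- The mod `p` cyclotomic character of `G_ℚ`. -/
noncomputable def chi : GQ →* (ZMod p)ˣ :=
  haveI : NeZero p := ⟨hp.out.ne_zero⟩
  { toFun := fun σ => modularCyclotomicCharacter Qb (card_rootsOfUnity_eq_self p)
      (σ : Qb ≃+* Qb)
    map_one' := map_one (modularCyclotomicCharacter Qb (card_rootsOfUnity_eq_self p))
    map_mul' := fun σ τ => map_mul (modularCyclotomicCharacter Qb (card_rootsOfUnity_eq_self p))
      (σ : Qb ≃+* Qb) (τ : Qb ≃+* Qb) }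

/-- The scalar by which `σ` acts on the quotient. -/
noncomputable def cs (σ : GQ) : ZMod p := ((chi p σ : (ZMod p)ˣ) : ZMod p)

theorem cycloExp_cast (σ : GQ) : ((cycloExp p σ : ℕ) : ZMod p) = cs p σ := by
  haveI : NeZero p := ⟨hp.out.ne_zero⟩
  unfold cycloExp cs chi
  simp only [MonoidHom.coe_mk, OneHom.coe_mk]
  exact ZMod.natCast_zmod_val _

theorem cs_mul (σ τ : GQ) : cs p (σ * τ) = cs p σ * cs p τ := by
  unfold cs; rw [map_mul, Units.val_mul]

theorem cs_one : cs p (1 : GQ) = 1 := by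
  unfold cs; rw [map_one, Units.val_one]

theorem cs_ne_zero (σ : GQ) : cs p σ ≠ 0 := (chi p σ).ne_zero

theorem cs_eq_one_iff (σ : GQ) : cs p σ = 1 ↔ σ ∈ (chi p).ker := by
  unfold cs
  rw [MonoidHom.mem_ker, ← Units.val_one, Units.val_inj]

/-- The action of `σ` on `p`-th roots of unity. -/
theorem chi_spec (σ : GQ) {ζ : Qb} (hζ : ζ ^ p = 1) : σ ζ = ζ ^ (cs p σ).val := by
  haveI : NeZero p := ⟨hp.out.ne_zero⟩
  have hu : IsUnit ζ := IsUnit.of_pow_eq_one hζ hp.out.ne_zero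
  obtain ⟨t, rfl⟩ := hu
  have ht : t ∈ rootsOfUnity p Qb := by
    rw [mem_rootsOfUnity]; exact Units.ext (by simpa using hζ)
  exact modularCyclotomicCharacter.spec Qb (card_rootsOfUnity_eq_self p) (σ : Qb ≃+* Qb) ht

/-- If `σ` raises all `p`-th roots of unity to the `k`-th power, then `k ≡ χ(σ)`. -/
theorem natCast_eq_cs_of_forall (σ : GQ) (k : ℕ) (h : ∀ ζ : Qb, ζ ^ p = 1 → σ ζ = ζ ^ k) :
    (k : ZMod p) = cs p σ := by
  haveI : NeZero p := ⟨hp.out.ne_zero⟩
  unfold cs chi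
  simp only [MonoidHom.coe_mk, OneHom.coe_mk]
  refine modularCyclotomicCharacter.unique Qb (card_rootsOfUnity_eq_self p) (σ : Qb ≃+* Qb) ?_
  intro t ht
  have h1 : ((t : Qbˣ) : Qb) ^ p = 1 := by
    have := (mem_rootsOfUnity _ _).mp ht
    rw [← Units.val_pow_eq_pow_val, this, Units.val_one]
  have h2 := h _ h1
  rw [ZMod.val_natCast]
  have hmod : ((t : Qbˣ) : Qb) ^ (k % p) = (t : Qb) ^ k := by
    conv_rhs => rw [← Nat.div_add_mod k p, pow_add, pow_mul, h1, one_pow, one_mul]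
  rw [hmod]
  exact h2

/-- `σ` is in the kernel of `χ` iff it fixes the `p`-th roots of unity. -/
theorem mem_ker_chi_iff (σ : GQ) : σ ∈ (chi p).ker ↔ ∀ ζ : Qb, ζ ^ p = 1 → σ ζ = ζ := by
  constructor
  · intro h ζ hζ
    have h1 := (cs_eq_one_iff p σ).mpr h
    rw [chi_spec p σ hζ, h1, ZMod.val_one'' (by
      intro h; exact hp.out.one_lt.ne' h), pow_one]
  · intro h
    rw [← cs_eq_one_iff]
    have := natCast_eq_cs_of_forall p σ 1 (fun ζ hζ => by rw [pow_one]; exact h ζ hζ)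
    rw [← this, Nat.cast_one]

end Chi

section Module

variable {p : ℕ} [hp : Fact p.Prime] {V : Type} [AddCommGroup V] [Module (ZMod p) V]
  [DistribMulAction GQ V] [SMulCommClass GQ (ZMod p) V] {C : Submodule (ZMod p) V}

variable (V) in
/-- The pointwise fixer of `V` in `G_ℚ`. -/
def fixer : Subgroup GQ where
  carrier := {σ | ∀ v : V, σ • v = v}
  one_mem' := fun v => one_smul _ v
  mul_mem' := fun {a b} ha hb v => by rw [mul_smul, hb, ha]
  inv_mem' := fun {a} ha v => by rw [inv_smul_eq_iff]; exact (ha v).symm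

theorem mem_fixer {σ : GQ} : σ ∈ fixer V ↔ ∀ v : V, σ • v = v := Iff.rfl

instance fixer_normal : (fixer V).Normal :=
  ⟨fun n hn g v => by rw [mul_smul, mul_smul, hn, smul_inv_smul]⟩

theorem isOpen_fixer (hadm : IsAdmissibleExtensionCts p V C) :
    IsOpen (fixer V : Set GQ) := hadm.open_kernel

variable (hadm : IsAdmissibleExtension p V C)
include hadm

theorem smul_sub_mem (σ : GQ) (x : V) : σ • x - cs p σ • x ∈ C := by
  have := hadm.cyclo_quot σ x
  rwa [cycloExp_cast] at this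

theorem finite_V : Finite V :=
  Nat.finite_of_card_ne_zero (by rw [hadm.card_total]; exact pow_ne_zero 2 hp.out.ne_zero)

theorem exists_not_mem : ∃ x : V, x ∉ C := by
  by_contra h
  push Not at h
  have htop : C = ⊤ := Submodule.eq_top_iff'.mpr h
  have h1 := hadm.card_sub
  have h2 := hadm.card_total
  rw [htop] at h1
  have h3 : Nat.card (⊤ : Submodule (ZMod p) V) = Nat.card V :=
    Nat.card_congr (Submodule.topEquiv (R := ZMod p) (M := V)).toEquiv
  rw [h3, h2] at h1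
  have := hp.out.one_lt
  nlinarith [h1]

theorem finrank_V : Module.finrank (ZMod p) V = 2 := by
  haveI := finite_V hadm
  haveI : Module.Finite (ZMod p) V := Module.Finite.of_finite
  have h := Module.natCard_eq_pow_finrank (K := ZMod p) (V := V)
  rw [Nat.card_zmod, hadm.card_total] at h
  exact (Nat.pow_right_injective hp.out.two_le h).symm

theorem finrank_C : Module.finrank (ZMod p) C = 1 := by
  haveI := finite_V hadm
  haveI : Module.Finite (ZMod p) C := Module.Finite.of_finite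
  have h := Module.natCard_eq_pow_finrank (K := ZMod p) (V := C)
  rw [Nat.card_zmod, hadm.card_sub] at h
  have : p ^ 1 = p ^ Module.finrank (ZMod p) C := by rw [pow_one]; exact h
  exact (Nat.pow_right_injective hp.out.two_le this).symm

/-- `V` is spanned by `C` and any vector outside `C`. -/
theorem sup_span_eq_top {x₀ : V} (hx₀ : x₀ ∉ C) : C ⊔ Submodule.span (ZMod p) {x₀} = ⊤ := by
  haveI := finite_V hadm
  haveI : Module.Finite (ZMod p) V := Module.Finite.of_finite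
  apply Submodule.eq_top_of_finrank_eq
  have hlt : C < C ⊔ Submodule.span (ZMod p) {x₀} := by
    refine lt_of_le_of_ne le_sup_left fun h => hx₀ ?_
    rw [h]
    exact Submodule.mem_sup_right (Submodule.mem_span_singleton_self x₀)
  have h1 := Submodule.finrank_lt_finrank_of_lt hlt
  have h2 := Submodule.finrank_le (C ⊔ Submodule.span (ZMod p) {x₀})
  rw [finrank_C hadm] at h1
  rw [finrank_V hadm] at h2 ⊢
  omega

/-- An element fixing a vector outside `C` fixes everything. -/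
theorem mem_fixer_of_smul_eq {x₀ : V} (hx₀ : x₀ ∉ C) {σ : GQ} (h : σ • x₀ = x₀) :
    σ ∈ fixer V := by
  intro v
  have hv : v ∈ C ⊔ Submodule.span (ZMod p) {x₀} := by
    rw [sup_span_eq_top hadm hx₀]; exact Submodule.mem_top
  obtain ⟨y, hy, z, hz, rfl⟩ := Submodule.mem_sup.mp hv
  obtain ⟨a, rfl⟩ := Submodule.mem_span_singleton.mp hz
  rw [smul_add, hadm.fixed_sub σ y hy, smul_comm, h]

/-- `H ≤ ker χ`. -/
theorem fixer_le_ker_chi : fixer V ≤ (chi p).ker := by
  intro σ hσ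
  rw [← cs_eq_one_iff]
  obtain ⟨x₀, hx₀⟩ := exists_not_mem hadm
  by_contra hne
  have h1 := smul_sub_mem hadm σ x₀
  rw [hσ x₀] at h1
  have h2 : (1 - cs p σ) • x₀ ∈ C := by rwa [sub_smul, one_smul]
  have h3 : (1 - cs p σ) ≠ 0 := fun h => hne (sub_eq_zero.mp h).symm
  apply hx₀
  have := C.smul_mem (1 - cs p σ)⁻¹ h2
  rwa [smul_smul, inv_mul_cancel₀ h3, one_smul] at this

/-- For `σ ∈ ker χ`, `σ x - x ∈ C`. -/
theorem smul_sub_self_mem {σ : GQ} (hσ : σ ∈ (chi p).ker) (x : V) : σ • x - x ∈ C := by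
  have := smul_sub_mem hadm σ x
  rwa [(cs_eq_one_iff p σ).mpr hσ, one_smul] at this

/-- The cocycle `σ ↦ σ x₀ - χ(σ) x₀`. -/
theorem cocycle_mul (σ τ : GQ) (x₀ : V) :
    (σ * τ) • x₀ - cs p (σ * τ) • x₀
      = cs p τ • (σ • x₀ - cs p σ • x₀) + (τ • x₀ - cs p τ • x₀) := by
  have hfix := hadm.fixed_sub σ _ (smul_sub_mem hadm τ x₀)
  have h1 : σ • τ • x₀ = σ • (τ • x₀ - cs p τ • x₀) + cs p τ • σ • x₀ := by
    rw [smul_sub, smul_comm σ (cs p τ) x₀]; abel
  rw [mul_smul, h1, hfix, cs_mul, smul_sub, smul_smul, mul_comm (cs p τ) (cs p σ)]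
  abel

/-- If `ker χ ≤ H`, the extension splits globally. -/
theorem splitsGlobally_of_ker_chi_le_fixer (h : (chi p).ker ≤ fixer V) : SplitsGlobally C := by
  obtain ⟨x₀, hx₀⟩ := exists_not_mem hadm
  -- the cocycle
  set b : GQ → V := fun σ => σ • x₀ - cs p σ • x₀ with hb
  have hbC : ∀ σ, b σ ∈ C := fun σ => smul_sub_mem hadm σ x₀
  have hbmul : ∀ σ τ, b (σ * τ) = cs p τ • b σ + b τ := fun σ τ => cocycle_mul hadm σ τ x₀
  have hbker : ∀ κ ∈ (chi p).ker, b κ = 0 := by
    intro κ hκ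
    show κ • x₀ - cs p κ • x₀ = 0
    rw [(cs_eq_one_iff p κ).mpr hκ, one_smul, h hκ x₀, sub_self]
  -- find `t ∈ C` with `b σ = (χ σ - 1) t` for all `σ`
  obtain ⟨t, htC, ht⟩ : ∃ t ∈ C, ∀ σ, b σ = (cs p σ - 1) • t := by
    by_cases hall : ∀ σ : GQ, cs p σ = 1
    · refine ⟨0, C.zero_mem, fun σ => ?_⟩
      rw [smul_zero]
      exact hbker σ ((cs_eq_one_iff p σ).mp (hall σ))
    · push Not at hall
      obtain ⟨σ₀, hσ₀⟩ := hall
      have hne : cs p σ₀ - 1 ≠ 0 := sub_ne_zero.mpr hσ₀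
      refine ⟨(cs p σ₀ - 1)⁻¹ • b σ₀, C.smul_mem _ (hbC σ₀), fun σ => ?_⟩
      -- commutator trick
      have hκ : σ * σ₀ * σ⁻¹ * σ₀⁻¹ ∈ (chi p).ker := by
        rw [MonoidHom.mem_ker, map_mul, map_mul, map_mul, map_inv, map_inv]
        rw [mul_comm (chi p σ) (chi p σ₀), mul_inv_cancel_right, mul_inv_cancel]
      have e1 : σ * σ₀ = (σ * σ₀ * σ⁻¹ * σ₀⁻¹) * (σ₀ * σ) := by group
      have e2 : b (σ * σ₀) = b (σ₀ * σ) := by
        rw [e1, hbmul, hbker _ hκ, smul_zero, zero_add]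
      rw [hbmul, hbmul] at e2
      -- (χ σ₀ - 1) b σ = (χ σ - 1) b σ₀
      have e3 : (cs p σ₀ - 1) • b σ = (cs p σ - 1) • b σ₀ := by
        rw [sub_smul, sub_smul, one_smul, one_smul]
        have := e2
        rw [← sub_eq_zero] at this ⊢
        rw [← this]; abel
      rw [smul_smul, mul_comm, ← smul_smul, ← e3, smul_smul, inv_mul_cancel₀ hne, one_smul]
  -- the invariant vector
  set x₁ : V := x₀ + t with hx₁
  have hx₁C : x₁ ∉ C := fun hmem => hx₀ (by
    have := C.sub_mem hmem htC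
    rwa [hx₁, add_sub_cancel_right] at this)
  have hact : ∀ σ : GQ, σ • x₁ = cs p σ • x₁ := by
    intro σ
    have h1 : σ • x₀ = cs p σ • x₀ + b σ := by
      show σ • x₀ = cs p σ • x₀ + (σ • x₀ - cs p σ • x₀)
      rw [add_sub_cancel]
    rw [hx₁, smul_add, hadm.fixed_sub σ t htC, h1, ht σ, smul_add, sub_smul, one_smul]
    abel
  refine ⟨Submodule.span (ZMod p) {x₁}, ?_, ?_⟩
  · intro σ x hx
    obtain ⟨a, rfl⟩ := Submodule.mem_span_singleton.mp hx
    rw [smul_comm, hact, smul_smul]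
    exact Submodule.smul_mem _ _ (Submodule.mem_span_singleton_self x₁)
  · refine ⟨?_, ?_⟩
    · rw [Submodule.disjoint_def]
      intro x hxC hx
      obtain ⟨a, rfl⟩ := Submodule.mem_span_singleton.mp hx
      by_contra hne
      have ha : a ≠ 0 := fun h0 => hne (by rw [h0, zero_smul])
      apply hx₁C
      have := C.smul_mem a⁻¹ hxC
      rwa [smul_smul, inv_mul_cancel₀ ha, one_smul] at this
    · rw [codisjoint_iff]
      exact sup_span_eq_top hadm hx₁C

/-- The homomorphism `ker χ → C`, `κ ↦ κ x₀ - x₀`. -/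
noncomputable def beta (x₀ : V) : (chi p).ker →* Multiplicative C where
  toFun κ := Multiplicative.ofAdd ⟨κ.1 • x₀ - x₀, smul_sub_self_mem hadm κ.2 x₀⟩
  map_one' := by
    have : ((1 : (chi p).ker) : GQ) • x₀ - x₀ = 0 := by
      rw [Subgroup.coe_one, one_smul, sub_self]
    simp only [this]
    rfl
  map_mul' κ τ := by
    rw [← ofAdd_add]
    congr 1
    apply Subtype.ext
    show ((κ * τ : (chi p).ker) : GQ) • x₀ - x₀ = (κ.1 • x₀ - x₀) + (τ.1 • x₀ - x₀)
    have hfix := hadm.fixed_sub κ.1 _ (smul_sub_self_mem hadm τ.2 x₀)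
    rw [Subgroup.coe_mul, mul_smul]
    have h1 : κ.1 • τ.1 • x₀ = κ.1 • (τ.1 • x₀ - x₀) + κ.1 • x₀ := by
      rw [smul_sub]; abel
    rw [h1, hfix]
    abel

theorem beta_apply (x₀ : V) (κ : (chi p).ker) :
    ((Multiplicative.toAdd (beta hadm x₀ κ) : C) : V) = κ.1 • x₀ - x₀ := rfl

theorem ker_beta {x₀ : V} (hx₀ : x₀ ∉ C) :
    (beta hadm x₀).ker = (fixer V).subgroupOf (chi p).ker := by
  ext κ
  rw [MonoidHom.mem_ker, Subgroup.mem_subgroupOf]
  constructor
  · intro h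
    have h1 : κ.1 • x₀ - x₀ = 0 := by
      rw [← beta_apply hadm x₀ κ, h]; rfl
    exact mem_fixer_of_smul_eq hadm hx₀ (sub_eq_zero.mp h1)
  · intro h
    have h1 : κ.1 • x₀ - x₀ = 0 := by rw [h x₀, sub_self]
    show Multiplicative.ofAdd (⟨κ.1 • x₀ - x₀, _⟩ : C) = 1
    simp only [h1]
    rfl

/-- If the extension does not split globally then `[ker χ : H] = p`. -/
theorem relIndex_fixer_ker_chi (hns : ¬ SplitsGlobally C) :
    (fixer V).relIndex (chi p).ker = p := by
  obtain ⟨x₀, hx₀⟩ := exists_not_mem hadm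
  haveI := finite_V hadm
  unfold Subgroup.relIndex
  rw [← ker_beta hadm hx₀, Subgroup.index_ker]
  have hdvd : Nat.card (beta hadm x₀).range ∣ p := by
    have h := Subgroup.card_subgroup_dvd_card (beta hadm x₀).range
    have hc : Nat.card (Multiplicative C) = p :=
      (Nat.card_congr Multiplicative.toAdd).trans hadm.card_sub
    rwa [hc] at h
  rcases (Nat.dvd_prime hp.out).mp hdvd with h1 | h1
  · exfalso
    apply hns
    apply splitsGlobally_of_ker_chi_le_fixer hadm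
    intro κ hκ
    have hbot : (beta hadm x₀).range = ⊥ := Subgroup.card_eq_one.mp h1
    have hmem : beta hadm x₀ ⟨κ, hκ⟩ ∈ (beta hadm x₀).range := ⟨_, rfl⟩
    rw [hbot, Subgroup.mem_bot] at hmem
    have : (⟨κ, hκ⟩ : (chi p).ker) ∈ (beta hadm x₀).ker := hmem
    rw [ker_beta hadm hx₀, Subgroup.mem_subgroupOf] at this
    exact this
  · exact h1

/-- Conjugation by `σ` acts on `ker χ / H` as the `k`-th power map when `k ≡ χ(σ)`. -/
theorem conj_mul_inv_pow_mem_fixer (σ : GQ) {n : GQ} (hn : n ∈ (chi p).ker) (k : ℕ)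
    (hk : (k : ZMod p) = cs p σ) : σ⁻¹ * n * σ * (n ^ k)⁻¹ ∈ fixer V := by
  obtain ⟨x₀, hx₀⟩ := exists_not_mem hadm
  set d : V := n • x₀ - x₀ with hd
  have hdC : d ∈ C := smul_sub_self_mem hadm hn x₀
  have hnx : n • x₀ = x₀ + d := by rw [hd]; abel
  -- powers of `n`
  have hpow : ∀ j : ℕ, (n ^ j) • x₀ = x₀ + j • d := by
    intro j
    induction j with
    | zero => simp
    | succ j ih =>
      rw [pow_succ', mul_smul, ih, smul_add, hnx, hadm.fixed_sub n _ (C.smul_of_tower_mem j hdC),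
        succ_nsmul]
      abel
  -- the conjugate
  have hconj : (σ⁻¹ * n * σ) • x₀ = x₀ + k • d := by
    have hb : σ • x₀ - cs p σ • x₀ ∈ C := smul_sub_mem hadm σ x₀
    have h1 : σ • x₀ = cs p σ • x₀ + (σ • x₀ - cs p σ • x₀) := by rw [add_sub_cancel]
    have h2 : n • σ • x₀ = σ • x₀ + cs p σ • d := by
      rw [h1, smul_add, hadm.fixed_sub n _ hb, smul_comm n (cs p σ) x₀, hnx, smul_add]
      abel
    have h3 : σ⁻¹ • (cs p σ • d) = cs p σ • d :=
      hadm.fixed_sub σ⁻¹ _ (C.smul_mem _ hdC)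
    rw [mul_smul, mul_smul, h2, smul_add, inv_smul_smul, h3, ← hk, Nat.cast_smul_eq_nsmul]
  -- conclude
  have hfix : ((n ^ k)⁻¹ * (σ⁻¹ * n * σ)) ∈ fixer V := by
    apply mem_fixer_of_smul_eq hadm hx₀
    rw [mul_smul, hconj, ← hpow k, inv_smul_smul]
  have := (fixer_normal (V := V)).conj_mem _ hfix (n ^ k)
  have e : n ^ k * ((n ^ k)⁻¹ * (σ⁻¹ * n * σ)) * (n ^ k)⁻¹ = σ⁻¹ * n * σ * (n ^ k)⁻¹ := by
    group
  rwa [e] at this

/-- Decomposition groups above `p` meet `ker χ` inside `H`. -/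
theorem mem_fixer_of_mem_decomposition (A : ValuationSubring Qb) (hA : A.LiesOverPrime p)
    {σ : GQ} (hσ : σ ∈ A.decompositionSubgroup ℚ) (hχ : σ ∈ (chi p).ker) : σ ∈ fixer V := by
  obtain ⟨C', hstab, hcompl⟩ := hadm.locally_split A hA
  obtain ⟨x₀, hx₀⟩ := exists_not_mem hadm
  -- a nonzero vector of `C'`
  obtain ⟨x', hx'C', hx'0⟩ : ∃ x' ∈ C', x' ≠ 0 := by
    by_contra hcon
    push Not at hcon
    have hbot : C' = ⊥ := (Submodule.eq_bot_iff _).mpr hcon
    have htop : C = ⊤ := by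
      have := hcompl.sup_eq_top
      rwa [hbot, sup_bot_eq] at this
    exact hx₀ (by rw [htop]; exact Submodule.mem_top)
  have hx'C : x' ∉ C := fun hmem =>
    hx'0 ((Submodule.disjoint_def.mp hcompl.disjoint) x' hmem hx'C')
  apply mem_fixer_of_smul_eq hadm hx'C
  have h1 : σ • x' - x' ∈ C := smul_sub_self_mem hadm hχ x'
  have h2 : σ • x' - x' ∈ C' := C'.sub_mem (hstab σ hσ x' hx'C') hx'C'
  exact sub_eq_zero.mp ((Submodule.disjoint_def.mp hcompl.disjoint) _ h1 h2)

/-- Inertia groups above `ℓ ≠ p` are inside `H`. -/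
theorem mem_fixer_of_mem_inertia {ℓ : ℕ} (hℓ : ℓ.Prime) (hℓp : ℓ ≠ p)
    (A : ValuationSubring Qb) (hA : A.LiesOverPrime ℓ) {σ : GQ}
    (hσ : σ ∈ A.inertiaSubgroupIn ℚ) : σ ∈ fixer V :=
  fun x => hadm.unramified_outside ℓ hℓ hℓp A hA σ hσ x

end Module

end Fermat.Agent.S14.AlgGQ
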