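import Mathlib

/-!
# S14, piece LFUN: `L`-series of class group characters of a number field

For a number field `F` and a character `χ : ClassGroup (𝓞 F) →* ℂˣ` we define
`classLSeries F χ s = ∑' I, χ([I]) N(I)^(-s)` (sum over the nonzero ideals `I` of `𝓞 F`, real `s`).

Main results:
* `classLSeries_summable`: absolute convergence for `1 < s`.
* `classLSeries_eq_LSeries`: it is the Dirichlet series `LSeries (classLCoeff χ) s`.
* `classLSeries_one`: for `χ = 1` it is `dedekindZeta F s`.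
* `classLSeries_bounded_of_count` (and variants `_of_count_rpow`, `_of_card_le`): if the number of
  ideals of norm `≤ x` in every ideal class is `κ x + O(x ^ r)` with `r < 1` and `κ` independent of
  the class (piece COUNT), then for `χ ≠ 1` the function `classLSeries F χ` is bounded on `(1, 2]`.
* `norm_LSeries_le_of_sum_le`: the underlying statement on general Dirichlet series.
-/

set_option autoImplicit false

open NumberField Ideal Filter Topology nonZeroDivisors Finset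

namespace Fermat.Agent.S14

variable (F : Type*) [Field F] [NumberField F]

/-- The finite set of nonzero ideals of `𝓞 F` of norm at most `n`. -/
noncomputable def idealsLE (n : ℕ) : Finset (Ideal (𝓞 F))⁰ :=
  (Ideal.finite_setOfPred_absNorm_le₀ (S := 𝓞 F) n).toFinset

variable {F}

theorem mem_idealsLE {n : ℕ} {I : (Ideal (𝓞 F))⁰} :
    I ∈ idealsLE F n ↔ absNorm (I : Ideal (𝓞 F)) ≤ n := by
  simp [idealsLE]

theorem idealsLE_mono : Monotone (idealsLE F) := by
  intro m n hmn I hI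
  rw [mem_idealsLE] at hI ⊢
  exact hI.trans hmn

theorem tendsto_idealsLE : Tendsto (idealsLE F) atTop atTop :=
  tendsto_atTop_finset_of_monotone idealsLE_mono fun I =>
    ⟨absNorm (I : Ideal (𝓞 F)), mem_idealsLE.mpr le_rfl⟩

theorem one_le_absNorm_nzd (I : (Ideal (𝓞 F))⁰) : 1 ≤ absNorm (I : Ideal (𝓞 F)) :=
  absNorm_pos_of_nonZeroDivisors I

variable (F) in
/-- The finite set of nonzero ideals of `𝓞 F` of norm exactly `k`. -/
noncomputable def idealsEQ (k : ℕ) : Finset (Ideal (𝓞 F))⁰ :=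
  (idealsLE F k).filter (fun I : (Ideal (𝓞 F))⁰ => absNorm (I : Ideal (𝓞 F)) = k)

theorem mem_idealsEQ {k : ℕ} {I : (Ideal (𝓞 F))⁰} :
    I ∈ idealsEQ F k ↔ absNorm (I : Ideal (𝓞 F)) = k := by
  simp only [idealsEQ, Finset.mem_filter, mem_idealsLE]
  exact ⟨fun h => h.2, fun h => ⟨h.le, h⟩⟩

theorem filter_idealsLE_eq {k n : ℕ} (hkn : k ≤ n) :
    (idealsLE F n).filter (fun I : (Ideal (𝓞 F))⁰ => absNorm (I : Ideal (𝓞 F)) = k) =
      idealsEQ F k := by
  ext I
  simp only [Finset.mem_filter, mem_idealsLE, mem_idealsEQ]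
  constructor
  · rintro ⟨_, h⟩
    exact h
  · rintro h
    exact ⟨h.le.trans hkn, h⟩

/-- Summing over the ideals of norm `≤ n`, fibrewise over the norm. -/
theorem sum_idealsLE_fiberwise {M : Type*} [AddCommMonoid M] (n : ℕ) (g : (Ideal (𝓞 F))⁰ → M) :
    ∑ k ∈ Icc 1 n, ∑ I ∈ idealsEQ F k, g I = ∑ I ∈ idealsLE F n, g I := by
  rw [← Finset.sum_fiberwise_of_maps_to (s := idealsLE F n) (t := Icc 1 n)
    (g := fun I : (Ideal (𝓞 F))⁰ => absNorm (I : Ideal (𝓞 F)))
    (fun I hI => Finset.mem_Icc.mpr ⟨one_le_absNorm_nzd I, mem_idealsLE.mp hI⟩) g]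
  refine Finset.sum_congr rfl fun k hk => ?_
  rw [filter_idealsLE_eq (Finset.mem_Icc.mp hk).2]

variable (F) in
/-- The number of nonzero ideals of norm `k`. -/
noncomputable def idealCount (k : ℕ) : ℕ := (idealsEQ F k).card

theorem sum_idealCount (n : ℕ) : ∑ k ∈ Icc 1 n, idealCount F k = (idealsLE F n).card := by
  have := sum_idealsLE_fiberwise (F := F) n (fun _ => (1 : ℕ))
  simpa [idealCount] using this

theorem card_idealsLE (n : ℕ) :
    (idealsLE F n).card =
      Nat.card {I : (Ideal (𝓞 F))⁰ // (absNorm (I : Ideal (𝓞 F)) : ℝ) ≤ (n : ℝ)} := by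
  rw [Nat.subtype_card (idealsLE F n)]
  intro I
  rw [mem_idealsLE, Nat.cast_le]

theorem idealCount_eq_natCard {k : ℕ} (hk : k ≠ 0) :
    idealCount F k = Nat.card {I : Ideal (𝓞 F) // absNorm I = k} := by
  classical
  rw [idealCount, ← Finset.card_map ⟨Subtype.val, Subtype.val_injective⟩, eq_comm]
  refine Nat.subtype_card _ fun I => ?_
  simp only [Finset.mem_map, Function.Embedding.coeFn_mk, mem_idealsEQ]
  constructor
  · rintro ⟨J, hJ, rfl⟩
    exact hJ
  · intro hI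
    have hI0 : I ≠ 0 := by
      rintro rfl
      rw [Ideal.zero_eq_bot, Ideal.absNorm_bot] at hI
      exact hk hI.symm
    exact ⟨⟨I, mem_nonZeroDivisors_iff_ne_zero.mpr hI0⟩, hI, rfl⟩


variable (F) in
theorem tendsto_card_idealsLE_div :
    ∃ L : ℝ, Tendsto (fun n : ℕ => ((idealsLE F n).card : ℝ) / (n : ℝ)) atTop (𝓝 L) := by
  refine ⟨_, ((NumberField.Ideal.tendsto_norm_le_div_atTop₀ F).comp
    tendsto_natCast_atTop_atTop).congr fun n => ?_⟩
  simp only [Function.comp_apply]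
  rw [card_idealsLE]

variable (F) in
theorem lseriesSummable_idealCount {s : ℂ} (hs : 1 < s.re) :
    LSeriesSummable (fun k => (idealCount F k : ℂ)) s := by
  obtain ⟨L, hL⟩ := tendsto_card_idealsLE_div F
  have := LSeriesSummable_of_sum_norm_bigO_and_nonneg (f := fun k => (idealCount F k : ℝ))
    (r := 1) (s := s) ?_ (fun _ => Nat.cast_nonneg _) zero_le_one hs
  · simpa using this
  · refine Asymptotics.isBigO_atTop_natCast_rpow_of_tendsto_div_rpow (a := L) ?_
    simp only [Real.rpow_one]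
    refine hL.congr fun n => ?_
    rw [← sum_idealCount, Nat.cast_sum]
    simp

theorem exists_subset_idealsLE (u : Finset (Ideal (𝓞 F))⁰) : ∃ n, u ⊆ idealsLE F n :=
  (tendsto_atTop.mp tendsto_idealsLE u).exists

/-- `∑ N(I)^(-s)` over nonzero ideals converges for real `s > 1`. -/
theorem summable_absNorm_rpow {s : ℝ} (hs : 1 < s) :
    Summable fun I : (Ideal (𝓞 F))⁰ => ((absNorm (I : Ideal (𝓞 F)) : ℝ)) ^ (-s) := by
  have hS := (lseriesSummable_idealCount F (s := (s : ℂ)) (by simpa using hs)).norm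
  refine summable_of_sum_le
    (c := ∑' k, ‖LSeries.term (fun k => (idealCount F k : ℂ)) s k‖)
    (fun I => by positivity) fun u => ?_
  obtain ⟨n, hn⟩ := exists_subset_idealsLE u
  calc ∑ I ∈ u, ((absNorm (I : Ideal (𝓞 F)) : ℝ)) ^ (-s)
      ≤ ∑ I ∈ idealsLE F n, ((absNorm (I : Ideal (𝓞 F)) : ℝ)) ^ (-s) :=
        Finset.sum_le_sum_of_subset_of_nonneg hn (fun _ _ _ => by positivity)
    _ = ∑ k ∈ Icc 1 n, ∑ I ∈ idealsEQ F k, ((absNorm (I : Ideal (𝓞 F)) : ℝ)) ^ (-s) :=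
        (sum_idealsLE_fiberwise n _).symm
    _ = ∑ k ∈ Icc 1 n, ‖LSeries.term (fun k => (idealCount F k : ℂ)) s k‖ := by
        refine Finset.sum_congr rfl fun k hk => ?_
        have hk0 : k ≠ 0 := by
          have := (Finset.mem_Icc.mp hk).1
          omega
        rw [LSeries.norm_term_eq, if_neg hk0, Complex.ofReal_re, Complex.norm_natCast,
          Finset.sum_congr rfl (g := fun _ => (k : ℝ) ^ (-s))
            (fun I hI => by rw [mem_idealsEQ.mp hI]),
          Finset.sum_const, nsmul_eq_mul, idealCount, Real.rpow_neg (Nat.cast_nonneg k),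
          div_eq_mul_inv]
    _ ≤ ∑' k, ‖LSeries.term (fun k => (idealCount F k : ℂ)) s k‖ :=
        hS.sum_le_tsum _ (fun _ _ => norm_nonneg _)


/-! ### The class group `L`-series -/

/-- The general term of the `L`-series of a class group character. -/
noncomputable def classTerm (χ : ClassGroup (𝓞 F) →* ℂˣ) (s : ℝ) (I : (Ideal (𝓞 F))⁰) : ℂ :=
  (χ (ClassGroup.mk0 I) : ℂ) * ((absNorm (I : Ideal (𝓞 F)) : ℂ)) ^ (-(s : ℂ))

variable (F) in
/-- The `L`-series `∑ χ([I]) N(I)^(-s)` of a character `χ` of the class group, for real `s`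
(junk value unless `1 < s`). -/
noncomputable def classLSeries (χ : ClassGroup (𝓞 F) →* ℂˣ) (s : ℝ) : ℂ :=
  ∑' I : (Ideal (𝓞 F))⁰,
    (χ (ClassGroup.mk0 I) : ℂ) * ((absNorm (I : Ideal (𝓞 F)) : ℂ)) ^ (-(s : ℂ))

theorem classLSeries_eq_tsum_classTerm (χ : ClassGroup (𝓞 F) →* ℂˣ) (s : ℝ) :
    classLSeries F χ s = ∑' I, classTerm χ s I := rfl

theorem norm_classChar (χ : ClassGroup (𝓞 F) →* ℂˣ) (c : ClassGroup (𝓞 F)) :
    ‖(χ c : ℂ)‖ = 1 := by
  have h : (χ c : ℂ) ^ (orderOf c) = 1 := by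
    rw [← Units.val_pow_eq_pow_val, ← map_pow, pow_orderOf_eq_one, map_one, Units.val_one]
  exact Complex.norm_eq_one_of_pow_eq_one h (orderOf_pos c).ne'

theorem norm_classTerm (χ : ClassGroup (𝓞 F) →* ℂˣ) (s : ℝ) (I : (Ideal (𝓞 F))⁰) :
    ‖classTerm χ s I‖ = ((absNorm (I : Ideal (𝓞 F)) : ℝ)) ^ (-s) := by
  rw [classTerm, norm_mul, norm_classChar, one_mul,
    Complex.norm_natCast_cpow_of_pos (one_le_absNorm_nzd I), Complex.neg_re, Complex.ofReal_re]

/-- The class group `L`-series converges absolutely for real `s > 1`. -/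
theorem classLSeries_summable (χ : ClassGroup (𝓞 F) →* ℂˣ) {s : ℝ} (hs : 1 < s) :
    Summable fun I : (Ideal (𝓞 F))⁰ =>
      ‖(χ (ClassGroup.mk0 I) : ℂ) * ((absNorm (I : Ideal (𝓞 F)) : ℂ)) ^ (-(s : ℂ))‖ :=
  (summable_absNorm_rpow hs).congr fun I => (norm_classTerm χ s I).symm

theorem summable_classTerm (χ : ClassGroup (𝓞 F) →* ℂˣ) {s : ℝ} (hs : 1 < s) :
    Summable (classTerm χ s) :=
  (classLSeries_summable χ hs).of_norm

/-- The Dirichlet coefficients of the class group `L`-series. -/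
noncomputable def classLCoeff (χ : ClassGroup (𝓞 F) →* ℂˣ) (k : ℕ) : ℂ :=
  ∑ I ∈ idealsEQ F k, (χ (ClassGroup.mk0 I) : ℂ)

theorem norm_classLCoeff_le (χ : ClassGroup (𝓞 F) →* ℂˣ) (k : ℕ) :
    ‖classLCoeff χ k‖ ≤ ‖(idealCount F k : ℂ)‖ := by
  rw [Complex.norm_natCast, classLCoeff, idealCount]
  refine (norm_sum_le _ _).trans ?_
  simp [norm_classChar]

theorem lseriesSummable_classLCoeff (χ : ClassGroup (𝓞 F) →* ℂˣ) {s : ℂ} (hs : 1 < s.re) :
    LSeriesSummable (classLCoeff χ) s :=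
  Summable.of_norm_bounded (lseriesSummable_idealCount F hs).norm
    fun _ => LSeries.norm_term_le s (norm_classLCoeff_le χ _)

theorem lfun_sum_range_succ_eq_sum_Icc {M : Type*} [AddCommMonoid M] (t : ℕ → M) (h0 : t 0 = 0)
    (n : ℕ) : ∑ k ∈ range (n + 1), t k = ∑ k ∈ Icc 1 n, t k := by
  symm
  refine Finset.sum_subset (fun k hk => ?_) (fun k hk hk' => ?_)
  · rw [Finset.mem_Icc] at hk
    rw [Finset.mem_range]
    omega
  · rw [Finset.mem_range] at hk
    rw [Finset.mem_Icc] at hk'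
    have : k = 0 := by omega
    rw [this, h0]

theorem sum_classTerm_idealsLE (χ : ClassGroup (𝓞 F) →* ℂˣ) (s : ℝ) (n : ℕ) :
    ∑ I ∈ idealsLE F n, classTerm χ s I =
      ∑ k ∈ range (n + 1), LSeries.term (classLCoeff χ) s k := by
  rw [lfun_sum_range_succ_eq_sum_Icc _ (LSeries.term_zero _ _), ← sum_idealsLE_fiberwise]
  refine Finset.sum_congr rfl fun k hk => ?_
  have hk0 : k ≠ 0 := by
    have := (Finset.mem_Icc.mp hk).1
    omega
  rw [LSeries.term_of_ne_zero hk0, classLCoeff, div_eq_mul_inv, Finset.sum_mul,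
    ← Complex.cpow_neg]
  refine Finset.sum_congr rfl fun I hI => ?_
  rw [classTerm, mem_idealsEQ.mp hI]

/-- The class group `L`-series is the `L`-series of its Dirichlet coefficients. -/
theorem classLSeries_eq_LSeries (χ : ClassGroup (𝓞 F) →* ℂˣ) {s : ℝ} (hs : 1 < s) :
    classLSeries F χ s = LSeries (classLCoeff χ) s := by
  have h1 : Tendsto (fun n => ∑ I ∈ idealsLE F n, classTerm χ s I) atTop
      (𝓝 (classLSeries F χ s)) :=
    (summable_classTerm χ hs).hasSum.comp tendsto_idealsLE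
  have h2 : Tendsto (fun n => ∑ k ∈ range (n + 1), LSeries.term (classLCoeff χ) s k) atTop
      (𝓝 (LSeries (classLCoeff χ) s)) :=
    (tendsto_add_atTop_iff_nat 1).mpr
      (lseriesSummable_classLCoeff χ (s := (s : ℂ)) (by simpa using hs)).hasSum.tendsto_sum_nat
  simp_rw [sum_classTerm_idealsLE] at h1
  exact tendsto_nhds_unique h1 h2


/-- For the trivial character the class group `L`-series is the Dedekind zeta function. -/
theorem classLSeries_one {s : ℝ} (hs : 1 < s) : classLSeries F 1 s = dedekindZeta F s := by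
  rw [classLSeries_eq_LSeries 1 hs, dedekindZeta]
  refine LSeries_congr (fun {n} hn => ?_) _
  rw [← idealCount_eq_natCard hn, classLCoeff, idealCount]
  simp

/-! ### Partial sums of the coefficients -/

theorem sum_classLCoeff (χ : ClassGroup (𝓞 F) →* ℂˣ) (n : ℕ) :
    ∑ k ∈ Icc 1 n, classLCoeff χ k = ∑ I ∈ idealsLE F n, (χ (ClassGroup.mk0 I) : ℂ) :=
  sum_idealsLE_fiberwise n _

variable (F) in
/-- The ideals of norm `≤ n` in the class `c`. -/
noncomputable def idealsLEClass (n : ℕ) (c : ClassGroup (𝓞 F)) : Finset (Ideal (𝓞 F))⁰ := by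
  classical
  exact (idealsLE F n).filter (fun I : (Ideal (𝓞 F))⁰ => ClassGroup.mk0 I = c)

theorem mem_idealsLEClass {n : ℕ} {c : ClassGroup (𝓞 F)} {I : (Ideal (𝓞 F))⁰} :
    I ∈ idealsLEClass F n c ↔ absNorm (I : Ideal (𝓞 F)) ≤ n ∧ ClassGroup.mk0 I = c := by
  classical
  simp only [idealsLEClass, Finset.mem_filter, mem_idealsLE]

theorem sum_idealsLE_char (χ : ClassGroup (𝓞 F) →* ℂˣ) (n : ℕ) :
    ∑ I ∈ idealsLE F n, (χ (ClassGroup.mk0 I) : ℂ) =
      ∑ c : ClassGroup (𝓞 F), (χ c : ℂ) * ((idealsLEClass F n c).card : ℂ) := by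
  classical
  rw [← Finset.sum_fiberwise (idealsLE F n) (fun I : (Ideal (𝓞 F))⁰ => ClassGroup.mk0 I)]
  refine Finset.sum_congr rfl fun c _ => ?_
  rw [Finset.sum_congr rfl (g := fun _ => (χ c : ℂ))
    (fun I hI => by rw [(Finset.mem_filter.mp hI).2]), Finset.sum_const, nsmul_eq_mul, mul_comm]
  congr 3

theorem sum_classChar_eq_zero {χ : ClassGroup (𝓞 F) →* ℂˣ} (hχ : χ ≠ 1) :
    ∑ c : ClassGroup (𝓞 F), (χ c : ℂ) = 0 := by
  have h : (Units.coeHom ℂ).comp χ ≠ 1 := by
    intro h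
    apply hχ
    ext c
    have := DFunLike.congr_fun h c
    simpa using this
  exact sum_hom_units_eq_zero ((Units.coeHom ℂ).comp χ) h

/-- The partial sums of the coefficients of a nontrivial character, in terms of the
deviations of the class counts from a common main term. -/
theorem sum_classLCoeff_eq_sub {χ : ClassGroup (𝓞 F) →* ℂˣ} (hχ : χ ≠ 1) (n : ℕ) (m : ℂ) :
    ∑ k ∈ Icc 1 n, classLCoeff χ k =
      ∑ c : ClassGroup (𝓞 F), (χ c : ℂ) * (((idealsLEClass F n c).card : ℂ) - m) := by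
  rw [sum_classLCoeff, sum_idealsLE_char]
  simp_rw [mul_sub]
  rw [Finset.sum_sub_distrib, ← Finset.sum_mul, sum_classChar_eq_zero hχ, zero_mul, sub_zero]

theorem norm_sum_classLCoeff_le {χ : ClassGroup (𝓞 F) →* ℂˣ} (hχ : χ ≠ 1) {κ C r : ℝ}
    (hcount : ∀ (c : ClassGroup (𝓞 F)) (n : ℕ), 1 ≤ n →
      |((idealsLEClass F n c).card : ℝ) - κ * n| ≤ C * (n : ℝ) ^ r) (n : ℕ) (hn : 1 ≤ n) :
    ‖∑ k ∈ Icc 1 n, classLCoeff χ k‖ ≤ (Fintype.card (ClassGroup (𝓞 F)) * C) * (n : ℝ) ^ r := by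
  rw [sum_classLCoeff_eq_sub hχ n ((κ * n : ℝ) : ℂ)]
  refine (norm_sum_le _ _).trans ?_
  have : ∀ c ∈ (Finset.univ : Finset (ClassGroup (𝓞 F))),
      ‖(χ c : ℂ) * (((idealsLEClass F n c).card : ℂ) - ((κ * n : ℝ) : ℂ))‖ ≤ C * (n : ℝ) ^ r := by
    intro c _
    rw [norm_mul, norm_classChar, one_mul]
    have := hcount c n hn
    rw [← Real.norm_eq_abs] at this
    refine le_trans (le_of_eq ?_) this
    rw [← Complex.norm_real]
    push_cast
    rfl
  refine (Finset.sum_le_sum this).trans (le_of_eq ?_)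
  rw [Finset.sum_const, Finset.card_univ, nsmul_eq_mul, mul_assoc]


/-! ### The analytic bound -/

/-- Analytic core: an `L`-series whose coefficient partial sums are `≤ C n^r` with `r < 1` is
bounded on `(1, 2]`. -/
theorem norm_LSeries_le_of_sum_le (f : ℕ → ℂ) {r C : ℝ} (hr0 : 0 ≤ r) (hr1 : r < 1)
    (hC : ∀ n : ℕ, 1 ≤ n → ‖∑ k ∈ Icc 1 n, f k‖ ≤ C * (n : ℝ) ^ r)
    {s : ℝ} (hs : 1 < s) (hs2 : s ≤ 2) (hS : LSeriesSummable f s) :
    ‖LSeries f s‖ ≤ 2 * C / (1 - r) := by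
  have hC0 : 0 ≤ C := by
    have := (norm_nonneg _).trans (hC 1 le_rfl)
    simpa using this
  have hO : (fun n : ℕ => ∑ k ∈ Icc 1 n, f k) =O[atTop] fun n => (n : ℝ) ^ r := by
    refine Asymptotics.IsBigO.of_bound C (eventually_atTop.mpr ⟨1, fun n hn => ?_⟩)
    rw [Real.norm_of_nonneg (by positivity)]
    exact hC n hn
  have hsr : r < ((s : ℂ)).re := by simpa using hr1.trans hs
  rw [LSeries_eq_mul_integral f hr0 hsr hS hO, norm_mul, Complex.norm_real,
    Real.norm_of_nonneg (by linarith)]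
  have ha : r - s - 1 < -1 := by linarith
  have hint : MeasureTheory.IntegrableOn (fun t : ℝ => C * t ^ (r - s - 1)) (Set.Ioi 1) :=
    (integrableOn_Ioi_rpow_of_lt ha zero_lt_one).const_mul C
  have hbound : ‖∫ t in Set.Ioi (1 : ℝ), (∑ k ∈ Icc 1 ⌊t⌋₊, f k) * (t : ℂ) ^ (-((s : ℂ) + 1))‖ ≤
      ∫ t in Set.Ioi (1 : ℝ), C * t ^ (r - s - 1) := by
    refine MeasureTheory.norm_integral_le_of_norm_le hint ?_
    refine (MeasureTheory.ae_restrict_mem measurableSet_Ioi).mono fun t ht => ?_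
    have ht1 : (1 : ℝ) < t := ht
    have ht0 : 0 < t := zero_lt_one.trans ht1
    have hfl : 1 ≤ ⌊t⌋₊ := Nat.le_floor (by simpa using ht1.le)
    rw [norm_mul, Complex.norm_cpow_eq_rpow_re_of_pos ht0]
    have hre : (-((s : ℂ) + 1)).re = -(s + 1) := by simp
    rw [hre]
    calc ‖∑ k ∈ Icc 1 ⌊t⌋₊, f k‖ * t ^ (-(s + 1)) ≤ (C * t ^ r) * t ^ (-(s + 1)) := by
          gcongr
          refine (hC _ hfl).trans ?_
          gcongr
          exact Nat.floor_le ht0.le
      _ = C * t ^ (r - s - 1) := by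
          rw [mul_assoc, ← Real.rpow_add ht0]
          congr 2
          ring
  rw [MeasureTheory.integral_const_mul, integral_Ioi_rpow_of_lt ha zero_lt_one,
    Real.one_rpow] at hbound
  have h1r : 0 < 1 - r := by linarith
  have hsr' : 1 - r ≤ s - r := by linarith
  calc s * ‖∫ t in Set.Ioi (1 : ℝ), (∑ k ∈ Icc 1 ⌊t⌋₊, f k) * (t : ℂ) ^ (-((s : ℂ) + 1))‖
      ≤ s * (C * (-1 / (r - s - 1 + 1))) := by gcongr
    _ = (s * C) / (s - r) := by
        have : r - s - 1 + 1 = -(s - r) := by ring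
        rw [this, neg_div_neg_eq]
        ring
    _ ≤ (2 * C) / (1 - r) := by
        refine div_le_div₀ (by positivity) ?_ h1r hsr'
        gcongr


/-- **LFUN**, finset form: if the number of ideals of norm `≤ n` in each ideal class is
`κ n + O(n ^ r)` with `r < 1` (and `κ` independent of the class), then the `L`-series of a
nontrivial class group character is bounded on `(1, 2]`. -/
theorem classLSeries_bounded_of_card_le {χ : ClassGroup (𝓞 F) →* ℂˣ} (hχ : χ ≠ 1) {κ C r : ℝ}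
    (hr0 : 0 ≤ r) (hr1 : r < 1)
    (hcount : ∀ (c : ClassGroup (𝓞 F)) (n : ℕ), 1 ≤ n →
      |((idealsLEClass F n c).card : ℝ) - κ * n| ≤ C * (n : ℝ) ^ r) :
    ∃ B : ℝ, ∀ s : ℝ, 1 < s → s ≤ 2 → ‖classLSeries F χ s‖ ≤ B :=
  ⟨2 * (Fintype.card (ClassGroup (𝓞 F)) * C) / (1 - r), fun s hs hs2 => by
    rw [classLSeries_eq_LSeries χ hs]
    exact norm_LSeries_le_of_sum_le _ hr0 hr1 (norm_sum_classLCoeff_le hχ hcount) hs hs2
      (lseriesSummable_classLCoeff χ (by simpa using hs))⟩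

theorem card_idealsLEClass (n : ℕ) (c : ClassGroup (𝓞 F)) :
    (idealsLEClass F n c).card =
      Nat.card {I : (Ideal (𝓞 F))⁰ //
        (absNorm (I : Ideal (𝓞 F)) : ℝ) ≤ (n : ℝ) ∧ ClassGroup.mk0 I = c} := by
  rw [Nat.subtype_card (idealsLEClass F n c)]
  intro I
  rw [mem_idealsLEClass, Nat.cast_le]

/-- **LFUN**, general exponent: if the number of ideals of norm `≤ x` in each ideal class is
`κ x + O(x ^ r)` with `0 ≤ r < 1`, then the `L`-series of a nontrivial class group character is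
bounded on `(1, 2]`. -/
theorem classLSeries_bounded_of_count_rpow {r : ℝ} (hr0 : 0 ≤ r) (hr1 : r < 1)
    (hcount : ∃ κ C : ℝ, ∀ (c : ClassGroup (𝓞 F)) (x : ℝ), 1 ≤ x →
      |(Nat.card {I : (Ideal (𝓞 F))⁰ //
        absNorm (I : Ideal (𝓞 F)) ≤ x ∧ ClassGroup.mk0 I = c} : ℝ) - κ * x| ≤ C * x ^ r)
    (χ : ClassGroup (𝓞 F) →* ℂˣ) (hχ : χ ≠ 1) :
    ∃ B : ℝ, ∀ s : ℝ, 1 < s → s ≤ 2 → ‖classLSeries F χ s‖ ≤ B := by
  obtain ⟨κ, C, h⟩ := hcount
  refine classLSeries_bounded_of_card_le hχ hr0 hr1 (κ := κ) (C := C) fun c n hn => ?_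
  rw [card_idealsLEClass]
  exact h c n (by exact_mod_cast hn)

/-- **LFUN** (conditional on the counting estimate COUNT): if the number of ideals of norm `≤ x`
in each ideal class is `κ x + O(x ^ (1 - 1 / [F : ℚ]))`, then the `L`-series of a nontrivial class
group character is bounded on `(1, 2]`. -/
theorem classLSeries_bounded_of_count
    (hcount : ∃ κ C : ℝ, ∀ (c : ClassGroup (𝓞 F)) (x : ℝ), 1 ≤ x →
      |(Nat.card {I : (Ideal (𝓞 F))⁰ //
        absNorm (I : Ideal (𝓞 F)) ≤ x ∧ ClassGroup.mk0 I = c} : ℝ) - κ * x| ≤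
          C * x ^ (1 - 1 / (Module.finrank ℚ F : ℝ)))
    (χ : ClassGroup (𝓞 F) →* ℂˣ) (hχ : χ ≠ 1) :
    ∃ B : ℝ, ∀ s : ℝ, 1 < s → s ≤ 2 → ‖classLSeries F χ s‖ ≤ B := by
  have hd : (1 : ℝ) ≤ (Module.finrank ℚ F : ℝ) := by
    exact_mod_cast (Module.finrank_pos : 0 < Module.finrank ℚ F)
  have hd0 : (0 : ℝ) < (Module.finrank ℚ F : ℝ) := zero_lt_one.trans_le hd
  refine classLSeries_bounded_of_count_rpow ?_ ?_ hcount χ hχ
  · rw [sub_nonneg, div_le_one hd0]
    exact hd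
  · have : 0 < 1 / (Module.finrank ℚ F : ℝ) := by positivity
    linarith

end Fermat.Agent.S14
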