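import Mathlib

/-!
# S14: Euler products over the ideals of a Dedekind domain

For a completely multiplicative `f : Ideal R →*₀ ℂ` with `∑ ‖f I‖ < ∞`:

* `norm_apply_lt_one`: `‖f v.asIdeal‖ < 1` for every `v : HeightOneSpectrum R`;
* `hasSum_smoothIdeals` / `prod_eq_tsum_smoothIdeals`: finite Euler product
  `∏ v ∈ T, (1 - f v)⁻¹ = ∑' I : smoothIdeals T, f I`, where `smoothIdeals T` is the set of nonzero
  ideals all of whose prime factors lie in `T`;
* `ideal_eulerProduct_hasProd`: `HasProd (fun v ↦ (1 - f v.asIdeal)⁻¹) (∑' I, f I)`.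
-/

set_option autoImplicit false
set_option linter.unusedSectionVars false

open IsDedekindDomain Filter Topology

namespace Fermat.Agent.S14

section general

variable {R : Type*} [CommRing R] [IsDedekindDomain R]

open scoped Classical

/-- Nonzero ideals all of whose prime factors lie in the finite set `T`. -/
def smoothIdeals (T : Finset (HeightOneSpectrum R)) : Set (Ideal R) :=
  {I | I ≠ ⊥ ∧ ∀ v : HeightOneSpectrum R, v.asIdeal ∣ I → v ∈ T}

theorem mem_smoothIdeals {T : Finset (HeightOneSpectrum R)} {I : Ideal R} :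
    I ∈ smoothIdeals T ↔ I ≠ ⊥ ∧ ∀ v : HeightOneSpectrum R, v.asIdeal ∣ I → v ∈ T := Iff.rfl

theorem smoothIdeals_empty : smoothIdeals (∅ : Finset (HeightOneSpectrum R)) = {⊤} := by
  ext I
  rw [mem_smoothIdeals, Set.mem_singleton_iff]
  constructor
  · rintro ⟨h0, h⟩
    by_contra htop
    obtain ⟨m, hm, hIm⟩ := Ideal.exists_le_maximal I htop
    have hm0 : m ≠ ⊥ := fun hb ↦ h0 (le_bot_iff.mp (hb ▸ hIm))
    exact absurd (h ⟨m, hm.isPrime, hm0⟩ (Ideal.dvd_iff_le.mpr hIm)) (Finset.notMem_empty _)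
  · rintro rfl
    refine ⟨top_ne_bot, fun v hv ↦ ?_⟩
    exact absurd (top_le_iff.mp (Ideal.dvd_iff_le.mp hv)) v.isPrime.ne_top

theorem HeightOneSpectrum.eq_of_dvd {v w : HeightOneSpectrum R} (h : w.asIdeal ∣ v.asIdeal) :
    w = v := by
  have hle := Ideal.dvd_iff_le.mp h
  have hmax : v.asIdeal.IsMaximal := v.isPrime.isMaximal v.ne_bot
  exact (HeightOneSpectrum.ext (hmax.eq_of_le w.isPrime.ne_top hle)).symm

/-- The map `(e, J) ↦ v ^ e * J`. -/
noncomputable def smoothInsertMap (T : Finset (HeightOneSpectrum R)) (v : HeightOneSpectrum R) :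
    ℕ × smoothIdeals T → smoothIdeals (insert v T) := fun x ↦
  ⟨v.asIdeal ^ x.1 * (x.2 : Ideal R), by
    obtain ⟨hJ0, hJ⟩ := x.2.2
    refine ⟨mul_ne_zero (pow_ne_zero _ v.ne_bot) hJ0, fun w hw ↦ ?_⟩
    rcases (w.prime.dvd_mul).mp hw with h | h
    · exact Finset.mem_insert.mpr (Or.inl (HeightOneSpectrum.eq_of_dvd (w.prime.dvd_of_dvd_pow h)))
    · exact Finset.mem_insert_of_mem (hJ w h)⟩

theorem smoothInsertMap_bijective (T : Finset (HeightOneSpectrum R)) (v : HeightOneSpectrum R)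
    (hv : v ∉ T) : Function.Bijective (smoothInsertMap T v) := by
  constructor
  · rintro ⟨e, ⟨J, hJ0, hJ⟩⟩ ⟨e', ⟨J', hJ'0, hJ'⟩⟩ h
    have h' : v.asIdeal ^ e * J = v.asIdeal ^ e' * J' := congrArg Subtype.val h
    have hvJ : ¬ v.asIdeal ∣ J := fun hd ↦ hv (hJ v hd)
    have hvJ' : ¬ v.asIdeal ∣ J' := fun hd ↦ hv (hJ' v hd)
    have hmult : ∀ (k : ℕ) (I : Ideal R), ¬ v.asIdeal ∣ I →
        emultiplicity v.asIdeal (v.asIdeal ^ k * I) = k := by
      intro k I hI
      rw [emultiplicity_mul v.prime, emultiplicity_pow_self_of_prime v.prime,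
        emultiplicity_eq_zero.mpr hI, add_zero]
    have he : e = e' := by
      have h1 := hmult e J hvJ
      rw [h', hmult e' J' hvJ'] at h1
      exact_mod_cast h1.symm
    subst he
    have hJJ' : J = J' := mul_left_cancel₀ (pow_ne_zero e v.ne_bot) h'
    subst hJJ'
    rfl
  · rintro ⟨I, hI0, hI⟩
    have hfin : FiniteMultiplicity v.asIdeal I :=
      FiniteMultiplicity.of_not_isUnit v.prime.not_isUnit hI0
    obtain ⟨J, hJ, hvJ⟩ := hfin.exists_eq_pow_mul_and_not_dvd
    have hJ0 : J ≠ ⊥ := by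
      rintro rfl
      exact hI0 (by rw [hJ]; simp)
    refine ⟨⟨multiplicity v.asIdeal I, ⟨J, hJ0, fun w hw ↦ ?_⟩⟩, Subtype.ext hJ.symm⟩
    have hwI : w.asIdeal ∣ I := hJ ▸ Dvd.dvd.mul_left hw _
    rcases Finset.mem_insert.mp (hI w hwI) with rfl | h
    · exact absurd hw hvJ
    · exact h

variable (f : Ideal R →*₀ ℂ)

theorem norm_apply_lt_one (hsum : Summable fun I : Ideal R ↦ ‖f I‖) (v : HeightOneSpectrum R) :
    ‖f v.asIdeal‖ < 1 := by
  refine summable_geometric_iff_norm_lt_one.mp ?_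
  simp_rw [← map_pow]
  exact hsum.of_norm.comp_injective (pow_injective_of_not_isUnit v.prime.not_isUnit v.ne_bot)

/-- Finite Euler product: the product of the Euler factors at the primes in `T` is the sum of `f`
over the `T`-smooth ideals. -/
theorem hasSum_smoothIdeals (hsum : Summable fun I : Ideal R ↦ ‖f I‖)
    (T : Finset (HeightOneSpectrum R)) :
    HasSum (fun I : smoothIdeals T ↦ f I) (∏ v ∈ T, (1 - f v.asIdeal)⁻¹) := by
  induction T using Finset.induction with
  | empty =>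
    rw [smoothIdeals_empty, Finset.prod_empty]
    have : f (⊤ : Ideal R) = 1 := by rw [← Ideal.one_eq_top, map_one]
    rw [← this]
    exact hasSum_singleton (⊤ : Ideal R) (fun I ↦ f I)
  | insert v T hv ih =>
    refine (Equiv.ofBijective _ (smoothInsertMap_bijective T v hv)).hasSum_iff.mp ?_
    rw [Finset.prod_insert hv]
    have hcomp : ((fun I : smoothIdeals (insert v T) ↦ f I) ∘
        (Equiv.ofBijective _ (smoothInsertMap_bijective T v hv))) =
        fun x : ℕ × smoothIdeals T ↦ f v.asIdeal ^ x.1 * f x.2 := by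
      funext x
      simp only [Function.comp_apply, Equiv.ofBijective_apply, smoothInsertMap, map_mul, map_pow]
    rw [hcomp]
    have hgeo := hasSum_geometric_of_norm_lt_one (norm_apply_lt_one f hsum v)
    have hnorm1 : Summable fun n : ℕ ↦ ‖f v.asIdeal ^ n‖ := by
      simp_rw [norm_pow]
      exact summable_geometric_of_lt_one (norm_nonneg _) (norm_apply_lt_one f hsum v)
    have hnorm2 : Summable fun I : smoothIdeals T ↦ ‖f I‖ := hsum.subtype _
    apply hgeo.mul ih
    apply summable_mul_of_summable_norm hnorm1 hnorm2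

theorem prod_eq_tsum_smoothIdeals (hsum : Summable fun I : Ideal R ↦ ‖f I‖)
    (T : Finset (HeightOneSpectrum R)) :
    ∏ v ∈ T, (1 - f v.asIdeal)⁻¹ = ∑' I : smoothIdeals T, f I :=
  (hasSum_smoothIdeals f hsum T).tsum_eq.symm

/-- The tail estimate: sums over `T`-smooth ideals approximate the full sum. -/
theorem norm_tsum_sub_tsum_smoothIdeals_lt (hsum : Summable fun I : Ideal R ↦ f I) {ε : ℝ}
    (hε : 0 < ε) :
    ∃ T₀ : Finset (HeightOneSpectrum R), ∀ T : Finset (HeightOneSpectrum R), T₀ ⊆ T →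
      ‖(∑' I : Ideal R, f I) - ∑' I : smoothIdeals T, f I‖ < ε := by
  obtain ⟨𝒜, h𝒜⟩ := hsum.tsum_vanishing (Metric.ball_mem_nhds (0 : ℂ) hε)
  simp_rw [mem_ball_zero_iff] at h𝒜
  refine ⟨𝒜.biUnion (fun I ↦ if hI : I = ⊥ then ∅ else (Ideal.finite_factors hI).toFinset),
    fun T hT ↦ ?_⟩
  have hdisj : Disjoint ((smoothIdeals T)ᶜ \ {⊥}) (𝒜 : Set (Ideal R)) := by
    rw [Set.disjoint_left]
    rintro I ⟨hIs, hI0⟩ hI𝒜
    rw [Set.mem_singleton_iff] at hI0
    refine hIs ⟨hI0, fun v hv ↦ hT ?_⟩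
    rw [Finset.mem_biUnion]
    refine ⟨I, hI𝒜, ?_⟩
    rw [dif_neg hI0, Set.Finite.mem_toFinset]
    exact hv
  have := h𝒜 _ hdisj
  rwa [← hsum.tsum_subtype_add_tsum_subtype_compl (smoothIdeals T), add_sub_cancel_left,
    tsum_eq_tsum_sdiff_singleton (smoothIdeals T)ᶜ (map_zero f)]

/-- **Euler product** for a completely multiplicative function on the ideals of a Dedekind
domain. -/
theorem ideal_eulerProduct_hasProd (hsum : Summable fun I : Ideal R ↦ ‖f I‖) :
    HasProd (fun v : HeightOneSpectrum R ↦ (1 - f v.asIdeal)⁻¹) (∑' I : Ideal R, f I) := by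
  rw [HasProd, SummationFilter.unconditional, Metric.tendsto_atTop]
  intro ε hε
  obtain ⟨T₀, hT₀⟩ := norm_tsum_sub_tsum_smoothIdeals_lt f hsum.of_norm hε
  refine ⟨T₀, fun T hT ↦ ?_⟩
  rw [dist_eq_norm, prod_eq_tsum_smoothIdeals f hsum, norm_sub_rev]
  exact hT₀ T hT

end general

end Fermat.Agent.S14
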