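import Mathlib

/-!
# S14: shared definitions for the class-field-theoretic core

`F ⊆ M` are number fields (as types, with `Algebra F M`).

* `IsUnramifiedEverywhere F M` : every nonzero prime of `𝓞 M` has trivial inertia group in
  `Gal(M/F)`.
* `primeOver F M 𝔭` : a chosen prime of `𝓞 M` above the prime `𝔭` of `𝓞 F`.
* `frob F M 𝔭 : Gal(M/F)` : the arithmetic Frobenius of `primeOver F M 𝔭` (and `1` if `𝔭` is not
  a nonzero prime).
* `artin F M 𝔞 : Gal(M/F)` (for abelian `M/F`) : product of the Frobenius elements of the prime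
  factors of the ideal `𝔞` (with multiplicity).
* `normClasses F M : Subgroup (ClassGroup (𝓞 F))` : the subgroup generated by the classes of the
  relative norms of the nonzero ideals of `𝓞 M`.
-/

set_option autoImplicit false

open NumberField

namespace Fermat.Agent.S14

variable (F M : Type*) [Field F] [NumberField F] [Field M] [NumberField M] [Algebra F M]

/-- Every nonzero prime of `𝓞 M` has trivial inertia group in `Gal(M/F)`. -/
def IsUnramifiedEverywhere : Prop :=
  ∀ Q : Ideal (𝓞 M), Q.IsPrime → Q ≠ ⊥ → Ideal.inertia Gal(M/F) Q = ⊥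

/-- A chosen prime of `𝓞 M` over the prime `𝔭` of `𝓞 F`. -/
noncomputable def primeOver (𝔭 : Ideal (𝓞 F)) [𝔭.IsPrime] : Ideal (𝓞 M) :=
  (Classical.arbitrary (Ideal.primesOver 𝔭 (𝓞 M))).1

instance primeOver_isPrime (𝔭 : Ideal (𝓞 F)) [𝔭.IsPrime] : (primeOver F M 𝔭).IsPrime :=
  (Classical.arbitrary (Ideal.primesOver 𝔭 (𝓞 M))).2.1

instance primeOver_liesOver (𝔭 : Ideal (𝓞 F)) [𝔭.IsPrime] : (primeOver F M 𝔭).LiesOver 𝔭 :=
  (Classical.arbitrary (Ideal.primesOver 𝔭 (𝓞 M))).2.2

theorem primeOver_ne_bot (𝔭 : Ideal (𝓞 F)) [𝔭.IsPrime] (h : 𝔭 ≠ ⊥) : primeOver F M 𝔭 ≠ ⊥ :=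
  Ideal.ne_bot_of_liesOver_of_ne_bot h _

theorem finite_quotient_primeOver (𝔭 : Ideal (𝓞 F)) [𝔭.IsPrime] (h : 𝔭 ≠ ⊥) :
    Finite (𝓞 M ⧸ primeOver F M 𝔭) :=
  Ideal.finiteQuotientOfFreeOfNeBot _ (primeOver_ne_bot F M 𝔭 h)

open Classical in
/-- The Frobenius element in `Gal(M/F)` of (the chosen prime above) the nonzero prime `𝔭` of
`𝓞 F`; `1` if `𝔭` is not a nonzero prime. Only meaningful (independent of the choice) if `M/F` is
abelian and unramified at `𝔭`. -/
noncomputable def frob [IsGalois F M] (𝔭 : Ideal (𝓞 F)) : Gal(M/F) :=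
  if h : 𝔭.IsPrime ∧ 𝔭 ≠ ⊥ then
    haveI := h.1
    haveI := finite_quotient_primeOver F M 𝔭 h.2
    arithFrobAt (𝓞 F) Gal(M/F) (primeOver F M 𝔭)
  else 1

open scoped IsMulCommutative in
/-- The Artin symbol of an ideal `𝔞` of `𝓞 F` in the abelian extension `M/F`: the product of the
Frobenius elements of its prime factors, with multiplicity. -/
noncomputable def artin [IsAbelianGalois F M] (𝔞 : Ideal (𝓞 F)) : Gal(M/F) :=
  ((UniqueFactorizationMonoid.normalizedFactors 𝔞).map (frob F M)).prod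

/-- The subgroup of the class group of `F` generated by the classes of the relative norms of the
nonzero ideals of `𝓞 M`. -/
noncomputable def normClasses : Subgroup (ClassGroup (𝓞 F)) :=
  Subgroup.closure {c | ∃ (𝔄 : Ideal (𝓞 M)) (h : 𝔄 ≠ ⊥),
    c = ClassGroup.mk0 ⟨Ideal.relNorm (𝓞 F) 𝔄,
      mem_nonZeroDivisors_of_ne_zero (by rwa [Ne, Ideal.zero_eq_bot, Ideal.relNorm_eq_bot_iff])⟩}

end Fermat.Agent.S14
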