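import Mathlib
import Fermat.Agent.S14.Defs

/-!
# S14 / SECOND : local algebraic facts on primes in an extension of number fields

For a prime `w` of `𝓞 M` above the prime `v` of `𝓞 F`: `N w = (N v) ^ f` with `f ≥ 1`, and if
`f = 1` the class of `v` is a norm class.  At most `[M : F]` primes lie over `v`.
-/

set_option autoImplicit false

open NumberField IsDedekindDomain

namespace Fermat.Agent.S14.Second

variable (F M : Type*) [Field F] [NumberField F] [Field M] [NumberField M] [Algebra F M]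

/-- The class of a nonzero prime of `𝓞 F` in the class group. -/
noncomputable def cls (v : HeightOneSpectrum (𝓞 F)) : ClassGroup (𝓞 F) :=
  ClassGroup.mk0 ⟨v.asIdeal, mem_nonZeroDivisors_of_ne_zero v.ne_bot⟩

/-- The absolute norm of a nonzero prime, as a real number. -/
noncomputable def nrm (v : HeightOneSpectrum (𝓞 F)) : ℝ := (Ideal.absNorm v.asIdeal : ℝ)

theorem two_le_absNorm (v : HeightOneSpectrum (𝓞 F)) : 2 ≤ Ideal.absNorm v.asIdeal := by
  have h0 : Ideal.absNorm v.asIdeal ≠ 0 := by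
    rw [Ne, Ideal.absNorm_eq_zero_iff]
    exact v.ne_bot
  have h1 : Ideal.absNorm v.asIdeal ≠ 1 := by
    rw [Ne, Ideal.absNorm_eq_one_iff]
    exact v.isPrime.ne_top
  omega

theorem two_le_nrm (v : HeightOneSpectrum (𝓞 F)) : 2 ≤ nrm F v := by
  unfold nrm
  exact_mod_cast two_le_absNorm F v

/-- Norm of a prime of `M` in terms of the prime of `F` below it. -/
theorem exists_absNorm_eq_pow (w : HeightOneSpectrum (𝓞 M)) :
    ∃ f : ℕ, 1 ≤ f ∧ Ideal.absNorm w.asIdeal = Ideal.absNorm (w.under (𝓞 F)).asIdeal ^ f ∧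
      (f = 1 → cls F (w.under (𝓞 F)) ∈ normClasses F M) := by
  have hPmax : w.asIdeal.IsMaximal := w.isMaximal
  have hpmax : (w.under (𝓞 F)).asIdeal.IsMaximal := (w.under (𝓞 F)).isMaximal
  have hlies : w.asIdeal.LiesOver (w.under (𝓞 F)).asIdeal := ⟨rfl⟩
  have hrel := Ideal.relNorm_eq_pow_of_isMaximal w.asIdeal (w.under (𝓞 F)).asIdeal
  refine ⟨w.asIdeal.inertiaDeg (𝓞 F), ?_, ?_, ?_⟩
  · have hpr : w.asIdeal.IsPrime := w.isPrime
    exact Ideal.inertiaDeg_pos (R := 𝓞 F) (q := w.asIdeal)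
  · rw [← Ideal.absNorm_relNorm (𝓞 F) (𝓞 M) w.asIdeal, hrel, map_pow]
  · intro hf
    rw [hf, pow_one] at hrel
    refine Subgroup.subset_closure ⟨w.asIdeal, w.ne_bot, ?_⟩
    unfold cls
    congr 1
    exact Subtype.ext hrel.symm

/-- At most `[M : F]` primes of `𝓞 M` lie over a given prime of `𝓞 F`. -/
theorem card_primesOver_le (v : HeightOneSpectrum (𝓞 F)) :
    Fintype.card (v.asIdeal.primesOver (𝓞 M)) ≤ Module.finrank F M := by
  have hpr : v.asIdeal.IsPrime := v.isPrime
  have h := Ideal.sum_ramification_inertia_eq_finrank v.asIdeal (𝓞 M)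
  rw [← IsFractionRing.finrank_eq (𝓞 F) F (𝓞 M) M] at h
  rw [← h, Fintype.card_eq_sum_ones]
  refine Finset.sum_le_sum fun q _ => ?_
  have hq : q.1.IsPrime := q.2.1
  have hlo : q.1.LiesOver v.asIdeal := q.2.2
  refine Nat.one_le_iff_ne_zero.mpr (Nat.mul_ne_zero ?_ ?_)
  · exact (Ideal.ramificationIdx_pos (R := 𝓞 F) (q := q.1)).ne'
  · exact (Ideal.inertiaDeg_pos (R := 𝓞 F) (q := q.1)).ne'

open Classical in
/-- In a finite set of primes of `𝓞 M`, at most `[M : F]` lie over a given prime of `𝓞 F`. -/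
theorem card_filter_under_le (T : Finset (HeightOneSpectrum (𝓞 M)))
    (v : HeightOneSpectrum (𝓞 F)) :
    (T.filter (fun w => w.under (𝓞 F) = v)).card ≤ Module.finrank F M := by
  refine le_trans ?_ (card_primesOver_le F M v)
  rw [← Finset.card_univ]
  refine Finset.card_le_card_of_injOn
    (fun w => if h : w.under (𝓞 F) = v then
      (⟨w.asIdeal, w.isPrime, ⟨by rw [← h]; rfl⟩⟩ : v.asIdeal.primesOver (𝓞 M))
      else Classical.arbitrary _) (fun _ _ => Finset.mem_coe.mpr (Finset.mem_univ _)) ?_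
  intro w₁ h₁ w₂ h₂ h
  rw [Finset.coe_filter] at h₁ h₂
  simp only [dif_pos h₁.2, dif_pos h₂.2] at h
  exact HeightOneSpectrum.ext (congrArg Subtype.val h)

end Fermat.Agent.S14.Second
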