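import Mathlib

/-!
# S14, piece SECOND-A: products over the characters of a finite abelian group

* `prod_subgroup_one_sub_mul`: for a finite subgroup `H ≤ ℂˣ` of order `m`,
  `∏_{u ∈ H} (1 - u z) = 1 - z ^ m`.
* `prod_one_sub_hom_mul`: for `φ : G →* ℂˣ`, `G` a finite group,
  `∏_g (1 - φ(g) z) = (1 - z ^ m) ^ c` with `m ≥ 1`.
* `prod_norm_one_sub_char_mul_le_one`: `∏_χ ‖1 - χ(a) x‖ ≤ 1` for `0 ≤ x < 1`.
* `prod_one_sub_char_mul_of_forall_eq_one`, `card_char_eq_card`: companions.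
-/

set_option autoImplicit false

open Finset

namespace Fermat.Agent.S14

/-- For a finite subgroup `H` of `ℂˣ` of order `m`: `∏_{u ∈ H} (1 - u z) = 1 - z ^ m`. -/
theorem prod_subgroup_one_sub_mul (H : Subgroup ℂˣ) [Fintype H] (z : ℂ) :
    ∏ u : H, (1 - ((u : ℂˣ) : ℂ) * z) = 1 - z ^ (Fintype.card H) := by
  classical
  set m := Fintype.card H with hm
  have hmpos : 0 < m := Fintype.card_pos
  have hprim := Complex.isPrimitiveRoot_exp m hmpos.ne'
  have key := hprim.pow_sub_pow_eq_prod_sub_mul (1 : ℂ) z hmpos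
  rw [one_pow] at key
  rw [key]
  have inj : Function.Injective (fun u : H => ((u : ℂˣ) : ℂ)) :=
    Units.val_injective.comp Subtype.val_injective
  have himg : (Finset.univ : Finset H).image (fun u : H => ((u : ℂˣ) : ℂ)) =
      Polynomial.nthRootsFinset m (1 : ℂ) := by
    apply Finset.eq_of_subset_of_card_le
    · intro ζ hζ
      obtain ⟨u, -, rfl⟩ := Finset.mem_image.mp hζ
      rw [Polynomial.mem_nthRootsFinset hmpos]
      have h1 : u ^ m = 1 := pow_card_eq_one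
      have h2 := congrArg (fun v : H => ((v : ℂˣ) : ℂ)) h1
      simpa using h2
    · rw [hprim.card_nthRootsFinset, Finset.card_image_of_injective _ inj, Finset.card_univ]
  rw [← himg, Finset.prod_image (fun a _ b _ h => inj h)]

/-- For a homomorphism `φ` from a finite group to `ℂˣ`, the product `∏_g (1 - φ(g) z)` is a power
of `1 - z ^ m`, where `m ≥ 1` is the order of the image of `φ`. -/
theorem prod_one_sub_hom_mul {G : Type*} [Group G] [Fintype G] (φ : G →* ℂˣ) (z : ℂ) :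
    ∃ m c : ℕ, 0 < m ∧ ∏ g : G, (1 - ((φ g : ℂˣ) : ℂ) * z) = (1 - z ^ m) ^ c := by
  classical
  refine ⟨Fintype.card φ.range, #{g | φ.rangeRestrict g = 1}, Fintype.card_pos, ?_⟩
  have h1 : ∏ g : G, (1 - ((φ g : ℂˣ) : ℂ) * z) =
      ∏ g : G, (fun u : φ.range => (1 - ((u : ℂˣ) : ℂ) * z)) (φ.rangeRestrict g) := rfl
  rw [h1, Finset.prod_comp (fun u : φ.range => (1 - ((u : ℂˣ) : ℂ) * z)) φ.rangeRestrict]
  have himg : (Finset.univ : Finset G).image φ.rangeRestrict = Finset.univ := by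
    rw [Finset.image_univ_of_surjective φ.rangeRestrict_surjective]
  rw [himg]
  have hfib : ∀ u : φ.range, #{g ∈ (Finset.univ : Finset G) | φ.rangeRestrict g = u} =
      #{g | φ.rangeRestrict g = 1} := fun u =>
    MonoidHom.card_fiber_eq_of_mem_range φ.rangeRestrict (φ.rangeRestrict_surjective u)
      (φ.rangeRestrict_surjective 1)
  simp_rw [hfib]
  rw [Finset.prod_pow, prod_subgroup_one_sub_mul]

/-- **SECOND-A**: for a finite abelian group `A`, `a ∈ A` and `0 ≤ x < 1`, the product over all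
characters `χ` of `A` of `‖1 - χ(a) x‖` is at most `1`. -/
theorem prod_norm_one_sub_char_mul_le_one {A : Type*} [CommGroup A] [Finite A]
    [Fintype (A →* ℂˣ)] (a : A) {x : ℝ} (hx0 : 0 ≤ x) (hx1 : x < 1) :
    ∏ χ : A →* ℂˣ, ‖1 - ((χ a : ℂˣ) : ℂ) * (x : ℂ)‖ ≤ 1 := by
  obtain ⟨m, c, hm, h⟩ := prod_one_sub_hom_mul (MonoidHom.eval a : (A →* ℂˣ) →* ℂˣ) (x : ℂ)
  have h' : ∏ χ : A →* ℂˣ, (1 - ((χ a : ℂˣ) : ℂ) * (x : ℂ)) = (1 - (x : ℂ) ^ m) ^ c := h
  rw [← norm_prod, h', norm_pow]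
  have hxm0 : 0 ≤ x ^ m := pow_nonneg hx0 m
  have hxm1 : x ^ m ≤ 1 := pow_le_one₀ hx0 hx1.le
  have : ‖(1 : ℂ) - (x : ℂ) ^ m‖ = 1 - x ^ m := by
    rw [← Complex.ofReal_pow, ← Complex.ofReal_one, ← Complex.ofReal_sub, Complex.norm_real,
      Real.norm_of_nonneg (by linarith)]
  rw [this]
  exact pow_le_one₀ (by linarith) (by linarith)

/-- Companion of `prod_norm_one_sub_char_mul_le_one` when all characters are trivial on `a`. -/
theorem prod_one_sub_char_mul_of_forall_eq_one {A : Type*} [CommGroup A]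
    [Fintype (A →* ℂˣ)] (a : A) (ha : ∀ χ : A →* ℂˣ, χ a = 1) (z : ℂ) :
    ∏ χ : A →* ℂˣ, (1 - ((χ a : ℂˣ) : ℂ) * z) = (1 - z) ^ Fintype.card (A →* ℂˣ) := by
  simp [ha]

/-- The number of characters of a finite abelian group is the order of the group. -/
theorem card_char_eq_card {A : Type*} [CommGroup A] [Finite A] [Fintype (A →* ℂˣ)] :
    Fintype.card (A →* ℂˣ) = Nat.card A := by
  rw [← Nat.card_eq_fintype_card]
  exact CommGroup.card_monoidHom_of_hasEnoughRootsOfUnity A ℂ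

end Fermat.Agent.S14
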