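import Mathlib
import Fermat.Agent.S14.SecondLocal

/-!
# S14 / SECOND : the universal norm index inequality, analytic core

`Nat.card (ClassGroup (𝓞 F) ⧸ normClasses F M) ≤ [M : F]`, assuming Euler products for the
(norms of the) class group `L`-series, their boundedness near `s = 1`, and the simple poles of the
Dedekind zeta functions of `F` and `M`.  All inequalities are between finite partial products.
-/

set_option autoImplicit false
set_option linter.unusedVariables false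

open NumberField IsDedekindDomain Filter Topology

namespace Fermat.Agent.S14.Second

/-! ### Real infinite products with factors `≥ 1` -/

section RealProd

variable {ι : Type*} {f : ι → ℝ} {a : ℝ}

theorem tendsto_of_hasProd (h : HasProd f a) :
    Tendsto (fun T : Finset ι => ∏ i ∈ T, f i) atTop (𝓝 a) := h

/-- Partial products of a convergent product with factors `≥ 1` are bounded by the product. -/
theorem prod_le_of_hasProd (h : HasProd f a) (h1 : ∀ i, 1 ≤ f i) (T : Finset ι) :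
    ∏ i ∈ T, f i ≤ a := by
  classical
  refine ge_of_tendsto (tendsto_of_hasProd h) ?_
  filter_upwards [eventually_ge_atTop T] with T' hT'
  rw [← Finset.prod_sdiff hT']
  refine le_mul_of_one_le_left ?_ ?_
  · exact Finset.prod_nonneg fun i _ => le_trans zero_le_one (h1 i)
  · calc (1 : ℝ) = ∏ _i ∈ T' \ T, (1 : ℝ) := by rw [Finset.prod_const_one]
      _ ≤ ∏ i ∈ T' \ T, f i :=
        Finset.prod_le_prod (fun _ _ => zero_le_one) (fun i _ => h1 i)

theorem hasProd_le_of_forall_prod_le {c : ℝ} (h : HasProd f a)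
    (hc : ∀ T : Finset ι, ∏ i ∈ T, f i ≤ c) : a ≤ c :=
  le_of_tendsto' (tendsto_of_hasProd h) hc

theorem one_le_of_hasProd (h : HasProd f a) (h1 : ∀ i, 1 ≤ f i) : 1 ≤ a := by
  simpa using prod_le_of_hasProd h h1 ∅

end RealProd

end Fermat.Agent.S14.Second

namespace Fermat.Agent.S14.Second

/-! ### Elementary real inequalities -/

section Elem

theorem inv_one_sub_ge_one {x : ℝ} (h0 : 0 ≤ x) (h1 : x < 1) : 1 ≤ (1 - x)⁻¹ := by
  rw [one_le_inv₀ (by linarith)]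
  linarith

theorem inv_one_sub_mono {x y : ℝ} (hxy : x ≤ y) (h1 : y < 1) : (1 - y)⁻¹ ≥ (1 - x)⁻¹ := by
  apply inv_anti₀ (by linarith)
  linarith

end Elem

variable (F M : Type*) [Field F] [NumberField F] [Field M] [NumberField M] [Algebra F M]

/-- `x_v(s) = N(v)^(-s)`. -/
noncomputable def xs (v : HeightOneSpectrum (𝓞 F)) (s : ℝ) : ℝ := nrm F v ^ (-s)

theorem xs_pos (v : HeightOneSpectrum (𝓞 F)) (s : ℝ) : 0 < xs F v s :=
  Real.rpow_pos_of_pos (by linarith [two_le_nrm F v]) _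

theorem xs_le_half (v : HeightOneSpectrum (𝓞 F)) {s : ℝ} (hs : 1 ≤ s) : xs F v s ≤ 1 / 2 := by
  unfold xs
  have h2 := two_le_nrm F v
  calc nrm F v ^ (-s) ≤ nrm F v ^ (-1 : ℝ) :=
        Real.rpow_le_rpow_of_exponent_le (by linarith) (by linarith)
    _ = (nrm F v)⁻¹ := Real.rpow_neg_one _
    _ ≤ 2⁻¹ := inv_anti₀ (by norm_num) h2
    _ = 1 / 2 := by norm_num

theorem xs_lt_one (v : HeightOneSpectrum (𝓞 F)) {s : ℝ} (hs : 1 ≤ s) : xs F v s < 1 :=
  lt_of_le_of_lt (xs_le_half F v hs) (by norm_num)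

/-- `x_w(s) = x_v(s)^f` for `w` over `v`. -/
theorem exists_xs_eq_pow (w : HeightOneSpectrum (𝓞 M)) :
    ∃ f : ℕ, 1 ≤ f ∧ (∀ s : ℝ, xs M w s = xs F (w.under (𝓞 F)) s ^ f) ∧
      (f = 1 → cls F (w.under (𝓞 F)) ∈ normClasses F M) := by
  obtain ⟨f, hf1, hN, hcls⟩ := exists_absNorm_eq_pow F M w
  refine ⟨f, hf1, fun s => ?_, hcls⟩
  unfold xs nrm
  rw [hN, Nat.cast_pow, ← Real.rpow_natCast, ← Real.rpow_natCast, ← Real.rpow_mul (by positivity),
    ← Real.rpow_mul (by positivity), mul_comm]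

end Fermat.Agent.S14.Second

namespace Fermat.Agent.S14.Second

variable (F M : Type*) [Field F] [NumberField F] [Field M] [NumberField M] [Algebra F M]

open Classical in
/-- The factor `(1 - x_v)⁻¹` if the class of `v` is a norm class, `1` otherwise. -/
noncomputable def uf (v : HeightOneSpectrum (𝓞 F)) (s : ℝ) : ℝ :=
  if cls F v ∈ normClasses F M then (1 - xs F v s)⁻¹ else 1

/-- The factor `(1 - x_v²)⁻¹`. -/
noncomputable def cf (v : HeightOneSpectrum (𝓞 F)) (s : ℝ) : ℝ := (1 - xs F v s ^ 2)⁻¹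

theorem one_le_uf (v : HeightOneSpectrum (𝓞 F)) {s : ℝ} (hs : 1 ≤ s) : 1 ≤ uf F M v s := by
  unfold uf
  split_ifs
  · exact inv_one_sub_ge_one (xs_pos F v s).le (xs_lt_one F v hs)
  · exact le_rfl

theorem xs_sq_lt_one (v : HeightOneSpectrum (𝓞 F)) {s : ℝ} (hs : 1 ≤ s) : xs F v s ^ 2 < 1 := by
  have h0 := xs_pos F v s
  have h1 := xs_lt_one F v hs
  nlinarith

theorem one_le_cf (v : HeightOneSpectrum (𝓞 F)) {s : ℝ} (hs : 1 ≤ s) : 1 ≤ cf F v s :=
  inv_one_sub_ge_one (sq_nonneg _) (xs_sq_lt_one F v hs)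

theorem local_le (w : HeightOneSpectrum (𝓞 M)) {s : ℝ} (hs : 1 ≤ s) :
    (1 - xs M w s)⁻¹ ≤ uf F M (w.under (𝓞 F)) s * cf F (w.under (𝓞 F)) s := by
  obtain ⟨f, hf1, hx, hcls⟩ := exists_xs_eq_pow F M w
  set v := w.under (𝓞 F) with hv
  have h0 := xs_pos F v s
  have h1 := xs_lt_one F v hs
  have hu := one_le_uf F M v hs
  have hc := one_le_cf F v hs
  rw [hx s]
  rcases Nat.eq_or_lt_of_le hf1 with hf | hf
  · -- f = 1
    have hmem := hcls hf.symm
    rw [← hf, pow_one]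
    have : uf F M v s = (1 - xs F v s)⁻¹ := by
      unfold uf
      rw [if_pos hmem]
    rw [this]
    exact le_mul_of_one_le_right (by positivity) hc
  · -- f ≥ 2
    have hle : xs F v s ^ f ≤ xs F v s ^ 2 :=
      pow_le_pow_of_le_one h0.le h1.le hf
    calc (1 - xs F v s ^ f)⁻¹ ≤ (1 - xs F v s ^ 2)⁻¹ :=
          inv_one_sub_mono hle (xs_sq_lt_one F v hs)
      _ = cf F v s := rfl
      _ ≤ uf F M v s * cf F v s := le_mul_of_one_le_left (by linarith) hu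

open Classical in
theorem prod_le_prod_under (T : Finset (HeightOneSpectrum (𝓞 M))) {s : ℝ} (hs : 1 ≤ s) :
    ∏ w ∈ T, (1 - xs M w s)⁻¹ ≤
      ∏ v ∈ T.image (fun w => w.under (𝓞 F)),
        (uf F M v s * cf F v s) ^ (Module.finrank F M) := by
  rw [← Finset.prod_fiberwise_of_maps_to (s := T) (t := T.image (fun w => w.under (𝓞 F)))
    (g := fun w => w.under (𝓞 F)) (fun w hw => Finset.mem_image_of_mem _ hw)]
  refine Finset.prod_le_prod (fun v _ => Finset.prod_nonneg fun w _ => ?_) (fun v _ => ?_)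
  · have := xs_lt_one M w hs
    exact inv_nonneg.mpr (by linarith)
  · have hbase : 1 ≤ uf F M v s * cf F v s :=
      one_le_mul_of_one_le_of_one_le (one_le_uf F M v hs) (one_le_cf F v hs)
    calc ∏ w ∈ T.filter (fun w => w.under (𝓞 F) = v), (1 - xs M w s)⁻¹
        ≤ ∏ _w ∈ T.filter (fun w => w.under (𝓞 F) = v), (uf F M v s * cf F v s) := by
          refine Finset.prod_le_prod (fun w _ => ?_) (fun w hw => ?_)
          · have := xs_lt_one M w hs
            exact inv_nonneg.mpr (by linarith)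
          · have hwv : w.under (𝓞 F) = v := (Finset.mem_filter.mp hw).2
            rw [← hwv]
            exact local_le F M w hs
      _ = (uf F M v s * cf F v s) ^ (T.filter (fun w => w.under (𝓞 F) = v)).card := by
          rw [Finset.prod_const]
      _ ≤ (uf F M v s * cf F v s) ^ (Module.finrank F M) :=
          pow_le_pow_right₀ hbase (card_filter_under_le F M T v)

end Fermat.Agent.S14.Second

namespace Fermat.Agent.S14.Second

section Char

variable {A : Type*} [CommGroup A] [Finite A]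

theorem norm_char_apply (χ : A →* ℂˣ) (a : A) : ‖((χ a : ℂˣ) : ℂ)‖ = 1 := by
  have h : a ^ Nat.card A = 1 := pow_card_eq_one'
  have h2 : ((χ a : ℂˣ) : ℂ) ^ Nat.card A = 1 := by
    rw [← Units.val_pow_eq_pow_val, ← map_pow, h, map_one, Units.val_one]
  exact Complex.norm_eq_one_of_pow_eq_one h2 (Nat.card_pos.ne')

theorem norm_one_sub_char_mul_pos (χ : A →* ℂˣ) (a : A) {x : ℝ} (hx0 : 0 ≤ x) (hx1 : x < 1) :
    0 < ‖1 - ((χ a : ℂˣ) : ℂ) * (x : ℂ)‖ := by
  have h1 : ‖((χ a : ℂˣ) : ℂ) * (x : ℂ)‖ = x := by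
    rw [norm_mul, norm_char_apply, one_mul, Complex.norm_real, Real.norm_of_nonneg hx0]
  have h2 : ‖(1 : ℂ)‖ - ‖((χ a : ℂˣ) : ℂ) * (x : ℂ)‖ ≤ ‖1 - ((χ a : ℂˣ) : ℂ) * (x : ℂ)‖ :=
    norm_sub_norm_le _ _
  rw [h1, norm_one] at h2
  linarith

/-- The local factor of `∏_χ ‖L(s, χ)‖`. -/
noncomputable def charFactor [Fintype (A →* ℂˣ)] (a : A) (x : ℝ) : ℝ :=
  ∏ χ : A →* ℂˣ, ‖(1 - ((χ a : ℂˣ) : ℂ) * (x : ℂ))⁻¹‖

theorem charFactor_one [Fintype (A →* ℂˣ)] {x : ℝ} (hx0 : 0 ≤ x) (hx1 : x < 1) :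
    charFactor (1 : A) x = ((1 - x)⁻¹) ^ Nat.card A := by
  unfold charFactor
  have hcard : Fintype.card (A →* ℂˣ) = Nat.card A := by
    rw [← Nat.card_eq_fintype_card]
    exact CommGroup.card_monoidHom_of_hasEnoughRootsOfUnity A ℂ
  rw [← hcard, ← Finset.card_univ, ← Finset.prod_const]
  refine Finset.prod_congr rfl fun χ _ => ?_
  rw [map_one, Units.val_one, one_mul, norm_inv]
  congr 1
  have : (1 : ℂ) - (x : ℂ) = ((1 - x : ℝ) : ℂ) := by push_cast; ring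
  rw [this, Complex.norm_real, Real.norm_of_nonneg (by linarith)]

theorem one_le_charFactor [Fintype (A →* ℂˣ)]
    (hchar : ∀ (a : A) (x : ℝ), 0 ≤ x → x < 1 →
      ∏ χ : A →* ℂˣ, ‖1 - ((χ a : ℂˣ) : ℂ) * (x : ℂ)‖ ≤ 1)
    (a : A) {x : ℝ} (hx0 : 0 ≤ x) (hx1 : x < 1) : 1 ≤ charFactor a x := by
  unfold charFactor
  simp_rw [norm_inv]
  rw [Finset.prod_inv_distrib]
  rw [one_le_inv₀ (Finset.prod_pos fun χ _ => norm_one_sub_char_mul_pos χ a hx0 hx1)]
  exact hchar a x hx0 hx1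

end Char

end Fermat.Agent.S14.Second

namespace Fermat.Agent.S14.Second

variable (F M : Type*) [Field F] [NumberField F] [Field M] [NumberField M] [Algebra F M]

/-- The quotient of the class group by the norm classes. -/
abbrev Aq : Type _ := ClassGroup (𝓞 F) ⧸ normClasses F M

/-- Pull back a character of the quotient to the class group. -/
noncomputable def pull (χ : Aq F M →* ℂˣ) : ClassGroup (𝓞 F) →* ℂˣ :=
  χ.comp (QuotientGroup.mk' (normClasses F M))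

theorem pull_injective : Function.Injective (pull F M) := by
  intro χ₁ χ₂ h
  ext a
  exact congrArg Units.val (DFunLike.congr_fun h a)

theorem pull_one : pull F M 1 = 1 := rfl

theorem cf_le (v : HeightOneSpectrum (𝓞 F)) {s : ℝ} (hs : 1 ≤ s) :
    cf F v s ≤ (1 - nrm F v ^ (-(2 : ℝ)))⁻¹ := by
  unfold cf
  have h2 := two_le_nrm F v
  have hx : xs F v s ^ 2 = nrm F v ^ (-(2 * s)) := by
    unfold xs
    rw [← Real.rpow_natCast, ← Real.rpow_mul (by linarith)]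
    congr 1
    push_cast
    ring
  have hle : nrm F v ^ (-(2 * s)) ≤ nrm F v ^ (-(2 : ℝ)) :=
    Real.rpow_le_rpow_of_exponent_le (by linarith) (by linarith)
  have hlt : nrm F v ^ (-(2 : ℝ)) < 1 := by
    have := xs_lt_one F v (s := 2) (by norm_num)
    exact this
  rw [hx]
  exact inv_one_sub_mono hle hlt

theorem uf_pow_le_charFactor [Fintype (Aq F M →* ℂˣ)]
    (hchar : ∀ (a : Aq F M) (x : ℝ), 0 ≤ x → x < 1 →
      ∏ χ : Aq F M →* ℂˣ, ‖1 - ((χ a : ℂˣ) : ℂ) * (x : ℂ)‖ ≤ 1)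
    (v : HeightOneSpectrum (𝓞 F)) {s : ℝ} (hs : 1 ≤ s) :
    uf F M v s ^ Nat.card (Aq F M) ≤
      charFactor (QuotientGroup.mk' (normClasses F M) (cls F v)) (xs F v s) := by
  have h0 := (xs_pos F v s).le
  have h1 := xs_lt_one F v hs
  unfold uf
  split_ifs with hmem
  · have : QuotientGroup.mk' (normClasses F M) (cls F v) = 1 := by
      rw [QuotientGroup.mk'_apply, QuotientGroup.eq_one_iff]
      exact hmem
    rw [this, charFactor_one h0 h1]
  · rw [one_pow]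
    exact one_le_charFactor hchar _ h0 h1

end Fermat.Agent.S14.Second

namespace Fermat.Agent.S14.Second

variable (F M : Type*) [Field F] [NumberField F] [Field M] [NumberField M] [Algebra F M]

section Main

variable [Fintype (Aq F M →* ℂˣ)]
  (zF zM : ℝ → ℝ) (nL : (ClassGroup (𝓞 F) →* ℂˣ) → ℝ → ℝ)
  (hzF : ∀ s, 1 < s → HasProd (fun v : HeightOneSpectrum (𝓞 F) => (1 - nrm F v ^ (-s))⁻¹) (zF s))
  (hzM : ∀ s, 1 < s → HasProd (fun w : HeightOneSpectrum (𝓞 M) => (1 - nrm M w ^ (-s))⁻¹) (zM s))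
  (hL : ∀ χ s, 1 < s → HasProd (fun v : HeightOneSpectrum (𝓞 F) =>
    ‖(1 - ((χ (cls F v) : ℂˣ) : ℂ) * ((nrm F v ^ (-s) : ℝ) : ℂ))⁻¹‖) (nL χ s))
  (hchar : ∀ (a : Aq F M) (x : ℝ), 0 ≤ x → x < 1 →
      ∏ χ : Aq F M →* ℂˣ, ‖1 - ((χ a : ℂˣ) : ℂ) * (x : ℂ)‖ ≤ 1)

include hzF hzM hL hchar in
theorem main_ineq {s : ℝ} (hs : 1 < s) :
    zM s ^ Nat.card (Aq F M) ≤
      (∏ χ : Aq F M →* ℂˣ, nL (pull F M χ) s) ^ Module.finrank F M *
        zF 2 ^ (Module.finrank F M * Nat.card (Aq F M)) := by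
  classical
  set h := Nat.card (Aq F M) with hh
  set n := Module.finrank F M with hn
  have hs1 : (1 : ℝ) ≤ s := hs.le
  -- the product over characters
  have hP : HasProd (fun v : HeightOneSpectrum (𝓞 F) =>
      charFactor (QuotientGroup.mk' (normClasses F M) (cls F v)) (xs F v s))
      (∏ χ : Aq F M →* ℂˣ, nL (pull F M χ) s) := by
    have := hasProd_prod (s := (Finset.univ : Finset (Aq F M →* ℂˣ)))
      (fun χ _ => hL (pull F M χ) s hs)
    exact this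
  have hP1 : ∀ T₀ : Finset (HeightOneSpectrum (𝓞 F)),
      ∏ v ∈ T₀, charFactor (QuotientGroup.mk' (normClasses F M) (cls F v)) (xs F v s) ≤
        ∏ χ : Aq F M →* ℂˣ, nL (pull F M χ) s :=
    prod_le_of_hasProd hP fun v =>
      one_le_charFactor hchar _ (xs_pos F v s).le (xs_lt_one F v hs1)
  have hC1 : ∀ T₀ : Finset (HeightOneSpectrum (𝓞 F)),
      ∏ v ∈ T₀, (1 - nrm F v ^ (-(2 : ℝ)))⁻¹ ≤ zF 2 :=
    prod_le_of_hasProd (hzF 2 (by norm_num)) fun v =>
      inv_one_sub_ge_one (xs_pos F v 2).le (xs_lt_one F v (by norm_num))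
  refine le_of_tendsto' ((tendsto_of_hasProd (hzM s hs)).pow h) fun T => ?_
  set T₀ := T.image (fun w => w.under (𝓞 F)) with hT₀
  have hnonneg : 0 ≤ ∏ w ∈ T, (1 - nrm M w ^ (-s))⁻¹ :=
    Finset.prod_nonneg fun w _ => by
      have := xs_lt_one M w hs1
      unfold xs at this
      exact inv_nonneg.mpr (by linarith)
  have h1 : (∏ w ∈ T, (1 - nrm M w ^ (-s))⁻¹) ^ h ≤
      (∏ v ∈ T₀, (uf F M v s * cf F v s) ^ n) ^ h :=
    pow_le_pow_left₀ hnonneg (prod_le_prod_under F M T hs1) h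
  have h2 : (∏ v ∈ T₀, (uf F M v s * cf F v s) ^ n) ^ h =
      (∏ v ∈ T₀, uf F M v s ^ h) ^ n * (∏ v ∈ T₀, cf F v s) ^ (n * h) := by
    rw [Finset.prod_pow, Finset.prod_mul_distrib, Finset.prod_pow, mul_pow, mul_pow, ← pow_mul,
      ← pow_mul, ← pow_mul, mul_comm h n]
  have h3 : ∏ v ∈ T₀, uf F M v s ^ h ≤
      ∏ v ∈ T₀, charFactor (QuotientGroup.mk' (normClasses F M) (cls F v)) (xs F v s) :=
    Finset.prod_le_prod (fun v _ => pow_nonneg (le_trans zero_le_one (one_le_uf F M v hs1)) _)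
      (fun v _ => uf_pow_le_charFactor F M hchar v hs1)
  have h4 : ∏ v ∈ T₀, cf F v s ≤ ∏ v ∈ T₀, (1 - nrm F v ^ (-(2 : ℝ)))⁻¹ :=
    Finset.prod_le_prod (fun v _ => le_trans zero_le_one (one_le_cf F v hs1))
      (fun v _ => cf_le F v hs1)
  have h5 : 0 ≤ ∏ v ∈ T₀, uf F M v s ^ h :=
    Finset.prod_nonneg fun v _ => pow_nonneg (le_trans zero_le_one (one_le_uf F M v hs1)) _
  have h6 : 0 ≤ ∏ v ∈ T₀, cf F v s :=
    Finset.prod_nonneg fun v _ => le_trans zero_le_one (one_le_cf F v hs1)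
  calc (∏ w ∈ T, (1 - nrm M w ^ (-s))⁻¹) ^ h
      ≤ (∏ v ∈ T₀, uf F M v s ^ h) ^ n * (∏ v ∈ T₀, cf F v s) ^ (n * h) := h2 ▸ h1
    _ ≤ (∏ χ : Aq F M →* ℂˣ, nL (pull F M χ) s) ^ n * zF 2 ^ (n * h) := by
        refine mul_le_mul ?_ ?_ (pow_nonneg h6 _) (pow_nonneg (le_trans h5 (h3.trans (hP1 T₀))) _)
        · exact pow_le_pow_left₀ h5 (h3.trans (hP1 T₀)) n
        · exact pow_le_pow_left₀ h6 (h4.trans (hC1 T₀)) (n * h)

end Main

end Fermat.Agent.S14.Second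

namespace Fermat.Agent.S14.Second

variable (F M : Type*) [Field F] [NumberField F] [Field M] [NumberField M] [Algebra F M]

section Final

variable [Fintype (Aq F M →* ℂˣ)]
  (zF zM : ℝ → ℝ) (nL : (ClassGroup (𝓞 F) →* ℂˣ) → ℝ → ℝ)
  (hzF : ∀ s, 1 < s → HasProd (fun v : HeightOneSpectrum (𝓞 F) => (1 - nrm F v ^ (-s))⁻¹) (zF s))
  (hzM : ∀ s, 1 < s → HasProd (fun w : HeightOneSpectrum (𝓞 M) => (1 - nrm M w ^ (-s))⁻¹) (zM s))
  (hL : ∀ χ s, 1 < s → HasProd (fun v : HeightOneSpectrum (𝓞 F) =>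
    ‖(1 - ((χ (cls F v) : ℂˣ) : ℂ) * ((nrm F v ^ (-s) : ℝ) : ℂ))⁻¹‖) (nL χ s))
  (hchar : ∀ (a : Aq F M) (x : ℝ), 0 ≤ x → x < 1 →
      ∏ χ : Aq F M →* ℂˣ, ‖1 - ((χ a : ℂˣ) : ℂ) * (x : ℂ)‖ ≤ 1)

include hzF hL in
theorem nL_one {s : ℝ} (hs : 1 < s) : nL 1 s = zF s := by
  refine (hL 1 s hs).unique ?_
  convert hzF s hs using 2 with v
  have h0 := xs_pos F v s
  have h1 := xs_lt_one F v hs.le
  unfold xs at h0 h1
  rw [MonoidHom.one_apply, Units.val_one, one_mul, norm_inv]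
  congr 1
  have : (1 : ℂ) - ((nrm F v ^ (-s) : ℝ) : ℂ) = ((1 - nrm F v ^ (-s) : ℝ) : ℂ) := by
    push_cast; ring
  rw [this, Complex.norm_real, Real.norm_of_nonneg (by linarith)]

include hL in
theorem nL_nonneg (χ : ClassGroup (𝓞 F) →* ℂˣ) {s : ℝ} (hs : 1 < s) : 0 ≤ nL χ s :=
  ge_of_tendsto' (tendsto_of_hasProd (hL χ s hs)) fun _ =>
    Finset.prod_nonneg fun _ _ => norm_nonneg _

include hzF in
theorem one_le_zF {s : ℝ} (hs : 1 < s) : 1 ≤ zF s :=
  one_le_of_hasProd (hzF s hs) fun v =>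
    inv_one_sub_ge_one (xs_pos F v s).le (xs_lt_one F v hs.le)

include hzF hzM hL hchar in
theorem card_quotient_normClasses_le_of
    (hB : ∀ χ : ClassGroup (𝓞 F) →* ℂˣ, χ ≠ 1 → ∃ B : ℝ, ∀ s, 1 < s → s ≤ 2 → nL χ s ≤ B)
    (ρF ρM : ℝ) (hρM : 0 < ρM)
    (htF : Tendsto (fun s => (s - 1) * zF s) (𝓝[>] 1) (𝓝 ρF))
    (htM : Tendsto (fun s => (s - 1) * zM s) (𝓝[>] 1) (𝓝 ρM)) :
    Nat.card (Aq F M) ≤ Module.finrank F M := by
  classical
  set h := Nat.card (Aq F M) with hh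
  set n := Module.finrank F M with hn
  by_contra hlt
  have hnh : n + 1 ≤ h := by omega
  -- uniform bound
  have hB' : ∀ χ : Aq F M →* ℂˣ, ∃ B : ℝ, χ ≠ 1 → ∀ s, 1 < s → s ≤ 2 → nL (pull F M χ) s ≤ B := by
    intro χ
    by_cases hχ : χ = 1
    · exact ⟨0, fun h => absurd hχ h⟩
    · have : pull F M χ ≠ 1 := fun h => hχ (pull_injective F M (h.trans (pull_one F M).symm))
      obtain ⟨B, hBχ⟩ := hB _ this
      exact ⟨B, fun _ => hBχ⟩
  choose Bf hBf using hB'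
  set B : ℝ := 1 + ∑ χ : Aq F M →* ℂˣ, |Bf χ| with hBdef
  have hB1 : 1 ≤ B := by
    have : 0 ≤ ∑ χ : Aq F M →* ℂˣ, |Bf χ| := Finset.sum_nonneg fun _ _ => abs_nonneg _
    linarith
  have hBle : ∀ χ : Aq F M →* ℂˣ, χ ≠ 1 → ∀ s, 1 < s → s ≤ 2 → nL (pull F M χ) s ≤ B := by
    intro χ hχ s hs hs2
    refine (hBf χ hχ s hs hs2).trans ((le_abs_self _).trans ?_)
    have : |Bf χ| ≤ ∑ χ : Aq F M →* ℂˣ, |Bf χ| :=
      Finset.single_le_sum (f := fun χ => |Bf χ|) (fun _ _ => abs_nonneg _) (Finset.mem_univ χ)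
    linarith
  -- the product over characters is bounded by `zF s * B ^ (h - 1)`
  have hcard : Fintype.card (Aq F M →* ℂˣ) = h := by
    rw [← Nat.card_eq_fintype_card]
    exact CommGroup.card_monoidHom_of_hasEnoughRootsOfUnity (Aq F M) ℂ
  have hprod : ∀ s, 1 < s → s ≤ 2 →
      ∏ χ : Aq F M →* ℂˣ, nL (pull F M χ) s ≤ zF s * B ^ (h - 1) := by
    intro s hs hs2
    rw [← Finset.mul_prod_erase Finset.univ _ (Finset.mem_univ (1 : Aq F M →* ℂˣ)), pull_one,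
      nL_one F zF nL hzF hL hs]
    refine mul_le_mul_of_nonneg_left ?_ (le_trans zero_le_one (one_le_zF F zF hzF hs))
    calc ∏ χ ∈ Finset.univ.erase (1 : Aq F M →* ℂˣ), nL (pull F M χ) s
        ≤ ∏ _χ ∈ Finset.univ.erase (1 : Aq F M →* ℂˣ), B :=
          Finset.prod_le_prod (fun χ _ => nL_nonneg F nL hL _ hs)
            (fun χ hχ => hBle χ (Finset.ne_of_mem_erase hχ) s hs hs2)
      _ = B ^ (h - 1) := by
          rw [Finset.prod_const, Finset.card_erase_of_mem (Finset.mem_univ _), Finset.card_univ,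
            hcard]
  -- the key inequality
  set C : ℝ := (B ^ (h - 1)) ^ n * zF 2 ^ (n * h) with hC
  have hkey : ∀ s, 1 < s → s ≤ 2 →
      ((s - 1) * zM s) ^ h ≤ (s - 1) ^ (h - n) * ((s - 1) * zF s) ^ n * C := by
    intro s hs hs2
    have hm := main_ineq F M zF zM nL hzF hzM hL hchar hs
    have hP0 : 0 ≤ ∏ χ : Aq F M →* ℂˣ, nL (pull F M χ) s :=
      Finset.prod_nonneg fun χ _ => nL_nonneg F nL hL _ hs
    have hz2 : 0 ≤ zF 2 := le_trans zero_le_one (one_le_zF F zF hzF (by norm_num))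
    have h1 : zM s ^ h ≤ (zF s * B ^ (h - 1)) ^ n * zF 2 ^ (n * h) :=
      hm.trans (mul_le_mul_of_nonneg_right
        (pow_le_pow_left₀ hP0 (hprod s hs hs2) n) (pow_nonneg hz2 _))
    have hs0 : 0 ≤ s - 1 := by linarith
    have hsplit : (s - 1) ^ h = (s - 1) ^ (h - n) * (s - 1) ^ n := by
      rw [← pow_add]; congr 1; omega
    calc ((s - 1) * zM s) ^ h = (s - 1) ^ h * zM s ^ h := mul_pow _ _ _
      _ ≤ (s - 1) ^ h * ((zF s * B ^ (h - 1)) ^ n * zF 2 ^ (n * h)) :=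
          mul_le_mul_of_nonneg_left h1 (pow_nonneg hs0 _)
      _ = (s - 1) ^ (h - n) * ((s - 1) * zF s) ^ n * C := by
          rw [hsplit, hC, mul_pow (s - 1) (zF s) n, mul_pow (zF s) (B ^ (h - 1)) n]; ring
  -- limits
  have hlim1 : Tendsto (fun s : ℝ => ((s - 1) * zM s) ^ h) (𝓝[>] 1) (𝓝 (ρM ^ h)) := htM.pow h
  have hlim0 : Tendsto (fun s : ℝ => (s - 1) ^ (h - n)) (𝓝[>] 1) (𝓝 0) := by
    have : Tendsto (fun s : ℝ => (s - 1) ^ (h - n)) (𝓝 1) (𝓝 ((1 - 1 : ℝ) ^ (h - n))) :=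
      ((continuous_id.sub continuous_const).pow _).tendsto 1
    rw [sub_self, zero_pow (by omega)] at this
    exact this.mono_left nhdsWithin_le_nhds
  have hlim2 : Tendsto (fun s : ℝ => (s - 1) ^ (h - n) * ((s - 1) * zF s) ^ n * C) (𝓝[>] 1)
      (𝓝 (0 * ρF ^ n * C)) := (hlim0.mul (htF.pow n)).mul_const C
  have hev : ∀ᶠ s in 𝓝[>] (1 : ℝ),
      ((s - 1) * zM s) ^ h ≤ (s - 1) ^ (h - n) * ((s - 1) * zF s) ^ n * C := by
    have : Set.Ioc (1 : ℝ) 2 ∈ 𝓝[>] (1 : ℝ) := Ioc_mem_nhdsGT (by norm_num)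
    filter_upwards [this] with s hs
    exact hkey s hs.1 hs.2
  have := le_of_tendsto_of_tendsto hlim1 hlim2 hev
  rw [zero_mul, zero_mul] at this
  exact absurd (pow_pos hρM h) (not_lt.mpr this)

end Final

end Fermat.Agent.S14.Second
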