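import Fermat.Agent.S14.LatticeCountZ

/-!
# S14, piece COUNT-3: counting integral ideals of bounded norm in an ideal class, with error term

Quantitative version of Mathlib's `NumberField.Ideal.tendsto_norm_le_and_mk_eq_div_atTop`
(`Mathlib/NumberTheory/NumberField/Ideal/Asymptotics.lean`, X. Roblot), following the same proof
with `ZLattice.covolume.tendsto_card_le_div'` replaced by
`LatticeCount.exists_abs_card_le_sub_le'` (piece COUNT-1).

The input from piece COUNT-2 is the hypothesis `HasLipschitzFrontier K`: the frontier of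
`NumberField.mixedEmbedding.fundamentalCone.normLeOne K` is covered by finitely many Lipschitz
images of the unit cube of dimension `finrank ℚ K - 1`.

Main result: `card_norm_le_and_mk_eq_sub_le_of`.
-/

set_option autoImplicit false

namespace Fermat.Agent.S14

namespace IdealCount

section Clamp

open Set

/-- Clamping to the unit cube. -/
noncomputable def clamp {d : ℕ} (x : Fin d → ℝ) : Fin d → ℝ := fun i => max 0 (min 1 (x i))

theorem clamp_mem {d : ℕ} (x : Fin d → ℝ) : clamp x ∈ Set.Icc (0 : Fin d → ℝ) 1 := by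
  refine ⟨fun i => le_max_left _ _, fun i => ?_⟩
  exact max_le zero_le_one (min_le_left _ _)

theorem clamp_of_mem {d : ℕ} {x : Fin d → ℝ} (hx : x ∈ Set.Icc (0 : Fin d → ℝ) 1) :
    clamp x = x := by
  funext i
  have h0 : 0 ≤ x i := hx.1 i
  have h1 : x i ≤ 1 := hx.2 i
  simp [clamp, h0, h1]

theorem lipschitzWith_clamp {d : ℕ} : LipschitzWith 1 (clamp (d := d)) := by
  refine LipschitzWith.of_dist_le_mul fun x y => ?_
  rw [NNReal.coe_one, one_mul, dist_pi_le_iff dist_nonneg]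
  intro i
  have h : LipschitzWith 1 (fun t : ℝ => max 0 (min 1 t)) :=
    (LipschitzWith.id.const_min _).const_max _
  have := h.dist_le_mul (x i) (y i)
  rw [NNReal.coe_one, one_mul] at this
  exact this.trans (dist_le_pi_dist x y i)

/-- A map which is Lipschitz on the unit cube agrees on the cube with a globally Lipschitz map. -/
theorem exists_lipschitzWith_of_lipschitzOnWith {d : ℕ} {E : Type*} [PseudoMetricSpace E]
    {φ : (Fin d → ℝ) → E} {K : NNReal} (h : LipschitzOnWith K φ (Set.Icc 0 1)) :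
    ∃ ψ : (Fin d → ℝ) → E, LipschitzWith K ψ ∧
      ψ '' Set.Icc (0 : Fin d → ℝ) 1 = φ '' Set.Icc (0 : Fin d → ℝ) 1 := by
  refine ⟨φ ∘ clamp, ?_, ?_⟩
  · intro x y
    calc edist (φ (clamp x)) (φ (clamp y)) ≤ K * edist (clamp x) (clamp y) :=
          h (clamp_mem x) (clamp_mem y)
      _ ≤ K * edist x y := by
          gcongr
          simpa using lipschitzWith_clamp x y
  · apply Set.image_congr
    intro x hx
    simp [clamp_of_mem hx]

end Clamp

open Ideal NumberField NumberField.InfinitePlace NumberField.mixedEmbedding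
  NumberField.mixedEmbedding.euclidean NumberField.mixedEmbedding.fundamentalCone Submodule
  NumberField.Units MeasureTheory Module
open scoped nonZeroDivisors Real

variable (K : Type*) [Field K] [NumberField K]

variable {K} in
/-- copy of a private Mathlib lemma (`Ideal/Asymptotics.lean`) -/
theorem card_mk_eq_aux₁ {C : ClassGroup (𝓞 K)} {J : (Ideal (𝓞 K))⁰} {s : ℝ}
    (hJ : ClassGroup.mk0 J = C⁻¹) :
    Nat.card {I : (Ideal (𝓞 K))⁰ // absNorm (I : Ideal (𝓞 K)) ≤ s ∧ ClassGroup.mk0 I = C}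
      = Nat.card {I : (Ideal (𝓞 K))⁰ // (J : Ideal (𝓞 K)) ∣ I ∧ IsPrincipal (I : Ideal (𝓞 K)) ∧
        absNorm (I : Ideal (𝓞 K)) ≤ s * absNorm (J : Ideal (𝓞 K))} := by
  simp_rw [← nonZeroDivisors_dvd_iff_dvd_coe]
  refine Nat.card_congr ?_
  refine ((Equiv.dvd J).subtypeEquiv fun I ↦ ?_).trans
    (Equiv.subtypeSubtypeEquivSubtypeInter (fun I : (Ideal (𝓞 K))⁰ ↦ J ∣ I) _)
  rw [← ClassGroup.mk0_eq_one_iff (SetLike.coe_mem _)]
  simp_rw [Equiv.dvd_apply, Submonoid.coe_mul, ← Submonoid.mul_def, _root_.map_mul, hJ,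
    inv_mul_eq_one, Nat.cast_mul, mul_comm s, eq_comm, and_comm, and_congr_left_iff]
  exact fun _ ↦
    (mul_le_mul_iff_of_pos_left (Nat.cast_pos.mpr (absNorm_pos_of_nonZeroDivisors J))).symm

open scoped Classical in
/-- copy of a private Mathlib definition (`Ideal/Asymptotics.lean`) -/
noncomputable def equivAux₂ (J : (Ideal (𝓞 K))⁰) (s : ℝ) :
    ↑({x | x ∈ (toMixed K) ⁻¹' fundamentalCone K ∧ mixedEmbedding.norm ((toMixed K) x) ≤ s} ∩
      (ZLattice.comap ℝ (idealLattice K ((FractionalIdeal.mk0 K) J)) (toMixed K).toLinearMap))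
        ≃ {a : idealSet K J // mixedEmbedding.norm (a : mixedSpace K) ≤ s} := by
  rw [ZLattice.coe_comap]
  refine (((toMixed K).toEquiv.image _).trans (Equiv.subtypeEquivProp ?_)).trans
    (Equiv.subtypeSubtypeEquivSubtypeInter _ (mixedEmbedding.norm · ≤ s)).symm
  ext
  simp_rw [mem_idealSet, Set.mem_image, Set.mem_inter_iff, Set.mem_preimage, SetLike.mem_coe,
    mem_idealLattice, FractionalIdeal.coe_mk0]
  constructor
  · rintro ⟨_, ⟨⟨hx₁, hx₂⟩, _, ⟨x, hx₃, rfl⟩, h⟩, rfl⟩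
    exact ⟨⟨hx₁, x, hx₃, h⟩, hx₂⟩
  · rintro ⟨⟨hx₁, ⟨x, hx₂, rfl⟩⟩, hx₃⟩
    exact ⟨(toMixed K).symm (mixedEmbedding K x), ⟨⟨hx₁, hx₃⟩, ⟨(x : K), by simp [hx₂], rfl⟩⟩, rfl⟩

open scoped Classical in
/-- The output shape of piece COUNT-2: the frontier of `normLeOne K` is covered by finitely many
Lipschitz images of the unit cube of dimension `finrank ℚ K - 1`. -/
def HasLipschitzFrontier : Prop :=
  ∃ (d : ℕ) (J : Type) (_ : Fintype J) (φ : J → (Fin d → ℝ) → mixedSpace K) (Kc : NNReal),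
    d + 1 = Module.finrank ℚ K ∧ (∀ j, LipschitzOnWith Kc (φ j) (Set.Icc 0 1)) ∧
    frontier (normLeOne K) ⊆ ⋃ j, φ j '' Set.Icc (0 : Fin d → ℝ) 1

theorem setOf_eq_preimage_normLeOne :
    {x | x ∈ toMixed K ⁻¹' fundamentalCone K ∧ mixedEmbedding.norm (toMixed K x) ≤ 1} =
      toMixed K ⁻¹' normLeOne K := by
  ext x
  simp [normLeOne]

open scoped Classical in
variable {K} in
/-- Transport of the covering of the frontier to the euclidean mixed space. -/
theorem HasLipschitzFrontier.euclidean (h : HasLipschitzFrontier K) :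
    ∃ (d : ℕ) (J : Type) (_ : Fintype J) (ψ : J → (Fin d → ℝ) → euclidean.mixedSpace K)
      (Kc : NNReal), d + 1 = Module.finrank ℚ K ∧ (∀ j, LipschitzWith Kc (ψ j)) ∧
      frontier (toMixed K ⁻¹' normLeOne K) ⊆ ⋃ j, ψ j '' Set.Icc (0 : Fin d → ℝ) 1 := by
  obtain ⟨d, J, hJ, φ, Kc, hd, hφ, hfr⟩ := h
  choose ψ hψ hψim using fun j => exists_lipschitzWith_of_lipschitzOnWith (hφ j)
  set e : mixedSpace K ≃L[ℝ] euclidean.mixedSpace K := (toMixed K).symm with he
  refine ⟨d, J, hJ, fun j => e ∘ ψ j, ‖(e : mixedSpace K →L[ℝ] euclidean.mixedSpace K)‖₊ * Kc, hd,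
    fun j => e.lipschitz.comp (hψ j), ?_⟩
  have h1 : frontier (toMixed K ⁻¹' normLeOne K) = toMixed K ⁻¹' frontier (normLeOne K) :=
    ((toMixed K).toHomeomorph.preimage_frontier _).symm
  rw [h1]
  intro x hx
  obtain ⟨j, hj⟩ := Set.mem_iUnion.mp (hfr hx)
  rw [← hψim j] at hj
  obtain ⟨u, hu, hux⟩ := hj
  refine Set.mem_iUnion.mpr ⟨j, u, hu, ?_⟩
  simp only [Function.comp_apply, hux, he]
  exact (toMixed K).symm_apply_apply x

open scoped Classical in
variable {K} in
/-- Counting points of `idealSet K J` of bounded norm, with error term. -/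
theorem exists_abs_card_idealSet_sub_le (h : HasLipschitzFrontier K) (J : (Ideal (𝓞 K))⁰) :
    ∃ C : ℝ, 0 ≤ C ∧ ∀ c : ℝ, 1 ≤ c →
      |(Nat.card {a : idealSet K J // mixedEmbedding.norm (a : mixedSpace K) ≤ c} : ℝ) -
        c * (volume.real (normLeOne K) /
          ZLattice.covolume (idealLattice K (FractionalIdeal.mk0 K J)))| ≤
        C * c ^ (1 - 1 / (Module.finrank ℚ K : ℝ)) := by
  obtain ⟨d, J', hJ', ψ, Kc, hd, hψ, hfr⟩ := h.euclidean
  have hX : ∀ ⦃x : euclidean.mixedSpace K⦄ ⦃r : ℝ⦄, x ∈ toMixed K ⁻¹' fundamentalCone K → 0 < r →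
      r • x ∈ toMixed K ⁻¹' fundamentalCone K := by
    intro x r hx hr
    rwa [Set.mem_preimage, map_smul, smul_mem_iff_mem hr.ne']
  have hF : ∀ (x : euclidean.mixedSpace K) ⦃r : ℝ⦄, 0 ≤ r →
      mixedEmbedding.norm (toMixed K (r • x)) =
        r ^ finrank ℝ (euclidean.mixedSpace K) * mixedEmbedding.norm (toMixed K x) := by
    intro x r hr
    rw [map_smul, mixedEmbedding.norm_smul, euclidean.finrank, abs_of_nonneg hr]
  have hb : Bornology.IsBounded {x | x ∈ toMixed K ⁻¹' fundamentalCone K ∧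
      mixedEmbedding.norm (toMixed K x) ≤ 1} := by
    rw [setOf_eq_preimage_normLeOne]
    exact (toMixed K).antilipschitz.isBounded_preimage (isBounded_normLeOne K)
  have hm : MeasurableSet {x | x ∈ toMixed K ⁻¹' fundamentalCone K ∧
      mixedEmbedding.norm (toMixed K x) ≤ 1} := by
    rw [setOf_eq_preimage_normLeOne]
    exact (toMixed K).continuous.measurable (measurableSet_normLeOne K)
  have hfr' : frontier {x | x ∈ toMixed K ⁻¹' fundamentalCone K ∧
      mixedEmbedding.norm (toMixed K x) ≤ 1} ⊆ ⋃ j, ψ j '' Set.Icc (0 : Fin d → ℝ) 1 := by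
    rw [setOf_eq_preimage_normLeOne]
    exact hfr
  obtain ⟨C, hC, hmain⟩ := LatticeCount.exists_abs_card_le_sub_le'
    (ZLattice.comap ℝ (idealLattice K (FractionalIdeal.mk0 K J)) (toMixed K).toLinearMap)
    (X := toMixed K ⁻¹' fundamentalCone K) (F := fun x => mixedEmbedding.norm (toMixed K x))
    hX hF hb hm ψ Kc hψ hfr'
  refine ⟨C, hC, fun c hc => ?_⟩
  have := hmain c hc
  rw [Nat.card_congr (equivAux₂ K J c), setOf_eq_preimage_normLeOne, measureReal_def,
    (volumePreserving_toMixed K).measure_preimage (measurableSet_normLeOne K).nullMeasurableSet,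
    ← measureReal_def, ZLattice.covolume_comap _ _ _ (volumePreserving_toMixed K),
    euclidean.finrank] at this
  have hn : (finrank ℚ K : ℝ) ≠ 0 := Nat.cast_ne_zero.mpr (finrank_pos).ne'
  have hexp : (d : ℝ) / (finrank ℚ K : ℝ) = 1 - 1 / (finrank ℚ K : ℝ) := by
    rw [← hd]
    push_cast
    field_simp
    ring
  rwa [hexp] at this

open scoped Classical in
variable {K} in
/-- **COUNT-3** (from the COUNT-2 hypothesis): the number of integral ideals of norm `≤ x` in a
class `c` of the class group is `κ x + O(x ^ (1 - 1/n))`, with `κ` independent of `c`. -/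
theorem card_norm_le_and_mk_eq_sub_le_of (h : HasLipschitzFrontier K) :
    ∃ κ C : ℝ, ∀ (c : ClassGroup (𝓞 K)) (x : ℝ), 1 ≤ x →
      |(Nat.card {I : (Ideal (𝓞 K))⁰ //
          absNorm (I : Ideal (𝓞 K)) ≤ x ∧ ClassGroup.mk0 I = c} : ℝ) - κ * x| ≤
        C * x ^ (1 - 1 / (Module.finrank ℚ K : ℝ)) := by
  have hsurj : ∀ c : ClassGroup (𝓞 K), ∃ J : (Ideal (𝓞 K))⁰, ClassGroup.mk0 J = c⁻¹ :=
    fun c => ClassGroup.mk0_surjective c⁻¹
  choose J hJ using hsurj
  choose C hC hmain using fun c => exists_abs_card_idealSet_sub_le h (J c)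
  set D : ℝ := (2⁻¹) ^ nrComplexPlaces K * √|discr K| with hD
  have hDpos : 0 < D := by
    have : (0 : ℝ) < |(discr K : ℝ)| := abs_pos.mpr (Int.cast_ne_zero.mpr (discr_ne_zero K))
    positivity
  set w : ℝ := (torsionOrder K : ℝ) with hw
  have hwpos : 0 < w := Nat.cast_pos.mpr (Nat.pos_of_ne_zero (torsionOrder_ne_zero K))
  set e : ℝ := 1 - 1 / (Module.finrank ℚ K : ℝ) with he
  have hN : ∀ c, (1 : ℝ) ≤ (absNorm ((J c : (Ideal (𝓞 K))⁰) : Ideal (𝓞 K)) : ℝ) := fun c => by
    exact_mod_cast absNorm_pos_of_nonZeroDivisors (J c)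
  have hcov : ∀ c, ZLattice.covolume (idealLattice K (FractionalIdeal.mk0 K (J c))) =
      (absNorm ((J c : (Ideal (𝓞 K))⁰) : Ideal (𝓞 K)) : ℝ) * D := by
    intro c
    rw [covolume_idealLattice, FractionalIdeal.coe_mk0, FractionalIdeal.coeIdeal_absNorm,
      Rat.cast_natCast, hD, mul_assoc]
  refine ⟨volume.real (normLeOne K) / (D * w),
    ∑ c, C c * (absNorm ((J c : (Ideal (𝓞 K))⁰) : Ideal (𝓞 K)) : ℝ) ^ e / w, fun c x hx => ?_⟩
  have hx0 : 0 < x := lt_of_lt_of_le one_pos hx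
  set N : ℝ := (absNorm ((J c : (Ideal (𝓞 K))⁰) : Ideal (𝓞 K)) : ℝ) with hNdef
  have hN1 : 1 ≤ N := hN c
  have hN0 : 0 < N := lt_of_lt_of_le one_pos hN1
  have h1 := hmain c (x * N) (one_le_mul_of_one_le_of_one_le hx hN1)
  rw [← card_isPrincipal_dvd_norm_le, ← card_mk_eq_aux₁ (hJ c), hcov c] at h1
  set P : ℝ := (Nat.card {I : (Ideal (𝓞 K))⁰ //
          absNorm (I : Ideal (𝓞 K)) ≤ x ∧ ClassGroup.mk0 I = c} : ℝ) with hP
  have h2 : ((Nat.card {I : (Ideal (𝓞 K))⁰ //
          absNorm (I : Ideal (𝓞 K)) ≤ x ∧ ClassGroup.mk0 I = c} * torsionOrder K : ℕ) : ℝ) -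
      x * N * (volume.real (normLeOne K) / (N * D)) =
      w * (P - volume.real (normLeOne K) / (D * w) * x) := by
    push_cast
    rw [← hP, ← hw]
    field_simp
  rw [h2, abs_mul, abs_of_pos hwpos, Real.mul_rpow hx0.le hN0.le] at h1
  have h3 : |P - volume.real (normLeOne K) / (D * w) * x| ≤ C c * N ^ e / w * x ^ e := by
    have h4 : C c * N ^ e / w * x ^ e = (C c * (x ^ e * N ^ e)) / w := by ring
    rw [h4, le_div_iff₀ hwpos, mul_comm _ w]
    exact h1
  refine h3.trans ?_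
  gcongr
  exact Finset.single_le_sum (f := fun c => C c *
    (absNorm ((J c : (Ideal (𝓞 K))⁰) : Ideal (𝓞 K)) : ℝ) ^ e / w)
    (fun c _ => by have := hC c; have := hN c; positivity) (Finset.mem_univ c)

end IdealCount

end Fermat.Agent.S14
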