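import Mathlib

/-!
# S14, COUNT-2: the frontier of `normLeOne K` is Lipschitz-parametrisable

Let `K` be a number field of degree `n` and
`normLeOne K = fundamentalCone K ∩ {x | mixedEmbedding.norm x ≤ 1}` (in `mixedSpace K`).
We show that `frontier (normLeOne K)` is covered by finitely many Lipschitz images of the unit
cube `[0,1]^(n-1)` (Marcus, *Number Fields*, Chapter 6).  This is the hypothesis consumed by the
lattice-point count with error term of `Fermat/Agent/S14/LatticeCount.lean`.

Strategy: `normLeOne K = normAtAllPlaces ⁻¹' (expMapBasis '' paramSet K)` (Mathlib), the closure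
is contained in `normAtAllPlaces ⁻¹' compactSet K` and the preimage of
`expMapBasis '' interior (paramSet K)` is contained in the interior.  We parametrise
`normAtAllPlaces ⁻¹' compactSet K` by a smooth map `frontierMap K ε` defined on `ℝ^n`
(`n = r₁ + 2 r₂`: one parameter `c = exp (x w₀) ∈ [0,1]`, `r₁ + r₂ - 1` parameters for the units,
`r₂` angles; `ε` is the choice of signs at the real places) and show that frontier points come
from the boundary of the unit cube.  A smooth map is Lipschitz on the (compact, convex) cube and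
the boundary of the cube is the union of `2 n` faces, each a `1`-Lipschitz image of `[0,1]^(n-1)`.

Main statements:
* `exists_lipschitzOnWith_cover_frontier_normLeOne`
* `exists_lipschitzWith_cover_frontier_normLeOne` (globally Lipschitz maps; index type `Fin m`)
* `exists_fintype_lipschitzWith_cover_frontier_normLeOne` (index type an arbitrary `Fintype`).
-/

set_option autoImplicit false

namespace Fermat.Agent.S14

/-- Parametrisation of the face `{p ∈ [0,1]^ι | p j = b}` of the unit cube by `[0,1]^m`,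
`m + 1 = card ι`. -/
theorem exists_face_param {ι : Type*} [Fintype ι] {m : ℕ} (h : Fintype.card ι = m + 1)
    (j : ι) (b : ℝ) (hb : b ∈ Set.Icc (0 : ℝ) 1) :
    ∃ f : (Fin m → ℝ) → (ι → ℝ), LipschitzWith 1 f ∧
      Set.MapsTo f (Set.Icc 0 1) (Set.Icc 0 1) ∧
      {p : ι → ℝ | p ∈ Set.Icc (0 : ι → ℝ) 1 ∧ p j = b} ⊆ f '' Set.Icc 0 1 := by
  classical
  let e : ι ≃ Fin (m + 1) := Fintype.equivFinOfCardEq h
  refine ⟨fun q i => Fin.insertNth (α := fun _ => ℝ) (e j) b q (e i), ?_, ?_, ?_⟩
  · refine LipschitzWith.of_dist_le_mul fun q q' => ?_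
    rw [NNReal.coe_one, one_mul]
    refine (dist_pi_le_iff dist_nonneg).2 fun i => ?_
    rcases Fin.eq_self_or_eq_succAbove (e j) (e i) with hi | ⟨k, hk⟩
    · rw [hi]; simp
    · rw [hk]; simpa using dist_le_pi_dist q q' k
  · intro q hq
    rw [Set.mem_Icc, Pi.le_def, Pi.le_def] at hq ⊢
    constructor
    · intro i
      dsimp only
      rcases Fin.eq_self_or_eq_succAbove (e j) (e i) with hi | ⟨k, hk⟩
      · rw [hi]; simpa using hb.1
      · rw [hk]; simpa using hq.1 k
    · intro i
      dsimp only
      rcases Fin.eq_self_or_eq_succAbove (e j) (e i) with hi | ⟨k, hk⟩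
      · rw [hi]; simpa using hb.2
      · rw [hk]; simpa using hq.2 k
  · rintro p ⟨hp, hpj⟩
    refine ⟨fun k => p (e.symm ((e j).succAbove k)), ?_, ?_⟩
    · rw [Set.mem_Icc, Pi.le_def, Pi.le_def] at hp ⊢
      exact ⟨fun k => hp.1 _, fun k => hp.2 _⟩
    · funext i
      dsimp only
      rcases Fin.eq_self_or_eq_succAbove (e j) (e i) with hi | ⟨k, hk⟩
      · have : i = j := e.injective hi
        rw [hi]; simp [this, hpj]
      · rw [hk, Fin.insertNth_apply_succAbove, ← hk, Equiv.symm_apply_apply]

/-- The coordinatewise retraction of `ι → ℝ` onto the unit cube. -/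
noncomputable def cubeClamp {ι : Type*} (q : ι → ℝ) : ι → ℝ := fun i => max 0 (min 1 (q i))

theorem cubeClamp_mem_Icc {ι : Type*} (q : ι → ℝ) : cubeClamp q ∈ Set.Icc (0 : ι → ℝ) 1 := by
  rw [Set.mem_Icc, Pi.le_def, Pi.le_def]
  refine ⟨fun i => le_max_left _ _, fun i => max_le zero_le_one (min_le_left _ _)⟩

theorem cubeClamp_of_mem_Icc {ι : Type*} {q : ι → ℝ} (hq : q ∈ Set.Icc (0 : ι → ℝ) 1) :
    cubeClamp q = q := by
  rw [Set.mem_Icc, Pi.le_def, Pi.le_def] at hq
  funext i
  have h0 : (0 : ℝ) ≤ q i := hq.1 i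
  have h1 : q i ≤ 1 := hq.2 i
  rw [cubeClamp, min_eq_right h1, max_eq_right h0]

theorem lipschitzWith_cubeClamp {ι : Type*} [Fintype ι] :
    LipschitzWith 1 (cubeClamp : (ι → ℝ) → (ι → ℝ)) := by
  refine LipschitzWith.of_dist_le_mul fun q q' => ?_
  rw [NNReal.coe_one, one_mul]
  refine (dist_pi_le_iff dist_nonneg).2 fun i => ?_
  have h : LipschitzWith 1 (fun t : ℝ => max 0 (min 1 t)) :=
    (LipschitzWith.id.const_min 1).const_max 0
  have := h.dist_le_mul (q i) (q' i)
  rw [NNReal.coe_one, one_mul] at this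
  exact this.trans (dist_le_pi_dist q q' i)

open NumberField NumberField.InfinitePlace NumberField.mixedEmbedding NumberField.Units
  NumberField.Units.dirichletUnitTheorem NumberField.mixedEmbedding.fundamentalCone

noncomputable section

open scoped Classical

variable (K : Type*) [Field K] [NumberField K]

/-- The radial map `q ↦ q w₀ • expMapBasis (q with the `w₀`-coordinate set to `0`)`. -/
def coneMap (q : realSpace K) : realSpace K :=
  q w₀ • expMapBasis (fun w => if w = w₀ then 0 else q w)

theorem contDiff_expMapBasis :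
    ContDiff ℝ ⊤ (fun x : realSpace K => (expMapBasis x : realSpace K)) := by
  rw [contDiff_pi]
  intro w
  have : (fun x : realSpace K => (expMapBasis x : realSpace K) w) =
      fun x => Real.exp ((↑w.mult)⁻¹ * ((completeBasis K).equivFunL.symm x) w) := by
    ext x; rfl
  rw [this]
  fun_prop

theorem contDiff_coneMap : ContDiff ℝ ⊤ (coneMap K) := by
  unfold coneMap
  refine ContDiff.smul (contDiff_apply ℝ ℝ w₀) ?_
  refine (contDiff_expMapBasis K).comp ?_
  rw [contDiff_pi]
  intro w
  split_ifs
  · exact contDiff_const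
  · exact contDiff_apply ℝ ℝ w

/-- The index type of the parameters: one parameter for each infinite place (the "radial"
parameters) and one more for each complex place (the angle). -/
abbrev ParamIdx : Type _ := InfinitePlace K ⊕ {w : InfinitePlace K // IsComplex w}

theorem card_paramIdx : Fintype.card (ParamIdx K) = Module.finrank ℚ K := by
  rw [Fintype.card_sum, ← card_add_two_mul_card_eq_rank, card_eq_nrRealPlaces_add_nrComplexPlaces]
  unfold nrComplexPlaces
  ring

/-- The master parametrisation: signs at the real places, polar coordinates at the complex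
places, `coneMap` for the absolute values. -/
def frontierMap (ε : {w : InfinitePlace K // IsReal w} → Bool) (p : ParamIdx K → ℝ) :
    mixedSpace K :=
  (fun w => (if ε w then 1 else -1) * coneMap K (fun v => p (Sum.inl v)) w.1,
   fun w => (coneMap K (fun v => p (Sum.inl v)) w.1 : ℂ) *
      Complex.exp (((2 * Real.pi * p (Sum.inr w) - Real.pi : ℝ) : ℂ) * Complex.I))

theorem contDiff_frontierMap (ε : {w : InfinitePlace K // IsReal w} → Bool) :
    ContDiff ℝ ⊤ (frontierMap K ε) := by
  have h1 : ContDiff ℝ ⊤ (fun p : ParamIdx K → ℝ => coneMap K (fun v => p (Sum.inl v))) := by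
    refine (contDiff_coneMap K).comp ?_
    rw [contDiff_pi]
    intro w
    exact contDiff_apply ℝ ℝ _
  have h2 : ∀ w : InfinitePlace K,
      ContDiff ℝ ⊤ (fun p : ParamIdx K → ℝ => coneMap K (fun v => p (Sum.inl v)) w) :=
    fun w => (contDiff_apply ℝ ℝ w).comp h1
  unfold frontierMap
  refine ContDiff.prodMk ?_ ?_
  · rw [contDiff_pi]
    intro w
    exact contDiff_const.mul (h2 w.1)
  · rw [contDiff_pi]
    intro w
    refine ContDiff.mul ?_ ?_
    · exact Complex.ofRealCLM.contDiff.comp (h2 w.1)
    · refine Complex.contDiff_exp.comp ?_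
      refine ContDiff.mul ?_ contDiff_const
      refine Complex.ofRealCLM.contDiff.comp ?_
      exact (contDiff_const.mul (contDiff_apply ℝ ℝ _)).sub contDiff_const

/-- `frontierMap K ε` is Lipschitz on the unit cube. -/
theorem exists_lipschitzOnWith_frontierMap (ε : {w : InfinitePlace K // IsReal w} → Bool) :
    ∃ L : NNReal, LipschitzOnWith L (frontierMap K ε) (Set.Icc (0 : ParamIdx K → ℝ) 1) :=
  (contDiff_frontierMap K ε).contDiffOn.exists_lipschitzOnWith (by simp) (convex_Icc _ _)
    isCompact_Icc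

/-- Every point of the frontier of `normLeOne K` is the image under some `frontierMap K ε` of a
point of the unit cube with (at least) one coordinate equal to `0` or `1`. -/
theorem exists_frontierMap_eq {x : mixedSpace K} (hx : x ∈ frontier (normLeOne K)) :
    ∃ (ε : {w : InfinitePlace K // IsReal w} → Bool) (p : ParamIdx K → ℝ) (j : ParamIdx K),
      p ∈ Set.Icc (0 : ParamIdx K → ℝ) 1 ∧ (p j = 0 ∨ p j = 1) ∧ frontierMap K ε p = x := by
  have h1 : normAtAllPlaces x ∈ compactSet K :=
    closure_normLeOne_subset K (frontier_subset_closure hx)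
  have h2 : normAtAllPlaces x ∉ expMapBasis '' interior (paramSet K) := fun h =>
    hx.2 (subset_interior_normLeOne K h)
  obtain ⟨c, hc, _, ⟨y, hy, rfl⟩, hcy⟩ := h1
  rw [Set.mem_univ_pi] at hy
  have hy0 : y w₀ = 0 := by simpa using hy w₀
  have hyw : ∀ w, w ≠ w₀ → y w ∈ Set.Icc (0 : ℝ) 1 := fun w hw => by simpa [hw] using hy w
  -- the radial parameters
  set q : realSpace K := fun w => if w = w₀ then c else y w with hq
  have hqy : (fun w => if w = w₀ then 0 else q w) = y := by
    funext w
    by_cases hw : w = w₀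
    · simp [hw, hy0]
    · simp [hq, hw]
  have hcone : coneMap K q = normAtAllPlaces x := by
    rw [coneMap, hqy, ← hcy]
    simp [hq]
  set θ : {w : InfinitePlace K // IsComplex w} → ℝ :=
    fun w => (Complex.arg (x.2 w) + Real.pi) / (2 * Real.pi) with hθ
  set p : ParamIdx K → ℝ := Sum.elim q θ with hp
  have hpi : 0 < 2 * Real.pi := by positivity
  have hq01 : ∀ w, q w ∈ Set.Icc (0 : ℝ) 1 := by
    intro w
    by_cases hw : w = w₀
    · simpa [hq, hw] using hc
    · simpa [hq, hw] using hyw w hw
  have hθ01 : ∀ w, θ w ∈ Set.Icc (0 : ℝ) 1 := by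
    intro w
    have h1 := Complex.neg_pi_lt_arg (x.2 w)
    have h2 := Complex.arg_le_pi (x.2 w)
    constructor
    · exact div_nonneg (by linarith) hpi.le
    · rw [hθ]; dsimp only; rw [div_le_one hpi]; linarith
  have hp01 : p ∈ Set.Icc (0 : ParamIdx K → ℝ) 1 := by
    rw [Set.mem_Icc, Pi.le_def, Pi.le_def]
    constructor
    · rintro (w | w)
      · exact (hq01 w).1
      · exact (hθ01 w).1
    · rintro (w | w)
      · exact (hq01 w).2
      · exact (hθ01 w).2
  refine ⟨fun w => decide (0 ≤ x.1 w), p, ?_⟩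
  -- the point lies on the boundary of the cube
  have hbd : ∃ w, q w = 0 ∨ q w = 1 := by
    by_contra hcon
    have hq01' : ∀ w, 0 < q w ∧ q w < 1 := fun w =>
      ⟨lt_of_le_of_ne (hq01 w).1 fun h => hcon ⟨w, Or.inl h.symm⟩,
        lt_of_le_of_ne (hq01 w).2 fun h => hcon ⟨w, Or.inr h⟩⟩
    have hc0 : 0 < c ∧ c < 1 := by simpa [hq] using hq01' w₀
    apply h2
    refine ⟨fun w => if w = w₀ then Real.log c else y w, ?_, ?_⟩
    · rw [interior_paramSet, Set.mem_univ_pi]
      intro w
      by_cases hw : w = w₀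
      · simpa [hw] using Real.log_neg hc0.1 hc0.2
      · simpa [hw, hq] using hq01' w
    · rw [expMapBasis_apply'', if_pos rfl, Real.exp_log hc0.1, ← hcy]
      congr 2
      funext w
      by_cases hw : w = w₀
      · simp [hw, hy0]
      · simp [hw]
  obtain ⟨w, hw⟩ := hbd
  refine ⟨Sum.inl w, hp01, by simpa [hp] using hw, ?_⟩
  -- the image is `x`
  have hpq : (fun v => p (Sum.inl v)) = q := by
    funext v; simp [hp]
  rw [frontierMap, hpq, hcone]
  refine Prod.ext ?_ ?_
  · funext w
    simp only [normAtPlace_apply_of_isReal w.2, decide_eq_true_eq, Real.norm_eq_abs]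
    split_ifs with h
    · rw [one_mul, abs_of_nonneg h]
    · rw [abs_of_neg (not_le.1 h)]; ring
  · funext w
    simp only [normAtPlace_apply_of_isComplex w.2]
    have : (2 * Real.pi * p (Sum.inr w) - Real.pi : ℝ) = Complex.arg (x.2 w) := by
      simp only [hp, Sum.elim_inr, hθ]
      field_simp
      ring
    rw [this]
    exact Complex.norm_mul_exp_arg_mul_I _

/-- **COUNT-2**, `LipschitzOnWith` form: the frontier of `normLeOne K` is covered by finitely many
images of the unit cube `[0,1]^d`, `d + 1 = [K : ℚ]`, under maps that are Lipschitz on the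
cube. -/
theorem exists_lipschitzOnWith_cover_frontier_normLeOne {d : ℕ}
    (hd : d + 1 = Module.finrank ℚ K) :
    ∃ (m : ℕ) (φ : Fin m → (Fin d → ℝ) → mixedSpace K) (L : NNReal),
      (∀ i, LipschitzOnWith L (φ i) (Set.Icc (0 : Fin d → ℝ) 1)) ∧
      frontier (normLeOne K) ⊆ ⋃ i, φ i '' Set.Icc (0 : Fin d → ℝ) 1 := by
  have hcard : Fintype.card (ParamIdx K) = d + 1 := by rw [card_paramIdx, hd]
  -- Lipschitz constants of the master maps
  choose L₀ hL₀ using exists_lipschitzOnWith_frontierMap K
  -- the faces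
  have hface : ∀ (j : ParamIdx K) (b : Bool),
      ∃ f : (Fin d → ℝ) → (ParamIdx K → ℝ), LipschitzWith 1 f ∧
        Set.MapsTo f (Set.Icc 0 1) (Set.Icc 0 1) ∧
        {p : ParamIdx K → ℝ | p ∈ Set.Icc (0 : ParamIdx K → ℝ) 1 ∧
          p j = (if b then 1 else 0)} ⊆ f '' Set.Icc 0 1 := by
    intro j b
    refine exists_face_param hcard j _ ?_
    cases b <;> simp
  choose f hf1 hf2 hf3 using hface
  let J := ({w : InfinitePlace K // IsReal w} → Bool) × ParamIdx K × Bool
  let e : J ≃ Fin (Fintype.card J) := Fintype.equivFin J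
  let L : NNReal := Finset.univ.sup L₀
  refine ⟨Fintype.card J, fun i => frontierMap K (e.symm i).1 ∘ f (e.symm i).2.1 (e.symm i).2.2,
    L, ?_, ?_⟩
  · intro i
    have h := ((hL₀ (e.symm i).1).weaken
      (Finset.le_sup (f := L₀) (Finset.mem_univ (e.symm i).1))).comp
        ((hf1 (e.symm i).2.1 (e.symm i).2.2).lipschitzOnWith (s := Set.Icc 0 1))
        (hf2 (e.symm i).2.1 (e.symm i).2.2)
    simpa using h
  · intro x hx
    obtain ⟨ε, p, j, hp, hpj, rfl⟩ := exists_frontierMap_eq K hx
    have : ∃ b : Bool, p j = (if b then 1 else 0) := by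
      rcases hpj with h | h
      · exact ⟨false, by simpa using h⟩
      · exact ⟨true, by simpa using h⟩
    obtain ⟨b, hb⟩ := this
    obtain ⟨q, hq, rfl⟩ := hf3 j b ⟨hp, hb⟩
    refine Set.mem_iUnion.2 ⟨e (ε, j, b), q, hq, ?_⟩
    simp

/-- **COUNT-2**, `LipschitzWith` form: the frontier of `normLeOne K` is covered by finitely many
images of the unit cube `[0,1]^d`, `d + 1 = [K : ℚ]`, under (globally) Lipschitz maps. -/
theorem exists_lipschitzWith_cover_frontier_normLeOne {d : ℕ}
    (hd : d + 1 = Module.finrank ℚ K) :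
    ∃ (m : ℕ) (φ : Fin m → (Fin d → ℝ) → mixedSpace K) (L : NNReal),
      (∀ i, LipschitzWith L (φ i)) ∧
      frontier (normLeOne K) ⊆ ⋃ i, φ i '' Set.Icc (0 : Fin d → ℝ) 1 := by
  obtain ⟨m, φ, L, hφ, hcov⟩ := exists_lipschitzOnWith_cover_frontier_normLeOne K hd
  refine ⟨m, fun i => φ i ∘ cubeClamp, L, fun i => ?_, ?_⟩
  · have h := (hφ i).comp (lipschitzWith_cubeClamp.lipschitzOnWith (s := Set.univ))
      (fun q _ => cubeClamp_mem_Icc q)
    rw [lipschitzOnWith_univ] at h
    simpa using h
  · refine hcov.trans (Set.iUnion_mono fun i => ?_)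
    rintro _ ⟨q, hq, rfl⟩
    exact ⟨q, hq, by simp [cubeClamp_of_mem_Icc hq]⟩

/-- **COUNT-2**, in the shape consumed by `LatticeCount`: an arbitrary finite index type `J : Type`,
globally Lipschitz maps. -/
theorem exists_fintype_lipschitzWith_cover_frontier_normLeOne {d : ℕ}
    (hd : d + 1 = Module.finrank ℚ K) :
    ∃ (J : Type) (_ : Fintype J) (φ : J → (Fin d → ℝ) → mixedSpace K) (Kc : NNReal),
      (∀ j, LipschitzWith Kc (φ j)) ∧
      frontier (normLeOne K) ⊆ ⋃ j, φ j '' Set.Icc (0 : Fin d → ℝ) 1 := by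
  obtain ⟨m, φ, L, hφ, hcov⟩ := exists_lipschitzWith_cover_frontier_normLeOne K hd
  exact ⟨Fin m, inferInstance, φ, L, hφ, hcov⟩

end

end Fermat.Agent.S14
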