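import Fermat.Agent.S14.ClassLSeries
import Fermat.Agent.S14.IdealCountLip
import Fermat.Agent.S14.NormLeOneLipschitz

/-!
# S14, piece LFUN (final form): class group `L`-series of nontrivial characters are bounded

Assembly of
* `ClassLSeries.lean` (LFUN, conditional on the ideal counting estimate),
* `IdealCountLip.lean` (COUNT-3 from the Lipschitz frontier hypothesis, using COUNT-1),
* `NormLeOneLipschitz.lean` (COUNT-2: the frontier of `normLeOne` is Lipschitz parametrisable).

Main result: `classLSeries_bounded`: for a number field `F` and a nontrivial character `χ` of its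
class group, `s ↦ classLSeries F χ s` is bounded on `(1, 2]`.
-/

set_option autoImplicit false

open NumberField

namespace Fermat.Agent.S14

variable (F : Type*) [Field F] [NumberField F]

/-- COUNT-2 in the shape consumed by COUNT-3. -/
theorem lfun_hasLipschitzFrontier : IdealCount.HasLipschitzFrontier F := by
  classical
  have hpos : 0 < Module.finrank ℚ F := Module.finrank_pos
  obtain ⟨d, hd⟩ : ∃ d, d + 1 = Module.finrank ℚ F := ⟨Module.finrank ℚ F - 1, by omega⟩
  obtain ⟨m, φ, L, hφ, hcov⟩ := exists_lipschitzOnWith_cover_frontier_normLeOne F hd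
  exact ⟨d, Fin m, inferInstance, φ, L, hd, hφ, hcov⟩

/-- **COUNT** (unconditional): the number of nonzero integral ideals of norm `≤ x` in a class `c`
is `κ x + O(x ^ (1 - 1 / [F : ℚ]))`, with `κ` and the implied constant independent of `c`. -/
theorem card_norm_le_and_mk_eq_sub_le :
    ∃ κ C : ℝ, ∀ (c : ClassGroup (𝓞 F)) (x : ℝ), 1 ≤ x →
      |(Nat.card {I : (nonZeroDivisors (Ideal (𝓞 F))) //
          Ideal.absNorm (I : Ideal (𝓞 F)) ≤ x ∧ ClassGroup.mk0 I = c} : ℝ) - κ * x| ≤
        C * x ^ (1 - 1 / (Module.finrank ℚ F : ℝ)) :=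
  IdealCount.card_norm_le_and_mk_eq_sub_le_of (lfun_hasLipschitzFrontier F)

variable {F}

/-- **LFUN**: the `L`-series of a nontrivial character of the class group of a number field is
bounded on `(1, 2]`. -/
theorem classLSeries_bounded (χ : ClassGroup (𝓞 F) →* ℂˣ) (hχ : χ ≠ 1) :
    ∃ B : ℝ, ∀ s : ℝ, 1 < s → s ≤ 2 → ‖classLSeries F χ s‖ ≤ B :=
  classLSeries_bounded_of_count (card_norm_le_and_mk_eq_sub_le F) χ hχ

end Fermat.Agent.S14
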