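import Mathlib
import Fermat.Agent.S14.SecondCore
import Fermat.Agent.S14.ClassLSeriesBounded

/-!
# S14 / SECOND : glue between the analytic core and the class group `L`-series

`twist F χ s : Ideal (𝓞 F) →*₀ ℂ` is `I ↦ χ([I]) N(I)^(-s)`; from the general ideal Euler product
(hypothesis `hEP`) we get the Euler products of `‖classLSeries F χ s‖` and `‖dedekindZeta F s‖` in
the shape used by `SecondCore`, and the universal norm index inequality follows.
-/

set_option autoImplicit false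

open NumberField IsDedekindDomain Filter Topology nonZeroDivisors

namespace Fermat.Agent.S14.Second

variable (F : Type*) [Field F] [NumberField F]

open Classical in
/-- The twisted norm character `I ↦ χ([I]) N(I)^(-s)` on ideals, extended by `0` at `⊥`. -/
noncomputable def twist (χ : ClassGroup (𝓞 F) →* ℂˣ) (s : ℝ) :
    Ideal (𝓞 F) →*₀ ℂ where
  toFun I := if h : I ∈ (Ideal (𝓞 F))⁰ then classTerm χ s ⟨I, h⟩ else 0
  map_zero' := by
    rw [dif_neg]
    simp
  map_one' := by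
    rw [dif_pos (one_mem _)]
    have : (⟨1, one_mem _⟩ : (Ideal (𝓞 F))⁰) = 1 := rfl
    rw [classTerm, this, map_one, map_one, Units.val_one, one_mul]
    simp
  map_mul' I J := by
    by_cases hI : I ∈ (Ideal (𝓞 F))⁰
    · by_cases hJ : J ∈ (Ideal (𝓞 F))⁰
      · rw [dif_pos hI, dif_pos hJ, dif_pos (mul_mem hI hJ)]
        have : (⟨I * J, mul_mem hI hJ⟩ : (Ideal (𝓞 F))⁰) = ⟨I, hI⟩ * ⟨J, hJ⟩ := rfl
        rw [classTerm, classTerm, classTerm, this, map_mul, map_mul, Units.val_mul]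
        simp only [Submonoid.coe_mul, map_mul, Nat.cast_mul]
        rw [Complex.natCast_mul_natCast_cpow]
        ring
      · rw [dif_neg hJ, mul_zero, dif_neg]
        intro h
        exact hJ (mem_nonZeroDivisors_of_ne_zero fun h0 => by
          have := nonZeroDivisors.ne_zero h
          exact this (by rw [h0, mul_zero]))
    · rw [dif_neg hI, zero_mul, dif_neg]
      intro h
      exact hI (mem_nonZeroDivisors_of_ne_zero fun h0 => by
        have := nonZeroDivisors.ne_zero h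
        exact this (by rw [h0, zero_mul]))

theorem twist_apply_of_mem (χ : ClassGroup (𝓞 F) →* ℂˣ) (s : ℝ) (I : (Ideal (𝓞 F))⁰) :
    twist F χ s (I : Ideal (𝓞 F)) = classTerm χ s I := by
  unfold twist
  simp only [MonoidWithZeroHom.coe_mk, ZeroHom.coe_mk]
  rw [dif_pos I.2]

theorem twist_apply_of_not_mem (χ : ClassGroup (𝓞 F) →* ℂˣ) (s : ℝ) {I : Ideal (𝓞 F)}
    (h : I ∉ (Ideal (𝓞 F))⁰) : twist F χ s I = 0 := by
  unfold twist
  simp only [MonoidWithZeroHom.coe_mk, ZeroHom.coe_mk]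
  rw [dif_neg h]

theorem summable_norm_twist (χ : ClassGroup (𝓞 F) →* ℂˣ) {s : ℝ} (hs : 1 < s) :
    Summable fun I : Ideal (𝓞 F) => ‖twist F χ s I‖ := by
  have h := classLSeries_summable χ hs
  have hinj : Function.Injective (Subtype.val : (Ideal (𝓞 F))⁰ → Ideal (𝓞 F)) :=
    Subtype.val_injective
  refine (hinj.summable_iff ?_).mp ?_
  · intro I hI
    have : I ∉ (Ideal (𝓞 F))⁰ := fun h => hI ⟨⟨I, h⟩, rfl⟩
    rw [twist_apply_of_not_mem F χ s this, norm_zero]
  · refine h.congr fun I => ?_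
    simp only [Function.comp_apply]
    rw [twist_apply_of_mem]
    rfl

theorem tsum_twist (χ : ClassGroup (𝓞 F) →* ℂˣ) (s : ℝ) :
    ∑' I : Ideal (𝓞 F), twist F χ s I = classLSeries F χ s := by
  rw [classLSeries_eq_tsum_classTerm]
  have hinj : Function.Injective (Subtype.val : (Ideal (𝓞 F))⁰ → Ideal (𝓞 F)) :=
    Subtype.val_injective
  rw [← hinj.tsum_eq (f := fun I => twist F χ s I)]
  · exact tsum_congr fun I => twist_apply_of_mem F χ s I
  · intro I hI
    by_contra hmem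
    apply hI
    exact twist_apply_of_not_mem F χ s fun h => hmem ⟨⟨I, h⟩, rfl⟩

theorem twist_apply_prime (χ : ClassGroup (𝓞 F) →* ℂˣ) (s : ℝ) (v : HeightOneSpectrum (𝓞 F)) :
    twist F χ s v.asIdeal = ((χ (cls F v) : ℂˣ) : ℂ) * ((nrm F v ^ (-s) : ℝ) : ℂ) := by
  have hmem : v.asIdeal ∈ (Ideal (𝓞 F))⁰ := mem_nonZeroDivisors_of_ne_zero v.ne_bot
  have := twist_apply_of_mem F χ s ⟨v.asIdeal, hmem⟩
  rw [this, classTerm]
  congr 1
  unfold nrm
  rw [Complex.ofReal_cpow (Nat.cast_nonneg _), Complex.ofReal_natCast, Complex.ofReal_neg]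

section EP

variable
  (hEP : ∀ f : Ideal (𝓞 F) →*₀ ℂ, (Summable fun I : Ideal (𝓞 F) => ‖f I‖) →
    HasProd (fun v : HeightOneSpectrum (𝓞 F) => (1 - f v.asIdeal)⁻¹) (∑' I : Ideal (𝓞 F), f I))

include hEP in
theorem hasProd_norm_classLSeries (χ : ClassGroup (𝓞 F) →* ℂˣ) {s : ℝ} (hs : 1 < s) :
    HasProd (fun v : HeightOneSpectrum (𝓞 F) =>
      ‖(1 - ((χ (cls F v) : ℂˣ) : ℂ) * ((nrm F v ^ (-s) : ℝ) : ℂ))⁻¹‖) ‖classLSeries F χ s‖ := by
  have h := (hEP (twist F χ s) (summable_norm_twist F χ hs)).norm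
  rw [tsum_twist] at h
  convert h using 2 with v
  rw [twist_apply_prime]

include hEP in
theorem hasProd_norm_dedekindZeta {s : ℝ} (hs : 1 < s) :
    HasProd (fun v : HeightOneSpectrum (𝓞 F) => (1 - nrm F v ^ (-s))⁻¹)
      ‖dedekindZeta F s‖ := by
  have h := hasProd_norm_classLSeries F hEP 1 hs
  rw [classLSeries_one hs] at h
  convert h using 2 with v
  have h0 := xs_pos F v s
  have h1 := xs_lt_one F v hs.le
  unfold xs at h0 h1
  rw [MonoidHom.one_apply, Units.val_one, one_mul, norm_inv]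
  congr 1
  have : (1 : ℂ) - ((nrm F v ^ (-s) : ℝ) : ℂ) = ((1 - nrm F v ^ (-s) : ℝ) : ℂ) := by
    push_cast; ring
  rw [this, Complex.norm_real, Real.norm_of_nonneg (by linarith)]

end EP

theorem tendsto_sub_one_mul_norm_dedekindZeta :
    Tendsto (fun s : ℝ => (s - 1) * ‖dedekindZeta F s‖) (𝓝[>] 1)
      (𝓝 (dedekindZeta_residue F)) := by
  have h := (tendsto_sub_one_mul_dedekindZeta_nhdsGT F).norm
  rw [Complex.norm_real, Real.norm_of_nonneg (dedekindZeta_residue_pos F).le] at h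
  refine h.congr' ?_
  filter_upwards [self_mem_nhdsWithin] with s hs
  have hs1 : (1 : ℝ) < s := hs
  rw [norm_mul]
  congr 1
  have : ((s : ℂ) - 1) = ((s - 1 : ℝ) : ℂ) := by push_cast; ring
  rw [this, Complex.norm_real, Real.norm_of_nonneg (by linarith)]

section Final

variable (M : Type*) [Field M] [NumberField M] [Algebra F M]

/-- **SECOND**, modulo the general ideal Euler product and the character product lemma. -/
theorem card_quotient_normClasses_le_of_eulerProduct
    (hEPF : ∀ f : Ideal (𝓞 F) →*₀ ℂ, (Summable fun I : Ideal (𝓞 F) => ‖f I‖) →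
      HasProd (fun v : HeightOneSpectrum (𝓞 F) => (1 - f v.asIdeal)⁻¹) (∑' I : Ideal (𝓞 F), f I))
    (hEPM : ∀ f : Ideal (𝓞 M) →*₀ ℂ, (Summable fun I : Ideal (𝓞 M) => ‖f I‖) →
      HasProd (fun v : HeightOneSpectrum (𝓞 M) => (1 - f v.asIdeal)⁻¹) (∑' I : Ideal (𝓞 M), f I))
    (hchar : ∀ [Fintype (Aq F M →* ℂˣ)] (a : Aq F M) (x : ℝ), 0 ≤ x → x < 1 →
      ∏ χ : Aq F M →* ℂˣ, ‖1 - ((χ a : ℂˣ) : ℂ) * (x : ℂ)‖ ≤ 1) :
    Nat.card (ClassGroup (𝓞 F) ⧸ normClasses F M) ≤ Module.finrank F M := by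
  have : Fintype (Aq F M →* ℂˣ) := Fintype.ofFinite _
  exact card_quotient_normClasses_le_of F M
    (fun s => ‖dedekindZeta F s‖) (fun s => ‖dedekindZeta M s‖)
    (fun χ s => ‖classLSeries F χ s‖)
    (fun s hs => hasProd_norm_dedekindZeta F hEPF hs)
    (fun s hs => hasProd_norm_dedekindZeta M hEPM hs)
    (fun χ s hs => hasProd_norm_classLSeries F hEPF χ hs)
    (fun a x h0 h1 => hchar a x h0 h1)
    (fun χ hχ => classLSeries_bounded χ hχ)
    (dedekindZeta_residue F) (dedekindZeta_residue M) (dedekindZeta_residue_pos M)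
    (tendsto_sub_one_mul_norm_dedekindZeta F) (tendsto_sub_one_mul_norm_dedekindZeta M)

end Final

end Fermat.Agent.S14.Second
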