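import Fermat.Agent.S14.Defs

/-!
# S14, piece FROB-A: basic properties of the Frobenius elements and of the Artin symbol

`F ⊆ M` number fields, `M/F` Galois (abelian where indicated).
-/

set_option autoImplicit false

open NumberField

namespace Fermat.Agent.S14

open scoped Pointwise

variable (F M : Type*) [Field F] [NumberField F] [Field M] [NumberField M] [Algebra F M]

section Galois

variable [IsGalois F M]

theorem frob_of_isPrime (𝔭 : Ideal (𝓞 F)) [h𝔭 : 𝔭.IsPrime] (h0 : 𝔭 ≠ ⊥) :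
    frob F M 𝔭 =
      (haveI := finite_quotient_primeOver F M 𝔭 h0
       arithFrobAt (𝓞 F) Gal(M/F) (primeOver F M 𝔭)) := by
  unfold frob
  rw [dif_pos ⟨h𝔭, h0⟩]

theorem frob_of_not {𝔭 : Ideal (𝓞 F)} (h : ¬ (𝔭.IsPrime ∧ 𝔭 ≠ ⊥)) : frob F M 𝔭 = 1 := by
  unfold frob
  rw [dif_neg h]

theorem frob_bot : frob F M (⊥ : Ideal (𝓞 F)) = 1 :=
  frob_of_not F M (fun h => h.2 rfl)

/-- The Frobenius of `𝔭` is an arithmetic Frobenius at the chosen prime above `𝔭`. -/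
theorem frob_spec (𝔭 : Ideal (𝓞 F)) [𝔭.IsPrime] (h0 : 𝔭 ≠ ⊥) :
    IsArithFrobAt (𝓞 F) (frob F M 𝔭) (primeOver F M 𝔭) := by
  rw [frob_of_isPrime F M 𝔭 h0]
  haveI := finite_quotient_primeOver F M 𝔭 h0
  exact IsArithFrobAt.arithFrobAt (𝓞 F) Gal(M/F) (primeOver F M 𝔭)

/-- Powers of a Frobenius element act as the iterated `q`-power map modulo `Q`. -/
theorem isArithFrobAt_pow_apply {Q : Ideal (𝓞 M)} [Q.IsPrime] {σ : Gal(M/F)}
    (hσ : IsArithFrobAt (𝓞 F) σ Q) (n : ℕ) (x : 𝓞 M) :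
    (σ ^ n) • x - x ^ (Nat.card (𝓞 F ⧸ Q.under (𝓞 F)) ^ n) ∈ Q := by
  induction n generalizing x with
  | zero => simp
  | succ n ih =>
    have h1 : (σ ^ (n + 1)) • x = (σ ^ n) • (σ • x) := by rw [pow_succ, mul_smul]
    have h2 := ih (σ • x)
    have h3 : σ • x - x ^ Nat.card (𝓞 F ⧸ Q.under (𝓞 F)) ∈ Q := hσ x
    have h4 : (σ • x) ^ (Nat.card (𝓞 F ⧸ Q.under (𝓞 F)) ^ n) -
        (x ^ Nat.card (𝓞 F ⧸ Q.under (𝓞 F))) ^ (Nat.card (𝓞 F ⧸ Q.under (𝓞 F)) ^ n) ∈ Q :=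
      Ideal.mem_of_dvd _ (sub_dvd_pow_sub_pow _ _ _) h3
    rw [h1, pow_succ, pow_mul']
    have := Q.add_mem h2 h4
    simpa using this

end Galois

section Abelian

variable [IsAbelianGalois F M]

open scoped IsMulCommutative

/-- In an abelian extension, the Frobenius of `𝔭` is an arithmetic Frobenius at *every* prime
above `𝔭`. -/
theorem isArithFrobAt_frob (𝔭 : Ideal (𝓞 F)) [𝔭.IsPrime] (h0 : 𝔭 ≠ ⊥) (Q : Ideal (𝓞 M))
    [Q.IsPrime] [Q.LiesOver 𝔭] : IsArithFrobAt (𝓞 F) (frob F M 𝔭) Q := by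
  obtain ⟨τ, hτ⟩ := Ideal.exists_smul_eq_of_isGaloisGroup 𝔭 (primeOver F M 𝔭) Q Gal(M/F)
  have := (frob_spec F M 𝔭 h0).conj τ
  rwa [hτ, mul_comm τ, mul_inv_cancel_right] at this

theorem card_quotient_under_eq_absNorm (𝔭 : Ideal (𝓞 F)) (Q : Ideal (𝓞 M)) [Q.LiesOver 𝔭] :
    Nat.card (𝓞 F ⧸ Q.under (𝓞 F)) = Ideal.absNorm 𝔭 := by
  rw [← Ideal.over_def Q 𝔭, Ideal.absNorm_apply, Submodule.cardQuot_apply]

/-- `frob 𝔭 • x ≡ x ^ N𝔭` modulo every prime above `𝔭`. -/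
theorem frob_smul_sub_pow_mem (𝔭 : Ideal (𝓞 F)) [𝔭.IsPrime] (h0 : 𝔭 ≠ ⊥) (Q : Ideal (𝓞 M))
    [Q.IsPrime] [Q.LiesOver 𝔭] (x : 𝓞 M) :
    frob F M 𝔭 • x - x ^ Ideal.absNorm 𝔭 ∈ Q := by
  have := isArithFrobAt_frob F M 𝔭 h0 Q x
  rwa [card_quotient_under_eq_absNorm F M 𝔭 Q] at this

/-- Uniqueness of the Frobenius at an unramified prime. -/
theorem eq_frob_of_isArithFrobAt (𝔭 : Ideal (𝓞 F)) [𝔭.IsPrime] (h0 : 𝔭 ≠ ⊥) (Q : Ideal (𝓞 M))
    [Q.IsPrime] [Q.LiesOver 𝔭] (hunr : Ideal.inertia Gal(M/F) Q = ⊥) {σ : Gal(M/F)}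
    (hσ : IsArithFrobAt (𝓞 F) σ Q) : σ = frob F M 𝔭 := by
  have h := hσ.mul_inv_mem_inertia (isArithFrobAt_frob F M 𝔭 h0 Q)
  rw [hunr, Subgroup.mem_bot] at h
  exact mul_inv_eq_one.mp h

/-! ### The Artin symbol -/

open UniqueFactorizationMonoid in
theorem artin_one : artin F M (1 : Ideal (𝓞 F)) = 1 := by
  unfold artin
  rw [normalizedFactors_one, Multiset.map_zero, Multiset.prod_zero]

theorem artin_top : artin F M (⊤ : Ideal (𝓞 F)) = 1 := by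
  rw [← Ideal.one_eq_top]; exact artin_one F M

open UniqueFactorizationMonoid in
theorem artin_bot : artin F M (⊥ : Ideal (𝓞 F)) = 1 := by
  rw [← Ideal.zero_eq_bot]
  unfold artin
  rw [normalizedFactors_zero, Multiset.map_zero, Multiset.prod_zero]

open UniqueFactorizationMonoid in
theorem artin_mul {𝔞 𝔟 : Ideal (𝓞 F)} (h𝔞 : 𝔞 ≠ ⊥) (h𝔟 : 𝔟 ≠ ⊥) :
    artin F M (𝔞 * 𝔟) = artin F M 𝔞 * artin F M 𝔟 := by
  unfold artin
  rw [normalizedFactors_mul h𝔞 h𝔟, Multiset.map_add, Multiset.prod_add]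

open UniqueFactorizationMonoid in
theorem artin_of_isPrime (𝔭 : Ideal (𝓞 F)) [h𝔭 : 𝔭.IsPrime] (h0 : 𝔭 ≠ ⊥) :
    artin F M 𝔭 = frob F M 𝔭 := by
  unfold artin
  rw [normalizedFactors_irreducible (Ideal.prime_of_isPrime h0 h𝔭).irreducible]
  simp

open UniqueFactorizationMonoid in
theorem artin_pow (𝔞 : Ideal (𝓞 F)) (n : ℕ) : artin F M (𝔞 ^ n) = artin F M 𝔞 ^ n := by
  unfold artin
  rw [normalizedFactors_pow, Multiset.map_nsmul, Multiset.prod_nsmul]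

theorem artin_prod {ι : Type*} (s : Finset ι) (f : ι → Ideal (𝓞 F)) (hf : ∀ i ∈ s, f i ≠ ⊥) :
    artin F M (∏ i ∈ s, f i) = ∏ i ∈ s, artin F M (f i) := by
  classical
  induction s using Finset.induction_on with
  | empty => simpa using artin_one F M
  | insert a s ha ih =>
    rw [Finset.prod_insert ha, Finset.prod_insert ha,
      artin_mul F M (hf a (Finset.mem_insert_self a s)), ih]
    · intro i hi
      exact hf i (Finset.mem_insert_of_mem hi)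
    · rw [Ne, ← Ideal.zero_eq_bot, Finset.prod_eq_zero_iff]
      rintro ⟨i, hi, h0⟩
      exact hf i (Finset.mem_insert_of_mem hi) h0

end Abelian

end Fermat.Agent.S14
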