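import Fermat.Agent.S14.FrobBasic

/-!
# S14, piece FROB-A (part 2): order of the Frobenius, splitting criterion, Artin symbol of norms

`F ⊆ M` number fields, `M/F` abelian.  For a nonzero prime `𝔭` of `𝓞 F` and a prime `Q` of `𝓞 M`
above it with trivial inertia group:

* `orderOf_frob` : the order of `frob F M 𝔭` is the inertia degree `Q.inertiaDeg (𝓞 F)`;
* `stabilizer_eq_zpowers_frob` : the decomposition group of `Q` is generated by `frob F M 𝔭`;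
* `frob_eq_one_iff_inertiaDeg`, `frob_eq_one_iff_ncard` : `frob F M 𝔭 = 1` iff `𝔭` splits
  completely;
* `artin_relNorm` : the Artin symbol kills relative norms of ideals (everywhere unramified case).
-/

set_option autoImplicit false

open NumberField

namespace Fermat.Agent.S14

open scoped Pointwise

/-- In a finite field `k`, if `x ^ m = x` for all `x` (with `2 ≤ m`) then `card k ≤ m`. -/
theorem card_le_of_forall_pow_eq_self {k : Type*} [Field k] [Finite k] {m : ℕ} (hm : 2 ≤ m)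
    (h : ∀ x : k, x ^ m = x) : Nat.card k ≤ m := by
  classical
  have := Fintype.ofFinite k
  have hdeg : (Polynomial.X ^ m - Polynomial.X : Polynomial k).natDegree = m :=
    FiniteField.X_pow_card_sub_X_natDegree_eq k (by omega)
  have hne : (Polynomial.X ^ m - Polynomial.X : Polynomial k) ≠ 0 :=
    FiniteField.X_pow_card_sub_X_ne_zero k (by omega)
  have hsub : (Finset.univ : Finset k).val ⊆
      (Polynomial.X ^ m - Polynomial.X : Polynomial k).roots := by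
    intro x _
    rw [Polynomial.mem_roots hne]
    simp [h x]
  have := Polynomial.card_le_degree_of_subset_roots hsub
  rw [hdeg, Finset.card_univ] at this
  rwa [Nat.card_eq_fintype_card]

theorem forall_pow_sub_mem_iff {R : Type*} [CommRing R] (Q : Ideal R) (m : ℕ) :
    (∀ x : R, x ^ m - x ∈ Q) ↔ ∀ y : R ⧸ Q, y ^ m = y := by
  constructor
  · intro h y
    obtain ⟨x, rfl⟩ := Ideal.Quotient.mk_surjective y
    rw [← map_pow, ← sub_eq_zero, ← map_sub, Ideal.Quotient.eq_zero_iff_mem]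
    exact h x
  · intro h x
    rw [← Ideal.Quotient.eq_zero_iff_mem, map_sub, map_pow, h, sub_self]

variable (F M : Type*) [Field F] [NumberField F] [Field M] [NumberField M] [Algebra F M]

theorem card_quotient_eq_absNorm_pow (𝔭 : Ideal (𝓞 F)) (Q : Ideal (𝓞 M)) [Q.IsPrime]
    [Q.LiesOver 𝔭] :
    Nat.card (𝓞 M ⧸ Q) = Ideal.absNorm 𝔭 ^ Q.inertiaDeg (𝓞 F) := by
  rw [Ideal.absNorm_pow_inertiaDeg 𝔭 Q, Ideal.absNorm_apply, Submodule.cardQuot_apply]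

theorem one_lt_absNorm_of_isPrime (𝔭 : Ideal (𝓞 F)) [𝔭.IsPrime] (h0 : 𝔭 ≠ ⊥) :
    1 < Ideal.absNorm 𝔭 := by
  have h1 : Ideal.absNorm 𝔭 ≠ 0 := by
    rw [Ne, Ideal.absNorm_eq_zero_iff]; exact h0
  have h2 : Ideal.absNorm 𝔭 ≠ 1 := by
    rw [Ne, Ideal.absNorm_eq_one_iff]; exact Ideal.IsPrime.ne_top inferInstance
  omega

section Galois

variable [IsGalois F M]

/-- For a prime `Q` above `𝔭` with trivial inertia group: `g * f = [M : F]`. -/
theorem ncard_primesOver_mul_inertiaDeg (𝔭 : Ideal (𝓞 F)) [𝔭.IsPrime] (Q : Ideal (𝓞 M))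
    [Q.IsPrime] [Q.LiesOver 𝔭] (hunr : Ideal.inertia Gal(M/F) Q = ⊥) :
    (𝔭.primesOver (𝓞 M)).ncard * Q.inertiaDeg (𝓞 F) = Module.finrank F M := by
  have h := Ideal.ncard_primesOver_mul_card_inertia_mul_finrank (G := Gal(M/F)) 𝔭 Q
  rw [hunr, Subgroup.card_bot, mul_one, IsGalois.card_aut_eq_finrank F M] at h
  exact h

/-- For a prime `Q` above `𝔭` with trivial inertia group, the decomposition group has order the
inertia degree. -/
theorem card_stabilizer_eq_inertiaDeg (𝔭 : Ideal (𝓞 F)) [𝔭.IsPrime] (Q : Ideal (𝓞 M))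
    [Q.IsPrime] [Q.LiesOver 𝔭] (hunr : Ideal.inertia Gal(M/F) Q = ⊥) :
    Nat.card (MulAction.stabilizer Gal(M/F) Q) = Q.inertiaDeg (𝓞 F) := by
  have h := Ideal.card_stabilizer_eq_card_inertia_mul_finrank (G := Gal(M/F)) 𝔭 Q
  rw [hunr, Subgroup.card_bot, one_mul] at h
  exact h

end Galois

section Abelian

variable [IsAbelianGalois F M]

open scoped IsMulCommutative

/-- The Frobenius of `𝔭` lies in the decomposition group of every prime above `𝔭`. -/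
theorem frob_mem_stabilizer (𝔭 : Ideal (𝓞 F)) [𝔭.IsPrime] (h0 : 𝔭 ≠ ⊥) (Q : Ideal (𝓞 M))
    [Q.IsPrime] [Q.LiesOver 𝔭] : frob F M 𝔭 ∈ MulAction.stabilizer Gal(M/F) Q :=
  (isArithFrobAt_frob F M 𝔭 h0 Q).mem_stabilizer

/-- For an unramified prime, `frob ^ n = 1` iff `x ^ (N𝔭 ^ n) ≡ x` modulo `Q` for all `x`. -/
theorem frob_pow_eq_one_iff (𝔭 : Ideal (𝓞 F)) [𝔭.IsPrime] (h0 : 𝔭 ≠ ⊥) (Q : Ideal (𝓞 M))
    [Q.IsPrime] [Q.LiesOver 𝔭] (hunr : Ideal.inertia Gal(M/F) Q = ⊥) (n : ℕ) :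
    frob F M 𝔭 ^ n = 1 ↔ ∀ x : 𝓞 M, x ^ (Ideal.absNorm 𝔭 ^ n) - x ∈ Q := by
  have key : ∀ x : 𝓞 M, (frob F M 𝔭 ^ n) • x - x ^ (Ideal.absNorm 𝔭 ^ n) ∈ Q := by
    intro x
    have := isArithFrobAt_pow_apply F M (isArithFrobAt_frob F M 𝔭 h0 Q) n x
    rwa [card_quotient_under_eq_absNorm F M 𝔭 Q] at this
  constructor
  · intro h x
    have := key x
    rw [h, one_smul] at this
    have h2 := Q.neg_mem this
    rwa [neg_sub] at h2
  · intro h
    have hmem : frob F M 𝔭 ^ n ∈ Ideal.inertia Gal(M/F) Q := by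
      intro x
      have := Q.add_mem (key x) (h x)
      simpa using this
    rwa [hunr, Subgroup.mem_bot] at hmem

/-- The Frobenius of an unramified prime has order the inertia degree. -/
theorem orderOf_frob (𝔭 : Ideal (𝓞 F)) [𝔭.IsPrime] (h0 : 𝔭 ≠ ⊥) (Q : Ideal (𝓞 M))
    [Q.IsPrime] [Q.LiesOver 𝔭] (hunr : Ideal.inertia Gal(M/F) Q = ⊥) :
    orderOf (frob F M 𝔭) = Q.inertiaDeg (𝓞 F) := by
  have hQ0 : Q ≠ ⊥ := Ideal.ne_bot_of_liesOver_of_ne_bot h0 Q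
  have : Q.IsMaximal := Ring.DimensionLEOne.maximalOfPrime hQ0 inferInstance
  let _ : Field (𝓞 M ⧸ Q) := Ideal.Quotient.field Q
  have : Finite (𝓞 M ⧸ Q) := Ideal.finiteQuotientOfFreeOfNeBot _ hQ0
  have hq : 1 < Ideal.absNorm 𝔭 := one_lt_absNorm_of_isPrime F 𝔭 h0
  have hfpos : 0 < Q.inertiaDeg (𝓞 F) := Ideal.inertiaDeg_pos Q (𝓞 F)
  have hcard := card_quotient_eq_absNorm_pow F M 𝔭 Q
  -- `σ ^ f = 1`
  have h1 : frob F M 𝔭 ^ Q.inertiaDeg (𝓞 F) = 1 := by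
    rw [frob_pow_eq_one_iff F M 𝔭 h0 Q hunr, forall_pow_sub_mem_iff]
    intro y
    have := Fintype.ofFinite (𝓞 M ⧸ Q)
    rw [← hcard, Nat.card_eq_fintype_card]
    exact FiniteField.pow_card y
  have hdvd : orderOf (frob F M 𝔭) ∣ Q.inertiaDeg (𝓞 F) := orderOf_dvd_of_pow_eq_one h1
  have hpos : 0 < orderOf (frob F M 𝔭) := orderOf_pos _
  have h2 : ∀ y : 𝓞 M ⧸ Q, y ^ (Ideal.absNorm 𝔭 ^ orderOf (frob F M 𝔭)) = y := by
    rw [← forall_pow_sub_mem_iff, ← frob_pow_eq_one_iff F M 𝔭 h0 Q hunr]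
    exact pow_orderOf_eq_one _
  have h3 : Nat.card (𝓞 M ⧸ Q) ≤ Ideal.absNorm 𝔭 ^ orderOf (frob F M 𝔭) := by
    refine card_le_of_forall_pow_eq_self ?_ h2
    calc 2 ≤ Ideal.absNorm 𝔭 := hq
      _ = Ideal.absNorm 𝔭 ^ 1 := (pow_one _).symm
      _ ≤ _ := Nat.pow_le_pow_right (by omega) hpos
  rw [hcard] at h3
  have h4 : Q.inertiaDeg (𝓞 F) ≤ orderOf (frob F M 𝔭) := (Nat.pow_le_pow_iff_right hq).mp h3
  exact le_antisymm (Nat.le_of_dvd hfpos hdvd) h4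

theorem frob_pow_inertiaDeg (𝔭 : Ideal (𝓞 F)) [𝔭.IsPrime] (h0 : 𝔭 ≠ ⊥) (Q : Ideal (𝓞 M))
    [Q.IsPrime] [Q.LiesOver 𝔭] (hunr : Ideal.inertia Gal(M/F) Q = ⊥) :
    frob F M 𝔭 ^ Q.inertiaDeg (𝓞 F) = 1 := by
  rw [← orderOf_frob F M 𝔭 h0 Q hunr]
  exact pow_orderOf_eq_one _

/-- The decomposition group of an unramified prime is generated by the Frobenius. -/
theorem stabilizer_eq_zpowers_frob (𝔭 : Ideal (𝓞 F)) [𝔭.IsPrime] (h0 : 𝔭 ≠ ⊥)
    (Q : Ideal (𝓞 M)) [Q.IsPrime] [Q.LiesOver 𝔭] (hunr : Ideal.inertia Gal(M/F) Q = ⊥) :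
    MulAction.stabilizer Gal(M/F) Q = Subgroup.zpowers (frob F M 𝔭) := by
  symm
  refine Subgroup.eq_of_le_of_card_ge ?_ ?_
  · rw [Subgroup.zpowers_le]
    exact frob_mem_stabilizer F M 𝔭 h0 Q
  · rw [card_stabilizer_eq_inertiaDeg F M 𝔭 Q hunr, Nat.card_zpowers,
      orderOf_frob F M 𝔭 h0 Q hunr]

/-- Splitting criterion: the Frobenius of an unramified prime is trivial iff the inertia degree
is one. -/
theorem frob_eq_one_iff_inertiaDeg (𝔭 : Ideal (𝓞 F)) [𝔭.IsPrime] (h0 : 𝔭 ≠ ⊥)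
    (Q : Ideal (𝓞 M)) [Q.IsPrime] [Q.LiesOver 𝔭] (hunr : Ideal.inertia Gal(M/F) Q = ⊥) :
    frob F M 𝔭 = 1 ↔ Q.inertiaDeg (𝓞 F) = 1 := by
  rw [← orderOf_frob F M 𝔭 h0 Q hunr, orderOf_eq_one_iff]

/-- Splitting criterion: the Frobenius of an unramified prime is trivial iff there are `[M : F]`
primes above it. -/
theorem frob_eq_one_iff_ncard (𝔭 : Ideal (𝓞 F)) [𝔭.IsPrime] (h0 : 𝔭 ≠ ⊥) (Q : Ideal (𝓞 M))
    [Q.IsPrime] [Q.LiesOver 𝔭] (hunr : Ideal.inertia Gal(M/F) Q = ⊥) :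
    frob F M 𝔭 = 1 ↔ (𝔭.primesOver (𝓞 M)).ncard = Module.finrank F M := by
  rw [frob_eq_one_iff_inertiaDeg F M 𝔭 h0 Q hunr]
  have h := ncard_primesOver_mul_inertiaDeg F M 𝔭 Q hunr
  have hpos : 0 < Module.finrank F M := Module.finrank_pos
  constructor
  · intro h1
    rw [h1, mul_one] at h
    exact h
  · intro h1
    rw [h1] at h
    exact (Nat.mul_eq_left (by omega)).mp h

/-- Splitting criterion in an everywhere unramified abelian extension. -/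
theorem frob_eq_one_iff_of_unramified (hunr : IsUnramifiedEverywhere F M) (𝔭 : Ideal (𝓞 F))
    [𝔭.IsPrime] (h0 : 𝔭 ≠ ⊥) :
    frob F M 𝔭 = 1 ↔ (𝔭.primesOver (𝓞 M)).ncard = Module.finrank F M :=
  frob_eq_one_iff_ncard F M 𝔭 h0 (primeOver F M 𝔭)
    (hunr _ inferInstance (primeOver_ne_bot F M 𝔭 h0))

/-- Order of the Frobenius in an everywhere unramified abelian extension. -/
theorem orderOf_frob_of_unramified (hunr : IsUnramifiedEverywhere F M) (𝔭 : Ideal (𝓞 F))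
    [𝔭.IsPrime] (h0 : 𝔭 ≠ ⊥) (Q : Ideal (𝓞 M)) [Q.IsPrime] [Q.LiesOver 𝔭] :
    orderOf (frob F M 𝔭) = Q.inertiaDeg (𝓞 F) :=
  orderOf_frob F M 𝔭 h0 Q (hunr Q inferInstance (Ideal.ne_bot_of_liesOver_of_ne_bot h0 Q))

/-- The Artin symbol of the relative norm of a nonzero prime is trivial (unramified case). -/
theorem artin_relNorm_of_isPrime (Q : Ideal (𝓞 M)) [Q.IsPrime] (hQ0 : Q ≠ ⊥)
    (hunr : Ideal.inertia Gal(M/F) Q = ⊥) :
    artin F M (Ideal.relNorm (𝓞 F) Q) = 1 := by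
  have : Q.IsMaximal := Ring.DimensionLEOne.maximalOfPrime hQ0 inferInstance
  have h0 : Q.under (𝓞 F) ≠ ⊥ := Ideal.under_ne_bot (𝓞 F) hQ0
  have : (Q.under (𝓞 F)).IsMaximal := Ring.DimensionLEOne.maximalOfPrime h0 inferInstance
  rw [Ideal.relNorm_eq_pow_of_isMaximal Q (Q.under (𝓞 F)), artin_pow,
    artin_of_isPrime F M _ h0]
  exact frob_pow_inertiaDeg F M _ h0 Q hunr

/-- In an everywhere unramified abelian extension, the Artin symbol kills relative norms. -/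
theorem artin_relNorm (hunr : IsUnramifiedEverywhere F M) (𝔄 : Ideal (𝓞 M)) :
    artin F M (Ideal.relNorm (𝓞 F) 𝔄) = 1 := by
  by_cases h𝔄 : 𝔄 = ⊥
  · rw [h𝔄, Ideal.relNorm_bot, artin_bot]
  rw [← Ideal.prod_normalizedFactors_eq_self h𝔄]
  refine (Multiset.prod_induction
    (fun I : Ideal (𝓞 M) => I ≠ ⊥ ∧ artin F M (Ideal.relNorm (𝓞 F) I) = 1) _ ?_ ?_ ?_).2
  · rintro I J ⟨hI0, hI⟩ ⟨hJ0, hJ⟩
    refine ⟨mul_ne_zero hI0 hJ0, ?_⟩
    rw [map_mul, artin_mul F M, hI, hJ, one_mul]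
    · rwa [Ne, Ideal.relNorm_eq_bot_iff]
    · rwa [Ne, Ideal.relNorm_eq_bot_iff]
  · refine ⟨one_ne_zero, ?_⟩
    rw [map_one, artin_one]
  · intro Q hQ
    have hQ' : Q ≠ ⊥ := UniqueFactorizationMonoid.ne_zero_of_mem_normalizedFactors hQ
    rw [Ideal.mem_normalizedFactors_iff h𝔄] at hQ
    have := hQ.1
    exact ⟨hQ', artin_relNorm_of_isPrime F M Q hQ' (hunr Q hQ.1 hQ')⟩

end Abelian

end Fermat.Agent.S14
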