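import Mathlib

/-!
# S14: shared definition `ConjActsByInvCyclo`

Moved out of `Skeleton.lean` (which contains `sorry` and must never be imported by final files) so
that the pieces TRANS (producer) and FINAL (consumer) can share it.
-/

set_option autoImplicit false

open NumberField

namespace Fermat.Agent.S14

variable (p : ℕ) [Fact p.Prime] (L : Type*) [Field L] [NumberField L] [IsGalois ℚ L]
  (K : IntermediateField ℚ L) [IsCyclotomicExtension {p} ℚ K]

/-- The conjugation action of `Gal(L/ℚ)` on `Gal(L/K)` is through the inverse of the cyclotomic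
character: if `σ ζ = ζ ^ k` for all `p`-th roots of unity `ζ`, then `σ⁻¹ n σ = n ^ k`. -/
def ConjActsByInvCyclo : Prop :=
  ∀ (σ : Gal(L/ℚ)) (k : ℕ), (∀ ζ : L, ζ ^ p = 1 → σ ζ = ζ ^ k) →
    ∀ n : Gal(L/K), σ⁻¹ * n.restrictScalars ℚ * σ = (n.restrictScalars ℚ) ^ k

end Fermat.Agent.S14
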