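import Mathlib
import Fermat.Prelude.Def_ExtCitation_AdmissibleExtension_v2
import Fermat.Agent.S14.Defs
import Fermat.Agent.S14.DefsConj
import Fermat.Agent.S14.TransCore
import Fermat.Agent.S14.AlgGQ

/-!
# S14, piece TRANS: from a non-split admissible extension to a number field

Given an admissible extension `V` of `G_ℚ`-modules which does not split globally, the fixed field
`L` of the pointwise fixer of `V` (an open normal subgroup of `G_ℚ`) is a number field, Galois over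
`ℚ`, containing `K = ℚ(ζ_p)`, with `[L : K] = p`, `L/K` unramified everywhere, the primes above `p`
totally split in `L/K`, and `Gal(L/ℚ)` acting on `Gal(L/K)` through the cyclotomic character.

The group theory is in `AlgGQ.lean`, the dictionary between valuation subrings of `ℚ̄` and primes
of `𝓞 L` is in `TransCore.lean`.
-/

set_option autoImplicit false
set_option linter.style.haveILetI false
set_option linter.unusedSectionVars false

open NumberField ExtCitation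
open scoped Pointwise
open Fermat.Agent.S54.FrobExists

namespace Fermat.Agent.S14

namespace Trans

local notation "Qb" => AlgebraicClosure ℚ
local notation "GQ" => (AlgebraicClosure ℚ ≃ₐ[ℚ] AlgebraicClosure ℚ)

theorem isGalois_Qb : IsGalois ℚ Qb := Fermat.Agent.S54.FrobExists.isGalois_rat_algebraicClosure

/-- The fixed field of an open normal subgroup of `G_ℚ`, as an abstract number field which is
Galois over `ℚ`, together with its embedding into `ℚ̄`. -/
theorem exists_numberField_of_isOpen_normal (H : Subgroup GQ) [hn : H.Normal]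
    (hH : IsOpen (H : Set GQ)) :
    ∃ (L : Type) (_ : Field L) (_ : NumberField L) (_ : IsGalois ℚ L) (ι : L →+* Qb),
      (∀ σ : GQ, σ ∈ H ↔ ∀ x : L, σ (ι x) = ι x) ∧
      (∀ y : Qb, (∀ σ ∈ H, σ y = y) → ∃ x, ι x = y) := by
  haveI := isGalois_Qb
  let Hc : ClosedSubgroup GQ := ⟨H, Subgroup.isClosed_of_isOpen H hH⟩
  let E : IntermediateField ℚ Qb := IntermediateField.fixedField H
  have hfix : E.fixingSubgroup = H := InfiniteGalois.fixingSubgroup_fixedField Hc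
  have hfd : FiniteDimensional ℚ E := by
    rw [← InfiniteGalois.isOpen_iff_finite, hfix]
    exact hH
  have hgal : @IsGalois ℚ _ E _ E.algebra' := by
    rw [← InfiniteGalois.normal_iff_isGalois, hfix]
    exact hn
  refine ⟨E, inferInstance, ?_, ?_, E.val.toRingHom, ?_, ?_⟩
  · exact @NumberField.mk E _ inferInstance hfd
  · exact hgal
  · intro σ
    rw [← hfix, IntermediateField.mem_fixingSubgroup_iff]
    constructor
    · intro h x
      exact h x.1 x.2
    · intro h x hx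
      exact h ⟨x, hx⟩
  · intro y hy
    refine ⟨⟨y, ?_⟩, rfl⟩
    rw [IntermediateField.mem_fixedField_iff]
    intro σ hσ
    exact hy σ hσ

theorem exists_primitiveRoot_Qb (p : ℕ) [Fact p.Prime] : ∃ ζ : Qb, IsPrimitiveRoot ζ p := by
  haveI : NeZero p := ⟨(Fact.out : p.Prime).ne_zero⟩
  haveI : NeZero (p : Qb) := ⟨Nat.cast_ne_zero.mpr (NeZero.ne p)⟩
  exact HasEnoughRootsOfUnity.exists_primitiveRoot Qb p

theorem mem_fixingSubgroup_adjoin_iff {L : Type*} [Field L] [CharZero L] (ζ : L) (τ : L ≃ₐ[ℚ] L) :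
    τ ∈ (IntermediateField.adjoin ℚ {ζ}).fixingSubgroup ↔ τ ζ = ζ := by
  constructor
  · intro h
    exact (IntermediateField.mem_fixingSubgroup_iff _ τ).mp h ζ
      (IntermediateField.mem_adjoin_simple_self ℚ ζ)
  · intro h
    have hle : IntermediateField.adjoin ℚ {ζ} ≤
        IntermediateField.fixedField (MulAction.stabilizer (L ≃ₐ[ℚ] L) ζ) := by
      rw [IntermediateField.adjoin_le_iff, Set.singleton_subset_iff]
      intro g
      exact g.2
    exact (IntermediateField.le_iff_le _ _).mp hle h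

section Abstract

attribute [local instance] isGalois_Qb

variable {p : ℕ} [hp : Fact p.Prime] {V : Type} [AddCommGroup V] [Module (ZMod p) V]
  [DistribMulAction GQ V] [SMulCommClass GQ (ZMod p) V] {C : Submodule (ZMod p) V}
variable {L : Type} [Field L] [NumberField L] [IsGalois ℚ L] [Algebra L Qb] [IsScalarTower ℚ L Qb]

theorem res_apply (σ : GQ) (x : L) :
    algebraMap L Qb (AlgEquiv.restrictNormalHom L σ x) = σ (algebraMap L Qb x) :=
  restrictNormalHom_apply_coe L σ x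

variable (hL1 : ∀ σ : GQ, σ ∈ AlgGQ.fixer V ↔ ∀ x : L, σ (algebraMap L Qb x) = algebraMap L Qb x)
  (hL2 : ∀ y : Qb, (∀ σ ∈ AlgGQ.fixer V, σ y = y) → ∃ x : L, algebraMap L Qb x = y)

include hL1 in
theorem res_eq_one_iff (σ : GQ) : AlgEquiv.restrictNormalHom L σ = 1 ↔ σ ∈ AlgGQ.fixer V := by
  rw [hL1]
  constructor
  · intro h x
    rw [← res_apply, h]
    rfl
  · intro h
    ext x
    apply (algebraMap L Qb).injective
    rw [res_apply, h]
    rfl

variable (hadm : IsAdmissibleExtension p V C)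

include hL2 hadm in
theorem exists_algebraMap_eq_of_pow_eq_one {y : Qb} (hy : y ^ p = 1) :
    ∃ x : L, x ^ p = 1 ∧ algebraMap L Qb x = y := by
  obtain ⟨x, hx⟩ := hL2 y (fun σ hσ =>
    (AlgGQ.mem_ker_chi_iff p σ).mp (AlgGQ.fixer_le_ker_chi hadm hσ) y hy)
  refine ⟨x, ?_, hx⟩
  apply (algebraMap L Qb).injective
  rw [map_pow, hx, hy, map_one]

include hL2 hadm in
theorem exists_primitiveRoot_L : ∃ ζ : L, IsPrimitiveRoot ζ p := by
  obtain ⟨ζ, hζ⟩ := exists_primitiveRoot_Qb p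
  obtain ⟨x, -, hx⟩ := exists_algebraMap_eq_of_pow_eq_one hL2 hadm hζ.pow_eq_one
  refine ⟨x, ?_⟩
  rw [← hx] at hζ
  exact hζ.of_map_of_injective (algebraMap L Qb).injective

theorem res_apply_eq_self_iff {ζ : L} (hζ : IsPrimitiveRoot ζ p) (σ : GQ) :
    AlgEquiv.restrictNormalHom L σ ζ = ζ ↔ σ ∈ (AlgGQ.chi p).ker := by
  have hζ' : IsPrimitiveRoot (algebraMap L Qb ζ) p := hζ.map_of_injective (algebraMap L Qb).injective
  rw [AlgGQ.mem_ker_chi_iff]
  constructor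
  · intro h y hy
    obtain ⟨i, -, rfl⟩ := hζ'.eq_pow_of_pow_eq_one hy
    rw [map_pow, ← res_apply, h]
  · intro h
    apply (algebraMap L Qb).injective
    rw [res_apply]
    exact h _ hζ'.pow_eq_one

theorem map_res_ker_chi {ζ : L} (hζ : IsPrimitiveRoot ζ p) :
    (AlgGQ.chi p).ker.map (AlgEquiv.restrictNormalHom L) =
      (IntermediateField.adjoin ℚ {ζ}).fixingSubgroup := by
  ext τ
  rw [mem_fixingSubgroup_adjoin_iff, Subgroup.mem_map]
  constructor
  · rintro ⟨σ, hσ, rfl⟩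
    exact (res_apply_eq_self_iff hζ σ).mpr hσ
  · intro h
    obtain ⟨σ, rfl⟩ := AlgEquiv.restrictNormalHom_surjective (F := ℚ) (K₁ := L) Qb τ
    exact ⟨σ, (res_apply_eq_self_iff hζ σ).mp h, rfl⟩

include hL1 hadm in
theorem finrank_adjoin_eq (hns : ¬ SplitsGlobally C) {ζ : L} (hζ : IsPrimitiveRoot ζ p) :
    Module.finrank (IntermediateField.adjoin ℚ {ζ}) L = p := by
  rw [← IsGalois.card_fixingSubgroup_eq_finrank, ← map_res_ker_chi hζ,
    ← Subgroup.relIndex_bot_left, ← Subgroup.relIndex_comap, MonoidHom.comap_bot]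
  have hker : (AlgEquiv.restrictNormalHom L : GQ →* _).ker = AlgGQ.fixer V := by
    ext σ
    rw [MonoidHom.mem_ker, res_eq_one_iff hL1]
  rw [hker]
  exact AlgGQ.relIndex_fixer_ker_chi hadm hns

include hL1 hL2 hadm in
theorem conjActsByInvCyclo_adjoin {ζ : L} (hζ : IsPrimitiveRoot ζ p)
    [IsCyclotomicExtension {p} ℚ (IntermediateField.adjoin ℚ {ζ})] :
    ConjActsByInvCyclo p L (IntermediateField.adjoin ℚ {ζ}) := by
  intro σ' k hk n'
  obtain ⟨σ, rfl⟩ := AlgEquiv.restrictNormalHom_surjective (F := ℚ) (K₁ := L) Qb σ'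
  obtain ⟨n, hn⟩ := AlgEquiv.restrictNormalHom_surjective (F := ℚ) (K₁ := L) Qb
    (n'.restrictScalars ℚ)
  have hnN : n ∈ (AlgGQ.chi p).ker := by
    rw [← res_apply_eq_self_iff hζ, hn]
    exact n'.commutes ⟨ζ, IntermediateField.mem_adjoin_simple_self ℚ ζ⟩
  have hkσ : (k : ZMod p) = AlgGQ.cs p σ := by
    apply AlgGQ.natCast_eq_cs_of_forall
    intro y hy
    obtain ⟨x, hx, rfl⟩ := exists_algebraMap_eq_of_pow_eq_one hL2 hadm hy
    rw [← res_apply, hk x hx, map_pow]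
  have := AlgGQ.conj_mul_inv_pow_mem_fixer hadm σ hnN k hkσ
  rw [← res_eq_one_iff hL1, map_mul, map_mul, map_mul, map_inv, map_inv, map_pow, hn] at this
  exact mul_inv_eq_one.mp this

include hL1 hadm in
theorem eq_one_of_mem_decompositionSubgroup {ζ : L} (hζ : IsPrimitiveRoot ζ p)
    {A : ValuationSubring Qb} (hA : A.LiesOverPrime p) (τ : L ≃ₐ[ℚ] L) (hτζ : τ ζ = ζ)
    (hτ : τ ∈ (A.comap (algebraMap L Qb)).decompositionSubgroup ℚ) : τ = 1 := by
  obtain ⟨σ, hσD, rfl⟩ := exists_mem_decompositionSubgroup_restrictNormalHom_eq L A τ hτ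
  rw [res_eq_one_iff hL1]
  exact AlgGQ.mem_fixer_of_mem_decomposition hadm A hA hσD ((res_apply_eq_self_iff hζ σ).mp hτζ)

include hL1 hadm in
theorem eq_one_of_mem_inertiaSubgroupIn {ℓ : ℕ} (hℓ : ℓ.Prime) (hℓp : ℓ ≠ p)
    {A : ValuationSubring Qb} (hA : A.LiesOverPrime ℓ) (τ : L ≃ₐ[ℚ] L)
    (hτ : τ ∈ (A.comap (algebraMap L Qb)).inertiaSubgroupIn ℚ) : τ = 1 := by
  obtain ⟨σ, hσI, rfl⟩ := exists_mem_inertiaSubgroupIn_restrictNormalHom_eq L A hℓ hA τ hτ
  rw [res_eq_one_iff hL1]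
  exact AlgGQ.mem_fixer_of_mem_inertia hadm hℓ hℓp A hA hσI

theorem isAlgebraic_int_L (x : L) : IsAlgebraic ℤ x :=
  (IsFractionRing.isAlgebraic_iff ℤ ℚ L).mpr (Algebra.IsAlgebraic.isAlgebraic x)

theorem liesOverPrime_of_natCast_mem {A : ValuationSubring Qb} {ℓ : ℕ}
    (h : (ℓ : integralClosure ℤ L) ∈ centerIdeal (A.comap (algebraMap L Qb))) :
    A.LiesOverPrime ℓ ∧ (A.comap (algebraMap L Qb)).LiesOverPrime ℓ := by
  rw [mem_centerIdeal_iff] at h
  have h' : (A.comap (algebraMap L Qb)).valuation (ℓ : L) < 1 := by simpa using h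
  refine ⟨?_, ?_⟩
  · rw [valuation_comap_lt_one_iff, map_natCast] at h'
    exact (A.mem_nonunits_iff).mpr h'
  · exact ((A.comap (algebraMap L Qb)).mem_nonunits_iff).mpr h'

include hL1 hadm in
theorem eq_one_of_mem_stabilizer {ζ : L} (hζ : IsPrimitiveRoot ζ p)
    (Q : Ideal (integralClosure ℤ L)) (hQ : Q.IsMaximal) (hpQ : (p : integralClosure ℤ L) ∈ Q)
    (τ : L ≃ₐ[ℚ] L) (hτζ : τ ζ = ζ) (hτ : τ ∈ MulAction.stabilizer (L ≃ₐ[ℚ] L) Q) : τ = 1 := by
  haveI := hQ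
  obtain ⟨A, rfl⟩ := exists_valuationSubring_centerIdeal_comap_eq (Ω := Qb) L Q
  have hA := (liesOverPrime_of_natCast_mem hpQ).1
  rw [stabilizer_centerIdeal_eq isAlgebraic_int_L] at hτ
  exact eq_one_of_mem_decompositionSubgroup hL1 hadm hζ hA τ hτζ hτ

include hL1 hadm in
theorem eq_one_of_mem_inertia (Q : Ideal (integralClosure ℤ L)) (hQ : Q.IsMaximal) {ℓ : ℕ}
    (hℓ : ℓ.Prime) (hℓp : ℓ ≠ p) (hℓQ : (ℓ : integralClosure ℤ L) ∈ Q)
    (τ : L ≃ₐ[ℚ] L) (hτ : τ ∈ Q.inertia (L ≃ₐ[ℚ] L)) : τ = 1 := by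
  haveI := hQ
  obtain ⟨A, rfl⟩ := exists_valuationSubring_centerIdeal_comap_eq (Ω := Qb) L Q
  obtain ⟨hA, hB⟩ := liesOverPrime_of_natCast_mem hℓQ
  rw [inertia_centerIdeal_eq isAlgebraic_int_L _ hℓ hB] at hτ
  exact eq_one_of_mem_inertiaSubgroupIn hL1 hadm hℓ hℓp hA τ hτ

theorem exists_prime_natCast_mem (Q : Ideal (𝓞 L)) [hQ : Q.IsPrime] (hQ0 : Q ≠ ⊥) :
    ∃ ℓ : ℕ, ℓ.Prime ∧ (ℓ : 𝓞 L) ∈ Q := by
  haveI : IsDomain (𝓞 L ⧸ Q) := Ideal.Quotient.isDomain Q
  obtain ⟨ℓ, hchar⟩ := CharP.exists (𝓞 L ⧸ Q)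
  have hmem : ∀ m : ℕ, (m : 𝓞 L) ∈ Q ↔ ℓ ∣ m := by
    intro m
    rw [← Ideal.Quotient.eq_zero_iff_mem, map_natCast, CharP.cast_eq_zero_iff (𝓞 L ⧸ Q) ℓ]
  rcases CharP.char_is_prime_or_zero (𝓞 L ⧸ Q) ℓ with h | h
  · exact ⟨ℓ, h, (hmem ℓ).mpr dvd_rfl⟩
  · exfalso
    have h1 := (hmem (Ideal.absNorm Q)).mp (Ideal.absNorm_mem Q)
    rw [h, zero_dvd_iff, Ideal.absNorm_eq_zero_iff] at h1
    exact hQ0 h1

end Abstract

end Trans

section Main

variable {p : ℕ} [Fact p.Prime]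

local notation "Qb" => AlgebraicClosure ℚ

/-- **ALG + TRANS**: a non-split admissible extension produces a number field as in
`no_unramified_extension`. -/
theorem exists_field_of_not_splitsGlobally (h3 : 3 ≤ p)
    (V : Type) [AddCommGroup V] [Module (ZMod p) V]
    [DistribMulAction (AlgebraicClosure ℚ ≃ₐ[ℚ] AlgebraicClosure ℚ) V]
    [SMulCommClass (AlgebraicClosure ℚ ≃ₐ[ℚ] AlgebraicClosure ℚ) (ZMod p) V]
    (C : Submodule (ZMod p) V) (hadm : IsAdmissibleExtensionCts p V C)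
    (hns : ¬ SplitsGlobally C) :
    ∃ (L : Type) (_ : Field L) (_ : NumberField L) (_ : IsGalois ℚ L)
      (K : IntermediateField ℚ L) (_ : IsCyclotomicExtension {p} ℚ K),
      Module.finrank K L = p ∧ IsUnramifiedEverywhere K L ∧
      (∀ Q : Ideal (𝓞 L), Q.IsPrime → (p : 𝓞 L) ∈ Q → MulAction.stabilizer Gal(L/K) Q = ⊥) ∧
      ConjActsByInvCyclo p L K := by
  have hadm' := hadm.toIsAdmissibleExtension
  obtain ⟨L, hF, hNF, hGal, ι, h1, h2⟩ :=
    Trans.exists_numberField_of_isOpen_normal (AlgGQ.fixer V) (AlgGQ.isOpen_fixer hadm)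
  letI : Algebra L Qb := ι.toAlgebra
  haveI : IsScalarTower ℚ L Qb := IsScalarTower.of_algebraMap_eq (fun q => by
    rw [RingHom.algebraMap_toAlgebra, eq_ratCast, eq_ratCast, map_ratCast])
  have hL1 : ∀ σ : (Qb ≃ₐ[ℚ] Qb), σ ∈ AlgGQ.fixer V ↔
      ∀ x : L, σ (algebraMap L Qb x) = algebraMap L Qb x := h1
  have hL2 : ∀ y : Qb, (∀ σ ∈ AlgGQ.fixer V, σ y = y) → ∃ x : L, algebraMap L Qb x = y := h2
  obtain ⟨ζ, hζ⟩ := Trans.exists_primitiveRoot_L hL2 hadm'
  haveI : NeZero p := ⟨(Fact.out : p.Prime).ne_zero⟩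
  haveI hcyc : IsCyclotomicExtension {p} ℚ (IntermediateField.adjoin ℚ {ζ}) :=
    hζ.intermediateField_adjoin_isCyclotomicExtension ℚ
  have hζK : ∀ τ' : Gal(L/(IntermediateField.adjoin ℚ {ζ})), (τ'.restrictScalars ℚ) ζ = ζ :=
    fun τ' => τ'.commutes ⟨ζ, IntermediateField.mem_adjoin_simple_self ℚ ζ⟩
  refine ⟨L, hF, hNF, hGal, IntermediateField.adjoin ℚ {ζ}, hcyc, ?_, ?_, ?_, ?_⟩
  · exact Trans.finrank_adjoin_eq hL1 hadm' hns hζ
  · intro Q hQ hQ0
    haveI := hQ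
    haveI hmax : Q.IsMaximal := hQ.isMaximal hQ0
    obtain ⟨ℓ, hℓ, hℓQ⟩ := Trans.exists_prime_natCast_mem Q hQ0
    rw [eq_bot_iff]
    intro τ' hτ'
    rw [Subgroup.mem_bot]
    have hτ1 : τ'.restrictScalars ℚ = 1 := by
      by_cases hℓp : ℓ = p
      · subst hℓp
        refine Trans.eq_one_of_mem_stabilizer hL1 hadm' hζ Q hmax hℓQ _ (hζK τ') ?_
        have := Ideal.inertia_le_stabilizer Q hτ'
        exact this
      · refine Trans.eq_one_of_mem_inertia hL1 hadm' Q hmax hℓ hℓp hℓQ _ ?_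
        exact hτ'
    ext x
    exact DFunLike.congr_fun hτ1 x
  · intro Q hQ hpQ
    haveI := hQ
    have hQ0 : Q ≠ ⊥ := by
      rintro rfl
      rw [Ideal.mem_bot, Nat.cast_eq_zero] at hpQ
      exact (NeZero.ne p) hpQ
    haveI hmax : Q.IsMaximal := hQ.isMaximal hQ0
    rw [eq_bot_iff]
    intro τ' hτ'
    rw [Subgroup.mem_bot]
    have hτ1 : τ'.restrictScalars ℚ = 1 := by
      refine Trans.eq_one_of_mem_stabilizer hL1 hadm' hζ Q hmax hpQ _ (hζK τ') ?_
      exact hτ'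
    ext x
    exact DFunLike.congr_fun hτ1 x
  · exact Trans.conjActsByInvCyclo_adjoin hL1 hL2 hadm' hζ

end Main

end Fermat.Agent.S14
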