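import Mathlib

/-!
# S14, FIRST sub-piece P3 (UnitRank)

* `index_range_powMonoidHom_units`: for a number field `K` containing a primitive `p`-th root of
  unity (`p` prime), the `p`-th powers have index `p ^ (rank K + 1)` in the unit group `(𝓞 K)ˣ`
  (Dirichlet's unit theorem: `(𝓞 K)ˣ ≃ μ(K) × ℤ ^ rank K`, `μ(K)` cyclic of order divisible by
  `p`).
* `card_infinitePlace_eq_mul`: if `M/F` has odd prime degree `p` and `F` contains a primitive
  `p`-th root of unity (so that `F` and `M` are totally complex), then `M` has `p` times as many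
  infinite places as `F`.

Auxiliary: `index_range_nsmulAddMonoidHom` (index of `n • M` in a free `ℤ`-module of finite rank),
`index_range_powMonoidHom_of_quotient` (abstract index computation),
`two_mul_card_infinitePlace_of_isPrimitiveRoot`.
-/

set_option autoImplicit false

open NumberField

namespace Fermat.Agent.S14

/-- In a free `ℤ`-module of finite rank `r`, the multiples of `n ≠ 0` have index `n ^ r`. -/
theorem index_range_nsmulAddMonoidHom (M : Type*) [AddCommGroup M] [Module.Free ℤ M]
    [Module.Finite ℤ M] {n : ℕ} (hn : n ≠ 0) :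
    (nsmulAddMonoidHom n : M →+ M).range.index = n ^ Module.finrank ℤ M := by
  classical
  have hinj : Function.Injective (nsmulAddMonoidHom n : M →+ M) := by
    intro x y hxy
    simp only [nsmulAddMonoidHom_apply] at hxy
    have h : (n : ℤ) • x = (n : ℤ) • y := by simpa using hxy
    exact smul_right_injective M (Int.natCast_ne_zero.mpr hn) h
  set N : Submodule ℤ M := (nsmulAddMonoidHom n : M →+ M).range.toIntSubmodule with hN
  let e : M ≃+ N := AddEquiv.ofBijective
    ((nsmulAddMonoidHom n : M →+ M).rangeRestrict)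
    ⟨AddMonoidHom.rangeRestrict_injective_iff.mpr hinj, AddMonoidHom.rangeRestrict_surjective _⟩
  have h1 := Submodule.natAbs_det_equiv N e
  have h2 : N.subtype ∘ₗ AddMonoidHom.toIntLinearMap (e : M →+ N) = (n : ℤ) • LinearMap.id := by
    ext x
    change ((nsmulAddMonoidHom n : M →+ M).rangeRestrict x : M) = _
    simp
  rw [h2, LinearMap.det_smul, LinearMap.det_id, mul_one, Int.natAbs_pow, Int.natAbs_natCast] at h1
  rw [h1]
  rfl

/-- Abstract index computation: `G` a commutative group, `T` a finite cyclic subgroup whose order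
is divisible by `p`, which is `p`-saturated, and such that the `p`-th powers have index
`p ^ r` in `G ⧸ T`.  Then the `p`-th powers have index `p ^ (r + 1)` in `G`. -/
theorem index_range_powMonoidHom_of_quotient {G : Type*} [CommGroup G] (T : Subgroup G)
    [Finite T] [IsCyclic T] {p r : ℕ} (hpT : p ∣ Nat.card T)
    (hsat : ∀ x : G, x ^ p ∈ T → x ∈ T)
    (hQ : (powMonoidHom p : G ⧸ T →* G ⧸ T).range.index = p ^ r) :
    (powMonoidHom p : G →* G).range.index = p ^ (r + 1) := by
  set P : Subgroup G := (powMonoidHom p : G →* G).range with hP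
  have h1 : P.relIndex (P ⊔ T) * (P ⊔ T).index = P.index :=
    Subgroup.relIndex_mul_index le_sup_left
  -- the quotient part
  have h2 : (P ⊔ T).index = p ^ r := by
    have h := Subgroup.index_map P (QuotientGroup.mk' T)
    rw [QuotientGroup.ker_mk', QuotientGroup.range_mk', Subgroup.index_top, mul_one] at h
    rw [← h, ← hQ]
    congr 1
    ext x
    constructor
    · rintro ⟨_, ⟨y, rfl⟩, rfl⟩
      exact ⟨QuotientGroup.mk' T y, by simp⟩
    · rintro ⟨y, rfl⟩
      obtain ⟨z, rfl⟩ := QuotientGroup.mk'_surjective T y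
      exact ⟨z ^ p, ⟨z, rfl⟩, by simp⟩
  -- the torsion part
  have h3 : P.relIndex (P ⊔ T) = p := by
    rw [Subgroup.relIndex_sup_left, Subgroup.relIndex]
    have h4 : P.subgroupOf T = (powMonoidHom p : T →* T).range := by
      ext ⟨x, hx⟩
      rw [Subgroup.mem_subgroupOf]
      constructor
      · rintro ⟨y, hy⟩
        have hy' : y ^ p = x := by simpa using hy
        have hyT : y ∈ T := hsat y (hy' ▸ hx)
        exact ⟨⟨y, hyT⟩, Subtype.ext (by simpa using hy')⟩
      · rintro ⟨⟨y, hyT⟩, hy⟩
        exact ⟨y, by simpa using congrArg Subtype.val hy⟩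
    rw [h4, IsCyclic.index_powMonoidHom_range]
    exact Nat.gcd_eq_right hpT
  rw [← h1, h2, h3, pow_succ, mul_comm]

/-- P3a: index of the `p`-th powers in the unit group. -/
theorem index_range_powMonoidHom_units (K : Type*) [Field K] [NumberField K] {p : ℕ}
    (hp : p.Prime) (hζ : ∃ ζ : K, IsPrimitiveRoot ζ p) :
    (powMonoidHom p : (𝓞 K)ˣ →* (𝓞 K)ˣ).range.index = p ^ (NumberField.Units.rank K + 1) := by
  obtain ⟨ζ, hζ⟩ := hζ
  refine index_range_powMonoidHom_of_quotient (Units.torsion K) ?_ ?_ ?_
  · -- `p ∣ card torsion`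
    have : NeZero p := ⟨hp.ne_zero⟩
    have hζ' : IsPrimitiveRoot (hζ.toInteger) p := hζ.toInteger_isPrimitiveRoot
    have hu : IsPrimitiveRoot (hζ'.isUnit hp.ne_zero).unit p := hζ'.isUnit_unit hp.ne_zero
    have hmem : (hζ'.isUnit hp.ne_zero).unit ∈ Units.torsion K := by
      rw [Units.torsion, CommGroup.mem_torsion]
      exact isOfFinOrder_iff_pow_eq_one.mpr ⟨p, hp.pos, hu.pow_eq_one⟩
    have hord : orderOf (⟨_, hmem⟩ : Units.torsion K) = p := by
      rw [← Subgroup.orderOf_coe]
      exact hu.eq_orderOf.symm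
    rw [← hord]
    exact orderOf_dvd_natCard _
  · intro x hx
    rw [Units.torsion, CommGroup.mem_torsion] at hx ⊢
    exact hx.of_pow hp.ne_zero
  · have h := index_range_nsmulAddMonoidHom (Additive ((𝓞 K)ˣ ⧸ Units.torsion K)) hp.ne_zero
    rw [Units.finrank_modTorsion] at h
    rw [← h, ← Subgroup.index_toAddSubgroup]
    congr 1

/-- A number field containing a primitive `k`-th root of unity, `2 < k`, has as many infinite
places as half its degree. -/
theorem two_mul_card_infinitePlace_of_isPrimitiveRoot (K : Type*) [Field K] [NumberField K]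
    {k : ℕ} (hk : 2 < k) {ζ : K} (hζ : IsPrimitiveRoot ζ k) :
    2 * Fintype.card (InfinitePlace K) = Module.finrank ℚ K := by
  classical
  have h0 : InfinitePlace.nrRealPlaces K = 0 :=
    NumberField.InfinitePlace.IsPrimitiveRoot.nrRealPlaces_eq_zero_of_two_lt hk hζ
  rw [InfinitePlace.card_eq_nrRealPlaces_add_nrComplexPlaces, h0, zero_add,
    ← InfinitePlace.card_add_two_mul_card_eq_rank, h0, zero_add]

variable (F M : Type*) [Field F] [NumberField F] [Field M] [NumberField M] [Algebra F M]

/-- P3b: number of infinite places in the extension. -/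
theorem card_infinitePlace_eq_mul {p : ℕ} (hp : p.Prime) (hp2 : p ≠ 2)
    (hdeg : Module.finrank F M = p) (hζ : ∃ ζ : F, IsPrimitiveRoot ζ p) :
    Fintype.card (InfinitePlace M) = p * Fintype.card (InfinitePlace F) := by
  obtain ⟨ζ, hζ⟩ := hζ
  have hp3 : 2 < p := lt_of_le_of_ne hp.two_le (Ne.symm hp2)
  have hζM : IsPrimitiveRoot (algebraMap F M ζ) p :=
    hζ.map_of_injective (algebraMap F M).injective
  have h1 := two_mul_card_infinitePlace_of_isPrimitiveRoot F hp3 hζ
  have h2 := two_mul_card_infinitePlace_of_isPrimitiveRoot M hp3 hζM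
  have h3 : Module.finrank ℚ F * Module.finrank F M = Module.finrank ℚ M :=
    Module.finrank_mul_finrank ℚ F M
  rw [hdeg, ← h1, ← h2] at h3
  have : 2 * Fintype.card (InfinitePlace M) = 2 * (p * Fintype.card (InfinitePlace F)) := by
    rw [← h3]; ring
  exact Nat.eq_of_mul_eq_mul_left two_pos this

end Fermat.Agent.S14
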