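import Fermat.Agent.S14.FirstBasic
import Fermat.Agent.S14.UnitIndexAbstract
import Fermat.Agent.S14.UnitRank

/-!
# S14 / FIRST: the unit index inequality for number fields

For a cyclic extension `M/F` of odd prime degree `p` with `ζ_p ∈ F`:
`p * [E_F : N E_M] ≤ [E₁ : (1 - σ) E_M]`, from the abstract inequality of
`UnitIndexAbstract.lean` and Dirichlet's unit theorem.
-/

set_option autoImplicit false
set_option linter.unusedSectionVars false

open NumberField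
open scoped Pointwise nonZeroDivisors

namespace Fermat.Agent.S14.FirstIdeal

open UnitIndex

variable {F M : Type*} [Field F] [NumberField F] [Field M] [NumberField M] [Algebra F M]
  [IsGalois F M]

/-! ### General lemma: `[B : nB]` is finite for subgroups of finitely generated groups -/

theorem relIndex_map_pHom_ne_zero {A : Type*} [AddCommGroup A] [Module.Finite ℤ A]
    (B : AddSubgroup A) {n : ℕ} (hn : n ≠ 0) : (B.map (pHom A n)).relIndex B ≠ 0 := by
  have hN : IsNoetherian ℤ A := isNoetherian_of_isNoetherianRing_of_finite ℤ A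
  have hB : Module.Finite ℤ B :=
    Module.Finite.of_injective (B.subtype.toIntLinearMap) B.subtype_injective
  have hFG : AddGroup.FG B := Module.Finite.iff_addGroup_fg.mp hB
  have hFGQ : AddGroup.FG (B ⧸ (B.map (pHom A n)).addSubgroupOf B) :=
    AddGroup.fg_of_surjective (QuotientAddGroup.mk'_surjective _)
  have htors : IsAddTorsion (B ⧸ (B.map (pHom A n)).addSubgroupOf B) := by
    intro q
    obtain ⟨x, rfl⟩ := QuotientAddGroup.mk_surjective q
    rw [isOfFinAddOrder_iff_nsmul_eq_zero]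
    refine ⟨n, Nat.pos_of_ne_zero hn, ?_⟩
    rw [← QuotientAddGroup.mk_nsmul, QuotientAddGroup.eq_zero_iff, AddSubgroup.mem_addSubgroupOf]
    exact ⟨x, x.2, rfl⟩
  have hfin : Finite (B ⧸ (B.map (pHom A n)).addSubgroupOf B) :=
    AddCommGroup.finite_of_fg_isAddTorsion _ htors
  rw [AddSubgroup.relIndex, AddSubgroup.index]
  exact Nat.card_pos.ne'

/-! ### The module of units -/

variable (F M) in
/-- The inclusion of the units of `𝓞 F` into the units of `𝓞 M`. -/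
noncomputable def unitIncl : (𝓞 F)ˣ →* (𝓞 M)ˣ :=
  Units.map (algebraMap (𝓞 F) (𝓞 M) : 𝓞 F →* 𝓞 M)

@[simp] theorem coe_unitIncl (r : (𝓞 F)ˣ) :
    ((unitIncl F M r : (𝓞 M)ˣ) : 𝓞 M) = algebraMap (𝓞 F) (𝓞 M) (r : 𝓞 F) := rfl

theorem unitIncl_injective : Function.Injective (unitIncl F M) :=
  Units.map_injective (FaithfulSMul.algebraMap_injective (𝓞 F) (𝓞 M))

/-- The endomorphism of the additive group of units induced by `σ`. -/
noncomputable def sEnd (σ : Gal(M/F)) : AddMonoid.End (Additive (𝓞 M)ˣ) :=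
  MonoidHom.toAdditive (unitSigma σ)

theorem sEnd_apply (σ : Gal(M/F)) (u : (𝓞 M)ˣ) :
    sEnd σ (Additive.ofMul u) = Additive.ofMul (unitSigma σ u) := rfl

theorem unitSigma_mul (σ τ : Gal(M/F)) (u : (𝓞 M)ˣ) :
    unitSigma (σ * τ) u = unitSigma σ (unitSigma τ u) :=
  Units.ext (by rw [coe_unitSigma, coe_unitSigma, coe_unitSigma, mul_smul])

theorem unitSigma_one (u : (𝓞 M)ˣ) : unitSigma (1 : Gal(M/F)) u = u :=
  Units.ext (by rw [coe_unitSigma, one_smul])

theorem sEnd_pow_apply (σ : Gal(M/F)) (k : ℕ) (u : (𝓞 M)ˣ) :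
    (sEnd σ ^ k) (Additive.ofMul u) = Additive.ofMul (unitSigma (σ ^ k) u) := by
  induction k generalizing u with
  | zero => simp [unitSigma_one]
  | succ k ih =>
    rw [pow_succ, AddMonoid.End.coe_mul, Function.comp_apply, sEnd_apply, ih, pow_succ,
      unitSigma_mul]

theorem sEnd_pow_eq_one {σ : Gal(M/F)} {p : ℕ} (hσp : σ ^ p = 1) : sEnd σ ^ p = 1 := by
  ext x
  obtain ⟨u, rfl⟩ := Additive.ofMul.surjective x
  rw [sEnd_pow_apply, hσp, unitSigma_one]
  rfl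

/-! ### The norm as a product over powers of a generator -/

theorem prod_univ_eq_prod_range {σ : Gal(M/F)} (hσ : ∀ x, x ∈ Subgroup.zpowers σ) {p : ℕ}
    (hcard : Nat.card Gal(M/F) = p) {β : Type*} [CommMonoid β] (f : Gal(M/F) → β) :
    ∏ τ : Gal(M/F), f τ = ∏ k ∈ Finset.range p, f (σ ^ k) := by
  classical
  have hord : orderOf σ = p := (orderOf_eq_card_of_forall_mem_zpowers hσ).trans hcard
  have huniv : (Finset.univ : Finset Gal(M/F)) = (Finset.range p).image (fun k => σ ^ k) := by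
    ext τ
    simp only [Finset.mem_univ, true_iff]
    rw [← hord, ← mem_powers_iff_mem_range_orderOf, mem_powers_iff_mem_zpowers]
    exact hσ τ
  rw [huniv, Finset.prod_image]
  intro a ha b hb hab
  refine pow_injOn_Iio_orderOf ?_ ?_ hab
  · simpa [hord] using ha
  · simpa [hord] using hb

theorem nu_sEnd_apply {σ : Gal(M/F)} (hσ : ∀ x, x ∈ Subgroup.zpowers σ) {p : ℕ}
    (hcard : Nat.card Gal(M/F) = p) (u : (𝓞 M)ˣ) :
    nu (sEnd σ) p (Additive.ofMul u) = Additive.ofMul (unitIncl F M (unitNorm F M u)) := by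
  rw [nu, end_sum_apply]
  simp_rw [sEnd_pow_apply]
  rw [← ofMul_prod]
  congr 1
  apply Units.ext
  rw [Units.coe_prod, coe_unitIncl, coe_unitNorm, algebraMap_nm, prod_univ_eq_prod_range hσ hcard]
  rfl

/-! ### Identification of the four subgroups -/

theorem A1_sEnd_eq {σ : Gal(M/F)} (hσ : ∀ x, x ∈ Subgroup.zpowers σ) {p : ℕ}
    (hcard : Nat.card Gal(M/F) = p) :
    A1 (sEnd σ) p = Subgroup.toAddSubgroup (unitNorm F M).ker := by
  ext x
  obtain ⟨u, rfl⟩ := Additive.ofMul.surjective x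
  rw [mem_A1, nu_sEnd_apply hσ hcard]
  show Additive.ofMul _ = 0 ↔ u ∈ (unitNorm F M).ker
  rw [MonoidHom.mem_ker, ← ofMul_one, Additive.ofMul.apply_eq_iff_eq, ← map_one (unitIncl F M),
    unitIncl_injective.eq_iff]

theorem Nu_sEnd_eq {σ : Gal(M/F)} (hσ : ∀ x, x ∈ Subgroup.zpowers σ) {p : ℕ}
    (hcard : Nat.card Gal(M/F) = p) :
    Nu (sEnd σ) p = Subgroup.toAddSubgroup ((unitNorm F M).range.map (unitIncl F M)) := by
  ext x
  obtain ⟨u, rfl⟩ := Additive.ofMul.surjective x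
  constructor
  · rintro ⟨y, hy⟩
    obtain ⟨v, rfl⟩ := Additive.ofMul.surjective y
    rw [nHom_apply, nu_sEnd_apply hσ hcard] at hy
    exact ⟨unitNorm F M v, ⟨v, rfl⟩, Additive.ofMul.injective hy⟩
  · rintro ⟨_, ⟨v, rfl⟩, hv⟩
    refine ⟨Additive.ofMul v, ?_⟩
    rw [nHom_apply, nu_sEnd_apply hσ hcard]
    exact congrArg Additive.ofMul hv

theorem smul_eq_of_generator' {σ : Gal(M/F)} (hσ : ∀ x, x ∈ Subgroup.zpowers σ)
    {x : 𝓞 M} (h : σ • x = x) (τ : Gal(M/F)) : τ • x = x := by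
  have h1 : σ ∈ MulAction.stabilizer Gal(M/F) x := MulAction.mem_stabilizer_iff.mpr h
  have h2 : Subgroup.zpowers σ ≤ MulAction.stabilizer Gal(M/F) x :=
    (Subgroup.zpowers_le).mpr h1
  exact MulAction.mem_stabilizer_iff.mp (h2 (hσ τ))

theorem Fx_sEnd_eq {σ : Gal(M/F)} (hσ : ∀ x, x ∈ Subgroup.zpowers σ) :
    Fx (sEnd σ) = Subgroup.toAddSubgroup (unitIncl F M).range := by
  ext x
  obtain ⟨u, rfl⟩ := Additive.ofMul.surjective x
  rw [mem_Fx, sEnd_apply]
  show Additive.ofMul (unitSigma σ u) = Additive.ofMul u ↔ u ∈ (unitIncl F M).range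
  constructor
  · intro h
    have h1 : unitSigma σ u = u := Additive.ofMul.injective h
    have h2 : σ • (u : 𝓞 M) = u := by rw [← coe_unitSigma, h1]
    have h3 : σ • ((u⁻¹ : (𝓞 M)ˣ) : 𝓞 M) = (u⁻¹ : (𝓞 M)ˣ) := by
      rw [← coe_unitSigma, map_inv, h1]
    obtain ⟨r, hr⟩ := Algebra.IsInvariant.isInvariant (A := 𝓞 F) (G := Gal(M/F)) (u : 𝓞 M)
      (smul_eq_of_generator' hσ h2)
    obtain ⟨r', hr'⟩ := Algebra.IsInvariant.isInvariant (A := 𝓞 F) (G := Gal(M/F))
      ((u⁻¹ : (𝓞 M)ˣ) : 𝓞 M) (smul_eq_of_generator' hσ h3)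
    have hinj := FaithfulSMul.algebraMap_injective (𝓞 F) (𝓞 M)
    have hrr' : r * r' = 1 := by
      apply hinj
      rw [map_mul, hr, hr', map_one, Units.mul_inv]
    exact ⟨⟨r, r', hrr', by rw [mul_comm, hrr']⟩, Units.ext hr⟩
  · rintro ⟨r, rfl⟩
    congr 1
    apply Units.ext
    rw [coe_unitSigma, coe_unitIncl, smul_algebraMap]

theorem Dl_sEnd_eq (σ : Gal(M/F)) :
    Dl (sEnd σ) = Subgroup.toAddSubgroup (unitDelta σ).range := by
  ext x
  obtain ⟨u, rfl⟩ := Additive.ofMul.surjective x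
  constructor
  · rintro ⟨y, hy⟩
    obtain ⟨v, rfl⟩ := Additive.ofMul.surjective y
    rw [dHom_apply, sEnd_apply] at hy
    exact ⟨v, Additive.ofMul.injective (by rw [unitDelta_apply, ofMul_div]; exact hy)⟩
  · rintro ⟨v, hv⟩
    refine ⟨Additive.ofMul v, ?_⟩
    rw [dHom_apply, sEnd_apply, ← ofMul_div, ← unitDelta_apply]
    exact congrArg Additive.ofMul hv

theorem range_pHom_eq (G : Type*) [CommGroup G] (p : ℕ) :
    (pHom (Additive G) p).range = Subgroup.toAddSubgroup (powMonoidHom p : G →* G).range := by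
  ext x
  obtain ⟨u, rfl⟩ := Additive.ofMul.surjective x
  constructor
  · rintro ⟨y, hy⟩
    obtain ⟨v, rfl⟩ := Additive.ofMul.surjective y
    exact ⟨v, Additive.ofMul.injective hy⟩
  · rintro ⟨v, hv⟩
    exact ⟨Additive.ofMul v, congrArg Additive.ofMul hv⟩

theorem map_pHom_range_eq (p : ℕ) :
    (Subgroup.toAddSubgroup (unitIncl F M).range).map (pHom (Additive (𝓞 M)ˣ) p) =
      Subgroup.toAddSubgroup
        ((powMonoidHom p : (𝓞 F)ˣ →* (𝓞 F)ˣ).range.map (unitIncl F M)) := by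
  ext x
  obtain ⟨u, rfl⟩ := Additive.ofMul.surjective x
  constructor
  · rintro ⟨y, ⟨r, hr⟩, hy⟩
    obtain ⟨v, rfl⟩ := Additive.ofMul.surjective y
    have hr' : unitIncl F M r = v := hr
    have hy' : v ^ p = u := Additive.ofMul.injective hy
    refine ⟨r ^ p, ⟨r, rfl⟩, ?_⟩
    show unitIncl F M (r ^ p) = u
    rw [map_pow, hr', hy']
  · rintro ⟨_, ⟨r, rfl⟩, hr⟩
    have hr' : unitIncl F M (r ^ p) = u := hr
    refine ⟨Additive.ofMul (unitIncl F M r), ⟨r, rfl⟩, ?_⟩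
    show Additive.ofMul ((unitIncl F M r) ^ p) = Additive.ofMul u
    rw [← map_pow, hr']

/-! ### Roots of unity -/

theorem unitSigma_eq_of_pow_eq_one {p : ℕ} (hp0 : p ≠ 0) {ζ : F} (hζ : IsPrimitiveRoot ζ p)
    (σ : Gal(M/F)) {u : (𝓞 M)ˣ} (hu : u ^ p = 1) : unitSigma σ u = u := by
  have hζM : IsPrimitiveRoot (algebraMap F M ζ) p :=
    hζ.map_of_injective (algebraMap F M).injective
  have huM : (((u : (𝓞 M)ˣ) : 𝓞 M) : M) ^ p = 1 := by
    have := congrArg (fun v : (𝓞 M)ˣ => (((v : 𝓞 M)) : M)) hu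
    simpa using this
  have : NeZero p := ⟨hp0⟩
  obtain ⟨i, -, hi⟩ := hζM.eq_pow_of_pow_eq_one huM
  apply Units.ext
  apply RingOfIntegers.ext
  show σ (((u : (𝓞 M)ˣ) : 𝓞 M) : M) = _
  rw [← hi, map_pow, AlgEquiv.commutes]

/-- The unit of `𝓞 M` given by a root of unity of `F`. -/
noncomputable def zetaUnit {p : ℕ} (hp0 : p ≠ 0) {ζ : F} (hζ : IsPrimitiveRoot ζ p) : (𝓞 M)ˣ :=
  Units.ofPowEqOne (⟨algebraMap F M ζ,
    ((hζ.map_of_injective (algebraMap F M).injective).isIntegral (Nat.pos_of_ne_zero hp0))⟩ : 𝓞 M)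
    p (RingOfIntegers.ext (by
      show (algebraMap F M ζ) ^ p = 1
      rw [← map_pow, hζ.pow_eq_one, map_one])) hp0

theorem zetaUnit_pow {p : ℕ} (hp0 : p ≠ 0) {ζ : F} (hζ : IsPrimitiveRoot ζ p) :
    (zetaUnit (M := M) hp0 hζ) ^ p = 1 :=
  Units.pow_ofPowEqOne _ _

theorem coe_zetaUnit {p : ℕ} (hp0 : p ≠ 0) {ζ : F} (hζ : IsPrimitiveRoot ζ p) :
    (((zetaUnit (M := M) hp0 hζ : (𝓞 M)ˣ) : 𝓞 M) : M) = algebraMap F M ζ := rfl

theorem zetaUnit_ne_one {p : ℕ} (hp1 : 1 < p) {ζ : F} (hζ : IsPrimitiveRoot ζ p) :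
    zetaUnit (M := M) (by omega) hζ ≠ 1 := by
  intro h
  have h1 := congrArg (fun v : (𝓞 M)ˣ => (((v : 𝓞 M)) : M)) h
  simp only [coe_zetaUnit] at h1
  have h2 : algebraMap F M ζ = 1 := by simpa using h1
  have h3 : ζ = 1 := (algebraMap F M).injective (by rw [h2, map_one])
  exact hζ.ne_one hp1 h3

/-! ### The unit index inequality -/

theorem relIndex_map_unitIncl (H : Subgroup (𝓞 F)ˣ) :
    (H.map (unitIncl F M)).relIndex (unitIncl F M).range = H.index := by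
  rw [MonoidHom.range_eq_map, Subgroup.relIndex_map_map_of_injective _ _ unitIncl_injective,
    Subgroup.relIndex_top_right]

/-- **The unit index inequality** `p * [E_F : N E_M] ≤ [E₁ : (1 - σ) E_M]`. -/
theorem unit_index_ineq {p : ℕ} (hp : p.Prime) (hp2 : p ≠ 2) (hdeg : Module.finrank F M = p)
    (hζ : ∃ ζ : F, IsPrimitiveRoot ζ p) {σ : Gal(M/F)} (hσ : ∀ x, x ∈ Subgroup.zpowers σ) :
    (unitNorm F M).range.index ≠ 0 ∧
      p * (unitNorm F M).range.index ≤ (unitDelta σ).range.relIndex (unitNorm F M).ker := by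
  have hpF : Fact p.Prime := ⟨hp⟩
  have hp0 : p ≠ 0 := hp.ne_zero
  have hcard : Nat.card Gal(M/F) = p := (IsGalois.card_aut_eq_finrank F M).trans hdeg
  have hσp : σ ^ p = 1 := by rw [← hcard]; exact pow_card_eq_one'
  have hs := sEnd_pow_eq_one hσp
  obtain ⟨ζ, hζ'⟩ := hζ
  have hζM : ∃ ζ : M, IsPrimitiveRoot ζ p :=
    ⟨algebraMap F M ζ, hζ'.map_of_injective (algebraMap F M).injective⟩
  set b := Fintype.card (InfinitePlace F) with hb
  have hA : p ^ (p * b) ≤ (pHom (Additive (𝓞 M)ˣ) p).range.index := by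
    rw [range_pHom_eq, Subgroup.index_toAddSubgroup, index_range_powMonoidHom_units M hp hζM,
      Units.rank, hb, ← card_infinitePlace_eq_mul F M hp hp2 hdeg ⟨ζ, hζ'⟩,
      Nat.sub_add_cancel Fintype.card_pos]
  have hsFeq : ((Fx (sEnd σ)).map (pHom (Additive (𝓞 M)ˣ) p)).relIndex (Fx (sEnd σ)) = p ^ b := by
    rw [Fx_sEnd_eq hσ, map_pHom_range_eq, Subgroup.relIndex_toAddSubgroup, relIndex_map_unitIncl,
      index_range_powMonoidHom_units F hp ⟨ζ, hζ'⟩, Units.rank, hb,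
      Nat.sub_add_cancel Fintype.card_pos]
  have hsF : ((Fx (sEnd σ)).map (pHom (Additive (𝓞 M)ˣ) p)).relIndex (Fx (sEnd σ)) ≠ 0 := by
    rw [hsFeq]; exact pow_ne_zero _ hp0
  have ha1 : ((A1 (sEnd σ) p).map (pHom (Additive (𝓞 M)ˣ) p)).relIndex (A1 (sEnd σ) p) ≠ 0 :=
    relIndex_map_pHom_ne_zero _ hp0
  have htors : ∀ x : Additive (𝓞 M)ˣ, p • x = 0 → sEnd σ x = x := by
    intro x hx
    obtain ⟨u, rfl⟩ := Additive.ofMul.surjective x
    have hu : u ^ p = 1 := Additive.ofMul.injective hx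
    rw [sEnd_apply, unitSigma_eq_of_pow_eq_one hp0 hζ' σ hu]
  have hz : sEnd σ (Additive.ofMul (zetaUnit (M := M) hp0 hζ')) =
      Additive.ofMul (zetaUnit (M := M) hp0 hζ') := by
    rw [sEnd_apply, unitSigma_eq_of_pow_eq_one hp0 hζ' σ (zetaUnit_pow hp0 hζ')]
  have hpz : p • Additive.ofMul (zetaUnit (M := M) hp0 hζ') = 0 :=
    congrArg Additive.ofMul (zetaUnit_pow (M := M) hp0 hζ')
  have hz0 : Additive.ofMul (zetaUnit (M := M) hp0 hζ') ≠ 0 := fun h =>
    zetaUnit_ne_one (M := M) hp.one_lt hζ' (Additive.ofMul.injective h)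
  obtain ⟨-, hineq⟩ := abstract_index_ineq hs b hA hsF hsFeq.le ha1 htors hp2 hz hpz hz0
  have hNuFx : (Nu (sEnd σ) p).relIndex (Fx (sEnd σ)) = (unitNorm F M).range.index := by
    rw [Nu_sEnd_eq hσ hcard, Fx_sEnd_eq hσ, Subgroup.relIndex_toAddSubgroup, relIndex_map_unitIncl]
  have hDlA1 : (Dl (sEnd σ)).relIndex (A1 (sEnd σ) p) =
      (unitDelta σ).range.relIndex (unitNorm F M).ker := by
    rw [Dl_sEnd_eq, A1_sEnd_eq hσ hcard, Subgroup.relIndex_toAddSubgroup]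
  rw [hNuFx, hDlA1] at hineq
  refine ⟨?_, hineq⟩
  rw [← hNuFx]
  have hle : (Fx (sEnd σ)).map (pHom (Additive (𝓞 M)ˣ) p) ≤ Nu (sEnd σ) p := by
    rw [← map_nu_Fx]
    exact AddSubgroup.map_le_range _ _
  have hdvd := AddSubgroup.relIndex_dvd_of_le_left (Fx (sEnd σ)) hle
  intro h0
  rw [h0, zero_dvd_iff] at hdvd
  exact hsF hdvd

end Fermat.Agent.S14.FirstIdeal
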