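import Fermat.Agent.S14.FirstIdeal
import Fermat.Agent.S14.UnitIndexNF

/-!
# S14 / FIRST: `normClasses_ne_top`

For an everywhere unramified Galois extension `M/F` of odd prime degree `p` with `ζ_p ∈ F`, the
classes of norms of ideals of `M` form a proper subgroup of the class group of `F`
(ambiguous class number argument + the unit index inequality).
-/

set_option autoImplicit false

open NumberField
open scoped Pointwise nonZeroDivisors

namespace Fermat.Agent.S14

open FirstIdeal FirstAbs

variable (F M : Type*) [Field F] [NumberField F] [Field M] [NumberField M] [Algebra F M]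

theorem normClasses_le_range_classNorm [IsGalois F M] :
    normClasses F M ≤ (classNorm F M).range := by
  rw [normClasses, Subgroup.closure_le]
  rintro c ⟨𝔄, h𝔄, rfl⟩
  refine ⟨ClassGroup.mk0 ⟨𝔄, mem_nonZeroDivisors_of_ne_zero h𝔄⟩, ?_⟩
  rw [classNorm_mk0]
  rfl

/-- **FIRST**: the norm classes form a proper subgroup. -/
theorem normClasses_ne_top [IsGalois F M] {p : ℕ} (hp : p.Prime) (hp2 : p ≠ 2)
    (hdeg : Module.finrank F M = p) (hunr : IsUnramifiedEverywhere F M)
    (hζ : ∃ ζ : F, IsPrimitiveRoot ζ p) :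
    normClasses F M ≠ ⊤ := by
  have hpF : Fact p.Prime := ⟨hp⟩
  have hcard : Nat.card Gal(M/F) = p := (IsGalois.card_aut_eq_finrank F M).trans hdeg
  have hcyc : IsCyclic Gal(M/F) := isCyclic_of_prime_card hcard
  obtain ⟨σ, hσ⟩ := IsCyclic.exists_generator (α := Gal(M/F))
  obtain ⟨hfin, hunit⟩ := unit_index_ineq hp hp2 hdeg hζ hσ
  have hΨ := relIndex_range_extendedHom_le hunr hσ hfin
  have hΦ := relIndex_range_unitDelta_le hunr hσ
  have hmain : p * Nat.card (classNorm F M).range ≤ Nat.card (ClassGroup (𝓞 F)) :=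
    card_range_mul_le (classSigma σ) (classNorm F M) (ClassGroup.extendedHom (𝓞 F) (𝓞 M))
      (classNorm_classSigma σ) (Nat.pos_of_ne_zero hfin) hΨ (hunit.trans hΦ)
  intro htop
  have h1 : (classNorm F M).range = ⊤ := top_le_iff.mp (htop ▸ normClasses_le_range_classNorm F M)
  rw [h1, Subgroup.card_top] at hmain
  have hpos : 0 < Nat.card (ClassGroup (𝓞 F)) := Nat.card_pos
  have h2 := hp.two_le
  nlinarith

end Fermat.Agent.S14
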