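import Fermat.Agent.S14.Cross.RecipMain
import Fermat.Agent.S14.FirstIneq

/-!
# S14, piece RECIP: Artin reciprocity for the unramified cyclic degree `p` extension `L/K`

`K = ℚ(ζ_p)`, `L/K` abelian of degree `p`, everywhere unramified, with `Gal(L/ℚ)` acting on
`Gal(L/K)` through the inverse of the cyclotomic character: principal ideals have trivial Artin
symbol.  (Crossing with cyclotomic fields + tame reciprocity + first and second inequality.)
-/

set_option autoImplicit false

open NumberField

namespace Fermat.Agent.S14

variable (p : ℕ) [Fact p.Prime] (L : Type*) [Field L] [NumberField L] [IsGalois ℚ L]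
  (K : IntermediateField ℚ L) [IsCyclotomicExtension {p} ℚ K]

/-- **RECIP** (Artin reciprocity for the unramified cyclic degree `p` extension `L/K`): principal
ideals prime to `p` have trivial Artin symbol. -/
theorem artin_span_singleton_eq_one (hp2 : p ≠ 2) [IsAbelianGalois K L]
    (hdeg : Module.finrank K L = p) (hunr : IsUnramifiedEverywhere K L)
    (hact : ConjActsByInvCyclo p L K) (β : 𝓞 K) (_hβ : IsCoprime (Ideal.span {β})
      (Ideal.span {(p : 𝓞 K)})) :
    artin K L (Ideal.span {β}) = 1 := by
  have hp : p.Prime := Fact.out
  haveI : NeZero p := ⟨hp.ne_zero⟩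
  have hfirst : normClasses K L ≠ ⊤ :=
    normClasses_ne_top K L hp hp2 hdeg hunr
      ⟨IsCyclotomicExtension.zeta p ℚ K, IsCyclotomicExtension.zeta_spec p ℚ K⟩
  exact Cross.artin_span_singleton_eq_one_of_first p L K hp2 hdeg hunr hact hfirst β

end Fermat.Agent.S14
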