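import Mathlib
import Fermat.Agent.S14.FrobBasic

/-!
# S14, piece FINAL (base change to `ℚ`): the hypothesis `hbase` of `no_unramified_extension_core`
-/

set_option autoImplicit false
set_option linter.style.haveILetI false
set_option linter.unusedSectionVars false

open NumberField
open scoped Pointwise IsMulCommutative

namespace Fermat.Agent.S14

section General

variable {R S G : Type*} [CommRing R] [CommRing S] [Algebra R S] [Group G]
  [MulSemiringAction G S] [SMulCommClass G R S]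

/-- Powers of a Frobenius element act as the iterated `q`-power map modulo `Q` (general base). -/
theorem isArithFrobAt_pow_smul_sub_mem {Q : Ideal S} {σ : G}
    (hσ : IsArithFrobAt R σ Q) (n : ℕ) (x : S) :
    (σ ^ n) • x - x ^ (Nat.card (R ⧸ Q.under R) ^ n) ∈ Q := by
  induction n generalizing x with
  | zero => simp
  | succ n ih =>
    have h1 : (σ ^ (n + 1)) • x = (σ ^ n) • (σ • x) := by rw [pow_succ, mul_smul]
    have h2 := ih (σ • x)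
    have h3 : σ • x - x ^ Nat.card (R ⧸ Q.under R) ∈ Q := hσ x
    have h4 : (σ • x) ^ (Nat.card (R ⧸ Q.under R) ^ n) -
        (x ^ Nat.card (R ⧸ Q.under R)) ^ (Nat.card (R ⧸ Q.under R) ^ n) ∈ Q :=
      Ideal.mem_of_dvd _ (sub_dvd_pow_sub_pow _ _ _) h3
    rw [h1, pow_succ, pow_mul']
    have := Q.add_mem h2 h4
    simpa using this

end General

section Base

variable (p : ℕ) [Fact p.Prime] (L : Type*) [Field L] [NumberField L] [IsGalois ℚ L]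
  (K : IntermediateField ℚ L) [IsCyclotomicExtension {p} ℚ K]

/-- An element of `Gal(L/ℚ)` fixing the `p`-th roots of unity fixes `K = ℚ(ζ_p)` pointwise. -/
theorem apply_algebraMap_eq_of_forall_root (σ : Gal(L/ℚ))
    (h : ∀ ζ : L, ζ ^ p = 1 → σ ζ = ζ) (x : K) : σ (algebraMap K L x) = algebraMap K L x := by
  have hp : p.Prime := Fact.out
  haveI : NeZero p := ⟨hp.ne_zero⟩
  have hη := IsCyclotomicExtension.zeta_spec p ℚ K
  let f₁ : K →ₐ[ℚ] L := (σ : L →ₐ[ℚ] L).comp (IsScalarTower.toAlgHom ℚ K L)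
  let f₂ : K →ₐ[ℚ] L := IsScalarTower.toAlgHom ℚ K L
  have hgen : f₁ (hη.powerBasis ℚ).gen = f₂ (hη.powerBasis ℚ).gen := by
    rw [IsPrimitiveRoot.powerBasis_gen]
    change σ (algebraMap K L _) = algebraMap K L _
    apply h
    rw [← map_pow, hη.pow_eq_one, map_one]
  have := (hη.powerBasis ℚ).algHom_ext hgen
  exact DFunLike.congr_fun this x

/-- **FINAL, hypothesis `hbase`**: for a nonzero prime `𝔭` of `K = ℚ(ζ_p)` not above `p`, with
residue characteristic `ℓ` and residue degree `f`, the Frobenius of `L/K` at `𝔭` is the `f`-th power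
of an arithmetic Frobenius `σ ∈ Gal(L/ℚ)` (at the chosen prime of `L` above `𝔭`), and `σ` acts on
the `p`-th roots of unity by `ζ ↦ ζ ^ ℓ`. -/
theorem frob_base_change [IsAbelianGalois K L] (hunr : IsUnramifiedEverywhere K L)
    (𝔭 : Ideal (𝓞 K)) (h𝔭 : 𝔭.IsPrime) (h0 : 𝔭 ≠ ⊥) (hp𝔭 : (p : 𝓞 K) ∉ 𝔭) :
    ∃ (σ : Gal(L/ℚ)) (ℓ f : ℕ), ℓ.Prime ∧ ℓ ≠ p ∧ Ideal.absNorm 𝔭 = ℓ ^ f ∧
        (ℓ % p = 1 → f = 1) ∧
        (∀ ζ : L, ζ ^ p = 1 → σ ζ = ζ ^ ℓ) ∧ (frob K L 𝔭).restrictScalars ℚ = σ ^ f := by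
  classical
  have hp : p.Prime := Fact.out
  haveI := h𝔭
  haveI : NeZero 𝔭 := ⟨h0⟩
  haveI : NeZero p := ⟨hp.ne_zero⟩
  set ℓ := Ideal.absNorm (Ideal.under ℤ 𝔭) with hℓdef
  have hℓ : ℓ.Prime := Nat.absNorm_under_prime 𝔭
  haveI : Fact ℓ.Prime := ⟨hℓ⟩
  haveI h𝔭ℓ : 𝔭.LiesOver (Ideal.span {(ℓ : ℤ)}) := Int.liesOver_span_absNorm 𝔭
  have hℓp : ℓ ≠ p := by
    intro h
    apply hp𝔭
    rw [← h]
    exact Int.absNorm_under_mem 𝔭
  set f := (Ideal.span {(ℓ : ℤ)}).inertiaDeg' 𝔭 with hf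
  have hN : Ideal.absNorm 𝔭 = ℓ ^ f := Ideal.absNorm_eq_pow_inertiaDeg' 𝔭 hℓ
  have hford : f = orderOf (ℓ : ZMod p) := by
    haveI hmax1 : (Ideal.span {(ℓ : ℤ)}).IsMaximal := Int.ideal_span_isMaximal_of_prime ℓ
    haveI hmax2 : 𝔭.IsMaximal := Ideal.IsPrime.isMaximal h𝔭 h0
    rw [hf, Ideal.inertiaDeg'_eq_inertiaDeg]
    exact IsCyclotomicExtension.Rat.inertiaDeg_eq_of_not_dvd ℓ K 𝔭
      (fun h => hℓp ((Nat.prime_dvd_prime_iff_eq hℓ hp).mp h))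
  -- the chosen prime of `L` above `𝔭`
  set Q : Ideal (𝓞 L) := primeOver K L 𝔭 with hQdef
  have hQ0 : Q ≠ ⊥ := primeOver_ne_bot K L 𝔭 h0
  haveI hQfin : Finite (𝓞 L ⧸ Q) := finite_quotient_primeOver K L 𝔭 h0
  have hQunder : Q.under (𝓞 K) = 𝔭 := ((primeOver_liesOver K L 𝔭).over).symm
  have hQℤ : Q.under ℤ = Ideal.span {(ℓ : ℤ)} := by
    rw [← Ideal.under_under (B := 𝓞 K) Q, hQunder]
    exact (h𝔭ℓ.over).symm
  have hcardℤ : Nat.card (ℤ ⧸ Q.under ℤ) = ℓ := by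
    rw [hQℤ, Int.card_ideal_quot]
  -- a Frobenius of `L/ℚ` at `Q`
  obtain ⟨σ, hσ⟩ := IsArithFrobAt.exists_of_isInvariant ℤ Gal(L/ℚ) Q
  -- action on roots of unity
  have hpQ : ((p : ℕ) : 𝓞 L) ∉ Q := by
    intro hmem
    apply hp𝔭
    rw [← hQunder, Ideal.under_def, Ideal.mem_comap]
    simpa using hmem
  have hσroot : ∀ ζ : L, ζ ^ p = 1 → σ ζ = ζ ^ ℓ := by
    intro ζ hζ
    have hint : IsIntegral ℤ ζ := by
      refine ⟨Polynomial.X ^ p - 1, Polynomial.monic_X_pow_sub_C 1 hp.ne_zero, ?_⟩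
      simp [hζ]
    set ζ' : 𝓞 L := ⟨ζ, hint⟩ with hζ'
    have hζ'pow : ζ' ^ p = 1 := by
      apply RingOfIntegers.ext
      change algebraMap (𝓞 L) L (ζ' ^ p) = algebraMap (𝓞 L) L 1
      rw [map_pow, map_one]
      exact hζ
    have key := AlgHom.IsArithFrobAt.apply_of_pow_eq_one hσ hζ'pow hpQ
    rw [hcardℤ, MulSemiringAction.toAlgHom_apply] at key
    have h2 := congrArg (algebraMap (𝓞 L) L) key
    rw [map_pow] at h2
    exact h2
  -- iterates on roots of unity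
  have hσpow : ∀ (n : ℕ) (ζ : L), ζ ^ p = 1 → (σ ^ n) ζ = ζ ^ (ℓ ^ n) := by
    intro n
    induction n with
    | zero => intro ζ _; simp
    | succ n ih =>
      intro ζ hζ
      have h1 : (σ ^ (n + 1)) ζ = (σ ^ n) (σ ζ) := by rw [pow_succ]; rfl
      have h2 : (ζ ^ ℓ) ^ p = 1 := by rw [← pow_mul, mul_comm, pow_mul, hζ, one_pow]
      rw [h1, hσroot ζ hζ, ih _ h2, ← pow_mul, ← pow_succ']
  -- `ℓ ^ f ≡ 1 mod p`
  have hℓf : ∃ k, ℓ ^ f = p * k + 1 := by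
    have h1 : ((ℓ ^ f : ℕ) : ZMod p) = ((1 : ℕ) : ZMod p) := by
      rw [Nat.cast_pow, hford, pow_orderOf_eq_one, Nat.cast_one]
    have h2 : ℓ ^ f ≡ 1 [MOD p] := (ZMod.natCast_eq_natCast_iff _ _ _).mp h1
    have h3 : 1 ≤ ℓ ^ f := Nat.one_le_pow _ _ hℓ.pos
    obtain ⟨k, hk⟩ := (Nat.modEq_iff_dvd' h3).mp h2.symm
    exact ⟨k, by omega⟩
  have hσfroot : ∀ ζ : L, ζ ^ p = 1 → (σ ^ f) ζ = ζ := by
    intro ζ hζ
    obtain ⟨k, hk⟩ := hℓf
    rw [hσpow f ζ hζ, hk, pow_succ, pow_mul, hζ, one_pow, one_mul]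
  have hfix := apply_algebraMap_eq_of_forall_root p L K (σ ^ f) hσfroot
  -- `σ ^ f` as an element of `Gal(L/K)`
  let τ : Gal(L/K) := { (σ ^ f : L ≃ₐ[ℚ] L).toRingEquiv with commutes' := fun x => hfix x }
  have hτ : τ.restrictScalars ℚ = σ ^ f := by
    ext x
    rfl
  -- `τ` is a Frobenius of `L/K` at `Q`
  have hτfrob : IsArithFrobAt (𝓞 K) τ Q := by
    intro x
    have h1 := isArithFrobAt_pow_smul_sub_mem hσ f x
    rw [hcardℤ] at h1
    have h2 : Nat.card (𝓞 K ⧸ Q.under (𝓞 K)) = ℓ ^ f := by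
      rw [card_quotient_under_eq_absNorm K L 𝔭 Q, hN]
    rw [h2]
    exact h1
  have hfrobτ : τ = frob K L 𝔭 :=
    eq_frob_of_isArithFrobAt K L 𝔭 h0 Q (hunr Q inferInstance hQ0) hτfrob
  refine ⟨σ, ℓ, f, hℓ, hℓp, hN, ?_, hσroot, ?_⟩
  · intro h1
    rw [hford, orderOf_eq_one_iff, ← ZMod.natCast_mod, h1, Nat.cast_one]
  · rw [← hfrobτ, hτ]

end Base

end Fermat.Agent.S14
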