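import Mathlib
import Fermat.Agent.S14.Defs

/-!
# S14, piece FINAL (core): no unramified `ω⁻¹`-extension of `ℚ(ζ_p)`

`no_unramified_extension_core` derives the contradiction from
* ZETA (`hzeta`), JACOBI (`hjac`), RECIP (`hrecip`) in the exact shape of their announced statements;
* four facts on Frobenius elements (pieces FROB-A/B/C), stated as hypotheses:
  `hsplit` (trivial Frobenius ⇒ completely split), `hartin` (Artin symbol of a product of primes),
  `hconj` (conjugation) and `hbase` (the Frobenius of `L/K` at `𝔭` is a power of an element of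
  `Gal(L/ℚ)` acting on `μ_p` by `ζ ↦ ζ ^ ℓ`).
-/

set_option autoImplicit false
set_option linter.style.haveILetI false

open NumberField
open scoped Pointwise IsMulCommutative

namespace Fermat.Agent.S14

section Arith

/-- The sum of the residues `1, …, (p-1)/2`, indexed by units of `ZMod p`. -/
theorem sum_val_filter_le_half (p : ℕ) [Fact p.Prime] :
    ∑ u ∈ Finset.filter (fun u : (ZMod p)ˣ => (u : ZMod p).val ≤ p / 2) Finset.univ,
      (u : ZMod p).val = ∑ k ∈ Finset.Icc 1 (p / 2), k := by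
  have hp : p.Prime := Fact.out
  refine Finset.sum_bij (fun u _ => (u : ZMod p).val) ?_ ?_ ?_ ?_
  · intro u hu
    rw [Finset.mem_filter] at hu
    rw [Finset.mem_Icc]
    refine ⟨?_, hu.2⟩
    have : (u : ZMod p).val ≠ 0 := by
      rw [Ne, ZMod.val_eq_zero]
      exact u.ne_zero
    omega
  · intro u _ v _ h
    exact Units.ext (ZMod.val_injective p h)
  · intro k hk
    rw [Finset.mem_Icc] at hk
    have hkp : k < p := by
      have h2 : p / 2 < p := Nat.div_lt_self hp.pos one_lt_two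
      omega
    have hcop : Nat.Coprime k p := by
      rw [Nat.coprime_comm]
      exact (Nat.Prime.coprime_iff_not_dvd hp).mpr (Nat.not_dvd_of_pos_of_lt (by omega) hkp)
    refine ⟨ZMod.unitOfCoprime k hcop, ?_, ?_⟩
    · rw [Finset.mem_filter]
      refine ⟨Finset.mem_univ _, ?_⟩
      rw [ZMod.coe_unitOfCoprime, ZMod.val_natCast_of_lt hkp]
      exact hk.2
    · rw [ZMod.coe_unitOfCoprime, ZMod.val_natCast_of_lt hkp]
  · intro u _
    rfl

theorem sum_Icc_one_mul_two (m : ℕ) : (∑ k ∈ Finset.Icc 1 m, k) * 2 = m * (m + 1) := by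
  induction m with
  | zero => simp
  | succ m ih =>
    rw [Finset.sum_Icc_succ_top (by omega), add_mul, ih]
    ring

/-- `1 + 2 + ⋯ + (p-1)/2` is prime to `p`. -/
theorem coprime_sum_Icc_half (p : ℕ) [Fact p.Prime] (hp2 : p ≠ 2) :
    Nat.Coprime (∑ k ∈ Finset.Icc 1 (p / 2), k) p := by
  have hp : p.Prime := Fact.out
  have h1 := sum_Icc_one_mul_two (p / 2)
  rw [Nat.coprime_comm, Nat.Prime.coprime_iff_not_dvd hp]
  intro hdvd
  have h2 : p ∣ (p / 2) * (p / 2 + 1) := by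
    rw [← h1]
    exact Dvd.dvd.mul_right hdvd 2
  have h5 : 2 ≤ p := hp.two_le
  have h3 : p / 2 < p := Nat.div_lt_self hp.pos one_lt_two
  have h4 : p / 2 + 1 < p := by
    rcases hp.eq_two_or_odd with h | h
    · exact absurd h hp2
    · omega
  rcases (Nat.Prime.dvd_mul hp).mp h2 with h | h
  · have hpos : 0 < p / 2 := by omega
    exact Nat.not_dvd_of_pos_of_lt hpos h3 h
  · exact Nat.not_dvd_of_pos_of_lt (by omega) h4 h

/-- An element of a group killed by two coprime exponents is trivial. -/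
theorem eq_one_of_pow_eq_one_of_coprime {G : Type*} [Group G] {g : G} {a b : ℕ}
    (hab : Nat.Coprime a b) (ha : g ^ a = 1) (hb : g ^ b = 1) : g = 1 := by
  have h1 : orderOf g ∣ a := orderOf_dvd_of_pow_eq_one ha
  have h2 : orderOf g ∣ b := orderOf_dvd_of_pow_eq_one hb
  have h3 : orderOf g ∣ 1 := by
    have := Nat.dvd_gcd h1 h2
    rwa [hab] at this
  exact orderOf_eq_one_iff.mp (Nat.dvd_one.mp h3)

end Arith

section FinalCore

variable (p : ℕ) [Fact p.Prime] (L : Type*) [Field L] [NumberField L] [IsGalois ℚ L]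
  (K : IntermediateField ℚ L) [IsCyclotomicExtension {p} ℚ K]

/-- **FINAL (core)**: the contradiction, from ZETA, JACOBI, RECIP and the Frobenius API. -/
theorem no_unramified_extension_core (hp2 : p ≠ 2) [IsGalois ℚ K] [IsAbelianGalois K L]
    (hdeg : Module.finrank K L = p)
    (hact : ∀ (σ : Gal(L/ℚ)) (k : ℕ), (∀ ζ : L, ζ ^ p = 1 → σ ζ = ζ ^ k) →
      ∀ n : Gal(L/K), σ⁻¹ * n.restrictScalars ℚ * σ = (n.restrictScalars ℚ) ^ k)
    -- ZETA
    (hzeta : ∀ S : Set (Ideal (𝓞 K)), S.Finite →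
      ∃ 𝔭 : Ideal (𝓞 K), 𝔭.IsPrime ∧ 𝔭 ≠ ⊥ ∧ 𝔭 ∉ S ∧
        (Ideal.primesOver 𝔭 (𝓞 L)).ncard < Module.finrank K L)
    -- JACOBI
    (hjac : ∀ (𝔮 : Ideal (𝓞 K)) [𝔮.IsPrime] {q : ℕ}, q.Prime → q ≠ p → Ideal.absNorm 𝔮 = q →
      ∃ J : 𝓞 K, J ≠ 0 ∧ Ideal.span {J} =
        ∏ u ∈ Finset.filter (fun u : (ZMod p)ˣ => (u : ZMod p).val ≤ p / 2) Finset.univ,
          ((IsCyclotomicExtension.Rat.galEquivZMod p K).symm u)⁻¹ • 𝔮)
    -- RECIP
    (hrecip : ∀ β : 𝓞 K, IsCoprime (Ideal.span {β}) (Ideal.span {(p : 𝓞 K)}) →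
      artin K L (Ideal.span {β}) = 1)
    -- FROB: trivial Frobenius implies completely split
    (hsplit : ∀ 𝔭 : Ideal (𝓞 K), 𝔭.IsPrime → 𝔭 ≠ ⊥ → frob K L 𝔭 = 1 →
      (Ideal.primesOver 𝔭 (𝓞 L)).ncard = Module.finrank K L)
    -- FROB: the Artin symbol of a product of nonzero primes
    (hartin : ∀ (s : Finset (ZMod p)ˣ) (f : (ZMod p)ˣ → Ideal (𝓞 K)),
      (∀ u ∈ s, (f u).IsPrime ∧ f u ≠ ⊥) →
        artin K L (∏ u ∈ s, f u) = ∏ u ∈ s, frob K L (f u))
    -- FROB: conjugation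
    (hconj : ∀ (τ : Gal(L/ℚ)) (𝔮 : Ideal (𝓞 K)), 𝔮.IsPrime → 𝔮 ≠ ⊥ → (p : 𝓞 K) ∉ 𝔮 →
      (frob K L ((τ.restrictNormal K) • 𝔮)).restrictScalars ℚ =
        τ * (frob K L 𝔮).restrictScalars ℚ * τ⁻¹)
    -- FROB: base change to `ℚ` and the cyclotomic Frobenius
    (hbase : ∀ 𝔭 : Ideal (𝓞 K), 𝔭.IsPrime → 𝔭 ≠ ⊥ → (p : 𝓞 K) ∉ 𝔭 →
      ∃ (σ : Gal(L/ℚ)) (ℓ f : ℕ), ℓ.Prime ∧ ℓ ≠ p ∧ Ideal.absNorm 𝔭 = ℓ ^ f ∧
        (ℓ % p = 1 → f = 1) ∧
        (∀ ζ : L, ζ ^ p = 1 → σ ζ = ζ ^ ℓ) ∧ (frob K L 𝔭).restrictScalars ℚ = σ ^ f) :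
    False := by
  classical
  have hp : p.Prime := Fact.out
  -- the finite set of primes above `p`
  let S : Set (Ideal (𝓞 K)) := {𝔭 | 𝔭.IsPrime ∧ (p : 𝓞 K) ∈ 𝔭}
  have hS : S.Finite := by
    have hp0 : Ideal.span {(p : 𝓞 K)} ≠ ⊥ := by
      rw [Ne, Ideal.span_singleton_eq_bot]
      exact_mod_cast hp.ne_zero
    refine Set.Finite.subset
      (UniqueFactorizationMonoid.normalizedFactors
        (Ideal.span {(p : 𝓞 K)})).toFinset.finite_toSet ?_
    rintro 𝔮 ⟨h1, h2⟩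
    rw [Finset.mem_coe, Multiset.mem_toFinset, Ideal.mem_normalizedFactors_iff hp0]
    exact ⟨h1, (Ideal.span_singleton_le_iff_mem _).mpr h2⟩
  obtain ⟨𝔭, h𝔭, h𝔭0, h𝔭S, hcard⟩ := hzeta S hS
  have hp𝔭 : (p : 𝓞 K) ∉ 𝔭 := fun h => h𝔭S ⟨h𝔭, h⟩
  -- it suffices to show that the Frobenius at `𝔭` is trivial
  suffices hfrob : frob K L 𝔭 = 1 by
    have := hsplit 𝔭 h𝔭 h𝔭0 hfrob
    omega
  set n : Gal(L/K) := frob K L 𝔭 with hn
  -- `n ^ p = 1`
  have hnp : n ^ p = 1 := by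
    have hcardG : Nat.card Gal(L/K) = p := by
      rw [IsGalois.card_aut_eq_finrank, hdeg]
    rw [← hcardG]
    exact pow_card_eq_one'
  have hinj := AlgEquiv.restrictScalarsHom_injective (R := ℚ) (S := K) (A := L)
  obtain ⟨σ, ℓ, f, hℓ, hℓp, hN, hf1, hσ, hnσ⟩ := hbase 𝔭 h𝔭 h𝔭0 hp𝔭
  by_cases hℓ1 : ℓ % p = 1
  · -- degree one: Stickelberger for Jacobi sums and reciprocity
    have hf : f = 1 := hf1 hℓ1
    rw [hf, pow_one] at hN
    haveI := h𝔭
    obtain ⟨J, hJ0, hJ⟩ := hjac 𝔭 hℓ hℓp hN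
    set T := Finset.filter (fun u : (ZMod p)ˣ => (u : ZMod p).val ≤ p / 2) Finset.univ with hT
    set g : (ZMod p)ˣ → Ideal (𝓞 K) := fun u =>
      ((IsCyclotomicExtension.Rat.galEquivZMod p K).symm u)⁻¹ • 𝔭 with hg
    -- `ℓ` lies in every conjugate of `𝔭`
    have hℓmem : ∀ σ' : Gal(K/ℚ), ((ℓ : ℕ) : 𝓞 K) ∈ σ' • 𝔭 := by
      intro σ'
      have h1 : ((ℓ : ℕ) : 𝓞 K) ∈ 𝔭 := by
        have := Ideal.absNorm_mem 𝔭
        rwa [hN] at this
      have h2 : σ' • ((ℓ : ℕ) : 𝓞 K) ∈ σ' • 𝔭 := Ideal.smul_mem_pointwise_smul _ _ _ h1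
      have h3 : σ' • ((ℓ : ℕ) : 𝓞 K) = ((ℓ : ℕ) : 𝓞 K) :=
        map_natCast (MulSemiringAction.toRingHom Gal(K/ℚ) (𝓞 K) σ') ℓ
      rwa [h3] at h2
    -- the conjugates are nonzero primes
    have hgprime : ∀ u ∈ T, (g u).IsPrime ∧ g u ≠ ⊥ := by
      intro u _
      refine ⟨inferInstance, ?_⟩
      intro h0
      have := hℓmem ((IsCyclotomicExtension.Rat.galEquivZMod p K).symm u)⁻¹
      rw [show ((IsCyclotomicExtension.Rat.galEquivZMod p K).symm u)⁻¹ • 𝔭 = g u from rfl, h0,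
        Ideal.mem_bot] at this
      exact hℓ.ne_zero (by exact_mod_cast this)
    -- coprimality with `p`
    have hcopJ : IsCoprime (Ideal.span {J}) (Ideal.span {(p : 𝓞 K)}) := by
      rw [hJ, Ideal.isCoprime_iff_exists]
      have h1 : ((ℓ : 𝓞 K)) ^ T.card ∈ ∏ u ∈ T, g u := by
        rw [← Finset.prod_const]
        exact Ideal.prod_mem_prod fun u _ => hℓmem _
      have hcop : IsCoprime ((ℓ : ℤ) ^ T.card) (p : ℤ) := by
        apply IsCoprime.pow_left
        rw [Int.isCoprime_iff_gcd_eq_one, Int.gcd_natCast_natCast]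
        exact (Nat.coprime_primes hℓ hp).mpr hℓp
      obtain ⟨a, b, hab⟩ := hcop
      refine ⟨(a : 𝓞 K) * (ℓ : 𝓞 K) ^ T.card, Ideal.mul_mem_left _ _ h1,
        (b : 𝓞 K) * (p : 𝓞 K), Ideal.mul_mem_left _ _ (Ideal.mem_span_singleton_self _), ?_⟩
      have := congrArg (Int.cast : ℤ → 𝓞 K) hab
      push_cast at this
      exact this
    have hart := hrecip J hcopJ
    rw [hJ, hartin T g hgprime] at hart
    -- each Frobenius is a power of `n`
    have hpow : ∀ u ∈ T, frob K L (g u) = n ^ (u : ZMod p).val := by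
      intro u _
      obtain ⟨τ, hτ⟩ := AlgEquiv.restrictNormalHom_surjective (F := ℚ) (K₁ := K) L
        ((IsCyclotomicExtension.Rat.galEquivZMod p K).symm u)⁻¹
      have hτ' : τ.restrictNormal K = ((IsCyclotomicExtension.Rat.galEquivZMod p K).symm u)⁻¹ := hτ
      have h1 := hconj τ 𝔭 h𝔭 h𝔭0 hp𝔭
      rw [hτ'] at h1
      have hroot : ∀ ζ : L, ζ ^ p = 1 → τ⁻¹ ζ = ζ ^ (u : ZMod p).val := by
        intro ζ hζ
        have hη := IsCyclotomicExtension.zeta_spec p ℚ K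
        have hηL : IsPrimitiveRoot (algebraMap K L (IsCyclotomicExtension.zeta p ℚ K)) p :=
          hη.map_of_injective (algebraMap K L).injective
        obtain ⟨i, -, rfl⟩ := hηL.eq_pow_of_pow_eq_one hζ
        have h3 : (τ⁻¹).restrictNormal K = (IsCyclotomicExtension.Rat.galEquivZMod p K).symm u := by
          have h4 : (τ⁻¹).restrictNormal K = (τ.restrictNormal K)⁻¹ :=
            map_inv (AlgEquiv.restrictNormalHom (F := ℚ) (K₁ := L) K) τ
          rw [h4, hτ', inv_inv]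
        have h5 : τ⁻¹ (algebraMap K L (IsCyclotomicExtension.zeta p ℚ K)) =
            algebraMap K L (IsCyclotomicExtension.zeta p ℚ K) ^ (u : ZMod p).val := by
          rw [← AlgEquiv.restrictNormal_commutes, h3,
            IsCyclotomicExtension.Rat.galEquivZMod_apply_of_pow_eq p K _ hη.pow_eq_one,
            MulEquiv.apply_symm_apply, map_pow]
        rw [map_pow, h5, ← pow_mul, ← pow_mul, mul_comm]
      have h2 := hact τ⁻¹ (u : ZMod p).val hroot n
      rw [inv_inv] at h2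
      apply hinj
      rw [map_pow]
      exact h1.trans h2
    rw [Finset.prod_congr rfl hpow, Finset.prod_pow_eq_pow_sum, sum_val_filter_le_half] at hart
    exact eq_one_of_pow_eq_one_of_coprime (coprime_sum_Icc_half p hp2) hart hnp
  · -- degree `> 1`: `n` commutes with `σ`, but `σ` acts on `n` by the exponent `ℓ`
    have h1 := hact σ ℓ hσ n
    rw [hnσ] at h1
    have h2 : σ⁻¹ * σ ^ f * σ = σ ^ f := by group
    rw [h2, ← hnσ] at h1
    -- `n = n ^ ℓ`
    have h3 : n = n ^ ℓ := by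
      apply hinj
      rw [map_pow]
      exact h1
    have hℓpos : 1 ≤ ℓ := hℓ.one_lt.le
    have h4 : n ^ (ℓ - 1) = 1 := by
      have : n ^ (ℓ - 1) * n = 1 * n := by
        rw [← pow_succ, Nat.sub_add_cancel hℓpos, one_mul]
        exact h3.symm
      exact mul_right_cancel this
    have hcop : Nat.Coprime (ℓ - 1) p := by
      rw [Nat.coprime_comm, Nat.Prime.coprime_iff_not_dvd hp]
      intro hdvd
      apply hℓ1
      have : ℓ = (ℓ - 1) + 1 := by omega
      rw [this, Nat.add_mod, Nat.mod_eq_zero_of_dvd hdvd, zero_add, Nat.mod_mod,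
        Nat.mod_eq_of_lt hp.one_lt]
    exact eq_one_of_pow_eq_one_of_coprime hcop h4 hnp

end FinalCore

end Fermat.Agent.S14
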