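import Mathlib
import Fermat.Agent.S14.Defs

/-!
# S14, piece FROB-C: Frobenius elements and Artin symbols on roots of unity

For a Galois extension `M/F` of number fields, a nonzero prime `𝔭` of `𝓞 F` not containing `m`,
and an `m`-th root of unity `ζ ∈ M`, the Frobenius element `frob F M 𝔭` maps `ζ` to
`ζ ^ absNorm 𝔭`.  For abelian `M/F` and an ideal `𝔞` prime to `m`, `artin F M 𝔞` maps `ζ` to
`ζ ^ absNorm 𝔞`.
-/

set_option autoImplicit false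

open NumberField

namespace Fermat.Agent.S14

variable (F M : Type*) [Field F] [NumberField F] [Field M] [NumberField M] [Algebra F M]

/-- unfolding `frob` at a nonzero prime -/
theorem frob_eq_arithFrobAt [IsGalois F M] (𝔭 : Ideal (𝓞 F)) [h𝔭 : 𝔭.IsPrime] (h0 : 𝔭 ≠ ⊥) :
    haveI := finite_quotient_primeOver F M 𝔭 h0
    frob F M 𝔭 = arithFrobAt (𝓞 F) Gal(M/F) (primeOver F M 𝔭) := by
  unfold frob
  rw [dif_pos ⟨h𝔭, h0⟩]

/-- `frob` is `1` away from nonzero primes -/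
theorem frob_eq_one_of_not [IsGalois F M] (𝔭 : Ideal (𝓞 F)) (h : ¬ (𝔭.IsPrime ∧ 𝔭 ≠ ⊥)) :
    frob F M 𝔭 = 1 := by
  unfold frob
  rw [dif_neg h]

/-- the defining property of `frob` -/
theorem frob_isArithFrobAt [IsGalois F M] (𝔭 : Ideal (𝓞 F)) [h𝔭 : 𝔭.IsPrime] (h0 : 𝔭 ≠ ⊥) :
    IsArithFrobAt (𝓞 F) (frob F M 𝔭) (primeOver F M 𝔭) := by
  have := finite_quotient_primeOver F M 𝔭 h0
  rw [frob_eq_arithFrobAt F M 𝔭 h0]
  exact IsArithFrobAt.arithFrobAt (𝓞 F) Gal(M/F) (primeOver F M 𝔭)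


/-- **FROB-C (1)**: the Frobenius at a prime `𝔭 ∤ m` raises the `m`-th roots of unity to the power
`absNorm 𝔭`. -/
theorem frob_apply_of_pow_eq_one [IsGalois F M] (𝔭 : Ideal (𝓞 F)) [h𝔭 : 𝔭.IsPrime] (h0 : 𝔭 ≠ ⊥)
    {m : ℕ} (hm : (m : 𝓞 F) ∉ 𝔭) {ζ : M} (hζ : ζ ^ m = 1) :
    frob F M 𝔭 ζ = ζ ^ Ideal.absNorm 𝔭 := by
  have hm0 : m ≠ 0 := by
    rintro rfl
    exact hm (by simp)
  have hint : IsIntegral ℤ ζ := by
    refine ⟨Polynomial.X ^ m - 1, Polynomial.monic_X_pow_sub_C 1 hm0, ?_⟩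
    simp [hζ]
  set ζ' : 𝓞 M := ⟨ζ, hint⟩ with hζ'
  have hcoe : (ζ' : M) = ζ := rfl
  have hζ'pow : ζ' ^ m = 1 := by
    apply RingOfIntegers.ext
    change algebraMap (𝓞 M) M (ζ' ^ m) = algebraMap (𝓞 M) M 1
    rw [map_pow, map_one]
    exact hζ
  have hH := frob_isArithFrobAt F M 𝔭 h0
  have hunder : (primeOver F M 𝔭).under (𝓞 F) = 𝔭 := ((primeOver_liesOver F M 𝔭).over).symm
  have hmQ : ((m : ℕ) : 𝓞 M) ∉ primeOver F M 𝔭 := by
    intro hmem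
    apply hm
    rw [← hunder, Ideal.under_def, Ideal.mem_comap]
    simpa using hmem
  have key := AlgHom.IsArithFrobAt.apply_of_pow_eq_one hH hζ'pow hmQ
  rw [hunder] at key
  have hcard : Nat.card (𝓞 F ⧸ 𝔭) = Ideal.absNorm 𝔭 := by
    rw [Ideal.absNorm_apply]; rfl
  rw [hcard, MulSemiringAction.toAlgHom_apply] at key
  have h2 := congrArg (algebraMap (𝓞 M) M) key
  rw [map_pow] at h2
  exact h2


open scoped IsMulCommutative in
/-- product of Frobenius elements on roots of unity -/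
theorem prod_frob_apply_of_pow_eq_one [IsAbelianGalois F M] {m : ℕ} {ζ : M} (hζ : ζ ^ m = 1)
    (s : Multiset (Ideal (𝓞 F)))
    (hs : ∀ 𝔭 ∈ s, 𝔭.IsPrime ∧ 𝔭 ≠ ⊥ ∧ (m : 𝓞 F) ∉ 𝔭) :
    (s.map (frob F M)).prod ζ = ζ ^ (s.map Ideal.absNorm).prod := by
  induction s using Multiset.induction with
  | empty => simp
  | cons 𝔭 s ih =>
    have h1 := hs 𝔭 (Multiset.mem_cons_self 𝔭 s)
    have h2 : ∀ 𝔮 ∈ s, 𝔮.IsPrime ∧ 𝔮 ≠ ⊥ ∧ (m : 𝓞 F) ∉ 𝔮 :=
      fun 𝔮 h𝔮 => hs 𝔮 (Multiset.mem_cons_of_mem h𝔮)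
    have := h1.1
    rw [Multiset.map_cons, Multiset.prod_cons, Multiset.map_cons, Multiset.prod_cons,
      AlgEquiv.mul_apply, ih h2, map_pow, frob_apply_of_pow_eq_one F M 𝔭 h1.2.1 h1.2.2 hζ,
      ← pow_mul]

/-- **FROB-C (2)**: the Artin symbol of an ideal `𝔞` prime to `m` raises the `m`-th roots of unity
to the power `absNorm 𝔞`. -/
theorem artin_apply_of_pow_eq_one [IsAbelianGalois F M] (𝔞 : Ideal (𝓞 F)) (h𝔞 : 𝔞 ≠ ⊥) {m : ℕ}
    (hm : IsCoprime 𝔞 (Ideal.span {(m : 𝓞 F)})) {ζ : M} (hζ : ζ ^ m = 1) :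
    artin F M 𝔞 ζ = ζ ^ Ideal.absNorm 𝔞 := by
  unfold artin
  rw [prod_frob_apply_of_pow_eq_one F M hζ]
  · congr 1
    rw [← map_multiset_prod, Ideal.prod_normalizedFactors_eq_self h𝔞]
  · intro 𝔭 h𝔭
    have hprime : Prime 𝔭 := UniqueFactorizationMonoid.prime_of_normalized_factor 𝔭 h𝔭
    have hdvd : 𝔭 ∣ 𝔞 := UniqueFactorizationMonoid.dvd_of_mem_normalizedFactors h𝔭
    refine ⟨Ideal.isPrime_of_prime hprime, hprime.ne_zero, fun hmem => ?_⟩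
    have h1 : 𝔞 ≤ 𝔭 := Ideal.le_of_dvd hdvd
    have h2 : Ideal.span {(m : 𝓞 F)} ≤ 𝔭 := by
      rw [Ideal.span_singleton_le_iff_mem]; exact hmem
    have htop : (⊤ : Ideal (𝓞 F)) ≤ 𝔭 := by
      rw [← Ideal.isCoprime_iff_sup_eq.mp hm]
      exact sup_le h1 h2
    exact (Ideal.isPrime_of_prime hprime).ne_top (top_le_iff.mp htop)

/-- **FROB-C (3)**: the absolute norm of a principal ideal (this is `Ideal.absNorm_span_singleton`
of Mathlib, restated for convenience). -/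
theorem absNorm_span_singleton_eq (β : 𝓞 F) :
    Ideal.absNorm (Ideal.span {β}) = (Algebra.norm ℤ β).natAbs :=
  Ideal.absNorm_span_singleton β

end Fermat.Agent.S14
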