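import Fermat.Agent.S14.Defs
import Fermat.Agent.S14.FrobCyclo

/-!
# S14, piece FROB-B: Frobenius elements and Artin symbols in towers

Setting: number fields as types, with `Algebra` instances and scalar towers.

* `IsUnramifiedAbove F M 𝔭` : `M/F` has trivial inertia groups at all primes above `𝔭`.
* `frob_isArithFrobAt`, `frob_isArithFrobAt_of_liesOver` (abelian case),
  `eq_frob_of_forall_sub_mem` : characterisation of `frob`.
* `galRestrict` : restriction `Gal(M'/F') → Gal(M/F)` in a square of fields.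
* `galRestrict_frob`, `galRestrict_artin` : base change (norm functoriality of the Artin symbol).
* `restrictNormalHom_frob`, `restrictNormalHom_artin` : restriction in a tower.
* `isUnramifiedEverywhere_of_injective` : unramified base change.
* `frob_smul`, `frob_inv_smul_eq_pow` : Frobenius elements of conjugate primes.
-/

set_option autoImplicit false

open NumberField

open scoped Pointwise

namespace Fermat.Agent.S14.FrobTower

section Basic

variable (F M : Type*) [Field F] [NumberField F] [Field M] [NumberField M] [Algebra F M]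
  [IsGalois F M]

/-- `M/F` has trivial inertia groups at all primes of `𝓞 M` above the prime `𝔭` of `𝓞 F`. -/
def IsUnramifiedAbove (𝔭 : Ideal (𝓞 F)) : Prop :=
  ∀ Q : Ideal (𝓞 M), Q.IsPrime → Q.LiesOver 𝔭 → Ideal.inertia Gal(M/F) Q = ⊥

variable {F M}

theorem isUnramifiedAbove_of_everywhere (h : IsUnramifiedEverywhere F M)
    (𝔭 : Ideal (𝓞 F)) (h𝔭 : 𝔭 ≠ ⊥) : IsUnramifiedAbove F M 𝔭 :=
  fun Q hQ hQ𝔭 => h Q hQ (Ideal.ne_bot_of_liesOver_of_ne_bot h𝔭 Q)

/-- Two elements of the Galois group which agree modulo a prime with trivial inertia group are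
equal. -/
theorem eq_of_forall_smul_sub_smul_mem {Q : Ideal (𝓞 M)} (hQ : Ideal.inertia Gal(M/F) Q = ⊥)
    {σ τ : Gal(M/F)} (h : ∀ x : 𝓞 M, σ • x - τ • x ∈ Q) : σ = τ := by
  have hmem : σ * τ⁻¹ ∈ Ideal.inertia Gal(M/F) Q := by
    intro y
    have := h (τ⁻¹ • y)
    rwa [smul_inv_smul, ← mul_smul] at this
  rw [hQ, Subgroup.mem_bot] at hmem
  exact mul_inv_eq_one.mp hmem

variable (F M)

/-- In an abelian extension, `frob F M 𝔭` is a Frobenius at every prime above `𝔭`. -/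
theorem frob_isArithFrobAt_of_liesOver [IsMulCommutative Gal(M/F)] (𝔭 : Ideal (𝓞 F)) [𝔭.IsPrime]
    (h0 : 𝔭 ≠ ⊥) (Q : Ideal (𝓞 M)) [Q.IsPrime] [hQ : Q.LiesOver 𝔭] :
    IsArithFrobAt (𝓞 F) (frob F M 𝔭) Q := by
  obtain ⟨τ, hτ⟩ := Algebra.IsInvariant.exists_smul_of_under_eq (𝓞 F) (𝓞 M) Gal(M/F)
    (primeOver F M 𝔭) Q (((primeOver F M 𝔭).over_def 𝔭).symm.trans (Q.over_def 𝔭))
  have h := (frob_isArithFrobAt F M 𝔭 h0).conj τ
  rw [← hτ, mul_comm' τ, mul_inv_cancel_right] at h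
  exact h

/-- Characterisation of `frob` in the abelian unramified case: an element of the Galois group which
acts as `x ↦ x ^ N𝔭` modulo some prime `Q` above `𝔭` is `frob F M 𝔭`. -/
theorem eq_frob_of_isArithFrobAt [IsMulCommutative Gal(M/F)] (𝔭 : Ideal (𝓞 F)) [𝔭.IsPrime]
    (h0 : 𝔭 ≠ ⊥) (hunr : IsUnramifiedAbove F M 𝔭) (Q : Ideal (𝓞 M)) [hQ : Q.IsPrime]
    [hQ𝔭 : Q.LiesOver 𝔭] {σ : Gal(M/F)} (hσ : IsArithFrobAt (𝓞 F) σ Q) : σ = frob F M 𝔭 := by
  have h := hσ.mul_inv_mem_inertia (frob_isArithFrobAt_of_liesOver F M 𝔭 h0 Q)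
  rw [hunr Q hQ hQ𝔭, Subgroup.mem_bot] at h
  exact mul_inv_eq_one.mp h

end Basic

section Spec

variable (F M : Type*) [Field F] [NumberField F] [Field M] [NumberField M] [Algebra F M]
  [IsGalois F M]

/-- `frob_isArithFrobAt` in terms of the group action. -/
theorem FrobCyclo_frob_spec (𝔭 : Ideal (𝓞 F)) [𝔭.IsPrime] (h0 : 𝔭 ≠ ⊥) (y : 𝓞 M) :
    frob F M 𝔭 • y - y ^ Nat.card (𝓞 F ⧸ (primeOver F M 𝔭).under (𝓞 F)) ∈ primeOver F M 𝔭 :=
  frob_isArithFrobAt F M 𝔭 h0 y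

end Spec

section Artin
variable (F M : Type*) [Field F] [NumberField F] [Field M] [NumberField M] [Algebra F M]
  [IsAbelianGalois F M]

open scoped IsMulCommutative in
theorem artin_mul {𝔞 𝔟 : Ideal (𝓞 F)} (ha : 𝔞 ≠ ⊥) (hb : 𝔟 ≠ ⊥) :
    artin F M (𝔞 * 𝔟) = artin F M 𝔞 * artin F M 𝔟 := by
  unfold artin
  rw [UniqueFactorizationMonoid.normalizedFactors_mul ha hb, Multiset.map_add, Multiset.prod_add]

open scoped IsMulCommutative in
theorem artin_one : artin F M 1 = 1 := by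
  unfold artin
  rw [UniqueFactorizationMonoid.normalizedFactors_one, Multiset.map_zero, Multiset.prod_zero]

open scoped IsMulCommutative in
theorem artin_pow (𝔞 : Ideal (𝓞 F)) (n : ℕ) : artin F M (𝔞 ^ n) = artin F M 𝔞 ^ n := by
  unfold artin
  rw [UniqueFactorizationMonoid.normalizedFactors_pow, Multiset.map_nsmul, Multiset.prod_nsmul]

open scoped IsMulCommutative in
theorem artin_prime (𝔭 : Ideal (𝓞 F)) [h𝔭 : 𝔭.IsPrime] (h0 : 𝔭 ≠ ⊥) :
    artin F M 𝔭 = frob F M 𝔭 := by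
  unfold artin
  rw [UniqueFactorizationMonoid.normalizedFactors_irreducible
    (Ideal.prime_of_isPrime h0 h𝔭).irreducible, normalize_eq, Multiset.map_singleton,
    Multiset.prod_singleton]

open scoped IsMulCommutative in
theorem artin_multiset_prod (s : Multiset (Ideal (𝓞 F))) (hs : ∀ 𝔞 ∈ s, 𝔞 ≠ ⊥) :
    artin F M s.prod = (s.map (artin F M)).prod := by
  induction s using Multiset.induction with
  | empty => simpa using artin_one F M
  | cons 𝔞 s ih =>
    have h1 := hs 𝔞 (Multiset.mem_cons_self 𝔞 s)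
    have h2 : ∀ 𝔟 ∈ s, 𝔟 ≠ ⊥ := fun 𝔟 h𝔟 => hs 𝔟 (Multiset.mem_cons_of_mem h𝔟)
    have h3 : s.prod ≠ ⊥ := by
      rw [← Ideal.zero_eq_bot]
      exact Multiset.prod_ne_zero fun h => h2 _ h rfl
    rw [Multiset.prod_cons, artin_mul F M h1 h3, ih h2, Multiset.map_cons, Multiset.prod_cons]

end Artin
section CardPow

theorem card_quotient_eq_absNorm {K : Type*} [Field K] [NumberField K] (I : Ideal (𝓞 K)) :
    Nat.card (𝓞 K ⧸ I) = Ideal.absNorm I := by
  rw [Ideal.absNorm_apply]; rfl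

variable (F F' : Type*) [Field F] [NumberField F] [Field F'] [NumberField F'] [Algebra F F']

/-- The norm of a prime `𝔓` of `F'` is a power of the prime below, and the same exponent computes
the cardinality of the residue field. -/
theorem exists_relNorm_eq_pow_and_card (𝔭 : Ideal (𝓞 F)) [𝔭.IsPrime]
    (𝔓 : Ideal (𝓞 F')) [𝔓.IsPrime] [𝔓.LiesOver 𝔭] :
    ∃ f : ℕ, Ideal.relNorm (𝓞 F) 𝔓 = 𝔭 ^ f ∧
      Nat.card (𝓞 F' ⧸ 𝔓) = Nat.card (𝓞 F ⧸ 𝔭) ^ f := by
  obtain ⟨f, hf⟩ := Ideal.exists_relNorm_eq_pow_of_isPrime 𝔓 𝔭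
  refine ⟨f, hf, ?_⟩
  have h1 : Ideal.absNorm 𝔓 = Ideal.absNorm 𝔭 ^ f := by
    rw [← Ideal.absNorm_relNorm (R := 𝓞 F), hf, map_pow]
  rw [card_quotient_eq_absNorm, card_quotient_eq_absNorm, h1]

end CardPow
section Iterate

variable {R S : Type*} [CommRing R] [CommRing S] [Algebra R S]
  {G : Type*} [Group G] [MulSemiringAction G S] [SMulCommClass G R S]

/-- Iterating a Frobenius element. -/
theorem pow_smul_sub_pow_mem {Q : Ideal S} {σ : G} (H : IsArithFrobAt R σ Q) (f : ℕ) (x : S) :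
    (σ ^ f) • x - x ^ (Nat.card (R ⧸ Q.under R) ^ f) ∈ Q := by
  rw [← Ideal.Quotient.eq]
  induction f generalizing x with
  | zero => simp
  | succ f ih =>
    rw [pow_succ', mul_smul, pow_succ, pow_mul]
    have h1 : Ideal.Quotient.mk Q (σ • (σ ^ f • x)) =
        (Ideal.Quotient.mk Q (σ ^ f • x)) ^ Nat.card (R ⧸ Q.under R) := by
      rw [← map_pow]
      exact H.mk_apply (σ ^ f • x)
    rw [h1, ih, ← map_pow]

end Iterate

section Square

variable (F F' M M' : Type*) [Field F] [NumberField F] [Field F'] [NumberField F']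
  [Field M] [NumberField M] [Field M'] [NumberField M']
  [Algebra F F'] [Algebra F' M'] [Algebra F M'] [IsScalarTower F F' M']
  [Algebra F M] [Algebra M M'] [IsScalarTower F M M'] [IsGalois F M]

/-- Restriction `Gal(M'/F') → Gal(M/F)` in a commutative square of fields
`F ⊆ F' ⊆ M'`, `F ⊆ M ⊆ M'` with `M/F` Galois. -/
noncomputable def galRestrict : Gal(M'/F') →* Gal(M/F) :=
  (AlgEquiv.restrictNormalHom M).comp (AlgEquiv.restrictScalarsHom F)

variable {F' M'}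

theorem algebraMap_galRestrict (σ : Gal(M'/F')) (x : M) :
    algebraMap M M' (galRestrict F F' M M' σ x) = σ (algebraMap M M' x) :=
  AlgEquiv.restrictNormal_commutes (σ.restrictScalars F) M x

theorem algebraMap_galRestrict_smul (σ : Gal(M'/F')) (x : 𝓞 M) :
    algebraMap (𝓞 M) (𝓞 M') (galRestrict F F' M M' σ • x) =
      σ • algebraMap (𝓞 M) (𝓞 M') x := by
  apply RingOfIntegers.ext
  exact algebraMap_galRestrict F M σ (x : M)

variable {F M}

/-- Core uniqueness statement: if `σ' ∈ Gal(M'/F')` acts as `y ↦ y ^ n` modulo a prime `Q'` of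
`𝓞 M'`, and `τ ∈ Gal(M/F)` acts as `x ↦ x ^ n` modulo `Q' ∩ 𝓞 M`, and the latter prime has trivial
inertia group in `Gal(M/F)`, then `σ'` restricts to `τ`. -/
theorem galRestrict_eq_of_forall_sub_pow_mem (Q' : Ideal (𝓞 M'))
    (hQ : Ideal.inertia Gal(M/F) (Q'.under (𝓞 M)) = ⊥) (n : ℕ) {σ' : Gal(M'/F')}
    (hσ' : ∀ y : 𝓞 M', σ' • y - y ^ n ∈ Q') {τ : Gal(M/F)}
    (hτ : ∀ x : 𝓞 M, τ • x - x ^ n ∈ Q'.under (𝓞 M)) :
    galRestrict F F' M M' σ' = τ := by
  refine eq_of_forall_smul_sub_smul_mem hQ fun x => ?_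
  have h1 : galRestrict F F' M M' σ' • x - x ^ n ∈ Q'.under (𝓞 M) := by
    rw [Ideal.under_def, Ideal.mem_comap, map_sub, map_pow, algebraMap_galRestrict_smul]
    exact hσ' _
  have := sub_mem h1 (hτ x)
  rwa [sub_sub_sub_cancel_right] at this

variable (F M)

/-- **Base change of Frobenius elements.** In a square `F ⊆ F' ⊆ M'`, `F ⊆ M ⊆ M'` with `M/F`
abelian and unramified above `𝔭`, and `M'/F'` Galois: for a prime `𝔓` of `F'` above `𝔭` with
`N𝔓 = N𝔭 ^ f`, the Frobenius of `𝔓` in `M'/F'` restricts to the `f`-th power of the Frobenius of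
`𝔭` in `M/F`. -/
theorem galRestrict_frob [IsGalois F' M'] [IsMulCommutative Gal(M/F)]
    (𝔭 : Ideal (𝓞 F)) [𝔭.IsPrime] (h0 : 𝔭 ≠ ⊥) (hunr : IsUnramifiedAbove F M 𝔭)
    (𝔓 : Ideal (𝓞 F')) [𝔓.IsPrime] [h𝔓 : 𝔓.LiesOver 𝔭] (f : ℕ)
    (hf : Nat.card (𝓞 F' ⧸ 𝔓) = Nat.card (𝓞 F ⧸ 𝔭) ^ f) :
    galRestrict F F' M M' (frob F' M' 𝔓) = frob F M 𝔭 ^ f := by
  have h𝔓0 : 𝔓 ≠ ⊥ := Ideal.ne_bot_of_liesOver_of_ne_bot h0 𝔓
  set Q' := primeOver F' M' 𝔓 with hQ'
  have hQ'𝔓 : Q'.under (𝓞 F') = 𝔓 := ((primeOver_liesOver F' M' 𝔓).over).symm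
  have hQ𝔭 : (Q'.under (𝓞 M)).under (𝓞 F) = 𝔭 := by
    rw [Ideal.under_under, ← Ideal.under_under (B := 𝓞 F') Q', hQ'𝔓]
    exact (h𝔓.over).symm
  haveI : (Q'.under (𝓞 M)).LiesOver 𝔭 := ⟨hQ𝔭.symm⟩
  haveI : (Q'.under (𝓞 M)).IsPrime := Ideal.IsPrime.under (𝓞 M) Q'
  refine galRestrict_eq_of_forall_sub_pow_mem Q'
    (hunr _ inferInstance inferInstance) (Nat.card (𝓞 F' ⧸ 𝔓)) ?_ ?_
  · intro y
    have h := FrobCyclo_frob_spec F' M' 𝔓 h𝔓0 y
    rwa [hQ'𝔓] at h
  · intro x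
    have h := pow_smul_sub_pow_mem
      (frob_isArithFrobAt_of_liesOver F M 𝔭 h0 (Q'.under (𝓞 M))) f x
    rwa [hQ𝔭, ← hf] at h

end Square

section SquareArtin

variable (F : Type*) {F' : Type*} (M : Type*) {M' : Type*} [Field F] [NumberField F] [Field F']
  [NumberField F'] [Field M] [NumberField M] [Field M'] [NumberField M']
  [Algebra F F'] [Algebra F' M'] [Algebra F M'] [IsScalarTower F F' M']
  [Algebra F M] [Algebra M M'] [IsScalarTower F M M'] [IsAbelianGalois F M]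

/-- **Base change of Artin symbols** (norm functoriality): in a square `F ⊆ F' ⊆ M'`,
`F ⊆ M ⊆ M'` with `M/F` and `M'/F'` abelian, for a nonzero ideal `𝔄` of `F'` such that `M/F` is
unramified above the primes below the prime factors of `𝔄`, the Artin symbol of `𝔄` in `M'/F'`
restricts to the Artin symbol of `N_{F'/F} 𝔄` in `M/F`. -/
theorem galRestrict_artin_of_forall [IsAbelianGalois F' M']
    (𝔄 : Ideal (𝓞 F')) (h𝔄 : 𝔄 ≠ ⊥)
    (hunr : ∀ 𝔓 : Ideal (𝓞 F'), 𝔓.IsPrime → 𝔄 ≤ 𝔓 → IsUnramifiedAbove F M (𝔓.under (𝓞 F))) :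
    galRestrict F F' M M' (artin F' M' 𝔄) = artin F M (Ideal.relNorm (𝓞 F) 𝔄) := by
  open scoped IsMulCommutative in
  have key : ∀ s : Multiset (Ideal (𝓞 F')),
      (∀ 𝔓 ∈ s, 𝔓.IsPrime ∧ 𝔓 ≠ ⊥ ∧ IsUnramifiedAbove F M (𝔓.under (𝓞 F))) →
      galRestrict F F' M M' (s.map (frob F' M')).prod =
        artin F M (Ideal.relNorm (𝓞 F) s.prod) := by
    intro s
    induction s using Multiset.induction with
    | empty =>
      intro _
      rw [Multiset.map_zero, Multiset.prod_zero, map_one, Multiset.prod_zero, map_one, artin_one]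
    | cons 𝔓 s ih =>
      intro hs
      obtain ⟨h𝔓, h𝔓0, h𝔓u⟩ := hs 𝔓 (Multiset.mem_cons_self 𝔓 s)
      have hs' : ∀ 𝔔 ∈ s, 𝔔.IsPrime ∧ 𝔔 ≠ ⊥ ∧ IsUnramifiedAbove F M (𝔔.under (𝓞 F)) :=
        fun 𝔔 h𝔔 => hs 𝔔 (Multiset.mem_cons_of_mem h𝔔)
      have hsprod : s.prod ≠ ⊥ := by
        rw [← Ideal.zero_eq_bot]
        exact Multiset.prod_ne_zero fun h => (hs' _ h).2.1 rfl
      haveI := h𝔓
      haveI : (𝔓.under (𝓞 F)).IsPrime := Ideal.IsPrime.under (𝓞 F) 𝔓
      haveI : 𝔓.LiesOver (𝔓.under (𝓞 F)) := ⟨rfl⟩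
      have h𝔭0 : 𝔓.under (𝓞 F) ≠ ⊥ := Ideal.under_ne_bot (𝓞 F) h𝔓0
      obtain ⟨f, hf1, hf2⟩ := exists_relNorm_eq_pow_and_card F F' (𝔓.under (𝓞 F)) 𝔓
      rw [Multiset.map_cons, Multiset.prod_cons, map_mul, Multiset.prod_cons, map_mul,
        artin_mul F M (by rwa [Ne, Ideal.relNorm_eq_bot_iff])
          (by rwa [Ne, Ideal.relNorm_eq_bot_iff]), ih hs',
        galRestrict_frob F M (𝔓.under (𝓞 F)) h𝔭0 h𝔓u 𝔓 f hf2, hf1, artin_pow,
        artin_prime F M _ h𝔭0]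
  have h1 := key (UniqueFactorizationMonoid.normalizedFactors 𝔄) (by
    intro 𝔓 h𝔓
    have hprime : Prime 𝔓 := UniqueFactorizationMonoid.prime_of_normalized_factor 𝔓 h𝔓
    have hdvd : 𝔓 ∣ 𝔄 := UniqueFactorizationMonoid.dvd_of_mem_normalizedFactors h𝔓
    exact ⟨Ideal.isPrime_of_prime hprime, hprime.ne_zero,
      hunr 𝔓 (Ideal.isPrime_of_prime hprime) (Ideal.le_of_dvd hdvd)⟩)
  rw [Ideal.prod_normalizedFactors_eq_self h𝔄] at h1
  exact h1

/-- Base change of Artin symbols for an everywhere unramified abelian extension `M/F`. -/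
theorem galRestrict_artin [IsAbelianGalois F' M']
    (hunr : IsUnramifiedEverywhere F M) (𝔄 : Ideal (𝓞 F')) (h𝔄 : 𝔄 ≠ ⊥) :
    galRestrict F F' M M' (artin F' M' 𝔄) = artin F M (Ideal.relNorm (𝓞 F) 𝔄) := by
  refine galRestrict_artin_of_forall F M 𝔄 h𝔄 fun 𝔓 h𝔓 hle => ?_
  have h𝔓0 : 𝔓 ≠ ⊥ := fun h => h𝔄 (le_bot_iff.mp (h ▸ hle))
  exact isUnramifiedAbove_of_everywhere hunr _ (Ideal.under_ne_bot (𝓞 F) h𝔓0)

end SquareArtin

section Tower

variable (F M M' : Type*) [Field F] [NumberField F] [Field M] [NumberField M] [Field M']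
  [NumberField M'] [Algebra F M] [Algebra F M'] [Algebra M M'] [IsScalarTower F M M']
  [IsGalois F M] [IsGalois F M']

/-- **Restriction of Frobenius elements in a tower** `F ⊆ M ⊆ M'`, with `M/F` abelian and
unramified above `𝔭`. -/
theorem restrictNormalHom_frob [IsMulCommutative Gal(M/F)]
    (𝔭 : Ideal (𝓞 F)) [𝔭.IsPrime] (h0 : 𝔭 ≠ ⊥) (hunr : IsUnramifiedAbove F M 𝔭) :
    AlgEquiv.restrictNormalHom M (frob F M' 𝔭) = frob F M 𝔭 := by
  have hL : @Ideal.LiesOver (𝓞 F) _ (𝓞 F) _ (inst_ringOfIntegersAlgebra F F) 𝔭 𝔭 := by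
    refine @Ideal.LiesOver.mk _ _ _ _ (inst_ringOfIntegersAlgebra F F) _ _ ?_
    ext x
    rw [Ideal.under_def, Ideal.mem_comap]
    have h2 : @algebraMap (𝓞 F) (𝓞 F) _ _ (inst_ringOfIntegersAlgebra F F) x = x :=
      RingOfIntegers.ext rfl
    rw [h2]
  have h := galRestrict_frob F M (F' := F) (M' := M') 𝔭 h0 hunr 𝔭 1 (by rw [pow_one])
  rw [pow_one] at h
  rw [← h]
  rfl

end Tower

section TowerArtin

variable (F M M' : Type*) [Field F] [NumberField F] [Field M] [NumberField M] [Field M']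
  [NumberField M'] [Algebra F M] [Algebra F M'] [Algebra M M'] [IsScalarTower F M M']
  [IsAbelianGalois F M] [IsAbelianGalois F M']

open scoped IsMulCommutative in
/-- **Restriction of Artin symbols in a tower** `F ⊆ M ⊆ M'`. -/
theorem restrictNormalHom_artin (𝔞 : Ideal (𝓞 F))
    (hunr : ∀ 𝔭 : Ideal (𝓞 F), 𝔭.IsPrime → 𝔞 ≤ 𝔭 → IsUnramifiedAbove F M 𝔭) :
    AlgEquiv.restrictNormalHom M (artin F M' 𝔞) = artin F M 𝔞 := by
  unfold artin
  rw [map_multiset_prod, Multiset.map_map]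
  congr 1
  refine Multiset.map_congr rfl fun 𝔭 h𝔭 => ?_
  have hprime : Prime 𝔭 := UniqueFactorizationMonoid.prime_of_normalized_factor 𝔭 h𝔭
  have hdvd : 𝔭 ∣ 𝔞 := UniqueFactorizationMonoid.dvd_of_mem_normalizedFactors h𝔭
  haveI := Ideal.isPrime_of_prime hprime
  exact restrictNormalHom_frob F M M' 𝔭 hprime.ne_zero
    (hunr 𝔭 (Ideal.isPrime_of_prime hprime) (Ideal.le_of_dvd hdvd))

end TowerArtin

section UnramifiedBaseChange

variable (F F' M M' : Type*) [Field F] [NumberField F] [Field F'] [NumberField F']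
  [Field M] [NumberField M] [Field M'] [NumberField M']
  [Algebra F F'] [Algebra F' M'] [Algebra F M'] [IsScalarTower F F' M']
  [Algebra F M] [Algebra M M'] [IsScalarTower F M M'] [IsGalois F M]

/-- If `M'` is generated over `F'` by (the image of) `M`, then `Gal(M'/F') → Gal(M/F)` is
injective. -/
theorem galRestrict_injective_of_adjoin_eq_top
    (h : IntermediateField.adjoin F' (Set.range (algebraMap M M')) = ⊤) :
    Function.Injective (galRestrict F F' M M') := by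
  rw [injective_iff_map_eq_one]
  intro σ hσ
  have hfix : ∀ x : M, σ (algebraMap M M' x) = algebraMap M M' x := by
    intro x
    rw [← algebraMap_galRestrict F M σ x, hσ]
    rfl
  ext y
  have hy : y ∈ IntermediateField.adjoin F' (Set.range (algebraMap M M')) := by
    rw [h]; exact IntermediateField.mem_top
  rw [AlgEquiv.one_apply]
  induction hy using IntermediateField.adjoin_induction with
  | mem x hx =>
    obtain ⟨x, rfl⟩ := hx
    exact hfix x
  | algebraMap x => exact σ.commutes x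
  | add x y _ _ hx hy => rw [map_add, hx, hy]
  | inv x _ hx => rw [map_inv₀, hx]
  | mul x y _ _ hx hy => rw [map_mul, hx, hy]

variable {F F' M M'}

/-- **Unramified base change**: if `M/F` is unramified everywhere and `Gal(M'/F') → Gal(M/F)` is
injective (e.g. `M' = M F'`), then `M'/F'` is unramified everywhere. -/
theorem isUnramifiedEverywhere_of_injective [IsGalois F' M']
    (hunr : IsUnramifiedEverywhere F M) (hinj : Function.Injective (galRestrict F F' M M')) :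
    IsUnramifiedEverywhere F' M' := by
  intro Q' hQ' hQ'0
  rw [eq_bot_iff]
  intro σ hσ
  rw [Subgroup.mem_bot]
  apply hinj
  rw [map_one]
  haveI : (Q'.under (𝓞 M)).IsPrime := Ideal.IsPrime.under (𝓞 M) Q'
  refine eq_of_forall_smul_sub_smul_mem
    (hunr (Q'.under (𝓞 M)) inferInstance (Ideal.under_ne_bot (𝓞 M) hQ'0)) fun x => ?_
  rw [one_smul, Ideal.under_def, Ideal.mem_comap, map_sub, algebraMap_galRestrict_smul]
  exact hσ _

end UnramifiedBaseChange

section Conj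

theorem card_quotient_smul {R : Type*} [CommRing R] {G : Type*} [Group G] [MulSemiringAction G R]
    (g : G) (I : Ideal R) : Nat.card (R ⧸ g • I) = Nat.card (R ⧸ I) := by
  refine (Nat.card_congr (Ideal.quotientEquiv I (g • I) (MulSemiringAction.toRingEquiv G R g)
    ?_).toEquiv).symm
  rw [Ideal.pointwise_smul_def]
  rfl

variable (F₀ F M : Type*) [Field F₀] [Field F] [NumberField F] [Field M] [NumberField M]
  [Algebra F₀ F] [Algebra F M] [Algebra F₀ M] [IsScalarTower F₀ F M]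
  [IsGalois F₀ F] [IsGalois F M]

variable {F₀ M} in
/-- Compatibility of the actions of `Gal(M/F₀)` on `𝓞 M` and of `Gal(F/F₀)` on `𝓞 F`. -/
theorem smul_algebraMap_eq (τ : Gal(M/F₀)) (a : 𝓞 F) :
    τ • algebraMap (𝓞 F) (𝓞 M) a = algebraMap (𝓞 F) (𝓞 M) (AlgEquiv.restrictNormalHom F τ • a) := by
  apply RingOfIntegers.ext
  exact (AlgEquiv.restrictNormal_commutes τ F (a : F)).symm

variable {F₀ M} in
/-- The prime below a conjugate prime. -/
theorem under_smul (τ : Gal(M/F₀)) (Q : Ideal (𝓞 M)) :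
    (τ • Q).under (𝓞 F) = AlgEquiv.restrictNormalHom F τ • Q.under (𝓞 F) := by
  ext a
  rw [Ideal.under_def, Ideal.mem_comap, Ideal.mem_pointwise_smul_iff_inv_smul_mem,
    Ideal.mem_pointwise_smul_iff_inv_smul_mem, Ideal.under_def, Ideal.mem_comap,
    smul_algebraMap_eq, map_inv]

/-- **Conjugation of Frobenius elements**: for `F₀ ⊆ F ⊆ M` with `F/F₀` Galois, `M/F` abelian and
unramified above `τ 𝔭`, the Frobenius of the conjugate prime `τ 𝔭` is the conjugate of the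
Frobenius of `𝔭` (computed in the group of `F₀`-automorphisms of `M`). -/
theorem frob_smul [IsMulCommutative Gal(M/F)] (τ : Gal(M/F₀)) (𝔭 : Ideal (𝓞 F)) [𝔭.IsPrime]
    (h0 : 𝔭 ≠ ⊥) (hunr : IsUnramifiedAbove F M (AlgEquiv.restrictNormalHom F τ • 𝔭)) :
    (frob F M (AlgEquiv.restrictNormalHom F τ • 𝔭)).restrictScalars F₀ =
      τ * (frob F M 𝔭).restrictScalars F₀ * τ⁻¹ := by
  set τF : Gal(F/F₀) := AlgEquiv.restrictNormalHom F τ with hτF
  set φ : Gal(M/F) := frob F M 𝔭 with hφ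
  set ψ : Gal(M/F₀) := τ * φ.restrictScalars F₀ * τ⁻¹ with hψ
  -- `ψ` fixes `F`
  have hfix : ∀ a : F, ψ.toRingEquiv (algebraMap F M a) = algebraMap F M a := by
    intro a
    have h1 : τ⁻¹ (algebraMap F M a) = algebraMap F M (τF⁻¹ a) := by
      rw [hτF, ← map_inv]
      exact (AlgEquiv.restrictNormal_commutes τ⁻¹ F a).symm
    have h2 : τ (algebraMap F M (τF⁻¹ a)) = algebraMap F M a := by
      have := (AlgEquiv.restrictNormal_commutes τ F (τF⁻¹ a)).symm
      rw [this]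
      congr 1
      exact AlgEquiv.apply_symm_apply τF a
    change τ (φ (τ⁻¹ (algebraMap F M a))) = _
    rw [h1, φ.commutes, h2]
  set ψ' : Gal(M/F) := AlgEquiv.ofRingEquiv hfix with hψ'
  have hψψ' : ψ'.restrictScalars F₀ = ψ := by
    ext x; rfl
  -- the conjugate prime
  set Q₀ := primeOver F M 𝔭 with hQ₀
  have hQ₀𝔭 : Q₀.under (𝓞 F) = 𝔭 := ((primeOver_liesOver F M 𝔭).over).symm
  have hunder : (τ • Q₀).under (𝓞 F) = τF • 𝔭 := by rw [under_smul, hQ₀𝔭]
  haveI : (τ • Q₀).LiesOver (τF • 𝔭) := ⟨hunder.symm⟩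
  have h0' : τF • 𝔭 ≠ ⊥ := by
    intro h
    apply h0
    have := congrArg (fun I => τF⁻¹ • I) h
    simpa using this
  -- `ψ'` is a Frobenius at the conjugate prime
  have hfrob : IsArithFrobAt (𝓞 F) ψ' (τ • Q₀) := by
    intro x
    rw [MulSemiringAction.toAlgHom_apply, hunder, card_quotient_smul,
      Ideal.mem_pointwise_smul_iff_inv_smul_mem, smul_sub, smul_pow']
    have h3 : τ⁻¹ • (ψ' • x) = φ • (τ⁻¹ • x) := by
      apply RingOfIntegers.ext
      change τ⁻¹ (τ (φ (τ⁻¹ (x : M)))) = φ (τ⁻¹ (x : M))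
      exact AlgEquiv.symm_apply_apply τ _
    rw [h3]
    have := FrobCyclo_frob_spec F M 𝔭 h0 (τ⁻¹ • x)
    rwa [hQ₀𝔭] at this
  rw [← eq_frob_of_isArithFrobAt F M (τF • 𝔭) h0' hunr (τ • Q₀) hfrob, hψψ']

/-- Variant of `frob_smul`: if conjugation by `τ⁻¹` raises the Frobenius of `𝔭` to the `k`-th power,
then the Frobenius of `τ⁻¹ 𝔭` is the `k`-th power of the Frobenius of `𝔭`. -/
theorem frob_inv_smul_eq_pow [IsMulCommutative Gal(M/F)] (τ : Gal(M/F₀)) (𝔭 : Ideal (𝓞 F))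
    [𝔭.IsPrime] (h0 : 𝔭 ≠ ⊥)
    (hunr : IsUnramifiedAbove F M ((AlgEquiv.restrictNormalHom F τ)⁻¹ • 𝔭)) (k : ℕ)
    (hconj : τ⁻¹ * (frob F M 𝔭).restrictScalars F₀ * τ = (frob F M 𝔭).restrictScalars F₀ ^ k) :
    frob F M ((AlgEquiv.restrictNormalHom F τ)⁻¹ • 𝔭) = frob F M 𝔭 ^ k := by
  apply AlgEquiv.restrictScalarsHom_injective F₀
  rw [AlgEquiv.restrictScalarsHom_apply, map_pow, AlgEquiv.restrictScalarsHom_apply, ← hconj]
  have h := frob_smul F₀ F M τ⁻¹ 𝔭 h0 (by rwa [map_inv])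
  rw [map_inv, inv_inv] at h
  exact h

end Conj
end Fermat.Agent.S14.FrobTower
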