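import Mathlib

set_option autoImplicit false

/-!
# S14, core of the Stickelberger–Jacobi computation

Let `F` be a finite field with `q` elements, `q` prime. For `1 ≤ m < q - 1` put
`S(m) = ∑_{x ∈ F} x^m (1 - x)^m`. Then `S(m) = 0` if `2 m < q - 1`, and `S(m) ≠ 0` if
`q - 1 < 2 m`.
-/

namespace Fermat.Agent.S14

open Finset

namespace JacobiCore

variable {F : Type*} [Field F] [Fintype F]

/-- `∑_{x ∈ F} x ^ n` for `n ≥ 1`. -/
theorem sum_pow_eq [DecidableEq F] {n : ℕ} (hn : n ≠ 0) :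
    ∑ x : F, x ^ n = if Fintype.card F - 1 ∣ n then -1 else 0 := by
  let φ : Fˣ ↪ F := ⟨fun x ↦ x, Units.val_injective⟩
  have hmap : univ.map φ = univ \ {0} := by
    ext x
    simpa only [mem_map, mem_univ, Function.Embedding.coeFn_mk, true_and, mem_sdiff,
      mem_singleton, φ] using! isUnit_iff_ne_zero
  calc
    ∑ x : F, x ^ n = ∑ x ∈ univ \ {(0 : F)}, x ^ n := by
      rw [← sum_sdiff ({0} : Finset F).subset_univ, sum_singleton, zero_pow hn, add_zero]
    _ = ∑ x : Fˣ, (x ^ n : F) := by simp [φ, ← hmap, univ.sum_map φ]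
    _ = _ := FiniteField.sum_pow_units F n

/-- The Jacobi-type power sum. -/
noncomputable def S (F : Type*) [Field F] [Fintype F] (m : ℕ) : F := ∑ x : F, x ^ m * (1 - x) ^ m

/-- Binomial expansion of `S`. -/
theorem S_eq_sum [DecidableEq F] (m : ℕ) :
    S F m = ∑ j ∈ range (m + 1), ((-1 : F) ^ j * (m.choose j : F)) * ∑ x : F, x ^ (m + j) := by
  unfold S
  have h1 : ∀ x : F, x ^ m * (1 - x) ^ m =
      ∑ j ∈ range (m + 1), ((-1 : F) ^ j * (m.choose j : F)) * x ^ (m + j) := by
    intro x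
    have : (1 - x) ^ m = ∑ j ∈ range (m + 1), (-x) ^ j * 1 ^ (m - j) * (m.choose j : F) := by
      rw [sub_eq_neg_add, add_pow]
    rw [this, mul_sum]
    apply sum_congr rfl
    intro j _
    rw [one_pow, mul_one, neg_pow, pow_add]
    ring
  simp_rw [h1]
  rw [sum_comm]
  apply sum_congr rfl
  intro j _
  rw [mul_sum]

/-- Vanishing: `S(m) = 0` if `1 ≤ m` and `2 m < q - 1`. -/
theorem S_eq_zero {m : ℕ} (hm : 1 ≤ m) (h2 : 2 * m < Fintype.card F - 1) : S F m = 0 := by
  classical
  rw [S_eq_sum]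
  apply sum_eq_zero
  intro j hj
  have hj' : j ≤ m := Nat.lt_succ_iff.mp (mem_range.mp hj)
  rw [sum_pow_eq (by omega), if_neg, mul_zero]
  intro hdvd
  have := Nat.le_of_dvd (by omega) hdvd
  omega

/-- Non-vanishing: `S(m) ≠ 0` if `m < q - 1 < 2 m` and `q` is prime. -/
theorem S_ne_zero (hq : (Fintype.card F).Prime) {m : ℕ} (h1 : m < Fintype.card F - 1)
    (h2 : Fintype.card F - 1 < 2 * m) : S F m ≠ 0 := by
  classical
  set q := Fintype.card F with hqdef
  have hq2 : 2 ≤ q := hq.two_le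
  rw [S_eq_sum]
  set j₀ := q - 1 - m with hj₀
  have hj₀m : j₀ ≤ m := by omega
  rw [sum_eq_single j₀]
  · rw [sum_pow_eq (by omega), if_pos (by rw [hj₀]; exact ⟨1, by omega⟩)]
    have hchar : CharP F q := by
      obtain ⟨r, hr⟩ := CharP.exists F
      have hrp : r.Prime := CharP.char_is_prime F r
      obtain ⟨n, _, hn⟩ := FiniteField.card F r
      have hn' : q = r ^ (n : ℕ) := hn
      have : r = q := by
        have hdvd : r ∣ q := by rw [hn']; exact dvd_pow_self r n.ne_zero
        exact ((Nat.prime_dvd_prime_iff_eq hrp hq).mp hdvd)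
      rw [← this]; exact hr
    have hchoose : ((m.choose j₀ : ℕ) : F) ≠ 0 := by
      rw [Ne, CharP.cast_eq_zero_iff F q]
      intro hdvd
      have hfac : q ∣ m.factorial := by
        rw [← Nat.choose_mul_factorial_mul_factorial hj₀m]
        exact Dvd.dvd.mul_right (Dvd.dvd.mul_right hdvd _) _
      have := (Nat.Prime.dvd_factorial hq).mp hfac
      omega
    have hneg : ((-1 : F) ^ j₀) ≠ 0 := pow_ne_zero _ (neg_ne_zero.mpr one_ne_zero)
    simp only [mul_neg, mul_one, ne_eq, neg_eq_zero, mul_eq_zero, not_or]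
    exact ⟨hneg, hchoose⟩
  · intro j hj hne
    have hj' : j ≤ m := Nat.lt_succ_iff.mp (mem_range.mp hj)
    rw [sum_pow_eq (by omega), if_neg, mul_zero]
    rintro ⟨c, hc⟩
    rw [← hqdef] at hc
    have hc1 : c = 1 := by
      rcases c with _ | _ | c
      · rw [mul_zero] at hc; omega
      · rfl
      · exfalso
        have h3 : (q - 1) * 2 ≤ (q - 1) * (c + 1 + 1) :=
          Nat.mul_le_mul_left (q - 1) (by omega)
        omega
    subst hc1
    rw [mul_one] at hc
    omega
  · intro h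
    exact absurd (mem_range.mpr (by omega)) h

/-- Reduction of a Jacobi sum: if `red (χ x) = x ^ m` for all `x`, then
`red (J(χ, χ)) = S(m)`. -/
theorem red_jacobiSum {R : Type*} [CommRing R] (χ : MulChar F R) (red : R →+* F) (m : ℕ)
    (h : ∀ x : F, red (χ x) = x ^ m) : red (jacobiSum χ χ) = S F m := by
  unfold jacobiSum S
  rw [map_sum]
  apply sum_congr rfl
  intro x _
  rw [map_mul, h, h]

/-- Reduction of the Jacobi sum of a power of `χ`. -/
theorem red_jacobiSum_pow {R : Type*} [CommRing R] (χ : MulChar F R) (red : R →+* F) (m : ℕ)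
    (h : ∀ x : F, red (χ x) = x ^ m) {t : ℕ} (ht : t ≠ 0) :
    red (jacobiSum (χ ^ t) (χ ^ t)) = S F (m * t) := by
  apply red_jacobiSum
  intro x
  rw [MulChar.pow_apply' χ ht, map_pow, h, pow_mul]

end JacobiCore

end Fermat.Agent.S14
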