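import Mathlib
import Fermat.Agent.S14.Defs
import Fermat.Agent.S14.JacobiCore

/-!
# S14: the Jacobi sum generator (`exists_jacobi_generator`)

Let `p` be an odd prime, `K = ℚ(ζ_p)`, `𝔮` a prime of `𝓞 K` of absolute norm a prime `q ≠ p`
(so `q ≡ 1 mod p`). With `χ` the `p`-th power residue character modulo `𝔮`
(`χ(x) ≡ x ^ ((q-1)/p) mod 𝔮`), the Jacobi sum `J = J(χ, χ) ∈ 𝓞 K` generates the ideal
`∏_{1 ≤ u ≤ (p-1)/2} σ_u⁻¹ 𝔮`.
-/

set_option autoImplicit false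

open NumberField

namespace Fermat.Agent.S14

namespace JacobiGen

open scoped Pointwise

variable {p : ℕ} [Fact p.Prime] (K : Type*) [Field K] [NumberField K]
  [IsCyclotomicExtension {p} ℚ K]

attribute [local instance] Ideal.Quotient.field

theorem card_quot (𝔮 : Ideal (𝓞 K)) [Fintype (𝓞 K ⧸ 𝔮)] {q : ℕ} (hN : Ideal.absNorm 𝔮 = q) :
    Fintype.card (𝓞 K ⧸ 𝔮) = q := by
  rw [← hN, Ideal.absNorm_apply, Submodule.cardQuot_apply, Nat.card_eq_fintype_card]

/-- Existence of the `p`-th power residue character modulo `𝔮`. -/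
theorem exists_char (hp2 : p ≠ 2) (𝔮 : Ideal (𝓞 K)) [𝔮.IsMaximal] [Fintype (𝓞 K ⧸ 𝔮)]
    [DecidableEq (𝓞 K ⧸ 𝔮)]
    {q : ℕ} (hq : q.Prime) (hqp : q ≠ p) (hN : Ideal.absNorm 𝔮 = q) :
    ∃ (m : ℕ) (χ : MulChar (𝓞 K ⧸ 𝔮) (𝓞 K)), q - 1 = p * m ∧
      (∀ x, Ideal.Quotient.mk 𝔮 (χ x) = x ^ m) ∧ (∀ x, x ≠ 0 → χ x ^ p = 1) ∧ χ * χ ≠ 1 := by
  have hp : p.Prime := Fact.out
  have hcard := card_quot K 𝔮 hN
  have hζ : IsPrimitiveRoot (IsCyclotomicExtension.zeta_spec p ℚ K).toInteger p :=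
    (IsCyclotomicExtension.zeta_spec p ℚ K).toInteger_isPrimitiveRoot
  set ζ := (IsCyclotomicExtension.zeta_spec p ℚ K).toInteger with hζdef
  have h₀ : IsPrimitiveRoot (Ideal.Quotient.mk 𝔮 ζ) p :=
    hζ.idealQuotient_mk (by rw [hN]; exact hq.ne_one)
      (by rw [hN]; exact (Nat.coprime_primes hq hp).mpr hqp)
  have hdvd : p ∣ q - 1 := by
    apply h₀.dvd_of_pow_eq_one
    rw [← hcard]
    exact FiniteField.pow_card_sub_one_eq_one _ (h₀.ne_zero hp.ne_zero)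
  obtain ⟨m, hm⟩ := hdvd
  have hq1 : 1 ≤ q - 1 := by have := hq.two_le; omega
  have hm0 : m ≠ 0 := by rintro rfl; omega
  obtain ⟨g, hg⟩ := IsCyclic.exists_generator (α := (𝓞 K ⧸ 𝔮)ˣ)
  have hcardu : Fintype.card (𝓞 K ⧸ 𝔮)ˣ = p * m := by
    rw [Fintype.card_units, hcard, hm]
  have hgp : ((g : 𝓞 K ⧸ 𝔮) ^ m) ^ p = 1 := by
    rw [← pow_mul, mul_comm, ← hcardu, ← Units.val_pow_eq_pow_val, pow_card_eq_one, Units.val_one]
  obtain ⟨i, -, hi⟩ := h₀.eq_pow_of_pow_eq_one hgp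
  let ζu : (𝓞 K)ˣ := (hζ.isUnit hp.ne_zero).unit
  have hζu : (ζu : 𝓞 K) = ζ := rfl
  have hζup : ζu ^ p = 1 := by
    ext
    rw [Units.val_pow_eq_pow_val, hζu, hζ.pow_eq_one, Units.val_one]
  have hmem : ζu ^ i ∈ rootsOfUnity (Fintype.card (𝓞 K ⧸ 𝔮)ˣ) (𝓞 K) := by
    rw [mem_rootsOfUnity, hcardu, ← pow_mul, mul_comm i, mul_assoc, pow_mul, hζup, one_pow]
  have hred : ∀ x, Ideal.Quotient.mk 𝔮 (MulChar.ofRootOfUnity hmem hg x) = x ^ m := by
    intro x
    by_cases hx : x = 0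
    · subst hx
      rw [MulChar.map_zero, map_zero, zero_pow hm0]
    · obtain ⟨u, rfl⟩ : ∃ u : (𝓞 K ⧸ 𝔮)ˣ, (u : 𝓞 K ⧸ 𝔮) = x := ⟨Units.mk0 x hx, rfl⟩
      obtain ⟨k, rfl⟩ := (mem_powers_iff_mem_zpowers.mpr (hg u))
      rw [Units.val_pow_eq_pow_val, map_pow, MulChar.ofRootOfUnity_spec, map_pow,
        Units.val_pow_eq_pow_val, map_pow, hζu, hi, ← pow_mul, ← pow_mul, mul_comm]
  refine ⟨m, MulChar.ofRootOfUnity hmem hg, hm, hred, ?_, ?_⟩
  · intro x hx
    obtain ⟨u, rfl⟩ : ∃ u : (𝓞 K ⧸ 𝔮)ˣ, (u : 𝓞 K ⧸ 𝔮) = x := ⟨Units.mk0 x hx, rfl⟩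
    obtain ⟨k, rfl⟩ := (mem_powers_iff_mem_zpowers.mpr (hg u))
    rw [Units.val_pow_eq_pow_val, map_pow, MulChar.ofRootOfUnity_spec,
      Units.val_pow_eq_pow_val, hζu, ← pow_mul, ← pow_mul, ← mul_assoc, mul_comm, pow_mul,
      hζ.pow_eq_one, one_pow]
  · intro h
    have h1 : (MulChar.ofRootOfUnity hmem hg * MulChar.ofRootOfUnity hmem hg) (g : 𝓞 K ⧸ 𝔮) = 1 := by
      rw [h, MulChar.one_apply_coe]
    rw [MulChar.mul_apply] at h1
    have h2 := congrArg (Ideal.Quotient.mk 𝔮) h1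
    rw [map_mul, hred, map_one, ← pow_add, ← two_mul, ← Units.val_pow_eq_pow_val,
      Units.val_eq_one] at h2
    have h3 : orderOf g = p * m := by
      rw [orderOf_eq_card_of_forall_mem_zpowers hg, Nat.card_eq_fintype_card, hcardu]
    have h4 : p * m ∣ 2 * m := h3 ▸ orderOf_dvd_of_pow_eq_one h2
    rw [Nat.mul_dvd_mul_iff_right (Nat.pos_of_ne_zero hm0)] at h4
    exact hp2 ((Nat.prime_dvd_prime_iff_eq hp Nat.prime_two).mp h4)

/-- The absolute norm is invariant under the Galois action. -/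
theorem absNorm_smul (σ : Gal(K/ℚ)) (I : Ideal (𝓞 K)) :
    Ideal.absNorm (σ • I) = Ideal.absNorm I := by
  rw [Ideal.absNorm_apply, Ideal.absNorm_apply, Submodule.cardQuot_apply, Submodule.cardQuot_apply]
  refine (Nat.card_congr (Ideal.quotientEquiv I (σ • I)
    (MulSemiringAction.toRingEquiv Gal(K/ℚ) (𝓞 K) σ) ?_).toEquiv).symm
  rw [Ideal.pointwise_smul_def]
  rfl

theorem smul_span_singleton (σ : Gal(K/ℚ)) (x : 𝓞 K) :
    σ • Ideal.span {x} = Ideal.span {σ • x} := by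
  rw [Ideal.pointwise_smul_def, Ideal.map_span, Set.image_singleton]
  rfl

theorem val_galEquivZMod_ne_zero (σ : Gal(K/ℚ)) :
    ((IsCyclotomicExtension.Rat.galEquivZMod p K σ : (ZMod p)ˣ) : ZMod p).val ≠ 0 := by
  have hp : p.Prime := Fact.out
  have : Nontrivial (ZMod p) := ZMod.nontrivial_iff.mpr hp.ne_one
  rw [Ne, ZMod.val_eq_zero]
  exact Units.ne_zero _

/-- The Galois action on the values of a character of order dividing `p`. -/
theorem smul_char_apply {F : Type*} [CommRing F] [Nontrivial F] (χ : MulChar F (𝓞 K))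
    (hχ : ∀ x, x ≠ 0 → χ x ^ p = 1) (h0 : χ 0 = 0) (σ : Gal(K/ℚ)) (x : F) :
    σ • χ x =
      (χ ^ ((IsCyclotomicExtension.Rat.galEquivZMod p K σ : (ZMod p)ˣ) : ZMod p).val) x := by
  rw [MulChar.pow_apply' χ (val_galEquivZMod_ne_zero K σ)]
  by_cases hx : x = 0
  · subst hx
    rw [h0, smul_zero, zero_pow (val_galEquivZMod_ne_zero K σ)]
  · exact IsCyclotomicExtension.Rat.galEquivZMod_smul_of_pow_eq p K σ (hχ x hx)

theorem smul_jacobiSum {F : Type*} [Field F] [Fintype F] (χ : MulChar F (𝓞 K))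
    (hχ : ∀ x, x ≠ 0 → χ x ^ p = 1) (σ : Gal(K/ℚ)) :
    σ • jacobiSum χ χ =
      jacobiSum (χ ^ ((IsCyclotomicExtension.Rat.galEquivZMod p K σ : (ZMod p)ˣ) : ZMod p).val)
        (χ ^ ((IsCyclotomicExtension.Rat.galEquivZMod p K σ : (ZMod p)ˣ) : ZMod p).val) := by
  unfold jacobiSum
  rw [Finset.smul_sum]
  refine Finset.sum_congr rfl fun x _ => ?_
  rw [smul_mul', smul_char_apply K χ hχ (MulChar.map_zero χ),
    smul_char_apply K χ hχ (MulChar.map_zero χ)]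

/-- The stabilizer of a degree one prime `𝔮` above `q ≡ 1 mod p` is trivial. -/
theorem eq_one_of_smul_eq (𝔮 : Ideal (𝓞 K)) [𝔮.IsMaximal] {q : ℕ} (hq : q.Prime) (hqp : q ≠ p)
    (hN : Ideal.absNorm 𝔮 = q) {m : ℕ} (hm : q - 1 = p * m) (σ : Gal(K/ℚ)) (h : σ • 𝔮 = 𝔮) :
    σ = 1 := by
  have hp : p.Prime := Fact.out
  have : Fact q.Prime := ⟨hq⟩
  have : 𝔮.LiesOver (Ideal.span {(q : ℤ)}) := by
    rw [Ideal.liesOver_span_iff (Ideal.IsMaximal.ne_top inferInstance)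
      (Nat.prime_iff_prime_int.mp hq)]
    have := Ideal.absNorm_mem 𝔮
    rw [hN] at this
    simpa using this
  have hn : q.Coprime p := (Nat.coprime_primes hq hp).mpr hqp
  have hmem := IsCyclotomicExtension.Rat.mem_zpowers_galEquivZMod_of_mem_stabilizer p K q 𝔮 hn
    (σ := σ) (MulAction.mem_stabilizer_iff.mpr h)
  have h1 : ZMod.unitOfCoprime q hn = 1 := by
    ext
    rw [ZMod.coe_unitOfCoprime, Units.val_one]
    have hq1 : q = p * m + 1 := by have := hq.two_le; omega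
    rw [hq1]
    simp
  rw [h1, Subgroup.zpowers_one_eq_bot, Subgroup.mem_bot] at hmem
  exact (MulEquiv.map_eq_one_iff _).mp hmem

theorem smul_injective (𝔮 : Ideal (𝓞 K)) [𝔮.IsMaximal] {q : ℕ} (hq : q.Prime) (hqp : q ≠ p)
    (hN : Ideal.absNorm 𝔮 = q) {m : ℕ} (hm : q - 1 = p * m) :
    Function.Injective fun u : (ZMod p)ˣ =>
      ((IsCyclotomicExtension.Rat.galEquivZMod p K).symm u)⁻¹ • 𝔮 := by
  intro u v huv
  simp only at huv
  set σ := (IsCyclotomicExtension.Rat.galEquivZMod p K).symm u with hσ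
  set τ := (IsCyclotomicExtension.Rat.galEquivZMod p K).symm v with hτ
  have h1 : (τ * σ⁻¹) • 𝔮 = 𝔮 := by
    rw [mul_smul, huv, smul_inv_smul]
  have h2 := eq_one_of_smul_eq K 𝔮 hq hqp hN hm _ h1
  have h3 : τ = σ := by rwa [mul_inv_eq_one] at h2
  exact ((IsCyclotomicExtension.Rat.galEquivZMod p K).symm.injective h3).symm

/-- Half of the units of `ZMod p` have `val ≤ p / 2`. -/
theorem two_mul_card_filter (hp2 : p ≠ 2) :
    2 * (Finset.filter (fun u : (ZMod p)ˣ => (u : ZMod p).val ≤ p / 2) Finset.univ).card =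
      p - 1 := by
  have hp : p.Prime := Fact.out
  have hodd : p % 2 = 1 := hp.eq_two_or_odd.resolve_left hp2
  have h1 := Finset.card_filter_add_card_filter_not (s := (Finset.univ : Finset (ZMod p)ˣ))
    (fun u : (ZMod p)ˣ => (u : ZMod p).val ≤ p / 2)
  rw [Finset.card_univ, ZMod.card_units] at h1
  have h2 : (Finset.filter (fun u : (ZMod p)ˣ => (u : ZMod p).val ≤ p / 2) Finset.univ).card =
      (Finset.filter (fun u : (ZMod p)ˣ => ¬ (u : ZMod p).val ≤ p / 2) Finset.univ).card := by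
    apply Finset.card_equiv (Equiv.neg _)
    intro u
    simp only [Finset.mem_filter, Finset.mem_univ, true_and, Equiv.neg_apply, Units.val_neg]
    have : NeZero (u : ZMod p) := ⟨Units.ne_zero u⟩
    rw [ZMod.val_neg_of_ne_zero]
    have hlt := ZMod.val_lt (u : ZMod p)
    have hpos : (u : ZMod p).val ≠ 0 := by
      rw [Ne, ZMod.val_eq_zero]; exact Units.ne_zero u
    omega
  omega

end JacobiGen

section Jacobi

open scoped Pointwise

variable {p : ℕ} [Fact p.Prime] (K : Type*) [Field K] [NumberField K]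
  [IsCyclotomicExtension {p} ℚ K]

attribute [local instance] Ideal.Quotient.field in
theorem exists_jacobi_generator (hp2 : p ≠ 2) (𝔮 : Ideal (𝓞 K)) [𝔮.IsPrime] {q : ℕ}
    (hq : q.Prime) (hqp : q ≠ p) (hN : Ideal.absNorm 𝔮 = q) :
    ∃ J : 𝓞 K, J ≠ 0 ∧ Ideal.span {J} =
      ∏ u ∈ Finset.filter (fun u : (ZMod p)ˣ => (u : ZMod p).val ≤ p / 2) Finset.univ,
        ((IsCyclotomicExtension.Rat.galEquivZMod p K).symm u)⁻¹ • 𝔮 := by
  classical
  have hp : p.Prime := Fact.out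
  have hodd : p % 2 = 1 := hp.eq_two_or_odd.resolve_left hp2
  have hbot : 𝔮 ≠ ⊥ := by
    rintro rfl
    rw [Ideal.absNorm_bot] at hN
    exact hq.ne_zero hN.symm
  have : 𝔮.IsMaximal := Ideal.IsPrime.isMaximal inferInstance hbot
  have : Finite (𝓞 K ⧸ 𝔮) := Ideal.finiteQuotientOfFreeOfNeBot 𝔮 hbot
  let _ : Fintype (𝓞 K ⧸ 𝔮) := Fintype.ofFinite _
  obtain ⟨m, χ, hm, hred, hχp, hχχ⟩ := JacobiGen.exists_char K hp2 𝔮 hq hqp hN
  have hcard := JacobiGen.card_quot K 𝔮 hN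
  have hq2 := hq.two_le
  have hm0 : m ≠ 0 := by rintro rfl; omega
  set J := jacobiSum χ χ with hJ
  set s := Finset.filter (fun u : (ZMod p)ˣ => (u : ZMod p).val ≤ p / 2) Finset.univ with hs
  -- `J` lies in each `σ_u⁻¹ 𝔮`
  have hmem : ∀ u ∈ s, J ∈ ((IsCyclotomicExtension.Rat.galEquivZMod p K).symm u)⁻¹ • 𝔮 := by
    intro u hu
    have hu' : (u : ZMod p).val ≤ p / 2 := (Finset.mem_filter.mp hu).2
    have hu0 : (u : ZMod p).val ≠ 0 := by
      have : Nontrivial (ZMod p) := ZMod.nontrivial_iff.mpr hp.ne_one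
      rw [Ne, ZMod.val_eq_zero]; exact Units.ne_zero u
    rw [Ideal.mem_inv_pointwise_smul_iff, JacobiGen.smul_jacobiSum K χ hχp,
      MulEquiv.apply_symm_apply, ← Ideal.Quotient.eq_zero_iff_mem,
      JacobiCore.red_jacobiSum_pow χ _ m hred hu0]
    apply JacobiCore.S_eq_zero
    · exact Nat.one_le_iff_ne_zero.mpr (Nat.mul_ne_zero hm0 hu0)
    · rw [hcard, hm]
      have h2 : 2 * (u : ZMod p).val < p := by omega
      calc 2 * (m * (u : ZMod p).val) = m * (2 * (u : ZMod p).val) := by ring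
        _ < m * p := Nat.mul_lt_mul_of_pos_left h2 (Nat.pos_of_ne_zero hm0)
        _ = p * m := mul_comm _ _
  -- hence the product divides `(J)`
  have hmax : ∀ σ : Gal(K/ℚ), (σ • 𝔮).IsMaximal := by
    intro σ
    have h1 : (σ • 𝔮).IsPrime := inferInstance
    refine Ideal.IsPrime.isMaximal h1 ?_
    intro h
    have := JacobiGen.absNorm_smul K σ 𝔮
    rw [h, Ideal.absNorm_bot, hN] at this
    exact hq.ne_zero this.symm
  have hdvd : (∏ u ∈ s, ((IsCyclotomicExtension.Rat.galEquivZMod p K).symm u)⁻¹ • 𝔮) ∣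
      Ideal.span {J} := by
    apply Finset.prod_dvd_of_coprime
    · intro u _ v _ huv
      rw [Function.onFun, Ideal.isCoprime_iff_sup_eq]
      exact Ideal.IsMaximal.coprime_of_ne (hmax _) (hmax _)
        (fun h => huv (JacobiGen.smul_injective K 𝔮 hq hqp hN hm h))
    · intro u hu
      rw [Ideal.dvd_span_singleton]
      exact hmem u hu
  obtain ⟨I, hI⟩ := hdvd
  -- the norm of `J`
  have hχpow : χ ^ p = 1 := by
    refine MulChar.ext fun a => ?_
    rw [MulChar.pow_apply_coe, MulChar.one_apply_coe]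
    exact hχp _ (Units.ne_zero a)
  have hinv : χ ^ (p - 1) = χ⁻¹ := by
    apply eq_inv_of_mul_eq_one_left
    rw [← pow_succ, Nat.sub_add_cancel hp.one_le, hχpow]
  have hJJ : J * ((IsCyclotomicExtension.Rat.galEquivZMod p K).symm (-1) • J) = (q : 𝓞 K) := by
    rw [JacobiGen.smul_jacobiSum K χ hχp, MulEquiv.apply_symm_apply]
    have hval : (((-1 : (ZMod p)ˣ) : ZMod p)).val = p - 1 := by
      have : Fact (1 < p) := ⟨hp.one_lt⟩
      have : NeZero (1 : ZMod p) := ⟨one_ne_zero⟩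
      rw [Units.val_neg, Units.val_one, ZMod.val_neg_of_ne_zero, ZMod.val_one]
    rw [hval, hinv]
    apply FaithfulSMul.algebraMap_injective (𝓞 K) K
    rw [map_mul, map_natCast, ← jacobiSum_ringHomComp, ← jacobiSum_ringHomComp,
      ← MulChar.ringHomComp_inv, ← hcard]
    have hinj : Function.Injective (algebraMap (𝓞 K) K) :=
      FaithfulSMul.algebraMap_injective (𝓞 K) K
    have hne : ringChar K ≠ ringChar (𝓞 K ⧸ 𝔮) := by
      rw [ringChar.eq_zero]
      exact (CharP.ringChar_ne_zero_of_finite _).symm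
    have h1 : χ ≠ 1 := by
      rintro rfl
      exact hχχ (one_mul 1)
    exact jacobiSum_mul_jacobiSum_inv hne ((MulChar.ringHomComp_ne_one_iff hinj).mpr h1)
      ((MulChar.ringHomComp_ne_one_iff hinj).mpr h1)
      (by rw [← MulChar.ringHomComp_mul]; exact (MulChar.ringHomComp_ne_one_iff hinj).mpr hχχ)
  have hnormJ : Ideal.absNorm (Ideal.span {J}) ^ 2 = q ^ (p - 1) := by
    have h1 : Ideal.absNorm (Ideal.span
        {J * ((IsCyclotomicExtension.Rat.galEquivZMod p K).symm (-1) • J)}) =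
        Ideal.absNorm (Ideal.span {(q : 𝓞 K)}) := by rw [hJJ]
    rw [← Ideal.span_singleton_mul_span_singleton, map_mul, ← JacobiGen.smul_span_singleton,
      JacobiGen.absNorm_smul, Ideal.absNorm_span_natCast, RingOfIntegers.rank,
      IsCyclotomicExtension.Rat.finrank p K, Nat.totient_prime hp] at h1
    rw [sq, h1]
  have hnormP : Ideal.absNorm
      (∏ u ∈ s, ((IsCyclotomicExtension.Rat.galEquivZMod p K).symm u)⁻¹ • 𝔮) = q ^ s.card := by
    rw [map_prod]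
    simp only [JacobiGen.absNorm_smul, hN, Finset.prod_const]
  have hcount : 2 * s.card = p - 1 := JacobiGen.two_mul_card_filter hp2
  have hI1 : Ideal.absNorm I = 1 := by
    have h2 := hnormJ
    rw [hI, map_mul, hnormP, mul_pow, ← pow_mul, mul_comm s.card 2, hcount] at h2
    have h3 : Ideal.absNorm I ^ 2 = 1 := by
      have hpos : 0 < q ^ (p - 1) := pow_pos hq.pos _
      exact Nat.eq_of_mul_eq_mul_left hpos (by rw [h2, mul_one])
    exact (Nat.pow_eq_one.mp h3).resolve_right two_ne_zero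
  rw [Ideal.absNorm_eq_one_iff] at hI1
  refine ⟨J, ?_, ?_⟩
  · intro hJ0
    rw [hJ0, Ideal.span_singleton_zero, Ideal.absNorm_bot] at hnormJ
    exact (pow_pos hq.pos (p - 1)).ne' (by rw [← hnormJ]; simp)
  · rw [hI, hI1, Ideal.mul_top]

end Jacobi

end Fermat.Agent.S14
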