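import Mathlib

/-!
# S14, piece ZETA: a prime that does not split completely

For a nontrivial extension `M/F` of number fields, outside any finite set of primes of `F` there
is a prime with fewer than `[M : F]` primes above it (`exists_prime_not_split`).

Proof: if almost all primes split completely, finite truncated Euler products give
`ζ_F(s)^n ≤ C · ζ_M(s)` for real `s > 1` (`zetaR_pow_le`); multiplying by `(s - 1)^n` and letting
`s → 1⁺` contradicts the simple poles (Mathlib: `tendsto_sub_one_mul_dedekindZeta_nhdsGT`).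
Only inequalities between finite sums/products are used (no infinite Euler product).
-/

set_option autoImplicit false
set_option linter.style.haveILetI false

open NumberField Ideal Filter Topology Asymptotics UniqueFactorizationMonoid

namespace Fermat.Agent.S14

section zetaR

variable (K : Type*) [Field K] [NumberField K]

/-- The real-valued terms of the Dedekind zeta series at a real point `s`. -/
noncomputable def zetaTerm (s : ℝ) (n : ℕ) : ℝ :=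
  if n = 0 then 0 else (Nat.card {I : Ideal (𝓞 K) // absNorm I = n} : ℝ) / (n : ℝ) ^ s

theorem zetaTerm_nonneg (s : ℝ) (n : ℕ) : 0 ≤ zetaTerm K s n := by
  unfold zetaTerm
  split_ifs
  · exact le_rfl
  · positivity

theorem lSeries_term_eq_zetaTerm (s : ℝ) (n : ℕ) :
    LSeries.term (fun n ↦ (Nat.card {I : Ideal (𝓞 K) // absNorm I = n} : ℂ)) s n =
      ((zetaTerm K s n : ℝ) : ℂ) := by
  unfold zetaTerm LSeries.term
  split_ifs with h
  · simp
  · rw [Complex.ofReal_div, Complex.ofReal_cpow (Nat.cast_nonneg n)]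
    simp

theorem tendsto_sum_idealCount_div :
    Tendsto (fun n : ℕ ↦ (∑ k ∈ Finset.Icc 1 n,
      (Nat.card {I : Ideal (𝓞 K) // absNorm I = k} : ℝ)) / n) atTop
      (𝓝 (dedekindZeta_residue K)) := by
  refine ((Ideal.tendsto_norm_le_div_atTop₀ K).comp tendsto_natCast_atTop_atTop).congr fun n ↦ ?_
  simp only [Function.comp_apply, Nat.cast_le, ← Nat.cast_sum]
  congr
  rw [← add_left_inj 1, ← card_norm_le_eq_card_norm_le_add_one,
    show Finset.Icc 1 n = Finset.Ioc 0 n from Finset.Icc_succ_left_eq_Ioc _ _,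
    show 1 = Nat.card {I : Ideal (𝓞 K) // absNorm I = 0} by simp [Ideal.absNorm_eq_zero_iff],
    Finset.sum_Ioc_add_eq_sum_Icc (n.zero_le),
    ← Finset.card_preimage_eq_sum_card_image_eq (fun k _ ↦ finite_setOfPred_absNorm_eq k)]
  simp [Set.coe_eq_subtype]

theorem lSeriesSummable_idealCount {s : ℝ} (hs : 1 < s) :
    LSeriesSummable (fun n ↦ (Nat.card {I : Ideal (𝓞 K) // absNorm I = n} : ℂ)) s := by
  have := LSeriesSummable_of_sum_norm_bigO_and_nonneg (s := (s : ℂ)) (r := 1)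
    (f := fun n ↦ (Nat.card {I : Ideal (𝓞 K) // absNorm I = n} : ℝ))
    (isBigO_atTop_natCast_rpow_of_tendsto_div_rpow (a := dedekindZeta_residue K)
      (by simpa using tendsto_sum_idealCount_div K))
    (fun _ ↦ Nat.cast_nonneg _) zero_le_one (by simpa using hs)
  simpa using this

theorem summable_zetaTerm {s : ℝ} (hs : 1 < s) : Summable (zetaTerm K s) := by
  have h := lSeriesSummable_idealCount K hs
  unfold LSeriesSummable at h
  rw [funext (lSeries_term_eq_zetaTerm K s)] at h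
  exact Complex.summable_ofReal.mp h

/-- The Dedekind zeta function at a real point, as a real number. -/
noncomputable def zetaR (s : ℝ) : ℝ := ∑' n, zetaTerm K s n

theorem dedekindZeta_eq_zetaR (s : ℝ) : dedekindZeta K s = ((zetaR K s : ℝ) : ℂ) := by
  unfold dedekindZeta LSeries zetaR
  rw [funext (lSeries_term_eq_zetaTerm K s), Complex.ofReal_tsum]

theorem tendsto_sub_one_mul_zetaR :
    Tendsto (fun s : ℝ ↦ (s - 1) * zetaR K s) (𝓝[>] 1) (𝓝 (dedekindZeta_residue K)) := by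
  have h := tendsto_sub_one_mul_dedekindZeta_nhdsGT K
  have h2 : (fun s : ℝ ↦ ((s : ℂ) - 1) * dedekindZeta K s) =
      fun s : ℝ ↦ (((s - 1) * zetaR K s : ℝ) : ℂ) := by
    funext s
    rw [dedekindZeta_eq_zetaR]
    push_cast
    ring
  rw [h2] at h
  exact (Complex.continuous_re.tendsto _).comp h |>.congr (fun s ↦ by simp) 

theorem card_filter_absNorm_le (𝒜 : Finset (Ideal (𝓞 K))) (n : ℕ) :
    (𝒜.filter (fun I ↦ absNorm I = n)).card ≤ Nat.card {I : Ideal (𝓞 K) // absNorm I = n} := by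
  have hfin := finite_setOfPred_absNorm_eq (S := 𝓞 K) n
  have h1 : Nat.card {I : Ideal (𝓞 K) // absNorm I = n} = hfin.toFinset.card := by
    rw [← Set.ncard_eq_toFinset_card _ hfin, ← Nat.card_coe_set_eq]
    rfl
  rw [h1]
  refine Finset.card_le_card fun I hI ↦ ?_
  simpa using (Finset.mem_filter.mp hI).2

theorem sum_le_zetaR {s : ℝ} (hs : 1 < s) (𝒜 : Finset (Ideal (𝓞 K))) (h𝒜 : ∀ I ∈ 𝒜, I ≠ ⊥) :
    ∑ I ∈ 𝒜, ((absNorm I : ℝ) ^ s)⁻¹ ≤ zetaR K s := by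
  classical
  have h1 : ∑ I ∈ 𝒜, ((absNorm I : ℝ) ^ s)⁻¹ =
      ∑ n ∈ 𝒜.image absNorm, ∑ I ∈ 𝒜 with absNorm I = n, ((absNorm I : ℝ) ^ s)⁻¹ :=
    (Finset.sum_fiberwise_of_maps_to (fun I hI ↦ Finset.mem_image_of_mem _ hI) _).symm
  have h2 : ∀ n ∈ 𝒜.image absNorm,
      ∑ I ∈ 𝒜 with absNorm I = n, ((absNorm I : ℝ) ^ s)⁻¹ ≤ zetaTerm K s n := by
    intro n hn
    obtain ⟨J, hJ, rfl⟩ := Finset.mem_image.mp hn
    have hne : absNorm J ≠ 0 := by
      rw [Ne, absNorm_eq_zero_iff]; exact h𝒜 J hJ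
    have h3 : ∑ I ∈ 𝒜 with absNorm I = absNorm J, ((absNorm I : ℝ) ^ s)⁻¹ =
        ((𝒜.filter (fun I ↦ absNorm I = absNorm J)).card : ℝ) * ((absNorm J : ℝ) ^ s)⁻¹ := by
      rw [← nsmul_eq_mul, ← Finset.sum_const]
      refine Finset.sum_congr rfl fun I hI ↦ ?_
      rw [(Finset.mem_filter.mp hI).2]
    rw [h3, zetaTerm, if_neg hne, div_eq_mul_inv]
    gcongr
    exact_mod_cast card_filter_absNorm_le K 𝒜 (absNorm J)
  rw [h1]
  exact (Finset.sum_le_sum h2).trans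
    ((summable_zetaTerm K hs).sum_le_tsum _ (fun n _ ↦ zetaTerm_nonneg K s n))

theorem emultiplicity_prod_pow (T : Finset (Ideal (𝓞 K))) (hT : ∀ P ∈ T, P.IsPrime ∧ P ≠ ⊥)
    (e : T → ℕ) (j : T) :
    emultiplicity (j : Ideal (𝓞 K)) (∏ i : T, (i : Ideal (𝓞 K)) ^ e i) = e j := by
  have hj : Prime (j : Ideal (𝓞 K)) :=
    haveI := (hT j j.2).1
    Ideal.prime_of_isPrime (hT j j.2).2 inferInstance
  rw [Finset.emultiplicity_prod hj, Finset.sum_eq_single j]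
  · exact emultiplicity_pow_self_of_prime hj _
  · intro i _ hij
    have hi : Prime (i : Ideal (𝓞 K)) :=
      haveI := (hT i i.2).1
      Ideal.prime_of_isPrime (hT i i.2).2 inferInstance
    rw [emultiplicity_pow hj, emultiplicity_eq_zero_of_irreducible_ne hj.irreducible hi.irreducible
      (fun h ↦ hij (Subtype.ext h.symm)), mul_zero]
  · intro h
    exact absurd (Finset.mem_univ j) h

theorem prod_pow_injective (T : Finset (Ideal (𝓞 K))) (hT : ∀ P ∈ T, P.IsPrime ∧ P ≠ ⊥) :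
    Function.Injective (fun e : T → ℕ ↦ ∏ i : T, (i : Ideal (𝓞 K)) ^ e i) := by
  intro e e' h
  funext j
  have h1 := emultiplicity_prod_pow K T hT e j
  have h2 := emultiplicity_prod_pow K T hT e' j
  simp only at h
  rw [h, h2] at h1
  exact_mod_cast h1.symm

/-- Truncated Euler factor `∑_{e ≤ E} x^(-s e)`. -/
noncomputable def eulerTrunc (s : ℝ) (E : ℕ) (x : ℕ) : ℝ :=
  ∑ e ∈ Finset.range (E + 1), (((x : ℝ) ^ s)⁻¹) ^ e

theorem one_le_eulerTrunc (s : ℝ) (E : ℕ) (x : ℕ) : 1 ≤ eulerTrunc s E x := by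
  unfold eulerTrunc
  rw [Finset.sum_range_succ']
  have : 0 ≤ ∑ k ∈ Finset.range E, (((x : ℝ) ^ s)⁻¹) ^ (k + 1) :=
    Finset.sum_nonneg fun k _ ↦ by positivity
  simpa using this

theorem eulerTrunc_le_two {s : ℝ} (hs : 1 ≤ s) (E : ℕ) {x : ℕ} (hx : 2 ≤ x) :
    eulerTrunc s E x ≤ 2 := by
  unfold eulerTrunc
  have hr0 : 0 ≤ ((x : ℝ) ^ s)⁻¹ := by positivity
  have hr : ((x : ℝ) ^ s)⁻¹ ≤ 1 / 2 := by
    have h2 : (2 : ℝ) ≤ (x : ℝ) ^ s := by
      calc (2 : ℝ) ≤ (x : ℝ) := by exact_mod_cast hx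
        _ = (x : ℝ) ^ (1 : ℝ) := (Real.rpow_one _).symm
        _ ≤ (x : ℝ) ^ s :=
          Real.rpow_le_rpow_of_exponent_le (by exact_mod_cast (by omega : 1 ≤ x)) hs
    rw [one_div]
    exact inv_anti₀ (by norm_num) h2
  set r := ((x : ℝ) ^ s)⁻¹
  induction E with
  | zero => simp
  | succ k ih =>
    rw [Finset.sum_range_succ', pow_zero]
    have : ∑ i ∈ Finset.range (k + 1), r ^ (i + 1) = r * ∑ i ∈ Finset.range (k + 1), r ^ i := by
      rw [Finset.mul_sum]; exact Finset.sum_congr rfl fun i _ ↦ by ring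
    rw [this]
    nlinarith [Finset.sum_nonneg (fun i (_ : i ∈ Finset.range (k + 1)) ↦ pow_nonneg hr0 i)]

theorem inv_absNorm_prod_pow (s : ℝ) (T : Finset (Ideal (𝓞 K))) (e : T → ℕ) :
    ((absNorm (∏ i : T, (i : Ideal (𝓞 K)) ^ e i) : ℝ) ^ s)⁻¹ =
      ∏ i : T, (((absNorm (i : Ideal (𝓞 K)) : ℝ) ^ s)⁻¹) ^ e i := by
  rw [map_prod, Nat.cast_prod, ← Real.finsetProd_rpow _ _ (fun i _ ↦ Nat.cast_nonneg _),
    ← Finset.prod_inv_distrib]
  refine Finset.prod_congr rfl fun i _ ↦ ?_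
  rw [map_pow, Nat.cast_pow, inv_pow, ← Real.rpow_natCast, ← Real.rpow_natCast,
    ← Real.rpow_mul (Nat.cast_nonneg _), ← Real.rpow_mul (Nat.cast_nonneg _), mul_comm]

theorem prod_eulerTrunc_eq_sum_image (s : ℝ) (T : Finset (Ideal (𝓞 K)))
    (hT : ∀ P ∈ T, P.IsPrime ∧ P ≠ ⊥) (E : ℕ) :
    ∏ P ∈ T, eulerTrunc s E (absNorm P) =
      ∑ I ∈ (Fintype.piFinset (fun _ : T ↦ Finset.range (E + 1))).image
        (fun e : T → ℕ ↦ ∏ i : T, (i : Ideal (𝓞 K)) ^ e i), ((absNorm I : ℝ) ^ s)⁻¹ := by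
  classical
  have h1 : ∏ P ∈ T, eulerTrunc s E (absNorm P) =
      ∏ i : T, ∑ e ∈ Finset.range (E + 1), (((absNorm (i : Ideal (𝓞 K)) : ℝ) ^ s)⁻¹) ^ e :=
    (Finset.prod_coe_sort T (fun P ↦ eulerTrunc s E (absNorm P))).symm
  rw [h1, Finset.prod_univ_sum]
  have h2 : ∀ x ∈ Fintype.piFinset (fun _ : T ↦ Finset.range (E + 1)),
      ∏ i : T, (((absNorm (i : Ideal (𝓞 K)) : ℝ) ^ s)⁻¹) ^ x i =
        ((absNorm (∏ i : T, (i : Ideal (𝓞 K)) ^ x i) : ℝ) ^ s)⁻¹ :=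
    fun x _ ↦ (inv_absNorm_prod_pow K s T x).symm
  rw [Finset.sum_congr rfl h2,
    ← Finset.sum_image (f := fun I : Ideal (𝓞 K) ↦ ((absNorm I : ℝ) ^ s)⁻¹)
      (g := fun e : T → ℕ ↦ ∏ i : T, (i : Ideal (𝓞 K)) ^ e i)
      (fun x _ y _ h ↦ prod_pow_injective K T hT h)]

/-- Lower bound of the zeta value by a finite truncated Euler product. -/
theorem prod_eulerTrunc_le_zetaR {s : ℝ} (hs : 1 < s) (T : Finset (Ideal (𝓞 K)))
    (hT : ∀ P ∈ T, P.IsPrime ∧ P ≠ ⊥) (E : ℕ) :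
    ∏ P ∈ T, eulerTrunc s E (absNorm P) ≤ zetaR K s := by
  classical
  rw [prod_eulerTrunc_eq_sum_image K s T hT E]
  refine sum_le_zetaR K hs _ fun I hI ↦ ?_
  obtain ⟨x, -, rfl⟩ := Finset.mem_image.mp hI
  rw [← Ideal.zero_eq_bot, Finset.prod_ne_zero_iff]
  exact fun i _ ↦ pow_ne_zero _ (hT i i.2).2

theorem two_le_absNorm_of_isPrime (P : Ideal (𝓞 K)) (hP : P.IsPrime) (h0 : P ≠ ⊥) :
    2 ≤ absNorm P := by
  have h1 : absNorm P ≠ 0 := by rwa [Ne, absNorm_eq_zero_iff]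
  have h2 : absNorm P ≠ 1 := by rw [Ne, absNorm_eq_one_iff]; exact hP.ne_top
  omega

theorem exists_prod_pow_eq (N₀ : ℕ) (I : Ideal (𝓞 K)) (hI : I ≠ ⊥) (hN : absNorm I ≤ N₀)
    (T : Finset (Ideal (𝓞 K)))
    (hT : ∀ P : Ideal (𝓞 K), P.IsPrime → P ≠ ⊥ → absNorm P ≤ N₀ → P ∈ T) :
    ∃ x : T → ℕ, (∀ i, x i ≤ N₀) ∧ ∏ i : T, (i : Ideal (𝓞 K)) ^ x i = I := by
  classical
  have hI0 : 0 < absNorm I := Nat.pos_of_ne_zero (by rwa [Ne, absNorm_eq_zero_iff])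
  refine ⟨fun i ↦ (normalizedFactors I).count (i : Ideal (𝓞 K)), fun i ↦ ?_, ?_⟩
  · -- bound on the exponent
    show (normalizedFactors I).count (i : Ideal (𝓞 K)) ≤ N₀
    set P : Ideal (𝓞 K) := (i : Ideal (𝓞 K))
    set c := (normalizedFactors I).count P with hc
    by_cases hc0 : c = 0
    · omega
    have hmem : P ∈ normalizedFactors I := Multiset.count_pos.mp (Nat.pos_of_ne_zero hc0)
    have hprime : Prime P := prime_of_normalized_factor P hmem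
    have hdvd : P ^ c ∣ I := by
      have h1 : Multiset.replicate c P ≤ normalizedFactors I :=
        Multiset.le_count_iff_replicate_le.mp le_rfl
      have h2 := Multiset.prod_dvd_prod_of_le h1
      rwa [Multiset.prod_replicate, Ideal.prod_normalizedFactors_eq_self hI] at h2
    have h3 : absNorm P ^ c ∣ absNorm I := by
      rw [← map_pow]; exact map_dvd absNorm hdvd
    have h4 : 2 ≤ absNorm P :=
      two_le_absNorm_of_isPrime K P (Ideal.isPrime_of_prime hprime) hprime.ne_zero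
    calc c ≤ 2 ^ c := Nat.lt_two_pow_self.le
      _ ≤ absNorm P ^ c := Nat.pow_le_pow_left h4 c
      _ ≤ absNorm I := Nat.le_of_dvd hI0 h3
      _ ≤ N₀ := hN
  · rw [Finset.prod_coe_sort T (fun P ↦ P ^ (normalizedFactors I).count P)]
    have hsub : (normalizedFactors I).toFinset ⊆ T := by
      intro P hP
      rw [Multiset.mem_toFinset] at hP
      have hprime : Prime P := prime_of_normalized_factor P hP
      refine hT P (Ideal.isPrime_of_prime hprime) hprime.ne_zero ?_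
      exact (Nat.le_of_dvd hI0 (map_dvd absNorm (dvd_of_mem_normalizedFactors hP))).trans hN
    rw [← Finset.prod_subset hsub, ← Finset.prod_multiset_count,
      Ideal.prod_normalizedFactors_eq_self hI]
    intro P _ hP
    rw [Multiset.mem_toFinset] at hP
    rw [Multiset.count_eq_zero_of_notMem hP, pow_zero]

open Classical in
/-- The finite set of nonzero prime ideals of norm at most `N₀`. -/
noncomputable def primesLe (N₀ : ℕ) : Finset (Ideal (𝓞 K)) :=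
  (finite_setOfPred_absNorm_le (S := 𝓞 K) N₀).toFinset.filter (fun P ↦ P.IsPrime ∧ P ≠ ⊥)

theorem mem_primesLe {N₀ : ℕ} {P : Ideal (𝓞 K)} :
    P ∈ primesLe K N₀ ↔ absNorm P ≤ N₀ ∧ P.IsPrime ∧ P ≠ ⊥ := by
  classical
  simp [primesLe]

/-- Upper bound of the partial sums of the zeta series by a finite truncated Euler product. -/
theorem sum_zetaTerm_le_prod (s : ℝ) (N₀ : ℕ) :
    ∑ n ∈ Finset.range (N₀ + 1), zetaTerm K s n ≤
      ∏ P ∈ primesLe K N₀, eulerTrunc s N₀ (absNorm P) := by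
  classical
  set 𝒜₀ : Finset (Ideal (𝓞 K)) :=
    (finite_setOfPred_absNorm_le (S := 𝓞 K) N₀).toFinset.filter (fun I ↦ I ≠ ⊥) with h𝒜₀
  have hmem : ∀ I : Ideal (𝓞 K), I ∈ 𝒜₀ ↔ absNorm I ≤ N₀ ∧ I ≠ ⊥ := by
    intro I; simp [h𝒜₀]
  have h1 : ∀ n ∈ Finset.range (N₀ + 1),
      zetaTerm K s n = ∑ I ∈ 𝒜₀ with absNorm I = n, ((absNorm I : ℝ) ^ s)⁻¹ := by
    intro n hn
    have hn' : n ≤ N₀ := by simpa [Nat.lt_succ_iff] using hn
    unfold zetaTerm
    split_ifs with h0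
    · rw [Finset.sum_eq_zero]
      intro I hI
      rw [Finset.mem_filter, hmem, h0, absNorm_eq_zero_iff] at hI
      exact absurd hI.2 hI.1.2
    · have hfin := finite_setOfPred_absNorm_eq (S := 𝓞 K) n
      have hcard : Nat.card {I : Ideal (𝓞 K) // absNorm I = n} =
          (𝒜₀.filter (fun I ↦ absNorm I = n)).card := by
        have h2 : Nat.card {I : Ideal (𝓞 K) // absNorm I = n} = hfin.toFinset.card := by
          rw [← Set.ncard_eq_toFinset_card _ hfin, ← Nat.card_coe_set_eq]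
          rfl
        rw [h2]
        congr 1
        ext I
        simp only [Set.Finite.mem_toFinset, Set.mem_ofPred_eq, Finset.mem_filter, hmem]
        constructor
        · intro h
          refine ⟨⟨h ▸ hn', ?_⟩, h⟩
          rw [Ne, ← absNorm_eq_zero_iff, h]
          exact h0
        · exact fun h ↦ h.2
      rw [hcard, div_eq_mul_inv, ← nsmul_eq_mul, ← Finset.sum_const]
      refine Finset.sum_congr rfl fun I hI ↦ ?_
      rw [(Finset.mem_filter.mp hI).2]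
  rw [Finset.sum_congr rfl h1,
    Finset.sum_fiberwise_of_maps_to (fun I hI ↦ by
      rw [Finset.mem_range, Nat.lt_succ_iff]; exact ((hmem I).mp hI).1),
    prod_eulerTrunc_eq_sum_image K s _ (fun P hP ↦ ((mem_primesLe K).mp hP).2) N₀]
  refine Finset.sum_le_sum_of_subset_of_nonneg ?_ (fun I _ _ ↦ by positivity)
  intro I hI
  obtain ⟨hN, hne⟩ := (hmem I).mp hI
  obtain ⟨x, hx, rfl⟩ := exists_prod_pow_eq K N₀ I hne hN (primesLe K N₀)
    (fun P hP h0 hle ↦ (mem_primesLe K).mpr ⟨hle, hP, h0⟩)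
  refine Finset.mem_image.mpr ⟨x, ?_, rfl⟩
  rw [Fintype.mem_piFinset]
  exact fun i ↦ Finset.mem_range.mpr (Nat.lt_succ_of_le (hx i))

end zetaR

section split

variable (F M : Type*) [Field F] [NumberField F] [Field M] [NumberField M] [Algebra F M]

theorem finite_primesOver' (𝔭 : Ideal (𝓞 F)) : (𝔭.primesOver (𝓞 M)).Finite :=
  Algebra.QuasiFinite.finite_primesOver 𝔭

theorem split_data (𝔭 : Ideal (𝓞 F)) [𝔭.IsPrime]
    (hsplit : Module.finrank F M ≤ (𝔭.primesOver (𝓞 M)).ncard) :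
    (𝔭.primesOver (𝓞 M)).ncard = Module.finrank F M ∧
      ∀ 𝔓 ∈ 𝔭.primesOver (𝓞 M), absNorm 𝔓 = absNorm 𝔭 := by
  classical
  have hfin := finite_primesOver' F M 𝔭
  letI : Fintype (𝔭.primesOver (𝓞 M)) := hfin.fintype
  have hsum := Ideal.sum_ramification_inertia_eq_finrank 𝔭 (𝓞 M)
  rw [← IsFractionRing.finrank_eq (𝓞 F) F (𝓞 M) M] at hsum
  have hcard : (𝔭.primesOver (𝓞 M)).ncard = Fintype.card (𝔭.primesOver (𝓞 M)) := by
    rw [← Nat.card_coe_set_eq, Nat.card_eq_fintype_card]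
  have hpos : ∀ q : 𝔭.primesOver (𝓞 M), 1 ≤ q.1.ramificationIdx (𝓞 F) * q.1.inertiaDeg (𝓞 F) := by
    intro q
    haveI := q.2.1
    exact Nat.mul_pos (Ideal.ramificationIdx_pos q.1 (𝓞 F)) (Ideal.inertiaDeg_pos q.1 (𝓞 F))
  have hle : Fintype.card (𝔭.primesOver (𝓞 M)) ≤ Module.finrank F M := by
    rw [← hsum]
    calc Fintype.card (𝔭.primesOver (𝓞 M)) = ∑ _q : 𝔭.primesOver (𝓞 M), 1 := by simp
      _ ≤ _ := Finset.sum_le_sum fun q _ ↦ hpos q
  have hcard' : Fintype.card (𝔭.primesOver (𝓞 M)) = Module.finrank F M :=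
    le_antisymm hle (hcard ▸ hsplit)
  refine ⟨hcard.trans hcard', ?_⟩
  -- all terms are equal to one
  have hone : ∀ q : 𝔭.primesOver (𝓞 M),
      q.1.ramificationIdx (𝓞 F) * q.1.inertiaDeg (𝓞 F) = 1 := by
    by_contra hne
    push Not at hne
    obtain ⟨q₀, hq₀⟩ := hne
    have hlt : ∑ _q : 𝔭.primesOver (𝓞 M), 1 <
        ∑ q : 𝔭.primesOver (𝓞 M), q.1.ramificationIdx (𝓞 F) * q.1.inertiaDeg (𝓞 F) :=
      Finset.sum_lt_sum (fun q _ ↦ hpos q) ⟨q₀, Finset.mem_univ _, lt_of_le_of_ne (hpos q₀) hq₀.symm⟩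
    rw [hsum] at hlt
    simp only [Finset.sum_const, Finset.card_univ, smul_eq_mul, mul_one] at hlt
    omega
  intro 𝔓 h𝔓
  haveI := h𝔓.1
  haveI := h𝔓.2
  have hf : 𝔓.inertiaDeg (𝓞 F) = 1 := Nat.eq_one_of_mul_eq_one_left (hone ⟨𝔓, h𝔓⟩)
  have := Ideal.absNorm_pow_inertiaDeg 𝔭 𝔓
  rw [hf, pow_one] at this
  exact this.symm


theorem zetaR_pow_le (S : Set (Ideal (𝓞 F))) (hS : S.Finite)
    (hall : ∀ 𝔭 : Ideal (𝓞 F), 𝔭.IsPrime → 𝔭 ≠ ⊥ → 𝔭 ∉ S →
      Module.finrank F M ≤ (𝔭.primesOver (𝓞 M)).ncard)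
    {s : ℝ} (hs : 1 < s) :
    zetaR F s ^ Module.finrank F M ≤
      (2 ^ hS.toFinset.card) ^ Module.finrank F M * zetaR M s := by
  classical
  set n := Module.finrank F M with hn
  set C₀ : ℝ := 2 ^ hS.toFinset.card with hC₀
  have key : ∀ N₀ : ℕ,
      (∑ k ∈ Finset.range (N₀ + 1), zetaTerm F s k) ^ n ≤ C₀ ^ n * zetaR M s := by
    intro N₀
    set G : Ideal (𝓞 F) → ℝ := fun 𝔭 ↦ eulerTrunc s N₀ (absNorm 𝔭) with hG
    have hGpos : ∀ 𝔭, 0 ≤ G 𝔭 := fun 𝔭 ↦ zero_le_one.trans (one_le_eulerTrunc s N₀ _)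
    set P := primesLe F N₀ with hP
    have hsplitprod : ∏ 𝔭 ∈ P, G 𝔭 =
        (∏ 𝔭 ∈ P.filter (· ∈ S), G 𝔭) * ∏ 𝔭 ∈ P.filter (· ∉ S), G 𝔭 :=
      (Finset.prod_filter_mul_prod_filter_not P (· ∈ S) _).symm
    have hPS : ∏ 𝔭 ∈ P.filter (· ∈ S), G 𝔭 ≤ C₀ := by
      calc ∏ 𝔭 ∈ P.filter (· ∈ S), G 𝔭 ≤ ∏ _𝔭 ∈ P.filter (· ∈ S), (2 : ℝ) := by
            refine Finset.prod_le_prod (fun 𝔭 _ ↦ hGpos 𝔭) fun 𝔭 h𝔭 ↦ ?_
            have h1 := (mem_primesLe F).mp (Finset.mem_filter.mp h𝔭).1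
            exact eulerTrunc_le_two hs.le _ (two_le_absNorm_of_isPrime F 𝔭 h1.2.1 h1.2.2)
        _ = 2 ^ (P.filter (· ∈ S)).card := by simp
        _ ≤ C₀ := by
            refine pow_le_pow_right₀ one_le_two (Finset.card_le_card fun 𝔭 h ↦ ?_)
            simpa using (Finset.mem_filter.mp h).2
    set P' := P.filter (· ∉ S) with hP'
    have hP'mem : ∀ 𝔭 ∈ P', 𝔭.IsPrime ∧ 𝔭 ≠ ⊥ ∧ 𝔭 ∉ S := by
      intro 𝔭 h𝔭
      have h1 := (mem_primesLe F).mp (Finset.mem_filter.mp h𝔭).1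
      exact ⟨h1.2.1, h1.2.2, (Finset.mem_filter.mp h𝔭).2⟩
    set T : Finset (Ideal (𝓞 M)) :=
      P'.biUnion (fun 𝔭 ↦ (finite_primesOver' F M 𝔭).toFinset) with hT
    have hTmem : ∀ 𝔓 ∈ T, 𝔓.IsPrime ∧ 𝔓 ≠ ⊥ := by
      intro 𝔓 h𝔓
      obtain ⟨𝔭, h𝔭, h𝔓'⟩ := Finset.mem_biUnion.mp h𝔓
      rw [Set.Finite.mem_toFinset] at h𝔓'
      haveI := h𝔓'.2
      exact ⟨h𝔓'.1, Ideal.ne_bot_of_liesOver_of_ne_bot (hP'mem 𝔭 h𝔭).2.1 𝔓⟩
    have hdisj : (P' : Set (Ideal (𝓞 F))).PairwiseDisjoint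
        (fun 𝔭 ↦ (finite_primesOver' F M 𝔭).toFinset) := by
      intro 𝔭 _ 𝔭' _ hne
      rw [Function.onFun, Finset.disjoint_left]
      intro 𝔓 h1 h2
      rw [Set.Finite.mem_toFinset] at h1 h2
      exact hne (h1.2.over.trans h2.2.over.symm)
    have hprodT : ∏ 𝔓 ∈ T, eulerTrunc s N₀ (absNorm 𝔓) = (∏ 𝔭 ∈ P', G 𝔭) ^ n := by
      rw [hT, Finset.prod_biUnion hdisj, ← Finset.prod_pow]
      refine Finset.prod_congr rfl fun 𝔭 h𝔭 ↦ ?_
      obtain ⟨hpr, h0, hnS⟩ := hP'mem 𝔭 h𝔭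
      haveI := hpr
      obtain ⟨hcard, hnorm⟩ := split_data F M 𝔭 (hall 𝔭 hpr h0 hnS)
      rw [Finset.prod_congr rfl (fun 𝔓 h𝔓 ↦ by
        rw [hnorm 𝔓 ((Set.Finite.mem_toFinset _).mp h𝔓)]), Finset.prod_const]
      congr 1
      rw [hn, ← hcard, Set.ncard_eq_toFinset_card _ (finite_primesOver' F M 𝔭)]
    have hM := prod_eulerTrunc_le_zetaR M hs T hTmem N₀
    have hsum_nonneg : 0 ≤ ∑ k ∈ Finset.range (N₀ + 1), zetaTerm F s k :=
      Finset.sum_nonneg fun k _ ↦ zetaTerm_nonneg F s k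
    have hP'nonneg : 0 ≤ ∏ 𝔭 ∈ P', G 𝔭 := Finset.prod_nonneg fun 𝔭 _ ↦ hGpos 𝔭
    have hPSnonneg : 0 ≤ ∏ 𝔭 ∈ P.filter (· ∈ S), G 𝔭 := Finset.prod_nonneg fun 𝔭 _ ↦ hGpos 𝔭
    calc (∑ k ∈ Finset.range (N₀ + 1), zetaTerm F s k) ^ n
        ≤ (∏ 𝔭 ∈ P, G 𝔭) ^ n := pow_le_pow_left₀ hsum_nonneg (sum_zetaTerm_le_prod F s N₀) n
      _ = (∏ 𝔭 ∈ P.filter (· ∈ S), G 𝔭) ^ n * (∏ 𝔭 ∈ P', G 𝔭) ^ n := by
          rw [hsplitprod, mul_pow]
      _ ≤ C₀ ^ n * (∏ 𝔭 ∈ P', G 𝔭) ^ n := by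
          gcongr
      _ = C₀ ^ n * ∏ 𝔓 ∈ T, eulerTrunc s N₀ (absNorm 𝔓) := by rw [hprodT]
      _ ≤ C₀ ^ n * zetaR M s := by
          gcongr
  -- pass to the limit
  have hlim : Tendsto (fun N : ℕ ↦ (∑ k ∈ Finset.range N, zetaTerm F s k) ^ n) atTop
      (𝓝 (zetaR F s ^ n)) :=
    ((summable_zetaTerm F hs).hasSum.tendsto_sum_nat).pow n
  refine le_of_tendsto' (hlim.comp (tendsto_add_atTop_nat 1)) fun N₀ ↦ ?_
  exact key N₀

/-- **ZETA**: in a nontrivial extension of number fields, outside any finite set of primes there is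
a prime which does not split completely. -/
theorem exists_prime_not_split (hdeg : 1 < Module.finrank F M) (S : Set (Ideal (𝓞 F)))
    (hS : S.Finite) :
    ∃ 𝔭 : Ideal (𝓞 F), 𝔭.IsPrime ∧ 𝔭 ≠ ⊥ ∧ 𝔭 ∉ S ∧
      (Ideal.primesOver 𝔭 (𝓞 M)).ncard < Module.finrank F M := by
  by_contra hcon
  have hall : ∀ 𝔭 : Ideal (𝓞 F), 𝔭.IsPrime → 𝔭 ≠ ⊥ → 𝔭 ∉ S →
      Module.finrank F M ≤ (𝔭.primesOver (𝓞 M)).ncard := by
    intro 𝔭 h1 h2 h3
    by_contra h4
    exact hcon ⟨𝔭, h1, h2, h3, not_le.mp h4⟩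
  set n := Module.finrank F M with hn
  set C : ℝ := (2 ^ hS.toFinset.card) ^ n with hC
  -- the inequality, multiplied by `(s - 1) ^ n`
  have hineq : ∀ᶠ s : ℝ in 𝓝[>] 1,
      ((s - 1) * zetaR F s) ^ n ≤ C * (s - 1) ^ (n - 1) * ((s - 1) * zetaR M s) := by
    filter_upwards [self_mem_nhdsWithin] with s hs
    have hs1 : (1 : ℝ) < s := hs
    have h := zetaR_pow_le F M S hS hall hs1
    have hpos : 0 ≤ (s - 1) ^ n := pow_nonneg (sub_nonneg.mpr hs1.le) n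
    have hsplit : (s - 1) ^ n = (s - 1) ^ (n - 1) * (s - 1) := by
      rw [← pow_succ, Nat.sub_add_cancel (by omega)]
    calc ((s - 1) * zetaR F s) ^ n = (s - 1) ^ n * zetaR F s ^ n := mul_pow _ _ _
      _ ≤ (s - 1) ^ n * (C * zetaR M s) := mul_le_mul_of_nonneg_left h hpos
      _ = C * (s - 1) ^ (n - 1) * ((s - 1) * zetaR M s) := by rw [hsplit]; ring
  have hL : Tendsto (fun s : ℝ ↦ ((s - 1) * zetaR F s) ^ n) (𝓝[>] 1)
      (𝓝 (dedekindZeta_residue F ^ n)) := (tendsto_sub_one_mul_zetaR F).pow n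
  have hpow : Tendsto (fun s : ℝ ↦ (s - 1) ^ (n - 1)) (𝓝[>] 1) (𝓝 0) := by
    have h1 : Tendsto (fun s : ℝ ↦ (s - 1) ^ (n - 1)) (𝓝 1) (𝓝 (((1 : ℝ) - 1) ^ (n - 1))) :=
      ((continuous_id.sub continuous_const).pow (n - 1)).tendsto 1
    rw [sub_self, zero_pow (by omega)] at h1
    exact tendsto_nhdsWithin_of_tendsto_nhds h1
  have hR : Tendsto (fun s : ℝ ↦ C * (s - 1) ^ (n - 1) * ((s - 1) * zetaR M s)) (𝓝[>] 1)
      (𝓝 (C * 0 * dedekindZeta_residue M)) :=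
    (hpow.const_mul C).mul (tendsto_sub_one_mul_zetaR M)
  have hle := le_of_tendsto_of_tendsto hL hR hineq
  rw [mul_zero, zero_mul] at hle
  exact absurd hle (not_le.mpr (pow_pos (dedekindZeta_residue_pos F) n))

end split

end Fermat.Agent.S14
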