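import Mathlib
import Fermat.Agent.S14.Defs
import Fermat.Agent.S14.DefsConj
import Fermat.Agent.S14.FrobBasic
import Fermat.Agent.S14.FrobSplit
import Fermat.Agent.S14.FrobTower
import Fermat.Agent.S14.FinalBase
import Fermat.Agent.S14.FinalCore
import Fermat.Agent.S14.Zeta
import Fermat.Agent.S14.Jacobi

/-!
# S14, piece FINAL: no unramified `ω⁻¹`-extension of `ℚ(ζ_p)`

`no_unramified_extension_of` is the main number field theorem with RECIP (Artin reciprocity for
`L/K`: principal ideals prime to `p` have trivial Artin symbol) as an explicit hypothesis; all the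
other inputs (ZETA, JACOBI, the Frobenius API) are the landed pieces.
-/

set_option autoImplicit false
set_option linter.style.haveILetI false

open NumberField
open scoped Pointwise IsMulCommutative

namespace Fermat.Agent.S14

section Final

variable (p : ℕ) [Fact p.Prime] (L : Type*) [Field L] [NumberField L] [IsGalois ℚ L]
  (K : IntermediateField ℚ L) [IsCyclotomicExtension {p} ℚ K]

omit [IsCyclotomicExtension {p} ℚ K] in
/-- A Galois extension of prime degree is abelian. -/
theorem isAbelianGalois_of_finrank_eq_prime (hdeg : Module.finrank K L = p) :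
    IsAbelianGalois K L := by
  have hp : p.Prime := Fact.out
  haveI : IsGalois K L := inferInstance
  have hcard : Nat.card Gal(L/K) = p := by
    rw [IsGalois.card_aut_eq_finrank, hdeg]
  haveI : IsCyclic Gal(L/K) := isCyclic_of_prime_card hcard
  haveI : IsMulCommutative Gal(L/K) := ⟨⟨IsCyclic.commGroup.mul_comm⟩⟩
  exact { }

/-- **FINAL**, with RECIP as a hypothesis. -/
theorem no_unramified_extension_of (hp2 : p ≠ 2) (hdeg : Module.finrank K L = p)
    (hunr : IsUnramifiedEverywhere K L)
    (hact : ConjActsByInvCyclo p L K)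
    (hrecip : ∀ [IsAbelianGalois K L] (β : 𝓞 K),
      IsCoprime (Ideal.span {β}) (Ideal.span {(p : 𝓞 K)}) → artin K L (Ideal.span {β}) = 1) :
    False := by
  have hp : p.Prime := Fact.out
  haveI : IsGalois ℚ K := IsCyclotomicExtension.isGalois {p} ℚ K
  haveI : IsAbelianGalois K L := isAbelianGalois_of_finrank_eq_prime p L K hdeg
  refine no_unramified_extension_core p L K hp2 hdeg hact ?_ ?_ (fun β hβ => hrecip β hβ)
    ?_ ?_ ?_ ?_
  · -- ZETA
    intro S hS
    exact exists_prime_not_split K L (by rw [hdeg]; exact hp.one_lt) S hS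
  · -- JACOBI
    intro 𝔮 _ q hq hqp hN
    exact exists_jacobi_generator K hp2 𝔮 hq hqp hN
  · -- hsplit
    intro 𝔭 h𝔭 h0 hfrob
    haveI := h𝔭
    exact (frob_eq_one_iff_of_unramified K L hunr 𝔭 h0).mp hfrob
  · -- hartin
    intro s f hf
    rw [artin_prod K L s f fun u hu => (hf u hu).2]
    refine Finset.prod_congr rfl fun u hu => ?_
    haveI := (hf u hu).1
    exact artin_of_isPrime K L (f u) (hf u hu).2
  · -- hconj
    intro τ 𝔮 h𝔮 h0 _
    haveI := h𝔮
    have h0' : (AlgEquiv.restrictNormalHom K τ) • 𝔮 ≠ ⊥ := by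
      intro h
      apply h0
      have := congrArg (fun I => (AlgEquiv.restrictNormalHom K τ)⁻¹ • I) h
      simpa using this
    exact FrobTower.frob_smul ℚ K L τ 𝔮 h0
      (FrobTower.isUnramifiedAbove_of_everywhere hunr _ h0')
  · -- hbase
    intro 𝔭 h𝔭 h0 hp𝔭
    exact frob_base_change p L K hunr 𝔭 h𝔭 h0 hp𝔭

end Final

end Fermat.Agent.S14
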