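import Mathlib
import Fermat.Prelude.Def_ExtCitation_AdmissibleExtension_v2
import Fermat.Agent.S14.Defs
import Fermat.Agent.S14.DefsConj
import Fermat.Agent.S14.Trans
import Fermat.Agent.S14.Final

/-!
# S14: the statement `ExtVanishingCts p`, with RECIP as the only remaining hypothesis

`extVanishingCts_of_recip` derives `ExtCitation.ExtVanishingCts p` (statement S14) from TRANS
(`exists_field_of_not_splitsGlobally`), FINAL (`no_unramified_extension_of`) and the hypothesis
`hrecip` = Artin reciprocity for the unramified cyclic degree `p` extension `L/K` (piece RECIP,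
exactly the Skeleton statement `artin_span_singleton_eq_one`, for `L : Type`).
-/

set_option autoImplicit false
set_option linter.style.haveILetI false

open NumberField ExtCitation
open scoped Pointwise IsMulCommutative

namespace Fermat.Agent.S14

/-- S14 from RECIP. -/
theorem extVanishingCts_of_recip {p : ℕ} [Fact p.Prime] (h3 : 3 ≤ p)
    (hrecip : ∀ (L : Type) [Field L] [NumberField L] [IsGalois ℚ L] (K : IntermediateField ℚ L)
      [IsCyclotomicExtension {p} ℚ K] [IsAbelianGalois K L],
      p ≠ 2 → Module.finrank K L = p → IsUnramifiedEverywhere K L → ConjActsByInvCyclo p L K →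
      ∀ β : 𝓞 K, IsCoprime (Ideal.span {β}) (Ideal.span {(p : 𝓞 K)}) →
        artin K L (Ideal.span {β}) = 1) :
    ExtCitation.ExtVanishingCts p := by
  intro V _ _ _ _ C hadm
  by_contra hns
  obtain ⟨L, _, _, _, K, _, hdeg, hunr, -, hact⟩ :=
    exists_field_of_not_splitsGlobally h3 V C hadm hns
  have hp2 : p ≠ 2 := by omega
  exact no_unramified_extension_of p L K hp2 hdeg hunr hact
    (fun β hβ => hrecip L K hp2 hdeg hunr hact β hβ)

end Fermat.Agent.S14
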