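import Mathlib

/-!
# S14, piece ARTLEM: Artin's lemma for a prime exponent

Given `a > 1`, a prime `p` and a finite set `B` of excluded primes, there are two distinct primes
`r₁, r₂ ∉ B`, not dividing `a`, such that the orders of `a` modulo `r₁`, `r₂` are `p ^ k₁`, `p ^ k₂`
with `1 ≤ k₁ ≤ k₂`.
-/

set_option autoImplicit false

namespace Fermat.Agent.S14

namespace ArtinLemma

/-- `Φ(A) = ∑_{i<p} A^i`. -/
def geomPhi (p A : ℕ) : ℕ := ∑ i ∈ Finset.range p, A ^ i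

/-- Modulo a divisor `d` of `A - 1`, `Φ(A) ≡ p`. -/
theorem geomPhi_cast_of_dvd (p A d : ℕ) (hA : 1 ≤ A) (hd : d ∣ A - 1) :
    ((geomPhi p A : ℕ) : ZMod d) = (p : ZMod d) := by
  have hA1 : ((A : ℕ) : ZMod d) = 1 := by
    have h : (1 : ℕ) ≡ A [MOD d] := (Nat.modEq_iff_dvd' hA).mpr hd
    have := (ZMod.natCast_eq_natCast_iff 1 A d).mpr h
    simpa using this.symm
  unfold geomPhi
  push_cast
  simp [hA1]

theorem lt_geomPhi {p A : ℕ} (hp : 2 ≤ p) (hA : 2 ≤ A) : p < geomPhi p A := by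
  unfold geomPhi
  have h1 : ∀ i ∈ Finset.range p, 1 ≤ A ^ i := fun i _ => Nat.one_le_pow _ _ (by omega)
  have h2 : ∑ i ∈ Finset.range p, 1 < ∑ i ∈ Finset.range p, A ^ i := by
    apply Finset.sum_lt_sum h1
    refine ⟨1, Finset.mem_range.mpr (by omega), ?_⟩
    simp only [pow_one]
    omega
  simpa using h2

/-- If `p ∣ Φ(A)` then `p ∣ A - 1`. -/
theorem dvd_sub_one_of_dvd_geomPhi {p A : ℕ} (hp : p.Prime) (hA : 1 ≤ A)
    (h : p ∣ geomPhi p A) : p ∣ A - 1 := by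
  have : Fact p.Prime := Fact.mk hp
  have h0 : ((geomPhi p A : ℕ) : ZMod p) = 0 := (ZMod.natCast_eq_zero_iff _ _).mpr h
  have hmul : ((geomPhi p A : ℕ) : ZMod p) * ((A : ZMod p) - 1) = (A : ZMod p) ^ p - 1 := by
    unfold geomPhi
    push_cast
    exact geom_sum_mul _ _
  rw [h0, zero_mul, ZMod.pow_card] at hmul
  have hA1 : ((A : ℕ) : ZMod p) = ((1 : ℕ) : ZMod p) := by
    rw [Nat.cast_one]
    exact (sub_eq_zero.mp hmul.symm)
  have := (ZMod.natCast_eq_natCast_iff A 1 p).mp hA1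
  exact (Nat.modEq_iff_dvd' hA).mp this.symm

/-- A prime divisor of `Φ(A)` which does not divide `A - 1`. -/
theorem exists_prime_dvd_geomPhi {p A : ℕ} (hp : p.Prime) (hA : 2 ≤ A)
    (H : p ∣ A - 1 → p ^ 2 ∣ A - 1) :
    ∃ r : ℕ, r.Prime ∧ r ∣ geomPhi p A ∧ ¬ r ∣ A - 1 := by
  by_contra hcon
  push Not at hcon
  have hlt := lt_geomPhi hp.two_le hA
  -- every prime factor of `Φ` is `p`
  have hall : ∀ {d : ℕ}, d.Prime → d ∣ geomPhi p A → d = p := by
    intro d hd hdΦ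
    have hdA := hcon d hd hdΦ
    have h1 := geomPhi_cast_of_dvd p A d (by omega) hdA
    rw [(ZMod.natCast_eq_zero_iff _ _).mpr hdΦ] at h1
    have : d ∣ p := (ZMod.natCast_eq_zero_iff _ _).mp h1.symm
    exact (Nat.prime_dvd_prime_iff_eq hd hp).mp this
  have hpow := Nat.eq_prime_pow_of_unique_prime_dvd (by omega : geomPhi p A ≠ 0) hall
  set j := (geomPhi p A).primeFactorsList.length with hj
  have hj2 : 2 ≤ j := by
    by_contra hj2
    have : j = 0 ∨ j = 1 := by omega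
    rcases this with h | h
    · rw [h, pow_zero] at hpow; have := hp.two_le; omega
    · rw [h, pow_one] at hpow; omega
  have hp2Φ : p ^ 2 ∣ geomPhi p A := by
    rw [hpow]; exact pow_dvd_pow p hj2
  have hpΦ : p ∣ geomPhi p A := dvd_trans (dvd_pow_self p two_ne_zero) hp2Φ
  have hpA : p ∣ A - 1 := dvd_sub_one_of_dvd_geomPhi hp (by omega) hpΦ
  have hp2A := H hpA
  have h1 := geomPhi_cast_of_dvd p A (p ^ 2) (by omega) hp2A
  rw [(ZMod.natCast_eq_zero_iff _ _).mpr hp2Φ] at h1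
  have : p ^ 2 ∣ p := (ZMod.natCast_eq_zero_iff _ _).mp h1.symm
  have h2 := Nat.le_of_dvd hp.pos this
  have := hp.two_le
  nlinarith

/-- For `k ≥ 2`, the number `A = a ^ p ^ (k - 1)` satisfies `p ∣ A - 1 → p² ∣ A - 1`. -/
theorem sq_dvd_of_dvd {p a : ℕ} (hp : p.Prime) (ha : 1 ≤ a) (m : ℕ)
    (h : p ∣ a ^ p ^ (m + 1) - 1) : p ^ 2 ∣ a ^ p ^ (m + 1) - 1 := by
  have : Fact p.Prime := Fact.mk hp
  set C := a ^ p ^ m with hC
  have hC1 : 1 ≤ C := Nat.one_le_pow _ _ ha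
  have hCp : a ^ p ^ (m + 1) = C ^ p := by rw [hC, ← pow_mul, pow_succ]
  rw [hCp] at h ⊢
  -- `p ∣ C - 1`
  have hpC : p ∣ C - 1 := by
    have h0 : (((C ^ p : ℕ) : ZMod p)) = ((1 : ℕ) : ZMod p) := by
      have := (Nat.modEq_iff_dvd' (Nat.one_le_pow _ _ hC1)).mpr h
      exact ((ZMod.natCast_eq_natCast_iff _ _ _).mpr this).symm
    rw [Nat.cast_pow, ZMod.pow_card] at h0
    have := (ZMod.natCast_eq_natCast_iff C 1 p).mp h0
    exact (Nat.modEq_iff_dvd' hC1).mp this.symm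
  -- `C^p - 1 = Φ(C) (C - 1)` and `p ∣ Φ(C)`
  have hfact : C ^ p - 1 = geomPhi p C * (C - 1) := by
    have hz : ((geomPhi p C * (C - 1) : ℕ) : ℤ) = ((C ^ p - 1 : ℕ) : ℤ) := by
      rw [Nat.cast_mul, Nat.cast_sub hC1, Nat.cast_sub (Nat.one_le_pow _ _ hC1)]
      unfold geomPhi
      push_cast
      exact geom_sum_mul _ _
    exact_mod_cast hz.symm
  have hpΦ : p ∣ geomPhi p C := by
    have h1 := geomPhi_cast_of_dvd p C p hC1 hpC
    rw [ZMod.natCast_self] at h1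
    exact (ZMod.natCast_eq_zero_iff _ _).mp h1
  rw [hfact, pow_two]
  exact Nat.mul_dvd_mul hpΦ hpC

/-- For every `k ≥ 2` there is a prime `r` not dividing `a` with `ord_r(a) = p ^ k`. -/
theorem exists_prime_orderOf {p a : ℕ} (hp : p.Prime) (ha : 1 < a) (m : ℕ) :
    ∃ r : ℕ, r.Prime ∧ ¬ r ∣ a ∧ orderOf (a : ZMod r) = p ^ (m + 2) := by
  set A := a ^ p ^ (m + 1) with hA
  have hA2 : 2 ≤ A := by
    calc 2 ≤ a := ha
      _ = a ^ 1 := (pow_one a).symm
      _ ≤ a ^ p ^ (m + 1) := Nat.pow_le_pow_right (by omega) (Nat.one_le_pow _ _ hp.pos)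
  obtain ⟨r, hr, hrΦ, hrA⟩ := exists_prime_dvd_geomPhi hp hA2
    (fun h => sq_dvd_of_dvd hp (by omega) m h)
  have : Fact r.Prime := Fact.mk hr
  refine ⟨r, hr, ?_, ?_⟩
  · -- `r ∤ a`
    intro hra
    have h0 : ((a : ℕ) : ZMod r) = 0 := (ZMod.natCast_eq_zero_iff _ _).mpr hra
    have hA0 : ((A : ℕ) : ZMod r) = 0 := by
      rw [hA, Nat.cast_pow, h0, zero_pow (pow_ne_zero _ hp.ne_zero)]
    have hΦ0 : ((geomPhi p A : ℕ) : ZMod r) = 0 := (ZMod.natCast_eq_zero_iff _ _).mpr hrΦ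
    have hmul : ((geomPhi p A : ℕ) : ZMod r) * ((A : ZMod r) - 1) = (A : ZMod r) ^ p - 1 := by
      unfold geomPhi
      push_cast
      exact geom_sum_mul _ _
    rw [hΦ0, hA0, zero_mul, zero_pow hp.ne_zero, zero_sub] at hmul
    have : (1 : ZMod r) = 0 := by
      have := congrArg Neg.neg hmul
      simpa using this.symm
    exact one_ne_zero this
  · -- the order
    have : Fact p.Prime := Fact.mk hp
    apply orderOf_eq_prime_pow
    · -- `a ^ p ^ (m+1) ≠ 1`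
      intro h1
      apply hrA
      have : ((A : ℕ) : ZMod r) = ((1 : ℕ) : ZMod r) := by
        rw [hA, Nat.cast_pow, h1, Nat.cast_one]
      have := (ZMod.natCast_eq_natCast_iff A 1 r).mp this
      exact (Nat.modEq_iff_dvd' (by omega)).mp this.symm
    · -- `a ^ p ^ (m+2) = 1`
      have hΦ0 : ((geomPhi p A : ℕ) : ZMod r) = 0 := (ZMod.natCast_eq_zero_iff _ _).mpr hrΦ
      have hmul : ((geomPhi p A : ℕ) : ZMod r) * ((A : ZMod r) - 1) = (A : ZMod r) ^ p - 1 := by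
        unfold geomPhi
        push_cast
        exact geom_sum_mul _ _
      rw [hΦ0, zero_mul] at hmul
      have hAp : ((A : ℕ) : ZMod r) ^ p = 1 := (sub_eq_zero.mp hmul.symm)
      rw [hA, Nat.cast_pow, ← pow_mul, ← pow_succ] at hAp
      exact hAp

end ArtinLemma

open ArtinLemma in
/-- **ARTLEM** (Artin's lemma for a prime exponent). -/
theorem artin_lemma {p : ℕ} (hp : p.Prime) {a : ℕ} (ha : 1 < a) (B : Finset ℕ) :
    ∃ r₁ r₂ : ℕ, r₁.Prime ∧ r₂.Prime ∧ r₁ ≠ r₂ ∧ r₁ ∉ B ∧ r₂ ∉ B ∧ ¬ r₁ ∣ a ∧ ¬ r₂ ∣ a ∧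
      ∃ k₁ k₂ : ℕ, 1 ≤ k₁ ∧ k₁ ≤ k₂ ∧ orderOf (a : ZMod r₁) = p ^ k₁ ∧
        orderOf (a : ZMod r₂) = p ^ k₂ := by
  classical
  choose r hr hra hord using fun m : ℕ => exists_prime_orderOf hp ha m
  have hinj : Function.Injective r := by
    intro m n hmn
    have h1 := hord m
    have h2 := hord n
    rw [hmn] at h1
    rw [h1] at h2
    have := Nat.pow_right_injective hp.two_le h2
    omega
  -- among `r 0, …, r (|B| + 1)` at least two are outside `B`
  set S : Finset ℕ := (Finset.range (B.card + 2)).image r with hS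
  have hScard : S.card = B.card + 2 := by
    rw [hS, Finset.card_image_of_injective _ hinj, Finset.card_range]
  have hdiff : 2 ≤ (S \ B).card := by
    have := Finset.le_card_sdiff B S
    omega
  obtain ⟨x, hx, y, hy, hxy⟩ := Finset.one_lt_card.mp (by omega : 1 < (S \ B).card)
  rw [Finset.mem_sdiff] at hx hy
  obtain ⟨m, -, rfl⟩ := Finset.mem_image.mp hx.1
  obtain ⟨n, -, rfl⟩ := Finset.mem_image.mp hy.1
  have hmn : m ≠ n := fun h => hxy (h ▸ rfl)
  rcases Nat.lt_or_gt_of_ne hmn with h | h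
  · exact ⟨r m, r n, hr m, hr n, hxy, hx.2, hy.2, hra m, hra n, m + 2, n + 2, by omega, by omega,
      hord m, hord n⟩
  · exact ⟨r n, r m, hr n, hr m, fun h => hxy h.symm, hy.2, hx.2, hra n, hra m, n + 2, m + 2,
      by omega, by omega, hord n, hord m⟩

end Fermat.Agent.S14
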