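import Mathlib
import Fermat.Agent.S14.Defs
import Fermat.Agent.S14.FrobBasic
import Fermat.Agent.S14.FrobCyclo
import Fermat.Agent.S14.FrobTower

/-!
# S14, piece TAME: tame cyclotomic reciprocity

If `M/F` is an abelian extension of number fields of odd degree contained in both `F(ζ_{r₁})` and
`F(ζ_{r₂})` for distinct primes `r₁ ≠ r₂`, then every principal ideal `(β)` of `𝓞 F` prime to
`r₁ r₂` has trivial Artin symbol in `M/F`.

* `Tame.inertia_eq_bot_of_cyclotomic` (T1): `F(ζ_r)/F` is unramified at primes not containing `r`.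
* `Tame.isUnramifiedAbove_of_cyclotomic` (T1'): the same for subextensions.
* `Tame.artin_eq_of_absNorm_sq_eq` (T2): the Artin symbol in `M` of an ideal prime to `r` only
  depends on the square of its absolute norm modulo `r`.
* `Tame.norm_eq_of_sub_mem` (T3): congruent algebraic integers have congruent norms.
* `artin_span_singleton_eq_one_of_cyclotomic` (TAME).
-/

set_option autoImplicit false
set_option linter.style.haveILetI false
set_option linter.unusedSectionVars false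

open NumberField
open scoped Pointwise

namespace Fermat.Agent.S14

namespace Tame

/-- Distinct roots of unity of order dividing `r` remain distinct modulo a prime not containing
`r`. -/
theorem eq_one_of_sub_one_mem {S : Type*} [CommRing S] [IsDomain S] {Q : Ideal S} {r : ℕ}
    (hr : (r : S) ∉ Q) {η : S} (hη : η ^ r = 1) (h : η - 1 ∈ Q) : η = 1 := by
  by_contra hne
  apply hr
  have h2 := geom_sum_mul η r
  rw [hη, sub_self, mul_eq_zero] at h2
  have hsum : ∑ i ∈ Finset.range r, η ^ i = 0 := h2.resolve_right (sub_ne_zero.mpr hne)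
  have h3 : ∑ i ∈ Finset.range r, (η ^ i - 1) ∈ Q := by
    refine Q.sum_mem fun i _ => ?_
    have : η ^ i - 1 = (η - 1) * ∑ j ∈ Finset.range i, η ^ j := by
      rw [mul_comm, geom_sum_mul]
    rw [this]
    exact Q.mul_mem_right _ h
  rw [Finset.sum_sub_distrib, hsum, zero_sub, Finset.sum_const, Finset.card_range, nsmul_one,
    neg_mem_iff] at h3
  exact h3

variable (F E : Type*) [Field F] [NumberField F] [Field E] [NumberField E] [Algebra F E]

/-- **T1**: `F(ζ_r)/F` has trivial inertia at the primes not containing `r`. -/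
theorem inertia_eq_bot_of_cyclotomic {r : ℕ} [NeZero r] [IsCyclotomicExtension {r} F E]
    (Q : Ideal (𝓞 E)) [Q.IsPrime] (hr : (r : 𝓞 E) ∉ Q) : Ideal.inertia Gal(E/F) Q = ⊥ := by
  rw [eq_bot_iff]
  intro g hg
  rw [Subgroup.mem_bot]
  obtain ⟨ζ, hζ⟩ := IsCyclotomicExtension.exists_isPrimitiveRoot F E (Set.mem_singleton r)
    (NeZero.ne r)
  have hint : IsIntegral ℤ ζ := hζ.isIntegral (NeZero.pos r)
  set ζ' : 𝓞 E := ⟨ζ, hint⟩ with hζ'
  have hζ'pow : ζ' ^ r = 1 := by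
    apply RingOfIntegers.ext
    change algebraMap (𝓞 E) E (ζ' ^ r) = algebraMap (𝓞 E) E 1
    rw [map_pow, map_one]
    exact hζ.pow_eq_one
  have hunit : IsUnit ζ' := IsUnit.of_pow_eq_one hζ'pow (NeZero.ne r)
  obtain ⟨u, hu⟩ := hunit
  -- `η = g ζ / ζ`
  have hmem : g • ζ' - ζ' ∈ Q := hg ζ'
  have hη : (g • ζ' * ↑u⁻¹) ^ r = 1 := by
    rw [mul_pow, ← smul_pow', hζ'pow, smul_one, one_mul, ← Units.val_pow_eq_pow_val, inv_pow,
      ← Units.val_one, Units.val_inj, inv_eq_one]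
    ext
    rw [Units.val_pow_eq_pow_val, hu, hζ'pow, Units.val_one]
  have hmem2 : g • ζ' * ↑u⁻¹ - 1 ∈ Q := by
    have : g • ζ' * ↑u⁻¹ - 1 = (g • ζ' - ζ') * ↑u⁻¹ := by
      rw [sub_mul, ← hu, Units.mul_inv]
    rw [this]
    exact Q.mul_mem_right _ hmem
  have h1 := eq_one_of_sub_one_mem hr hη hmem2
  have h2 : g • ζ' = ζ' := by
    have := Units.mul_inv_eq_one.mp h1
    rwa [hu] at this
  have h3 : g ζ = ζ := congrArg (algebraMap (𝓞 E) E) h2
  -- `E = F(ζ)`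
  have hpb := (hζ.powerBasis F).algHom_ext (f := (g : E →ₐ[F] E)) (g := AlgHom.id F E)
    (by simpa using h3)
  ext x
  exact DFunLike.congr_fun hpb x

variable (M : Type*) [Field M] [NumberField M] [Algebra F M] [Algebra M E] [IsScalarTower F M E]

/-- **T1'**: a subextension `M` of `F(ζ_r)/F` has trivial inertia above the primes of `F` not
containing `r`. -/
theorem isUnramifiedAbove_of_cyclotomic [IsGalois F M] [IsGalois F E] {r : ℕ} [NeZero r]
    [IsCyclotomicExtension {r} F E] (𝔭 : Ideal (𝓞 F)) [𝔭.IsPrime] (hr : (r : 𝓞 F) ∉ 𝔭) :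
    FrobTower.IsUnramifiedAbove F M 𝔭 := by
  intro Q hQ hQ𝔭
  haveI := hQ
  haveI := hQ𝔭
  obtain ⟨⟨Q', hQ'prime, hQ'over⟩⟩ := (inferInstance : Nonempty (Q.primesOver (𝓞 E)))
  haveI := hQ'prime
  haveI := hQ'over
  haveI : Q'.LiesOver 𝔭 := Ideal.LiesOver.trans Q' Q 𝔭
  have hrQ' : (r : 𝓞 E) ∉ Q' := by
    intro h
    apply hr
    rw [Ideal.over_def Q' 𝔭, Ideal.under_def, Ideal.mem_comap, map_natCast]
    exact h
  have h1 := inertia_eq_bot_of_cyclotomic F E Q' hrQ'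
  haveI : IsGalois M E := IsGalois.tower_top_of_isGalois F M E
  have hE := Ideal.card_inertia_eq_ramificationIdxIn (G := Gal(E/F)) 𝔭 Q'
  rw [h1, Subgroup.card_bot] at hE
  have hM := Ideal.card_inertia_eq_ramificationIdxIn (G := Gal(M/F)) 𝔭 Q
  have hmul := Ideal.ramificationIdxIn_mul_ramificationIdxIn (p := 𝔭) Q Gal(M/F) (𝓞 E)
    Gal(E/F) Gal(E/M)
  rw [← hE] at hmul
  have h2 : 𝔭.ramificationIdxIn (𝓞 M) = 1 := Nat.eq_one_of_mul_eq_one_right hmul
  rw [h2] at hM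
  exact Subgroup.card_eq_one.mp hM

/-- In a finite group of odd order, squaring is injective. -/
theorem eq_of_sq_eq_of_odd {G : Type*} [Group G] [Finite G] (hodd : Odd (Nat.card G)) {x y : G}
    (h : x ^ 2 = y ^ 2) : x = y := by
  obtain ⟨k, hk⟩ := hodd
  have key : ∀ z : G, z = (z ^ 2) ^ (k + 1) := by
    intro z
    rw [← pow_mul, show 2 * (k + 1) = Nat.card G + 1 by omega, pow_succ, pow_card_eq_one',
      one_mul]
  rw [key x, key y, h]

theorem natCast_notMem_of_isCoprime {𝔄 𝔭 : Ideal (𝓞 F)} [h𝔭 : 𝔭.IsPrime] {r : ℕ}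
    (hc : IsCoprime 𝔄 (Ideal.span {(r : 𝓞 F)})) (hle : 𝔄 ≤ 𝔭) : (r : 𝓞 F) ∉ 𝔭 := by
  intro hmem
  have h2 : Ideal.span {(r : 𝓞 F)} ≤ 𝔭 := by
    rw [Ideal.span_singleton_le_iff_mem]
    exact hmem
  have htop : (⊤ : Ideal (𝓞 F)) ≤ 𝔭 := by
    rw [← Ideal.isCoprime_iff_sup_eq.mp hc]
    exact sup_le hle h2
  exact h𝔭.ne_top (top_le_iff.mp htop)

open scoped IsMulCommutative in
/-- **T2**: for ideals prime to `r`, the Artin symbol in a subextension `M` of odd degree of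
`F(ζ_r)/F` only depends on the square of the absolute norm modulo `r`. -/
theorem artin_eq_of_absNorm_sq_eq [IsAbelianGalois F M] [IsAbelianGalois F E] {r : ℕ} [NeZero r]
    [IsCyclotomicExtension {r} F E] (hodd : Odd (Module.finrank F M))
    {𝔄 𝔄' : Ideal (𝓞 F)} (h𝔄 : 𝔄 ≠ ⊥) (h𝔄' : 𝔄' ≠ ⊥)
    (hc : IsCoprime 𝔄 (Ideal.span {(r : 𝓞 F)})) (hc' : IsCoprime 𝔄' (Ideal.span {(r : 𝓞 F)}))
    (hN : ((Ideal.absNorm 𝔄 : ℕ) : ZMod r) ^ 2 = ((Ideal.absNorm 𝔄' : ℕ) : ZMod r) ^ 2) :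
    artin F M 𝔄 = artin F M 𝔄' := by
  obtain ⟨ζ, hζ⟩ := IsCyclotomicExtension.exists_isPrimitiveRoot F E (Set.mem_singleton r)
    (NeZero.ne r)
  have h1 := artin_apply_of_pow_eq_one F E 𝔄 h𝔄 hc hζ.pow_eq_one
  have h1' := artin_apply_of_pow_eq_one F E 𝔄' h𝔄' hc' hζ.pow_eq_one
  have hsq : ∀ (σ : Gal(E/F)) (N : ℕ), σ ζ = ζ ^ N → (σ ^ 2) ζ = ζ ^ (N ^ 2) := by
    intro σ N h
    rw [pow_two, AlgEquiv.mul_apply, h, map_pow, h, ← pow_mul, pow_two]
  have hpow : ζ ^ (Ideal.absNorm 𝔄 ^ 2) = ζ ^ (Ideal.absNorm 𝔄' ^ 2) := by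
    have hfin : IsOfFinOrder ζ :=
      isOfFinOrder_iff_pow_eq_one.mpr ⟨r, NeZero.pos r, hζ.pow_eq_one⟩
    rw [hfin.pow_eq_pow_iff_modEq, ← hζ.eq_orderOf, ← ZMod.natCast_eq_natCast_iff]
    push_cast
    exact hN
  have hσ : artin F E 𝔄 ^ 2 = artin F E 𝔄' ^ 2 := by
    have hpb := (hζ.powerBasis F).algHom_ext (f := ((artin F E 𝔄 ^ 2 : Gal(E/F)) : E →ₐ[F] E))
      (g := ((artin F E 𝔄' ^ 2 : Gal(E/F)) : E →ₐ[F] E)) (by
        simpa [hsq _ _ h1, hsq _ _ h1'] using hpow)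
    ext x
    exact DFunLike.congr_fun hpb x
  have hres := FrobTower.restrictNormalHom_artin F M E 𝔄 (fun 𝔭 h𝔭 hle => by
    haveI := h𝔭
    exact isUnramifiedAbove_of_cyclotomic F E M 𝔭 (natCast_notMem_of_isCoprime F hc hle))
  have hres' := FrobTower.restrictNormalHom_artin F M E 𝔄' (fun 𝔭 h𝔭 hle => by
    haveI := h𝔭
    exact isUnramifiedAbove_of_cyclotomic F E M 𝔭 (natCast_notMem_of_isCoprime F hc' hle))
  have hcard : Odd (Nat.card Gal(M/F)) := by
    rw [IsGalois.card_aut_eq_finrank]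
    exact hodd
  apply eq_of_sq_eq_of_odd hcard
  rw [← hres, ← hres', ← map_pow, ← map_pow, hσ]

/-- **T3**: congruent algebraic integers have congruent norms. -/
theorem norm_eq_of_sub_mem {r : ℕ} {x y : 𝓞 F} (h : x - y ∈ Ideal.span {(r : 𝓞 F)}) :
    ((Algebra.norm ℤ x : ℤ) : ZMod r) = ((Algebra.norm ℤ y : ℤ) : ZMod r) := by
  obtain ⟨z, hz⟩ := Ideal.mem_span_singleton'.mp h
  have hx : x = y + z * algebraMap ℤ (𝓞 F) (r : ℤ) := by
    rw [eq_intCast, Int.cast_natCast, hz]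
    ring
  let b := NumberField.RingOfIntegers.basis F
  rw [Algebra.norm_eq_matrix_det b, Algebra.norm_eq_matrix_det b]
  change (Int.castRingHom (ZMod r)) _ = (Int.castRingHom (ZMod r)) _
  rw [RingHom.map_det, RingHom.map_det, hx, map_add, map_mul, AlgHom.commutes, map_add, map_mul]
  have : (Int.castRingHom (ZMod r)).mapMatrix
      (algebraMap ℤ (Matrix (Module.Free.ChooseBasisIndex ℤ (𝓞 F))
        (Module.Free.ChooseBasisIndex ℤ (𝓞 F)) ℤ) (r : ℤ)) = 0 := by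
    ext i j
    simp
  rw [this, mul_zero, add_zero]


theorem natCast_absNorm_span_sq (r : ℕ) (x : 𝓞 F) :
    ((Ideal.absNorm (Ideal.span {x}) : ℕ) : ZMod r) ^ 2 = ((Algebra.norm ℤ x : ℤ) : ZMod r) ^ 2 := by
  rw [Ideal.absNorm_span_singleton, ← Int.cast_natCast, ← Int.cast_pow, Int.natAbs_sq,
    Int.cast_pow]

theorem natCast_not_isUnit {r : ℕ} (hr : r.Prime) : ¬ IsUnit (r : 𝓞 F) := by
  intro h
  have h1 : IsUnit (Algebra.norm ℤ (r : 𝓞 F)) := h.map (Algebra.norm ℤ)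
  have h2 : (r : 𝓞 F) = algebraMap ℤ (𝓞 F) (r : ℤ) := by simp
  rw [h2, Algebra.norm_algebraMap_of_basis (NumberField.RingOfIntegers.basis F), isUnit_pow_iff
    Fintype.card_ne_zero, Int.isUnit_iff] at h1
  have := hr.one_lt
  omega

end Tame

open scoped IsMulCommutative in
/-- **TAME**: a principal ideal prime to `r₁ r₂` has trivial Artin symbol in an extension of odd
degree contained in both `F(ζ_{r₁})` and `F(ζ_{r₂})`. -/
theorem artin_span_singleton_eq_one_of_cyclotomic (F M E₁ E₂ : Type*) [Field F] [NumberField F]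
    [Field M] [NumberField M] [Field E₁] [NumberField E₁] [Field E₂] [NumberField E₂]
    [Algebra F M] [Algebra F E₁] [Algebra M E₁] [IsScalarTower F M E₁] [Algebra F E₂]
    [Algebra M E₂] [IsScalarTower F M E₂] [IsAbelianGalois F M] [IsAbelianGalois F E₁]
    [IsAbelianGalois F E₂] {r₁ r₂ : ℕ} (hr₁ : r₁.Prime) (hr₂ : r₂.Prime) (hne : r₁ ≠ r₂)
    [IsCyclotomicExtension {r₁} F E₁] [IsCyclotomicExtension {r₂} F E₂]
    (hodd : Odd (Module.finrank F M)) (β : 𝓞 F) (hβ0 : β ≠ 0)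
    (hβ : IsCoprime (Ideal.span {β}) (Ideal.span {((r₁ * r₂ : ℕ) : 𝓞 F)})) :
    artin F M (Ideal.span {β}) = 1 := by
  haveI : NeZero r₁ := ⟨hr₁.ne_zero⟩
  haveI : NeZero r₂ := ⟨hr₂.ne_zero⟩
  -- `β` is prime to `r₁`
  have hβ₁ : IsCoprime (Ideal.span {β}) (Ideal.span {(r₁ : 𝓞 F)}) := by
    rw [Ideal.isCoprime_iff_sup_eq] at hβ ⊢
    rw [eq_top_iff, ← hβ]
    refine sup_le_sup_left ?_ _
    rw [Ideal.span_singleton_le_iff_mem, Nat.cast_mul]
    exact Ideal.mul_mem_right _ _ (Ideal.mem_span_singleton_self _)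
  -- Bezout
  obtain ⟨u, v, huv⟩ : IsCoprime (r₁ : ℤ) (r₂ : ℤ) :=
    Nat.isCoprime_iff_coprime.mpr ((Nat.coprime_primes hr₁ hr₂).mpr hne)
  have huv' : (u : 𝓞 F) * (r₁ : 𝓞 F) + (v : 𝓞 F) * (r₂ : 𝓞 F) = 1 := by
    have := congrArg (Int.cast : ℤ → 𝓞 F) huv
    push_cast at this
    exact this
  set β' : 𝓞 F := β * ((v : 𝓞 F) * (r₂ : 𝓞 F)) + (u : 𝓞 F) * (r₁ : 𝓞 F) with hβ'
  have h1 : β' - β ∈ Ideal.span {(r₁ : 𝓞 F)} := by
    have : β' - β = (u * (1 - β)) * (r₁ : 𝓞 F) := by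
      rw [hβ']
      linear_combination β * huv'
    rw [this]
    exact Ideal.mul_mem_left _ _ (Ideal.mem_span_singleton_self _)
  have h2 : β' - 1 ∈ Ideal.span {(r₂ : 𝓞 F)} := by
    have : β' - 1 = (v * (β - 1)) * (r₂ : 𝓞 F) := by
      rw [hβ']
      linear_combination huv'
    rw [this]
    exact Ideal.mul_mem_left _ _ (Ideal.mem_span_singleton_self _)
  -- `β'` is prime to `r₁` and to `r₂`
  have hβ'₁ : IsCoprime (Ideal.span {β'}) (Ideal.span {(r₁ : 𝓞 F)}) := by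
    rw [Ideal.isCoprime_iff_sup_eq] at hβ₁ ⊢
    rw [eq_top_iff, ← hβ₁]
    refine sup_le ?_ le_sup_right
    rw [Ideal.span_singleton_le_iff_mem]
    have : β = β' - (β' - β) := by ring
    rw [this]
    exact Ideal.sub_mem _ (Ideal.mem_sup_left (Ideal.mem_span_singleton_self _))
      (Ideal.mem_sup_right h1)
  have hβ'₂ : IsCoprime (Ideal.span {β'}) (Ideal.span {(r₂ : 𝓞 F)}) := by
    rw [Ideal.isCoprime_iff_sup_eq, Ideal.eq_top_iff_one]
    have : (1 : 𝓞 F) = β' - (β' - 1) := by ring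
    rw [this]
    exact Ideal.sub_mem _ (Ideal.mem_sup_left (Ideal.mem_span_singleton_self _))
      (Ideal.mem_sup_right h2)
  have hβ'0 : β' ≠ 0 := by
    intro h0
    rw [h0, Ideal.isCoprime_iff_sup_eq, Ideal.span_singleton_zero, bot_sup_eq,
      Ideal.span_singleton_eq_top] at hβ'₂
    exact Tame.natCast_not_isUnit F hr₂ hβ'₂
  have h1₂ : IsCoprime (Ideal.span {(1 : 𝓞 F)}) (Ideal.span {(r₂ : 𝓞 F)}) := by
    rw [Ideal.span_singleton_one, ← Ideal.one_eq_top]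
    exact isCoprime_one_left
  have hne0 : ∀ x : 𝓞 F, x ≠ 0 → Ideal.span {x} ≠ ⊥ := fun x hx => by
    rwa [Ne, Ideal.span_singleton_eq_bot]
  -- step 1: modulo `r₁`
  have e1 : artin F M (Ideal.span {β}) = artin F M (Ideal.span {β'}) := by
    refine Tame.artin_eq_of_absNorm_sq_eq F E₁ M hodd (hne0 β hβ0) (hne0 β' hβ'0) hβ₁ hβ'₁ ?_
    rw [Tame.natCast_absNorm_span_sq, Tame.natCast_absNorm_span_sq,
      Tame.norm_eq_of_sub_mem F h1]
  -- step 2: modulo `r₂`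
  have e2 : artin F M (Ideal.span {β'}) = artin F M (Ideal.span {(1 : 𝓞 F)}) := by
    refine Tame.artin_eq_of_absNorm_sq_eq F E₂ M hodd (hne0 β' hβ'0) (hne0 1 one_ne_zero) hβ'₂
      h1₂ ?_
    rw [Tame.natCast_absNorm_span_sq, Tame.natCast_absNorm_span_sq,
      Tame.norm_eq_of_sub_mem F h2]
  rw [e1, e2, Ideal.span_singleton_one]
  exact artin_top F M

end Fermat.Agent.S14
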