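import Fermat.Agent.S14.FrobSplit
import Fermat.Agent.S14.Zeta

/-!
# S14, piece GRAPH: from "Artin symbol trivial" to "class is a norm class"

Pure Dedekind domain algebra (`R` a Dedekind domain, `𝔪 ≠ ⊥` a modulus):

* `exists_mk0_eq_and_isCoprime` (MOVE): every ideal class contains an integral ideal coprime to `𝔪`.
* `eq_of_mk0_eq_of_isCoprime` (class invariance): a multiplicative map `ψ` on ideals, trivial on
  the principal ideals coprime to `𝔪`, takes the same value on two ideals coprime to `𝔪` in the same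
  class.
* `mk0_mem_of_map_eq_one` (abstract graph lemma): if moreover `ψ` kills the classes of a subgroup
  `𝒩`, is surjective onto `G`, and `[Cl : 𝒩] ≤ #G`, then `ψ 𝔄 = 1` implies `[𝔄] ∈ 𝒩`.

Number fields (`M/F` abelian of prime degree):

* `isCoprime_relNorm`, `relNorm₀`, `mk0_relNorm₀_eq_of_mk0_eq`, `normClasses_eq_range`.
* `mk0_mem_normClasses_of_artin_eq_one_of` (all inputs as hypotheses) and
  `mk0_mem_normClasses_of_artin_eq_one` (inputs FROB-A and ZETA discharged; SECOND is a hypothesis).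
-/

set_option autoImplicit false

open scoped nonZeroDivisors
open NumberField

namespace Fermat.Agent.S14

section Graph

variable {R : Type*} [CommRing R] [IsDedekindDomain R]

/-- **MOVE**: every ideal class contains an integral ideal coprime to a given nonzero ideal. -/
theorem exists_mk0_eq_and_isCoprime (𝔪 : Ideal R) (h𝔪 : 𝔪 ≠ ⊥) (c : ClassGroup R) :
    ∃ 𝔄 : (Ideal R)⁰, ClassGroup.mk0 𝔄 = c ∧ IsCoprime (𝔄 : Ideal R) 𝔪 := by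
  obtain ⟨J, hJ⟩ := ClassGroup.mk0_surjective c⁻¹
  have hJ0 : (J : Ideal R) ≠ ⊥ := nonZeroDivisors.coe_ne_zero J
  by_cases htop : 𝔪 = ⊤
  · obtain ⟨𝔄, h𝔄⟩ := ClassGroup.mk0_surjective c
    refine ⟨𝔄, h𝔄, ?_⟩
    rw [htop, Ideal.isCoprime_iff_sup_eq, sup_top_eq]
  have hle : 𝔪 * (J : Ideal R) ≤ J := Ideal.mul_le_right
  have hne : 𝔪 * (J : Ideal R) ≠ 0 := mul_ne_zero h𝔪 hJ0
  obtain ⟨a, ha⟩ := IsDedekindDomain.exists_sup_span_eq hle hne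
  have haJ : Ideal.span {a} ≤ (J : Ideal R) := ha ▸ le_sup_right
  obtain ⟨K, hK⟩ := Ideal.dvd_iff_le.mpr haJ
  -- `span {a} = J * K`
  have hsup : 𝔪 ⊔ K = ⊤ := by
    have h1 : (J : Ideal R) * (𝔪 ⊔ K) = (J : Ideal R) * ⊤ := by
      rw [Ideal.mul_sup, ← hK, mul_comm, ha, Ideal.mul_top]
    exact mul_left_cancel₀ hJ0 h1
  have hK0 : K ≠ ⊥ := by
    rintro rfl
    rw [sup_bot_eq] at hsup
    exact htop hsup
  have hKmem : K ∈ (Ideal R)⁰ := mem_nonZeroDivisors_of_ne_zero hK0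
  refine ⟨⟨K, hKmem⟩, ?_, ?_⟩
  · have h1 : ClassGroup.mk0 (J * ⟨K, hKmem⟩) = 1 := by
      rw [ClassGroup.mk0_eq_one_iff (SetLike.coe_mem _)]
      exact ⟨⟨a, by simp [hK]⟩⟩
    rw [map_mul, hJ] at h1
    exact (inv_mul_eq_one.mp h1).symm
  · rw [Ideal.isCoprime_iff_sup_eq, sup_comm]
    exact hsup

variable {G : Type*} [CommGroup G] (ψ : Ideal R → G)
  (hmul : ∀ 𝔞 𝔟 : Ideal R, 𝔞 ≠ ⊥ → 𝔟 ≠ ⊥ → ψ (𝔞 * 𝔟) = ψ 𝔞 * ψ 𝔟) (𝔪 : Ideal R)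
  (hprin : ∀ β : R, β ≠ 0 → IsCoprime (Ideal.span {β}) 𝔪 → ψ (Ideal.span {β}) = 1)

include hmul hprin in
theorem map_mul_eq_one_of_mk0_mul_eq_one (𝔄 ℭ : (Ideal R)⁰) (h𝔄 : IsCoprime (𝔄 : Ideal R) 𝔪)
    (hℭ : IsCoprime (ℭ : Ideal R) 𝔪) (h : ClassGroup.mk0 𝔄 * ClassGroup.mk0 ℭ = 1) :
    ψ 𝔄 * ψ ℭ = 1 := by
  rw [← map_mul, ClassGroup.mk0_eq_one_iff (SetLike.coe_mem _)] at h
  obtain ⟨α, hα⟩ := h.principal
  rw [Submonoid.coe_mul, Ideal.submodule_span_eq] at hα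
  have h𝔄0 : (𝔄 : Ideal R) ≠ ⊥ := nonZeroDivisors.coe_ne_zero 𝔄
  have hℭ0 : (ℭ : Ideal R) ≠ ⊥ := nonZeroDivisors.coe_ne_zero ℭ
  have hα0 : α ≠ 0 := by
    rintro rfl
    rw [Set.singleton_zero, Ideal.span_zero] at hα
    exact mul_ne_zero h𝔄0 hℭ0 hα
  rw [← hmul _ _ h𝔄0 hℭ0, hα]
  apply hprin α hα0
  rw [← hα]
  exact h𝔄.mul_left hℭ

include hmul hprin in
/-- **Class invariance**: a multiplicative map on ideals which is trivial on the principal ideals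
coprime to `𝔪` takes the same value on two ideals coprime to `𝔪` in the same class. -/
theorem eq_of_mk0_eq_of_isCoprime (h𝔪 : 𝔪 ≠ ⊥) (𝔄 𝔅 : (Ideal R)⁰)
    (h𝔄 : IsCoprime (𝔄 : Ideal R) 𝔪) (h𝔅 : IsCoprime (𝔅 : Ideal R) 𝔪)
    (h : ClassGroup.mk0 𝔄 = ClassGroup.mk0 𝔅) : ψ 𝔄 = ψ 𝔅 := by
  obtain ⟨ℭ, hℭ, hℭm⟩ := exists_mk0_eq_and_isCoprime 𝔪 h𝔪 (ClassGroup.mk0 𝔄)⁻¹
  have h1 := map_mul_eq_one_of_mk0_mul_eq_one ψ hmul 𝔪 hprin 𝔄 ℭ h𝔄 hℭm (by rw [hℭ, mul_inv_cancel])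
  have h2 := map_mul_eq_one_of_mk0_mul_eq_one ψ hmul 𝔪 hprin 𝔅 ℭ h𝔅 hℭm
    (by rw [hℭ, ← h, mul_inv_cancel])
  rw [mul_eq_one_iff_eq_inv] at h1 h2
  rw [h1, h2]

include hmul hprin in
/-- **Abstract graph lemma**: if `ψ` kills the classes of a subgroup `𝒩` of the class group, is
surjective, and `[Cl : 𝒩] ≤ #G`, then `ψ 𝔄 = 1` implies `[𝔄] ∈ 𝒩`. -/
theorem mk0_mem_of_map_eq_one [Finite G] [Finite (ClassGroup R)] (h𝔪 : 𝔪 ≠ ⊥)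
    (𝒩 : Subgroup (ClassGroup R))
    (hN : ∀ 𝔄 : (Ideal R)⁰, IsCoprime (𝔄 : Ideal R) 𝔪 → ClassGroup.mk0 𝔄 ∈ 𝒩 → ψ 𝔄 = 1)
    (hsurj : ∀ g : G, ∃ 𝔄 : (Ideal R)⁰, IsCoprime (𝔄 : Ideal R) 𝔪 ∧ ψ 𝔄 = g)
    (hcard : Nat.card (ClassGroup R ⧸ 𝒩) ≤ Nat.card G) (𝔄 : (Ideal R)⁰)
    (h𝔄 : IsCoprime (𝔄 : Ideal R) 𝔪) (h1 : ψ 𝔄 = 1) : ClassGroup.mk0 𝔄 ∈ 𝒩 := by
  choose rep hrep hrepm using exists_mk0_eq_and_isCoprime 𝔪 h𝔪
  have key : ∀ 𝔅 : (Ideal R)⁰, IsCoprime (𝔅 : Ideal R) 𝔪 → ψ (rep (ClassGroup.mk0 𝔅)) = ψ 𝔅 :=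
    fun 𝔅 h𝔅 => eq_of_mk0_eq_of_isCoprime ψ hmul 𝔪 hprin h𝔪 _ _ (hrepm _) h𝔅 (hrep _)
  let ψbar : ClassGroup R →* G := MonoidHom.mk' (fun c => ψ (rep c)) (by
    intro c c'
    have h1 : ψ (rep (c * c')) = ψ ((rep c * rep c' : (Ideal R)⁰) : Ideal R) := by
      apply eq_of_mk0_eq_of_isCoprime ψ hmul 𝔪 hprin h𝔪 _ _ (hrepm _)
      · rw [Submonoid.coe_mul]
        exact (hrepm c).mul_left (hrepm c')
      · rw [map_mul, hrep, hrep, hrep]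
    rw [h1, Submonoid.coe_mul]
    exact hmul _ _ (nonZeroDivisors.coe_ne_zero _) (nonZeroDivisors.coe_ne_zero _))
  have hψbar : ∀ c, ψbar c = ψ (rep c) := fun c => rfl
  have hker : 𝒩 ≤ ψbar.ker := by
    intro c hc
    rw [MonoidHom.mem_ker, hψbar]
    exact hN _ (hrepm c) (by rwa [hrep])
  let φ : ClassGroup R ⧸ 𝒩 →* G := QuotientGroup.lift 𝒩 ψbar hker
  have hφ : ∀ 𝔅 : (Ideal R)⁰, IsCoprime (𝔅 : Ideal R) 𝔪 →
      φ (QuotientGroup.mk (ClassGroup.mk0 𝔅)) = ψ 𝔅 := by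
    intro 𝔅 h𝔅
    rw [QuotientGroup.lift_mk, hψbar, key 𝔅 h𝔅]
  have hφsurj : Function.Surjective φ := by
    intro g
    obtain ⟨𝔅, h𝔅, rfl⟩ := hsurj g
    exact ⟨_, hφ 𝔅 h𝔅⟩
  have hφbij := hφsurj.bijective_of_nat_card_le hcard
  have : (QuotientGroup.mk (ClassGroup.mk0 𝔄) : ClassGroup R ⧸ 𝒩) = 1 := by
    apply hφbij.1
    rw [hφ 𝔄 h𝔄, h1, map_one]
  exact (QuotientGroup.eq_one_iff _).mp this

end Graph

section GraphNF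

variable (F M : Type*) [Field F] [NumberField F] [Field M] [NumberField M] [Algebra F M]

/-- The relative norm of an ideal coprime to (the extension of) `𝔪` is coprime to `𝔪`. -/
theorem isCoprime_relNorm {ℭ : Ideal (𝓞 M)} {𝔪 : Ideal (𝓞 F)} (hℭ0 : ℭ ≠ ⊥)
    (h : IsCoprime ℭ (𝔪.map (algebraMap (𝓞 F) (𝓞 M)))) :
    IsCoprime (Ideal.relNorm (𝓞 F) ℭ) 𝔪 := by
  rw [← Ideal.prod_normalizedFactors_eq_self hℭ0]
  refine Multiset.prod_induction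
    (fun I : Ideal (𝓞 M) => IsCoprime (Ideal.relNorm (𝓞 F) I) 𝔪) _ ?_ ?_ ?_
  · intro I J hI hJ
    rw [map_mul]
    exact hI.mul_left hJ
  · rw [map_one]
    exact isCoprime_one_left
  · intro Q hQ
    have hQ0 : Q ≠ ⊥ := UniqueFactorizationMonoid.ne_zero_of_mem_normalizedFactors hQ
    rw [Ideal.mem_normalizedFactors_iff hℭ0] at hQ
    have hQp : Q.IsPrime := hQ.1
    have hQm : Q.IsMaximal := Ring.DimensionLEOne.maximalOfPrime hQ0 inferInstance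
    have h0 : Q.under (𝓞 F) ≠ ⊥ := Ideal.under_ne_bot (𝓞 F) hQ0
    have hum : (Q.under (𝓞 F)).IsMaximal := Ring.DimensionLEOne.maximalOfPrime h0 inferInstance
    rw [Ideal.relNorm_eq_pow_of_isMaximal Q (Q.under (𝓞 F))]
    apply IsCoprime.pow_left
    rw [Ideal.isCoprime_iff_sup_eq]
    by_contra hne
    have hle : 𝔪 ≤ Q.under (𝓞 F) := by
      have := hum.eq_of_le hne le_sup_left
      rw [this]
      exact le_sup_right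
    have hmap : 𝔪.map (algebraMap (𝓞 F) (𝓞 M)) ≤ Q := Ideal.map_le_iff_le_comap.mpr hle
    have hQtop : Q = ⊤ := by
      rw [Ideal.isCoprime_iff_sup_eq] at h
      rw [eq_top_iff, ← h]
      exact sup_le hQ.2 hmap
    exact hQp.ne_top hQtop

/-- The relative norm of a nonzero ideal, as an element of `(Ideal (𝓞 F))⁰`. -/
noncomputable def relNorm₀ (ℭ : (Ideal (𝓞 M))⁰) : (Ideal (𝓞 F))⁰ :=
  ⟨Ideal.relNorm (𝓞 F) (ℭ : Ideal (𝓞 M)), mem_nonZeroDivisors_of_ne_zero (by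
    rw [Ne, Ideal.zero_eq_bot, Ideal.relNorm_eq_bot_iff]
    exact nonZeroDivisors.coe_ne_zero ℭ)⟩

@[simp]
theorem coe_relNorm₀ (ℭ : (Ideal (𝓞 M))⁰) :
    (relNorm₀ F M ℭ : Ideal (𝓞 F)) = Ideal.relNorm (𝓞 F) (ℭ : Ideal (𝓞 M)) := rfl

theorem relNorm₀_mul (ℭ ℭ' : (Ideal (𝓞 M))⁰) :
    relNorm₀ F M (ℭ * ℭ') = relNorm₀ F M ℭ * relNorm₀ F M ℭ' := by
  apply Subtype.ext
  simp [relNorm₀]

theorem relNorm₀_one : relNorm₀ F M 1 = 1 := by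
  apply Subtype.ext
  simp [relNorm₀]

/-- The relative norm is compatible with ideal classes. -/
theorem mk0_relNorm₀_eq_of_mk0_eq {ℭ ℭ' : (Ideal (𝓞 M))⁰}
    (h : ClassGroup.mk0 ℭ = ClassGroup.mk0 ℭ') :
    ClassGroup.mk0 (relNorm₀ F M ℭ) = ClassGroup.mk0 (relNorm₀ F M ℭ') := by
  rw [ClassGroup.mk0_eq_mk0_iff] at h ⊢
  obtain ⟨x, y, hx, hy, hxy⟩ := h
  refine ⟨Algebra.intNorm (𝓞 F) (𝓞 M) x, Algebra.intNorm (𝓞 F) (𝓞 M) y,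
    Algebra.intNorm_ne_zero.mpr hx, Algebra.intNorm_ne_zero.mpr hy, ?_⟩
  rw [coe_relNorm₀, coe_relNorm₀, ← Ideal.relNorm_singleton, ← Ideal.relNorm_singleton,
    ← map_mul, ← map_mul, hxy]

theorem normClasses_eq_range :
    (normClasses F M : Set (ClassGroup (𝓞 F))) =
      Set.range fun ℭ : (Ideal (𝓞 M))⁰ => ClassGroup.mk0 (relNorm₀ F M ℭ) := by
  have hgen : {c | ∃ (𝔄 : Ideal (𝓞 M)) (h : 𝔄 ≠ ⊥),
      c = ClassGroup.mk0 ⟨Ideal.relNorm (𝓞 F) 𝔄,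
        mem_nonZeroDivisors_of_ne_zero (by rwa [Ne, Ideal.zero_eq_bot, Ideal.relNorm_eq_bot_iff])⟩} =
      Set.range fun ℭ : (Ideal (𝓞 M))⁰ => ClassGroup.mk0 (relNorm₀ F M ℭ) := by
    ext c
    constructor
    · rintro ⟨𝔄, h𝔄, rfl⟩
      exact ⟨⟨𝔄, mem_nonZeroDivisors_of_ne_zero h𝔄⟩, rfl⟩
    · rintro ⟨ℭ, rfl⟩
      exact ⟨ℭ, nonZeroDivisors.coe_ne_zero ℭ, rfl⟩
  unfold normClasses
  rw [hgen]
  -- the range is a submonoid of a finite group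
  let S : Submonoid (ClassGroup (𝓞 F)) :=
    { carrier := Set.range fun ℭ : (Ideal (𝓞 M))⁰ => ClassGroup.mk0 (relNorm₀ F M ℭ)
      mul_mem' := by
        rintro _ _ ⟨ℭ, rfl⟩ ⟨ℭ', rfl⟩
        exact ⟨ℭ * ℭ', by simp only [relNorm₀_mul, map_mul]⟩
      one_mem' := ⟨1, by simp only [relNorm₀_one, map_one]⟩ }
  have h1 : (Subgroup.closure (S : Set (ClassGroup (𝓞 F)))).toSubmonoid = S := by
    rw [Subgroup.closure_toSubmonoid_of_finite, Submonoid.closure_eq]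
  exact congrArg (fun T : Submonoid (ClassGroup (𝓞 F)) => (T : Set (ClassGroup (𝓞 F)))) h1

open scoped IsMulCommutative in
/-- **GRAPH** (number field version, all analytic/Frobenius inputs as hypotheses). -/
theorem mk0_mem_normClasses_of_artin_eq_one_of [IsAbelianGalois F M] {p : ℕ} (hp : p.Prime)
    (hdeg : Module.finrank F M = p)
    (hnorm : ∀ ℭ : Ideal (𝓞 M), ℭ ≠ ⊥ → artin F M (Ideal.relNorm (𝓞 F) ℭ) = 1)
    (hsplit : ∀ 𝔮 : Ideal (𝓞 F), 𝔮.IsPrime → 𝔮 ≠ ⊥ → frob F M 𝔮 = 1 →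
      (Ideal.primesOver 𝔮 (𝓞 M)).ncard = Module.finrank F M)
    (hzeta : ∀ S : Set (Ideal (𝓞 F)), S.Finite → ∃ 𝔭 : Ideal (𝓞 F), 𝔭.IsPrime ∧ 𝔭 ≠ ⊥ ∧ 𝔭 ∉ S ∧
      (Ideal.primesOver 𝔭 (𝓞 M)).ncard < Module.finrank F M)
    (hsecond : Nat.card (ClassGroup (𝓞 F) ⧸ normClasses F M) ≤ Module.finrank F M)
    (𝔪 : Ideal (𝓞 F)) (h𝔪 : 𝔪 ≠ ⊥)
    (hprin : ∀ β : 𝓞 F, β ≠ 0 → IsCoprime (Ideal.span {β}) 𝔪 → artin F M (Ideal.span {β}) = 1)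
    (𝔄 : (Ideal (𝓞 F))⁰) (h𝔄 : IsCoprime (𝔄 : Ideal (𝓞 F)) 𝔪) (h1 : artin F M 𝔄 = 1) :
    ClassGroup.mk0 𝔄 ∈ normClasses F M := by
  classical
  have : Fact p.Prime := ⟨hp⟩
  have hcardG : Nat.card Gal(M/F) = p := by rw [IsGalois.card_aut_eq_finrank, hdeg]
  have hmul : ∀ 𝔞 𝔟 : Ideal (𝓞 F), 𝔞 ≠ ⊥ → 𝔟 ≠ ⊥ →
      artin F M (𝔞 * 𝔟) = artin F M 𝔞 * artin F M 𝔟 := fun 𝔞 𝔟 ha hb => artin_mul F M ha hb
  have hmap0 : 𝔪.map (algebraMap (𝓞 F) (𝓞 M)) ≠ ⊥ := by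
    rw [Ne, Ideal.map_eq_bot_iff_of_injective (FaithfulSMul.algebraMap_injective (𝓞 F) (𝓞 M))]
    exact h𝔪
  refine mk0_mem_of_map_eq_one (artin F M) hmul 𝔪 hprin h𝔪 (normClasses F M) ?_ ?_ ?_ 𝔄 h𝔄 h1
  · -- `hN`
    intro 𝔅 h𝔅 hmem
    have hmem' : ClassGroup.mk0 𝔅 ∈ (normClasses F M : Set (ClassGroup (𝓞 F))) := hmem
    rw [normClasses_eq_range] at hmem'
    obtain ⟨ℭ, hℭ⟩ := hmem'
    have hℭ : ClassGroup.mk0 (relNorm₀ F M ℭ) = ClassGroup.mk0 𝔅 := hℭ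
    obtain ⟨ℭ', hℭ', hℭ'm⟩ := exists_mk0_eq_and_isCoprime _ hmap0 (ClassGroup.mk0 ℭ)
    have hclass : ClassGroup.mk0 (relNorm₀ F M ℭ') = ClassGroup.mk0 𝔅 := by
      rw [mk0_relNorm₀_eq_of_mk0_eq F M hℭ', hℭ]
    have hcop : IsCoprime ((relNorm₀ F M ℭ' : (Ideal (𝓞 F))⁰) : Ideal (𝓞 F)) 𝔪 :=
      isCoprime_relNorm F M (nonZeroDivisors.coe_ne_zero ℭ') hℭ'm
    rw [← eq_of_mk0_eq_of_isCoprime (artin F M) hmul 𝔪 hprin h𝔪 _ _ hcop h𝔅 hclass]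
    exact hnorm _ (nonZeroDivisors.coe_ne_zero ℭ')
  · -- `hsurj`
    intro g
    have hfin : {𝔭 : Ideal (𝓞 F) | 𝔭 ∈ UniqueFactorizationMonoid.normalizedFactors 𝔪}.Finite :=
      (UniqueFactorizationMonoid.normalizedFactors 𝔪).toFinset.finite_toSet.subset
        (fun 𝔭 h𝔭 => Finset.mem_coe.mpr (Multiset.mem_toFinset.mpr h𝔭))
    obtain ⟨𝔮, h𝔮p, h𝔮0, h𝔮S, h𝔮lt⟩ := hzeta _ hfin
    have hfrob : frob F M 𝔮 ≠ 1 := fun h => (hsplit 𝔮 h𝔮p h𝔮0 h).not_lt h𝔮lt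
    obtain ⟨k, hk⟩ := mem_powers_of_prime_card hcardG hfrob (g' := g)
    have h𝔮m : 𝔮.IsMaximal := Ring.DimensionLEOne.maximalOfPrime h𝔮0 h𝔮p
    have hcop : IsCoprime 𝔮 𝔪 := by
      rw [Ideal.isCoprime_iff_sup_eq]
      by_contra hne
      have hle : 𝔪 ≤ 𝔮 := by
        have := h𝔮m.eq_of_le hne le_sup_left
        rw [this]
        exact le_sup_right
      exact h𝔮S ((Ideal.mem_normalizedFactors_iff h𝔪).mpr ⟨h𝔮p, hle⟩)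
    refine ⟨⟨𝔮 ^ k, mem_nonZeroDivisors_of_ne_zero (pow_ne_zero k h𝔮0)⟩, hcop.pow_left, ?_⟩
    simp only
    rw [artin_pow, artin_of_isPrime F M 𝔮 h𝔮0]
    exact hk
  · rw [hcardG, ← hdeg]
    exact hsecond

open scoped IsMulCommutative in
/-- **GRAPH**: in an everywhere unramified abelian extension `M/F` of prime degree satisfying the
second inequality, if the Artin symbol is trivial on the principal ideals coprime to `𝔪`, then an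
ideal coprime to `𝔪` with trivial Artin symbol lies in a norm class. -/
theorem mk0_mem_normClasses_of_artin_eq_one [IsAbelianGalois F M] {p : ℕ} (hp : p.Prime)
    (hdeg : Module.finrank F M = p) (hunr : IsUnramifiedEverywhere F M)
    (hsecond : Nat.card (ClassGroup (𝓞 F) ⧸ normClasses F M) ≤ Module.finrank F M)
    (𝔪 : Ideal (𝓞 F)) (h𝔪 : 𝔪 ≠ ⊥)
    (hprin : ∀ β : 𝓞 F, β ≠ 0 → IsCoprime (Ideal.span {β}) 𝔪 → artin F M (Ideal.span {β}) = 1)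
    (𝔄 : (Ideal (𝓞 F))⁰) (h𝔄 : IsCoprime (𝔄 : Ideal (𝓞 F)) 𝔪) (h1 : artin F M 𝔄 = 1) :
    ClassGroup.mk0 𝔄 ∈ normClasses F M := by
  refine mk0_mem_normClasses_of_artin_eq_one_of F M hp hdeg (fun ℭ _ => artin_relNorm F M hunr ℭ)
    ?_ (fun S hS => exists_prime_not_split F M (hdeg ▸ hp.one_lt) S hS) hsecond 𝔪 h𝔪 hprin 𝔄 h𝔄 h1
  intro 𝔮 h𝔮 h𝔮0 hfrob
  have := h𝔮
  exact (frob_eq_one_iff_of_unramified F M hunr 𝔮 h𝔮0).mp hfrob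

end GraphNF

end Fermat.Agent.S14
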