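import Mathlib
import Fermat.Agent.S14.SecondGlue
import Fermat.Agent.S14.EulerProduct
import Fermat.Agent.S14.CharProd

/-!
# S14 / SECOND : the universal norm index inequality

`Nat.card (ClassGroup (𝓞 F) ⧸ normClasses F M) ≤ [M : F]` for an extension of number fields.
(The Galois hypothesis of the Skeleton statement is not needed.)
-/

set_option autoImplicit false

open NumberField

namespace Fermat.Agent.S14

variable (F M : Type*) [Field F] [NumberField F] [Field M] [NumberField M] [Algebra F M]

/-- **SECOND** (universal norm index inequality): the classes of norms of ideals of `M` have index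
at most `[M : F]` in the class group of `F`. -/
theorem card_quotient_normClasses_le [IsGalois F M] :
    Nat.card (ClassGroup (𝓞 F) ⧸ normClasses F M) ≤ Module.finrank F M :=
  Second.card_quotient_normClasses_le_of_eulerProduct F M
    (fun f hf => ideal_eulerProduct_hasProd f hf)
    (fun f hf => ideal_eulerProduct_hasProd f hf)
    (fun a _ h0 h1 => prod_norm_one_sub_char_mul_le_one a h0 h1)

end Fermat.Agent.S14
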