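import Mathlib
import Fermat.Agent.S14.Defs
import Fermat.Agent.S14.DefsConj

/-!
# S14, piece CROSS (X-GAL): Galois theory of `Ω = L(ζ_m)` over `K = ℚ(ζ_p)`

Setting: `L/ℚ` Galois, `K = ℚ(ζ_p) ⊆ L`, `Ω = L(ζ_m)`.

* `isGalois_rat_cyclo`, `isGalois_cyclo` : `Ω/ℚ` and `Ω/K` are Galois;
* `algEquiv_ext_cyclo` : an element of `Gal(Ω/K)` is determined by its restriction to `L` and its
  value at `ζ_m`;
* `isAbelianGalois_cyclo` : `Ω/K` is abelian if `L/K` is;
* `exists_gal_cyclo` : if `Gal(L/ℚ)` acts on `Gal(L/K)` through the inverse of the cyclotomic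
  character (`ConjActsByInvCyclo`), `p ≠ 2` and `p ∤ m`, then `Gal(Ω/K) → Gal(L/K) × (ℤ/m)ˣ` is
  surjective.
-/

set_option autoImplicit false
set_option linter.style.haveILetI false
set_option linter.unusedSectionVars false

open NumberField

namespace Fermat.Agent.S14

section CrossGal

variable (p : ℕ) [Fact p.Prime] (L : Type*) [Field L] [NumberField L] [IsGalois ℚ L]
  (K : IntermediateField ℚ L) [IsCyclotomicExtension {p} ℚ K] (m : ℕ) [NeZero m]
  (Ω : Type*) [Field Ω] [NumberField Ω] [Algebra L Ω] [IsCyclotomicExtension {m} L Ω]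

include L m in
/-- **GAL1**: `Ω = L(ζ_m)` is Galois over `ℚ`. -/
theorem isGalois_rat_cyclo : IsGalois ℚ Ω := by
  -- `L` is the splitting field of a nonzero polynomial over `ℚ`
  obtain ⟨f, hf0, hf⟩ : ∃ f : Polynomial ℚ, f ≠ 0 ∧ Polynomial.IsSplittingField ℚ L f := by
    obtain ⟨f, hf⟩ := Normal.exists_isSplittingField ℚ L
    by_cases hf0 : f = 0
    · refine ⟨1, one_ne_zero, ⟨by rw [Polynomial.map_one]; exact Polynomial.Splits.one, ?_⟩⟩
      have h1 := hf.adjoin_rootSet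
      rw [hf0, Polynomial.rootSet_zero] at h1
      rw [Polynomial.rootSet_one]
      exact h1
    · exact ⟨f, hf0, hf⟩
  have hg0 : (Polynomial.X ^ m - 1 : Polynomial ℚ) ≠ 0 :=
    Polynomial.X_pow_sub_C_ne_zero (NeZero.pos m) 1
  haveI : Polynomial.IsSplittingField L Ω
      (Polynomial.map (algebraMap ℚ L) (Polynomial.X ^ m - 1)) := by
    have := IsCyclotomicExtension.isSplittingField_X_pow_sub_one m L Ω
    simpa using this
  haveI := Polynomial.IsSplittingField.mul (F := ℚ) (K := L) Ω f (Polynomial.X ^ m - 1) hf0 hg0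
  haveI : Normal ℚ Ω := Normal.of_isSplittingField (f * (Polynomial.X ^ m - 1))
  exact ⟨⟩

include L m in
/-- **GAL1'**: `Ω = L(ζ_m)` is Galois over `K`. -/
theorem isGalois_cyclo : IsGalois K Ω := by
  haveI := isGalois_rat_cyclo L m Ω
  exact IsGalois.tower_top_of_isGalois ℚ K Ω

/-- Two ring homomorphisms out of `Ω = L(ζ_m)` agreeing on `L` and at `ζ_m` are equal. -/
theorem ringHom_ext_cyclo {R : Type*} [Semiring R] {ζ : Ω} (hζ : IsPrimitiveRoot ζ m)
    (g h : Ω →+* R) (hL : ∀ x : L, g (algebraMap L Ω x) = h (algebraMap L Ω x))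
    (hz : g ζ = h ζ) : g = h := by
  have htop : Algebra.adjoin L {ζ} = ⊤ :=
    IsCyclotomicExtension.adjoin_primitive_root_eq_top (n := m) (A := L) (B := Ω) hζ
  have key : ∀ x ∈ Algebra.adjoin L {ζ}, g x = h x := by
    intro x hx
    induction hx using Algebra.adjoin_induction with
    | mem y hy =>
      rw [Set.mem_singleton_iff] at hy
      rw [hy]
      exact hz
    | algebraMap r => exact hL r
    | add x y _ _ hx hy => rw [map_add, map_add, hx, hy]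
    | mul x y _ _ hx hy => rw [map_mul, map_mul, hx, hy]
  ext x
  exact key x (by rw [htop]; exact Algebra.mem_top)

/-- **GAL3**: an element of `Gal(Ω/K)` is determined by its restriction to `L` and its value at
`ζ_m`. -/
theorem algEquiv_ext_cyclo {ζ : Ω} (hζ : IsPrimitiveRoot ζ m) (g h : Gal(Ω/K))
    (hL : ∀ x : L, g (algebraMap L Ω x) = h (algebraMap L Ω x)) (hz : g ζ = h ζ) : g = h := by
  have := ringHom_ext_cyclo L m Ω hζ (g : Ω →+* Ω) (h : Ω →+* Ω) hL hz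
  ext x
  exact DFunLike.congr_fun this x

/-- Variant of **GAL3** for `Gal(Ω/ℚ)`. -/
theorem algEquiv_ext_cyclo_rat {ζ : Ω} (hζ : IsPrimitiveRoot ζ m) (g h : Gal(Ω/ℚ))
    (hL : ∀ x : L, g (algebraMap L Ω x) = h (algebraMap L Ω x)) (hz : g ζ = h ζ) : g = h := by
  have := ringHom_ext_cyclo L m Ω hζ (g : Ω →+* Ω) (h : Ω →+* Ω) hL hz
  ext x
  exact DFunLike.congr_fun this x

end CrossGal

section Roots

variable {Ω : Type*} [Field Ω] [Algebra ℚ Ω]

/-- An automorphism raises a root of unity to a power. -/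
theorem exists_apply_eq_pow_of_pow_eq_one (φ : Gal(Ω/ℚ)) {η : Ω} {k : ℕ} (hk : k ≠ 0)
    (hη : η ^ k = 1) : ∃ a : ℕ, φ η = η ^ a := by
  obtain ⟨d, hd, hprim⟩ := IsPrimitiveRoot.exists_pos hη hk
  haveI : NeZero d := ⟨hd.ne'⟩
  obtain ⟨i, -, e⟩ := hprim.eq_pow_of_pow_eq_one (ξ := φ η)
    (by rw [← map_pow, hprim.pow_eq_one, map_one])
  exact ⟨i, e.symm⟩

/-- Any two automorphisms commute on roots of unity. -/
theorem apply_apply_comm_of_pow_eq_one (φ ψ : Gal(Ω/ℚ)) {η : Ω} {k : ℕ} (hk : k ≠ 0)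
    (hη : η ^ k = 1) : φ (ψ η) = ψ (φ η) := by
  obtain ⟨a, ha⟩ := exists_apply_eq_pow_of_pow_eq_one φ hk hη
  obtain ⟨b, hb⟩ := exists_apply_eq_pow_of_pow_eq_one ψ hk hη
  rw [hb, ha, map_pow, map_pow, ha, hb, ← pow_mul, ← pow_mul, mul_comm]

/-- A commutator fixes every root of unity. -/
theorem commutator_apply_of_pow_eq_one (φ ψ : Gal(Ω/ℚ)) {η : Ω} {k : ℕ} (hk : k ≠ 0)
    (hη : η ^ k = 1) : (φ⁻¹ * ψ⁻¹ * φ * ψ) η = η := by
  have h1 : (φ * ψ) η = (ψ * φ) η := apply_apply_comm_of_pow_eq_one φ ψ hk hη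
  have h2 : φ⁻¹ * ψ⁻¹ * φ * ψ = (ψ * φ)⁻¹ * (φ * ψ) := by group
  rw [h2, AlgEquiv.mul_apply, h1]
  exact AlgEquiv.symm_apply_apply (ψ * φ) η

end Roots

section Lifts

variable (p : ℕ) [Fact p.Prime] (L : Type*) [Field L] [NumberField L] [IsGalois ℚ L]
  (K : IntermediateField ℚ L) [IsCyclotomicExtension {p} ℚ K]

include K in
/-- Every unit of `ZMod p` is the cyclotomic character of some element of `Gal(L/ℚ)`. -/
theorem exists_gal_rat_pow (u : (ZMod p)ˣ) :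
    ∃ σ : Gal(L/ℚ), ∀ ζ : L, ζ ^ p = 1 → σ ζ = ζ ^ (u : ZMod p).val := by
  have hp : p.Prime := Fact.out
  haveI : NeZero p := ⟨hp.ne_zero⟩
  haveI : IsGalois ℚ K := IsCyclotomicExtension.isGalois {p} ℚ K
  obtain ⟨σ, hσ⟩ := AlgEquiv.restrictNormalHom_surjective (F := ℚ) (K₁ := K) L
    ((IsCyclotomicExtension.Rat.galEquivZMod p K).symm u)
  have hσ' : σ.restrictNormal K = (IsCyclotomicExtension.Rat.galEquivZMod p K).symm u := hσ
  refine ⟨σ, fun ζ hζ => ?_⟩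
  have hη := IsCyclotomicExtension.zeta_spec p ℚ K
  have hηL : IsPrimitiveRoot (algebraMap K L (IsCyclotomicExtension.zeta p ℚ K)) p :=
    hη.map_of_injective (algebraMap K L).injective
  obtain ⟨i, -, rfl⟩ := hηL.eq_pow_of_pow_eq_one hζ
  have h5 : σ (algebraMap K L (IsCyclotomicExtension.zeta p ℚ K)) =
      algebraMap K L (IsCyclotomicExtension.zeta p ℚ K) ^ (u : ZMod p).val := by
    rw [← AlgEquiv.restrictNormal_commutes, hσ',
      IsCyclotomicExtension.Rat.galEquivZMod_apply_of_pow_eq p K _ hη.pow_eq_one,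
      MulEquiv.apply_symm_apply, map_pow]
  rw [map_pow, h5, ← pow_mul, ← pow_mul, mul_comm]

end Lifts

section CrossGal2

variable (p : ℕ) [Fact p.Prime] (L : Type*) [Field L] [NumberField L] [IsGalois ℚ L]
  (K : IntermediateField ℚ L) [IsCyclotomicExtension {p} ℚ K] (m : ℕ) [NeZero m]
  (Ω : Type*) [Field Ω] [NumberField Ω] [Algebra L Ω] [IsCyclotomicExtension {m} L Ω]

/-- restriction to `L` of an element of `Gal(Ω/K)`, evaluated -/
theorem algebraMap_restrictNormalHom_apply [IsGalois K L] (g : Gal(Ω/K)) (x : L) :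
    algebraMap L Ω (AlgEquiv.restrictNormalHom L g x) = g (algebraMap L Ω x) :=
  AlgEquiv.restrictNormal_commutes g L x

/-- restriction to `L` of an element of `Gal(Ω/ℚ)`, evaluated -/
theorem algebraMap_restrictNormalHom_apply_rat (g : Gal(Ω/ℚ)) (x : L) :
    algebraMap L Ω (AlgEquiv.restrictNormalHom L g x) = g (algebraMap L Ω x) :=
  AlgEquiv.restrictNormal_commutes g L x

include m in
open scoped IsMulCommutative in
/-- **GAL2**: `Ω = L(ζ_m)` is abelian over `K` if `L` is. -/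
theorem isAbelianGalois_cyclo [IsAbelianGalois K L] : IsAbelianGalois K Ω := by
  haveI := isGalois_cyclo L K m Ω
  have hm : m ≠ 0 := NeZero.ne m
  have hζ := IsCyclotomicExtension.zeta_spec m L Ω
  refine { is_comm := ⟨fun g h => ?_⟩ }
  refine algEquiv_ext_cyclo L K m Ω hζ (g * h) (h * g) (fun x => ?_) ?_
  · rw [AlgEquiv.mul_apply, AlgEquiv.mul_apply, ← algebraMap_restrictNormalHom_apply,
      ← algebraMap_restrictNormalHom_apply, ← algebraMap_restrictNormalHom_apply,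
      ← algebraMap_restrictNormalHom_apply, ← AlgEquiv.mul_apply, ← AlgEquiv.mul_apply, mul_comm]
  · rw [AlgEquiv.mul_apply, AlgEquiv.mul_apply]
    exact apply_apply_comm_of_pow_eq_one (g.restrictScalars ℚ) (h.restrictScalars ℚ) hm
      hζ.pow_eq_one

include m in
/-- Commutator trick: every element of `Gal(L/K)` lifts to an element of `Gal(Ω/ℚ)` fixing all
roots of unity. -/
theorem exists_gal_cyclo_commutator (hp2 : p ≠ 2) (hact : ConjActsByInvCyclo p L K)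
    (t : Gal(L/K)) :
    ∃ c : Gal(Ω/ℚ), AlgEquiv.restrictNormalHom L c = t.restrictScalars ℚ ∧
      ∀ (η : Ω) (k : ℕ), k ≠ 0 → η ^ k = 1 → c η = η := by
  have hp : p.Prime := Fact.out
  haveI := isGalois_rat_cyclo L m Ω
  have hp3 : 2 < p := lt_of_le_of_ne hp.two_le (Ne.symm hp2)
  have hcop : Nat.Coprime 2 p := by
    rw [Nat.coprime_comm, Nat.Prime.coprime_iff_not_dvd hp]
    exact Nat.not_dvd_of_pos_of_lt (by norm_num) hp3
  obtain ⟨σ, hσ⟩ := exists_gal_rat_pow p L K (ZMod.unitOfCoprime 2 hcop)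
  have hval : ((ZMod.unitOfCoprime 2 hcop : (ZMod p)ˣ) : ZMod p).val = 2 := by
    rw [ZMod.coe_unitOfCoprime, ZMod.val_natCast_of_lt hp3]
  rw [hval] at hσ
  have h1 := hact σ 2 hσ t
  set t' : Gal(L/ℚ) := t.restrictScalars ℚ with ht'
  have h3 : t'⁻¹ * σ⁻¹ * t' * σ = t' := by
    have : t'⁻¹ * σ⁻¹ * t' * σ = t'⁻¹ * (σ⁻¹ * t' * σ) := by group
    rw [this, h1]
    group
  obtain ⟨tΩ, htΩ⟩ := AlgEquiv.restrictNormalHom_surjective (F := ℚ) (K₁ := L) Ω t'
  obtain ⟨σΩ, hσΩ⟩ := AlgEquiv.restrictNormalHom_surjective (F := ℚ) (K₁ := L) Ω σ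
  refine ⟨tΩ⁻¹ * σΩ⁻¹ * tΩ * σΩ, ?_, fun η k hk hη =>
    commutator_apply_of_pow_eq_one tΩ σΩ hk hη⟩
  rw [map_mul, map_mul, map_mul, map_inv, map_inv, htΩ, hσΩ, h3]

/-- CRT for units: a unit modulo `p * m` which is `1` modulo `p` and a given unit modulo `m`. -/
theorem exists_unit_crt {p m : ℕ} (hp : p.Prime) [NeZero m] (hm : Nat.Coprime p m)
    (u : (ZMod m)ˣ) :
    ∃ a : (ZMod (p * m))ˣ, (a : ZMod (p * m)).val % p = 1 ∧
      (a : ZMod (p * m)).val % m = (u : ZMod m).val := by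
  obtain ⟨A, hA1, hA2⟩ := Nat.chineseRemainder hm 1 (u : ZMod m).val
  have hc1 : Nat.Coprime A p := by
    have := hA1.gcd_eq
    rw [Nat.Coprime, this]
    exact Nat.gcd_one_left p
  have hc2 : Nat.Coprime A m := by
    have := hA2.gcd_eq
    rw [Nat.Coprime, this]
    exact ZMod.val_coe_unit_coprime u
  refine ⟨ZMod.unitOfCoprime A (Nat.Coprime.mul_right hc1 hc2), ?_, ?_⟩
  · rw [ZMod.coe_unitOfCoprime, ZMod.val_natCast, Nat.mod_mul_right_mod]
    have : A % p = 1 % p := hA1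
    rw [this, Nat.mod_eq_of_lt hp.one_lt]
  · rw [ZMod.coe_unitOfCoprime, ZMod.val_natCast, Nat.mod_mul_left_mod]
    have : A % m = (u : ZMod m).val % m := hA2
    rw [this, Nat.mod_eq_of_lt (ZMod.val_lt _)]

open IntermediateField in
include L in
/-- Cyclotomic lift: an element of `Gal(Ω/ℚ)` fixing `K = ℚ(ζ_p)` with prescribed action on
`ζ_m` (for `p ∤ m`). -/
theorem exists_gal_cyclo_rat (hm : Nat.Coprime p m) {ζ : Ω} (hζ : IsPrimitiveRoot ζ m)
    (u : (ZMod m)ˣ) :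
    ∃ g₁ : Gal(Ω/ℚ), g₁ ζ = ζ ^ (u : ZMod m).val ∧
      ∀ x : K, g₁ (algebraMap K Ω x) = algebraMap K Ω x := by
  have hp : p.Prime := Fact.out
  haveI : NeZero p := ⟨hp.ne_zero⟩
  haveI : NeZero (p * m) := ⟨mul_ne_zero hp.ne_zero (NeZero.ne m)⟩
  haveI := isGalois_rat_cyclo L m Ω
  -- a primitive `p`-th root of unity in `Ω`
  have hηK := IsCyclotomicExtension.zeta_spec p ℚ K
  set η : Ω := algebraMap K Ω (IsCyclotomicExtension.zeta p ℚ K) with hη
  have hηΩ : IsPrimitiveRoot η p := hηK.map_of_injective (algebraMap K Ω).injective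
  -- `ξ = η ζ` is a primitive `p m`-th root of unity
  have hξ : IsPrimitiveRoot (η * ζ) (p * m) := by
    have h1 : orderOf η = p := hηΩ.eq_orderOf.symm
    have h2 : orderOf ζ = m := hζ.eq_orderOf.symm
    have h3 : orderOf (η * ζ) = p * m := by
      rw [(Commute.all η ζ).orderOf_mul_eq_mul_orderOf_of_coprime (by rw [h1, h2]; exact hm),
        h1, h2]
    rw [← h3]
    exact IsPrimitiveRoot.orderOf (η * ζ)
  set ξ : Ω := η * ζ with hξdef
  haveI hE : IsCyclotomicExtension {p * m} ℚ ℚ⟮ξ⟯ :=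
    hξ.intermediateField_adjoin_isCyclotomicExtension ℚ
  haveI : IsGalois ℚ ℚ⟮ξ⟯ := IsCyclotomicExtension.isGalois {p * m} ℚ ℚ⟮ξ⟯
  obtain ⟨a, ha1, ha2⟩ := exists_unit_crt hp hm u
  obtain ⟨g₁, hg₁⟩ := AlgEquiv.restrictNormalHom_surjective (F := ℚ) (K₁ := ℚ⟮ξ⟯) Ω
    ((IsCyclotomicExtension.Rat.galEquivZMod (p * m) ℚ⟮ξ⟯).symm a)
  have hg₁' : g₁.restrictNormal ℚ⟮ξ⟯ =
      (IsCyclotomicExtension.Rat.galEquivZMod (p * m) ℚ⟮ξ⟯).symm a := hg₁
  -- `g₁ ξ = ξ ^ a`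
  have hgξ : g₁ ξ = ξ ^ (a : ZMod (p * m)).val := by
    have hmem : ξ ∈ ℚ⟮ξ⟯ := IntermediateField.mem_adjoin_simple_self ℚ ξ
    have hpow : (⟨ξ, hmem⟩ : ℚ⟮ξ⟯) ^ (p * m) = 1 := by
      apply Subtype.ext
      simpa using hξ.pow_eq_one
    have h1 := AlgEquiv.restrictNormal_commutes g₁ ℚ⟮ξ⟯ ⟨ξ, hmem⟩
    rw [hg₁', IsCyclotomicExtension.Rat.galEquivZMod_apply_of_pow_eq (p * m) ℚ⟮ξ⟯ _ hpow,
      MulEquiv.apply_symm_apply, map_pow] at h1
    exact h1.symm
  -- hence `g₁` raises every `p m`-th root of unity to the power `a`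
  have hgpow : ∀ x : Ω, x ^ (p * m) = 1 → g₁ x = x ^ (a : ZMod (p * m)).val := by
    intro x hx
    obtain ⟨i, -, rfl⟩ := hξ.eq_pow_of_pow_eq_one hx
    rw [map_pow, hgξ, ← pow_mul, ← pow_mul, mul_comm]
  refine ⟨g₁, ?_, ?_⟩
  · rw [hgpow ζ (by rw [mul_comm, pow_mul, hζ.pow_eq_one, one_pow]),
      pow_eq_pow_mod _ hζ.pow_eq_one, ha2]
  · have hgη : g₁ η = η := by
      rw [hgpow η (by rw [pow_mul, hηΩ.pow_eq_one, one_pow]),
        pow_eq_pow_mod _ hηΩ.pow_eq_one, ha1, pow_one]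
    let f₁ : K →ₐ[ℚ] Ω := (g₁ : Ω →ₐ[ℚ] Ω).comp (IsScalarTower.toAlgHom ℚ K Ω)
    let f₂ : K →ₐ[ℚ] Ω := IsScalarTower.toAlgHom ℚ K Ω
    have hgen : f₁ (hηK.powerBasis ℚ).gen = f₂ (hηK.powerBasis ℚ).gen := by
      rw [IsPrimitiveRoot.powerBasis_gen]
      exact hgη
    have := (hηK.powerBasis ℚ).algHom_ext hgen
    intro x
    exact DFunLike.congr_fun this x

/-- **GAL4**: `Gal(Ω/K) → Gal(L/K) × (ℤ/m)ˣ` is surjective, if `Gal(L/ℚ)` acts on `Gal(L/K)`
through the inverse of the cyclotomic character, `p ≠ 2` and `p ∤ m`. -/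
theorem exists_gal_cyclo (hp2 : p ≠ 2) (hm : Nat.Coprime p m)
    (hact : ConjActsByInvCyclo p L K) {ζ : Ω} (hζ : IsPrimitiveRoot ζ m) (s : Gal(L/K))
    (u : (ZMod m)ˣ) :
    ∃ g : Gal(Ω/K), AlgEquiv.restrictNormalHom L g = s ∧ g ζ = ζ ^ (u : ZMod m).val := by
  haveI := isGalois_rat_cyclo L m Ω
  haveI := isGalois_cyclo L K m Ω
  obtain ⟨g₁, hg₁ζ, hg₁K⟩ := exists_gal_cyclo_rat p L K m Ω hm hζ u
  -- the restriction of `g₁` to `L` fixes `K`
  set n₁ : Gal(L/ℚ) := AlgEquiv.restrictNormalHom L g₁ with hn₁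
  have hn₁K : ∀ x : K, n₁.toRingEquiv (algebraMap K L x) = algebraMap K L x := by
    intro x
    apply (algebraMap L Ω).injective
    change algebraMap L Ω (n₁ (algebraMap K L x)) = _
    rw [algebraMap_restrictNormalHom_apply_rat, ← IsScalarTower.algebraMap_apply K L Ω, hg₁K]
  set n₁K : Gal(L/K) := AlgEquiv.ofRingEquiv hn₁K with hn₁Kdef
  have hn₁K' : n₁K.restrictScalars ℚ = n₁ := by
    ext x
    rfl
  obtain ⟨c, hcL, hcroot⟩ := exists_gal_cyclo_commutator p L K m Ω hp2 hact (s * n₁K⁻¹)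
  set g : Gal(Ω/ℚ) := c * g₁ with hg
  have hgL : AlgEquiv.restrictNormalHom L g = s.restrictScalars ℚ := by
    rw [hg, map_mul, hcL, ← hn₁, ← hn₁K']
    ext x
    change (s * n₁K⁻¹) (n₁K x) = s x
    rw [AlgEquiv.mul_apply]
    congr 1
    exact AlgEquiv.symm_apply_apply n₁K x
  have hgK : ∀ x : K, g.toRingEquiv (algebraMap K Ω x) = algebraMap K Ω x := by
    intro x
    change c (g₁ (algebraMap K Ω x)) = _
    rw [hg₁K, IsScalarTower.algebraMap_apply K L Ω, ← algebraMap_restrictNormalHom_apply_rat, hcL]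
    congr 1
    exact (s * n₁K⁻¹).commutes x
  refine ⟨AlgEquiv.ofRingEquiv hgK, ?_, ?_⟩
  · ext x
    apply (algebraMap L Ω).injective
    rw [algebraMap_restrictNormalHom_apply]
    change g (algebraMap L Ω x) = _
    rw [← algebraMap_restrictNormalHom_apply_rat, hgL]
    rfl
  · change c (g₁ ζ) = _
    rw [hg₁ζ, map_pow, hcroot ζ m (NeZero.ne m) hζ.pow_eq_one]

end CrossGal2

end Fermat.Agent.S14
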