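import Mathlib

/-!
# S14 / FIRST: abstract group theory for the ambiguous class argument

* `classLift` : a monoid hom `(Ideal S)⁰ →* (Ideal R)⁰` sending principal ideals to principal
  ideals induces a hom `ClassGroup S →* ClassGroup R`.
* `relIndex_le_card_of_forall` : a counting lemma bounding a relative index.
* `card_range_mul_le` : the abstract finite group inequality `p * |N(X)| ≤ |Y|`.
-/

set_option autoImplicit false

open scoped nonZeroDivisors

namespace Fermat.Agent.S14.FirstAbs

section Lift

variable {S R : Type*} [CommRing S] [IsDedekindDomain S] [CommRing R] [IsDedekindDomain R]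

/-- The nonzero principal ideal generated by a nonzero element. -/
def span0 (x : S) (hx : x ≠ 0) : (Ideal S)⁰ :=
  ⟨Ideal.span {x}, mem_nonZeroDivisors_of_ne_zero (by
    rwa [Ne, Ideal.zero_eq_bot, Ideal.span_singleton_eq_bot])⟩

@[simp] theorem coe_span0 (x : S) (hx : x ≠ 0) : (span0 x hx : Ideal S) = Ideal.span {x} := rfl

theorem mk0_span0 (x : S) (hx : x ≠ 0) : ClassGroup.mk0 (span0 x hx) = 1 :=
  (ClassGroup.mk0_eq_one_iff (span0 x hx).2).mpr ⟨⟨x, rfl⟩⟩

/-- The property "principal ideals are sent to principal ideals". -/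
def PreservesPrincipal (φ : (Ideal S)⁰ →* (Ideal R)⁰) : Prop :=
  ∀ (x : S) (hx : x ≠ 0), ClassGroup.mk0 (φ (span0 x hx)) = 1

theorem mk0_map_congr {φ : (Ideal S)⁰ →* (Ideal R)⁰} (hφ : PreservesPrincipal φ)
    {I J : (Ideal S)⁰} (h : ClassGroup.mk0 I = ClassGroup.mk0 J) :
    ClassGroup.mk0 (φ I) = ClassGroup.mk0 (φ J) := by
  obtain ⟨x, y, hx, hy, hxy⟩ := ClassGroup.mk0_eq_mk0_iff.mp h
  have h1 : span0 x hx * I = span0 y hy * J := Subtype.ext hxy
  have h2 := congrArg (fun K => ClassGroup.mk0 (φ K)) h1
  simp only [map_mul, hφ x hx, hφ y hy, one_mul] at h2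
  exact h2

/-- The induced homomorphism on class groups. -/
noncomputable def classLift (φ : (Ideal S)⁰ →* (Ideal R)⁰) (hφ : PreservesPrincipal φ) :
    ClassGroup S →* ClassGroup R where
  toFun c := ClassGroup.mk0 (φ (Function.surjInv ClassGroup.mk0_surjective c))
  map_one' := by
    have h : ClassGroup.mk0 (Function.surjInv ClassGroup.mk0_surjective (1 : ClassGroup S)) =
        ClassGroup.mk0 (1 : (Ideal S)⁰) := by
      rw [Function.surjInv_eq ClassGroup.mk0_surjective, map_one]
    rw [mk0_map_congr hφ h, map_one, map_one]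
  map_mul' c d := by
    have h : ClassGroup.mk0 (Function.surjInv ClassGroup.mk0_surjective (c * d)) =
        ClassGroup.mk0 (Function.surjInv ClassGroup.mk0_surjective c *
          Function.surjInv ClassGroup.mk0_surjective d) := by
      simp only [map_mul, Function.surjInv_eq ClassGroup.mk0_surjective]
    rw [mk0_map_congr hφ h, map_mul, map_mul]

theorem classLift_mk0 (φ : (Ideal S)⁰ →* (Ideal R)⁰) (hφ : PreservesPrincipal φ)
    (I : (Ideal S)⁰) : classLift φ hφ (ClassGroup.mk0 I) = ClassGroup.mk0 (φ I) :=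
  mk0_map_congr hφ (Function.surjInv_eq ClassGroup.mk0_surjective _)

end Lift

section Counting

/-- Counting lemma: if `f x = f y` forces `x⁻¹ * y ∈ H` for `x y ∈ K`, then `[K : H ⊓ K]` is at
most the cardinality of the target. -/
theorem relIndex_le_card_of_forall {X Y : Type*} [Group X] [Finite Y] (H K : Subgroup X)
    (f : X → Y) (hf : ∀ x ∈ K, ∀ y ∈ K, f x = f y → x⁻¹ * y ∈ H) :
    H.relIndex K ≤ Nat.card Y ∧ H.relIndex K ≠ 0 := by
  have hinj : Function.Injective
      (fun q : K ⧸ H.subgroupOf K => f ((Quotient.out q : K) : X)) := by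
    intro q q' h
    have h1 := hf _ (Quotient.out q).2 _ (Quotient.out q').2 h
    have h2 : (Quotient.out q)⁻¹ * Quotient.out q' ∈ H.subgroupOf K := by
      rw [Subgroup.mem_subgroupOf]; exact h1
    have h3 : (QuotientGroup.mk (Quotient.out q) : K ⧸ H.subgroupOf K) =
        QuotientGroup.mk (Quotient.out q') := QuotientGroup.eq.mpr h2
    rwa [QuotientGroup.out_eq', QuotientGroup.out_eq'] at h3
  have hfin : Finite (K ⧸ H.subgroupOf K) := Finite.of_injective _ hinj
  refine ⟨?_, ?_⟩
  · rw [Subgroup.relIndex, Subgroup.index]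
    exact Nat.card_le_card_of_injective _ hinj
  · rw [Subgroup.relIndex, Subgroup.index]
    exact Nat.card_pos.ne'

end Counting

section Main

variable {X Y : Type*} [CommGroup X] [CommGroup Y]

/-- The subgroup of fixed points of an endomorphism, as the kernel of `x ↦ x / s x`. -/
def fixedSub (s : X →* X) : Subgroup X := (MonoidHom.id X / s).ker

theorem mem_fixedSub {s : X →* X} {x : X} : x ∈ fixedSub s ↔ s x = x := by
  rw [fixedSub, MonoidHom.mem_ker, MonoidHom.div_apply, MonoidHom.id_apply, div_eq_one, eq_comm]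

theorem card_eq_card_ker_mul_card_range {Z : Type*} [Group Z] (f : X →* Z) :
    Nat.card X = Nat.card f.ker * Nat.card f.range := by
  rw [← Subgroup.index_ker, Subgroup.card_mul_index]

variable [Finite X]

/-- The abstract inequality. -/
theorem card_range_mul_le (s : X →* X) (N : X →* Y) (j : Y →* X) (hN : ∀ x, N (s x) = N x)
    {p q : ℕ} (hq : 0 < q) (h2 : j.range.relIndex (fixedSub s) ≤ q)
    (h3 : p * q ≤ Nat.card j.ker) : p * Nat.card N.range ≤ Nat.card Y := by
  set δ : X →* X := MonoidHom.id X / s with hδ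
  have ha : δ.range ≤ N.ker := by
    rintro _ ⟨x, rfl⟩
    rw [MonoidHom.mem_ker, hδ, MonoidHom.div_apply, MonoidHom.id_apply, map_div, hN, div_self']
  have hb := card_eq_card_ker_mul_card_range δ
  have hc := card_eq_card_ker_mul_card_range N
  have hd : Nat.card δ.range ≤ Nat.card N.ker := Subgroup.card_le_of_le ha
  have hNker : 0 < Nat.card N.ker := Nat.card_pos
  have he : Nat.card N.range ≤ Nat.card δ.ker := by
    have : Nat.card N.ker * Nat.card N.range ≤ Nat.card N.ker * Nat.card δ.ker := by
      rw [← hc, hb, mul_comm]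
      exact Nat.mul_le_mul_right _ hd
    exact Nat.le_of_mul_le_mul_left this hNker
  have hf : Nat.card δ.ker ≤ Nat.card j.range * q := by
    have h1 := Subgroup.card_mul_index (j.range.subgroupOf (fixedSub s))
    have h4 : Nat.card (j.range.subgroupOf (fixedSub s)) ≤ Nat.card j.range := by
      refine Nat.card_le_card_of_injective
        (fun x => (⟨x.1.1, x.2⟩ : j.range)) ?_
      intro x y hxy
      have : x.1.1 = y.1.1 := congrArg (fun z : j.range => (z : X)) hxy
      exact Subtype.ext (Subtype.ext this)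
    have h5 : Nat.card δ.ker = Nat.card (fixedSub s) := rfl
    rw [h5, ← h1]
    exact Nat.mul_le_mul h4 h2
  have hg := card_eq_card_ker_mul_card_range j
  have hfinal : q * (p * Nat.card N.range) ≤ q * Nat.card Y := by
    calc q * (p * Nat.card N.range) = (p * q) * Nat.card N.range := by ring
      _ ≤ Nat.card j.ker * (Nat.card j.range * q) :=
          Nat.mul_le_mul h3 (he.trans hf)
      _ = q * Nat.card Y := by rw [hg]; ring
  exact Nat.le_of_mul_le_mul_left hfinal hq

end Main

end Fermat.Agent.S14.FirstAbs
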