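import Fermat.Agent.S14.Defs

/-!
# S14 / FIRST: basic definitions (norm on integers, Galois action on ideals and units)
-/

set_option autoImplicit false
set_option linter.unusedSectionVars false

open NumberField
open scoped Pointwise nonZeroDivisors

namespace Fermat.Agent.S14.FirstIdeal

variable (F M : Type*) [Field F] [NumberField F] [Field M] [NumberField M] [Algebra F M]
  [IsGalois F M]

/-- The norm `𝓞 M → 𝓞 F`. -/
noncomputable def nm : 𝓞 M →* 𝓞 F := Algebra.intNorm (𝓞 F) (𝓞 M)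

variable {F M}

theorem coe_nm (x : 𝓞 M) :
    algebraMap (𝓞 F) F (nm F M x) = Algebra.norm F (algebraMap (𝓞 M) M x) :=
  Algebra.algebraMap_intNorm (A := 𝓞 F) (K := F) (L := M) (B := 𝓞 M) x

theorem nm_smul (σ : Gal(M/F)) (x : 𝓞 M) : nm F M (σ • x) = nm F M x :=
  Algebra.intNorm_map_algEquiv (A := 𝓞 F) (B := 𝓞 M) (B₂ := 𝓞 M) x
    (MulSemiringAction.toAlgEquiv (𝓞 F) (𝓞 M) σ)

theorem nm_ne_zero {x : 𝓞 M} (hx : x ≠ 0) : nm F M x ≠ 0 := by
  intro h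
  have h1 := coe_nm (F := F) x
  rw [h, map_zero] at h1
  have h2 : algebraMap (𝓞 M) M x = 0 := Algebra.norm_eq_zero_iff.mp h1.symm
  exact hx (RingOfIntegers.ext (by simpa using h2))

theorem relNorm_span_singleton (x : 𝓞 M) :
    Ideal.relNorm (𝓞 F) (Ideal.span {x}) = Ideal.span {nm F M x} :=
  Ideal.relNorm_singleton _ x

theorem algebraMap_nm (x : 𝓞 M) :
    algebraMap (𝓞 F) (𝓞 M) (nm F M x) = ∏ σ : Gal(M/F), σ • x := by
  apply RingOfIntegers.ext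
  show algebraMap (𝓞 M) M _ = _
  rw [← IsScalarTower.algebraMap_apply, IsScalarTower.algebraMap_apply (𝓞 F) F M, coe_nm,
    Algebra.norm_eq_prod_automorphisms]
  show _ = algebraMap (𝓞 M) M _
  rw [map_prod]
  rfl

theorem smul_span_singleton (σ : Gal(M/F)) (x : 𝓞 M) :
    σ • (Ideal.span {x}) = Ideal.span {σ • x} := by
  rw [Ideal.pointwise_smul_def, Ideal.map_span, Set.image_singleton]
  rfl

theorem smul_ideal_mul (σ : Gal(M/F)) (I J : Ideal (𝓞 M)) : σ • (I * J) = σ • I * σ • J :=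
  MulDistribMulAction.smul_mul σ I J

theorem smul_ideal_ne_bot (σ : Gal(M/F)) {I : Ideal (𝓞 M)} (hI : I ≠ ⊥) : σ • I ≠ ⊥ := by
  intro h
  apply hI
  have : σ⁻¹ • σ • I = σ⁻¹ • (⊥ : Ideal (𝓞 M)) := by rw [h]
  rwa [inv_smul_smul, Ideal.pointwise_smul_def, Ideal.map_bot] at this

theorem span_singleton_ne_bot {x : 𝓞 M} (hx : x ≠ 0) : Ideal.span {x} ≠ (⊥ : Ideal (𝓞 M)) := by
  rwa [Ne, Ideal.span_singleton_eq_bot]

/-- If `σ` fixes an ideal and generates the Galois group, every element fixes it. -/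
theorem smul_eq_of_generator {σ : Gal(M/F)} (hσ : ∀ x, x ∈ Subgroup.zpowers σ)
    {I : Ideal (𝓞 M)} (h : σ • I = I) (τ : Gal(M/F)) : τ • I = I := by
  have h1 : σ ∈ MulAction.stabilizer Gal(M/F) I := MulAction.mem_stabilizer_iff.mpr h
  have h2 : Subgroup.zpowers σ ≤ MulAction.stabilizer Gal(M/F) I :=
    (Subgroup.zpowers_le).mpr h1
  exact MulAction.mem_stabilizer_iff.mp (h2 (hσ τ))

/-! ### Units -/

variable (F M)

/-- The norm on units. -/
noncomputable def unitNorm : (𝓞 M)ˣ →* (𝓞 F)ˣ := Units.map (nm F M)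

variable {F M}

@[simp] theorem coe_unitNorm (u : (𝓞 M)ˣ) : ((unitNorm F M u : (𝓞 F)ˣ) : 𝓞 F) = nm F M (u : 𝓞 M) :=
  rfl

/-- The action of the Galois group on units. -/
noncomputable def unitSigma (σ : Gal(M/F)) : (𝓞 M)ˣ →* (𝓞 M)ˣ :=
  Units.map (MulSemiringAction.toRingHom Gal(M/F) (𝓞 M) σ : 𝓞 M →* 𝓞 M)

@[simp] theorem coe_unitSigma (σ : Gal(M/F)) (u : (𝓞 M)ˣ) :
    ((unitSigma σ u : (𝓞 M)ˣ) : 𝓞 M) = σ • (u : 𝓞 M) := rfl

/-- `u ↦ u / σ u` on units. -/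
noncomputable def unitDelta (σ : Gal(M/F)) : (𝓞 M)ˣ →* (𝓞 M)ˣ :=
  MonoidHom.id _ / unitSigma σ

theorem unitDelta_apply (σ : Gal(M/F)) (u : (𝓞 M)ˣ) : unitDelta σ u = u / unitSigma σ u := rfl

end Fermat.Agent.S14.FirstIdeal
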