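/-
S14 / FIRST sub-piece P1: Hilbert's Theorem 90 for cyclic extensions, universe polymorphic.

Mathlib's `groupCohomology.exists_div_of_norm_eq_one` is stated only for `K L : Type`; here we give
a direct proof (Lagrange resolvent + Dedekind's linear independence of characters) valid in all
universes.
-/
import Mathlib

namespace Fermat.Agent.S14

open Finset

section H90

variable {K L : Type*} [Field K] [Field L] [Algebra K L]

/-- Partial norms `∏_{i<k} g^i η`. -/
noncomputable def h90Partial (g : Gal(L/K)) (η : L) (k : ℕ) : L :=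
  ∏ i ∈ range k, (g ^ i) η

lemma h90Partial_zero (g : Gal(L/K)) (η : L) : h90Partial g η 0 = 1 := by
  simp [h90Partial]

lemma h90Partial_succ (g : Gal(L/K)) (η : L) (k : ℕ) :
    h90Partial g η (k + 1) = h90Partial g η k * (g ^ k) η := by
  rw [h90Partial, prod_range_succ, h90Partial]

lemma h90Partial_succ' (g : Gal(L/K)) (η : L) (k : ℕ) :
    h90Partial g η (k + 1) = η * g (h90Partial g η k) := by
  rw [h90Partial, prod_range_succ', h90Partial, map_prod, mul_comm, pow_zero, AlgEquiv.one_apply]
  congr 1
  refine prod_congr rfl fun i _ => ?_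
  rw [pow_succ', AlgEquiv.mul_apply]

variable [FiniteDimensional K L]

/-- If `g` generates `Gal(L/K)` then the product over the group is the product over the powers
of `g`. -/
lemma prod_univ_eq_prod_range_orderOf (g : Gal(L/K)) (hg : ∀ x, x ∈ Subgroup.zpowers g)
    (F : Gal(L/K) → L) :
    ∏ σ : Gal(L/K), F σ = ∏ i ∈ range (orderOf g), F (g ^ i) := by
  classical
  symm
  refine prod_bij (fun i _ => g ^ i) (fun _ _ => mem_univ _) ?_ ?_ (fun _ _ => rfl)
  · intro i hi j hj hij
    exact pow_injOn_Iio_orderOf (by simpa using hi) (by simpa using hj) hij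
  · intro σ _
    have hfin : IsOfFinOrder g := isOfFinOrder_of_finite g
    have h1 : σ ∈ Submonoid.powers g := by
      rw [hfin.mem_powers_iff_mem_zpowers]
      exact hg σ
    obtain ⟨k, hk⟩ := h1
    refine ⟨k % orderOf g, ?_, ?_⟩
    · simp only [mem_range]
      exact Nat.mod_lt _ hfin.orderOf_pos
    · rw [pow_mod_orderOf]
      exact hk

variable [IsGalois K L]

lemma h90Partial_orderOf (g : Gal(L/K)) (hg : ∀ x, x ∈ Subgroup.zpowers g) {η : L}
    (hη : Algebra.norm K η = 1) : h90Partial g η (orderOf g) = 1 := by
  have h := Algebra.norm_eq_prod_automorphisms K η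
  rw [hη, map_one, prod_univ_eq_prod_range_orderOf g hg (fun σ => σ η)] at h
  exact h.symm

/-- **Hilbert 90** for a finite cyclic Galois extension, in all universes. -/
theorem exists_apply_eq_mul_of_norm_eq_one
    (g : Gal(L/K)) (hg : ∀ x, x ∈ Subgroup.zpowers g) {η : L}
    (hη : Algebra.norm K η = 1) : ∃ y : L, y ≠ 0 ∧ g y = η * y := by
  classical
  have hfin : IsOfFinOrder g := isOfFinOrder_of_finite g
  have hnpos : 0 < orderOf g := hfin.orderOf_pos
  -- the resolvent
  let a : L → ℕ → L := fun z k => h90Partial g η k * (g ^ k) z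
  let β : L → L := fun z => ∑ k ∈ range (orderOf g), a z k
  -- it is not identically zero
  have hne : ∃ z, β z ≠ 0 := by
    by_contra hcon
    push Not at hcon
    have hli : LinearIndependent L
        (fun k : Fin (orderOf g) => (((g ^ (k : ℕ) : Gal(L/K)) : L →* L) : L → L)) := by
      refine LinearIndependent.comp (linearIndependent_monoidHom L L)
        (fun k : Fin (orderOf g) => ((g ^ (k : ℕ) : Gal(L/K)) : L →* L)) ?_
      intro i j hij
      have : g ^ (i : ℕ) = g ^ (j : ℕ) := by
        ext x
        exact DFunLike.congr_fun hij x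
      exact Fin.ext (pow_injOn_Iio_orderOf (Set.mem_Iio.2 i.2) (Set.mem_Iio.2 j.2) this)
    rw [Fintype.linearIndependent_iff] at hli
    have h0 := hli (fun k => h90Partial g η k) ?_ ⟨0, hnpos⟩
    · simp [h90Partial_zero] at h0
    · ext z
      have := hcon z
      simp only [β, a] at this
      rw [← Fin.sum_univ_eq_sum_range (fun k => h90Partial g η k * (g ^ k) z) (orderOf g)] at this
      simpa [Finset.sum_apply] using this
  obtain ⟨z, hz⟩ := hne
  -- key identity
  have ha0 : a z 0 = a z (orderOf g) := by
    simp only [a]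
    rw [h90Partial_zero, h90Partial_orderOf g hg hη, pow_orderOf_eq_one, pow_zero]
  have hkey : η * g (β z) = β z := by
    simp only [β]
    rw [map_sum, mul_sum]
    have h1 : ∀ k ∈ range (orderOf g), η * g (a z k) = a z (k + 1) := by
      intro k _
      simp only [a]
      rw [map_mul, ← mul_assoc, ← h90Partial_succ', pow_succ', AlgEquiv.mul_apply]
    rw [sum_congr rfl h1]
    have h2 := sum_range_succ (a z) (orderOf g)
    rw [sum_range_succ', ha0] at h2
    exact add_right_cancel h2
  refine ⟨(β z)⁻¹, inv_ne_zero hz, ?_⟩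
  have hη0 : η ≠ 0 := by
    rintro rfl
    rw [Algebra.norm_zero] at hη
    exact zero_ne_one hη
  have hg0 : g (β z) ≠ 0 := by
    rw [Ne, map_eq_zero]
    exact hz
  rw [map_inv₀]
  field_simp
  rw [mul_comm]
  exact hkey.symm

end H90

end Fermat.Agent.S14
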