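import Mathlib
import Fermat.Agent.S14.Defs

/-!
# S14, piece FIRST (P2, "Lemma U"): invariant ideals in everywhere unramified Galois extensions

In an everywhere unramified Galois extension `M/F` of number fields, a nonzero ideal of `𝓞 M` which
is invariant under `Gal(M/F)` is the extension of an ideal of `𝓞 F`.
-/

set_option autoImplicit false
set_option linter.style.haveILetI false
set_option linter.unusedSectionVars false

open NumberField
open scoped Pointwise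

namespace Fermat.Agent.S14

variable (F M : Type*) [Field F] [NumberField F] [Field M] [NumberField M] [Algebra F M]

section LemmaU

variable [IsGalois F M]

/-- The extension of an ideal of the base is Galois invariant. -/
theorem smul_map_algebraMap (σ : Gal(M/F)) (𝔞 : Ideal (𝓞 F)) :
    σ • 𝔞.map (algebraMap (𝓞 F) (𝓞 M)) = 𝔞.map (algebraMap (𝓞 F) (𝓞 M)) := by
  rw [Ideal.pointwise_smul_def, Ideal.map_map]
  congr 1
  ext a
  simp

/-- In an everywhere unramified extension, the extension of a nonzero prime is the product of the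
primes above it. -/
theorem map_algebraMap_eq_prod_primesOver (hunr : IsUnramifiedEverywhere F M)
    (𝔭 : Ideal (𝓞 F)) [𝔭.IsMaximal] (h0 : 𝔭 ≠ ⊥) :
    𝔭.map (algebraMap (𝓞 F) (𝓞 M)) = ∏ P ∈ (𝔭.primesOver (𝓞 M)).toFinset, P := by
  rw [Ideal.map_algebraMap_eq_finsetProd_pow (R := 𝓞 M) h0]
  refine Finset.prod_congr rfl fun P hP => ?_
  rw [Set.mem_toFinset] at hP
  haveI : P.IsPrime := hP.1
  haveI : P.LiesOver 𝔭 := hP.2
  have hP0 : P ≠ ⊥ := Ideal.ne_bot_of_liesOver_of_ne_bot h0 P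
  have h1 : Nat.card (Ideal.inertia Gal(M/F) P) = 𝔭.ramificationIdxIn (𝓞 M) :=
    Ideal.card_inertia_eq_ramificationIdxIn 𝔭 P
  rw [hunr P inferInstance hP0, Subgroup.card_bot,
    Ideal.ramificationIdxIn_eq_ramificationIdx 𝔭 P Gal(M/F)] at h1
  rw [← h1, pow_one]

/-- **Lemma U**: a Galois-invariant nonzero ideal in an everywhere unramified Galois extension is
extended from the base. -/
theorem exists_map_eq_of_forall_smul_eq (hunr : IsUnramifiedEverywhere F M)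
    (I : Ideal (𝓞 M)) (hI : I ≠ ⊥) (hinv : ∀ σ : Gal(M/F), σ • I = I) :
    ∃ 𝔞 : Ideal (𝓞 F), 𝔞 ≠ ⊥ ∧ 𝔞.map (algebraMap (𝓞 F) (𝓞 M)) = I := by
  classical
  induction' hn : Ideal.absNorm I using Nat.strong_induction_on with n ih generalizing I
  by_cases htop : I = ⊤
  · exact ⟨⊤, top_ne_bot, by rw [htop, Ideal.map_top]⟩
  obtain ⟨P, hPmax, hIP⟩ := Ideal.exists_le_maximal I htop
  haveI : P.IsPrime := hPmax.isPrime
  have hP0 : P ≠ ⊥ := fun h => hI (le_bot_iff.mp (h ▸ hIP))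
  set 𝔭 : Ideal (𝓞 F) := P.under (𝓞 F) with h𝔭
  have h𝔭0 : 𝔭 ≠ ⊥ := Ideal.under_ne_bot (𝓞 F) hP0
  haveI : 𝔭.IsPrime := Ideal.IsPrime.under (𝓞 F) P
  haveI h𝔭max : 𝔭.IsMaximal := Ideal.IsPrime.isMaximal inferInstance h𝔭0
  haveI : P.LiesOver 𝔭 := ⟨rfl⟩
  -- every prime above `𝔭` contains `I`
  have hall : ∀ Q ∈ (𝔭.primesOver (𝓞 M)).toFinset, Q ∣ I := by
    intro Q hQ
    rw [Set.mem_toFinset] at hQ
    haveI : Q.IsPrime := hQ.1
    haveI : Q.LiesOver 𝔭 := hQ.2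
    obtain ⟨σ, hσ⟩ := Ideal.exists_smul_eq_of_isGaloisGroup 𝔭 P Q Gal(M/F)
    rw [Ideal.dvd_iff_le, ← hσ, ← hinv σ]
    exact Ideal.pointwise_smul_le_pointwise_smul_iff.mpr hIP
  -- the primes above `𝔭` are pairwise coprime
  have hcop : ((𝔭.primesOver (𝓞 M)).toFinset : Set (Ideal (𝓞 M))).Pairwise
      (Function.onFun IsCoprime fun Q => Q) := by
    intro Q hQ Q' hQ' hne
    rw [Finset.mem_coe, Set.mem_toFinset] at hQ hQ'
    have hQ0 : Q ≠ ⊥ := by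
      haveI := hQ.2
      exact Ideal.ne_bot_of_liesOver_of_ne_bot h𝔭0 Q
    have hQ'0 : Q' ≠ ⊥ := by
      haveI := hQ'.2
      exact Ideal.ne_bot_of_liesOver_of_ne_bot h𝔭0 Q'
    exact Ideal.isCoprime_iff_sup_eq.mpr (Ideal.IsMaximal.coprime_of_ne
      (Ideal.IsPrime.isMaximal hQ.1 hQ0) (Ideal.IsPrime.isMaximal hQ'.1 hQ'0) hne)
  have hdvd : 𝔭.map (algebraMap (𝓞 F) (𝓞 M)) ∣ I := by
    rw [map_algebraMap_eq_prod_primesOver F M hunr 𝔭 h𝔭0]
    exact Finset.prod_dvd_of_coprime hcop hall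
  obtain ⟨J, hJ⟩ := hdvd
  have h𝔭M0 : 𝔭.map (algebraMap (𝓞 F) (𝓞 M)) ≠ ⊥ := Ideal.map_ne_bot_of_ne_bot h𝔭0
  have hJ0 : J ≠ ⊥ := by
    rintro rfl
    apply hI
    rw [hJ, Ideal.mul_bot]
  -- `J` is invariant
  have hJinv : ∀ σ : Gal(M/F), σ • J = J := by
    intro σ
    have h1 := hinv σ
    rw [hJ, smul_mul', smul_map_algebraMap] at h1
    exact mul_left_cancel₀ h𝔭M0 h1
  -- the norm drops
  have hlt : Ideal.absNorm J < n := by
    have h1 : Ideal.absNorm I = Ideal.absNorm (𝔭.map (algebraMap (𝓞 F) (𝓞 M))) * Ideal.absNorm J := by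
      rw [hJ, map_mul]
    have h2 : Ideal.absNorm (𝔭.map (algebraMap (𝓞 F) (𝓞 M))) ≠ 1 := by
      rw [Ne, Ideal.absNorm_eq_one_iff]
      intro h
      have h3 : 𝔭.map (algebraMap (𝓞 F) (𝓞 M)) ≤ P := Ideal.map_le_iff_le_comap.mpr le_rfl
      rw [h] at h3
      exact hPmax.ne_top (top_le_iff.mp h3)
    have h3 : Ideal.absNorm (𝔭.map (algebraMap (𝓞 F) (𝓞 M))) ≠ 0 := by
      rw [Ne, Ideal.absNorm_eq_zero_iff]
      exact h𝔭M0
    have h4 : Ideal.absNorm J ≠ 0 := by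
      rw [Ne, Ideal.absNorm_eq_zero_iff]
      exact hJ0
    rw [← hn, h1]
    have h5 : 2 ≤ Ideal.absNorm (𝔭.map (algebraMap (𝓞 F) (𝓞 M))) := by omega
    have h6 : 1 ≤ Ideal.absNorm J := by omega
    nlinarith
  obtain ⟨𝔟, h𝔟0, h𝔟⟩ := ih (Ideal.absNorm J) hlt J hJ0 hJinv rfl
  refine ⟨𝔭 * 𝔟, mul_ne_zero h𝔭0 h𝔟0, ?_⟩
  rw [Ideal.map_mul, h𝔟, hJ]

end LemmaU

end Fermat.Agent.S14
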