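import Fermat.Agent.S14.FirstBasic
import Fermat.Agent.S14.Hilbert90Cyclic
import Fermat.Agent.S14.LemmaU
import Fermat.Agent.S14.FirstAbstract

/-!
# S14 / FIRST: ideal-theoretic lemmas for the ambiguous class argument
-/

set_option autoImplicit false
set_option linter.unusedSectionVars false

open NumberField
open scoped Pointwise nonZeroDivisors

namespace Fermat.Agent.S14.FirstIdeal

variable {F M : Type*} [Field F] [NumberField F] [Field M] [NumberField M] [Algebra F M]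
  [IsGalois F M]

/-- Integral form of Hilbert 90. -/
theorem exists_smul_eq {σ : Gal(M/F)} (hσ : ∀ x, x ∈ Subgroup.zpowers σ) {a b : 𝓞 M}
    (hb : b ≠ 0) (w : (𝓞 M)ˣ)
    (h : nm F M b = nm F M (w : 𝓞 M) * nm F M a) :
    ∃ t : 𝓞 M, t ≠ 0 ∧ b * σ • t = (w : 𝓞 M) * a * t := by
  have hbM : (b : M) ≠ 0 := by
    intro h0; exact hb (RingOfIntegers.ext (by simpa using h0))
  set η : M := ((w : 𝓞 M) : M) * (a : M) / (b : M) with hη
  have hnorm : Algebra.norm F η = 1 := by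
    have h1 : Algebra.norm F (b : M) =
        Algebra.norm F (((w : 𝓞 M) : M)) * Algebra.norm F (a : M) := by
      rw [← coe_nm, ← coe_nm, ← coe_nm, h, map_mul]
    have h2 : Algebra.norm F (b : M) ≠ 0 := fun h0 => hbM (Algebra.norm_eq_zero_iff.mp h0)
    have h3 : η * (b : M) = ((w : 𝓞 M) : M) * (a : M) := by
      rw [hη, div_mul_cancel₀ _ hbM]
    have h4 := congrArg (Algebra.norm F) h3
    rw [map_mul, map_mul, ← h1] at h4
    exact mul_right_cancel₀ h2 (h4.trans (one_mul _).symm)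
  obtain ⟨y, hy0, hy⟩ := exists_apply_eq_mul_of_norm_eq_one σ hσ hnorm
  have halg : IsAlgebraic ℤ y :=
    (IsFractionRing.isAlgebraic_iff ℤ ℚ M).mpr (Algebra.IsAlgebraic.isAlgebraic y)
  obtain ⟨n, hn0, hn⟩ := halg.exists_integral_multiple
  refine ⟨⟨n • y, hn⟩, ?_, ?_⟩
  · intro h0
    have h1 : n • y = 0 := by
      have := congrArg (fun z : 𝓞 M => (z : M)) h0
      simpa using this
    exact smul_ne_zero hn0 hy0 h1
  · apply RingOfIntegers.ext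
    show (b : M) * σ (n • y) = ((w : 𝓞 M) : M) * (a : M) * (n • y)
    rw [map_zsmul, hy, hη, zsmul_eq_mul, zsmul_eq_mul]
    field_simp

/-- **Lemma K**: an ideal which is ambiguous "with unit norm defect" becomes extended from the base
after multiplication by a principal ideal. -/
theorem exists_extended_of_amb (hunr : IsUnramifiedEverywhere F M) {σ : Gal(M/F)}
    (hσ : ∀ x, x ∈ Subgroup.zpowers σ) {I : Ideal (𝓞 M)} (hI : I ≠ ⊥) {a b : 𝓞 M}
    (ha : a ≠ 0) (hb : b ≠ 0) (hab : Ideal.span {a} * σ • I = Ideal.span {b} * I)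
    (w : (𝓞 M)ˣ) (hN : nm F M b = nm F M (w : 𝓞 M) * nm F M a) :
    ∃ (𝔞 : Ideal (𝓞 F)) (t : 𝓞 M), 𝔞 ≠ ⊥ ∧ t ≠ 0 ∧
      Ideal.span {t} * I = 𝔞.map (algebraMap (𝓞 F) (𝓞 M)) := by
  obtain ⟨t, ht0, ht⟩ := exists_smul_eq hσ hb w hN
  set T : Ideal (𝓞 M) := Ideal.span {t} * I with hT
  have hT0 : T ≠ ⊥ := mul_ne_zero (span_singleton_ne_bot ht0) hI
  have hab0 : Ideal.span {a} * Ideal.span {b} ≠ (⊥ : Ideal (𝓞 M)) :=
    mul_ne_zero (span_singleton_ne_bot ha) (span_singleton_ne_bot hb)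
  have hσT : σ • T = T := by
    have h1 : Ideal.span {a} * Ideal.span {b} * σ • T = Ideal.span {a} * Ideal.span {b} * T := by
      have hw : Ideal.span {(w : 𝓞 M)} = (⊤ : Ideal (𝓞 M)) :=
        Ideal.span_singleton_eq_top.mpr w.isUnit
      calc Ideal.span {a} * Ideal.span {b} * σ • T
          = Ideal.span {b * σ • t} * (Ideal.span {a} * σ • I) := by
            rw [hT, smul_ideal_mul, smul_span_singleton, ← Ideal.span_singleton_mul_span_singleton]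
            ring
        _ = Ideal.span {(w : 𝓞 M) * a * t} * (Ideal.span {b} * I) := by rw [ht, hab]
        _ = Ideal.span {a} * Ideal.span {b} * T := by
            rw [hT, ← Ideal.span_singleton_mul_span_singleton,
              ← Ideal.span_singleton_mul_span_singleton, hw, Ideal.top_mul]
            ring
    exact mul_left_cancel₀ hab0 h1
  obtain ⟨𝔞, h𝔞0, h𝔞⟩ := exists_map_eq_of_forall_smul_eq F M hunr T hT0
    (smul_eq_of_generator hσ hσT)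
  exact ⟨𝔞, t, h𝔞0, ht0, h𝔞.symm⟩

/-! ### The ambiguity relation -/

/-- `Amb σ I ε`: the ideal `I` satisfies `(a) σI = (b) I` with `N b = ε N a`. -/
def Amb (σ : Gal(M/F)) (I : Ideal (𝓞 M)) (ε : (𝓞 F)ˣ) : Prop :=
  ∃ a b : 𝓞 M, a ≠ 0 ∧ b ≠ 0 ∧ Ideal.span {a} * σ • I = Ideal.span {b} * I ∧
    nm F M b = (ε : 𝓞 F) * nm F M a

theorem Amb.mul {σ : Gal(M/F)} {I J : Ideal (𝓞 M)} {ε η : (𝓞 F)ˣ} (h1 : Amb σ I ε)
    (h2 : Amb σ J η) : Amb σ (I * J) (ε * η) := by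
  obtain ⟨a, b, ha, hb, hab, hN⟩ := h1
  obtain ⟨a', b', ha', hb', hab', hN'⟩ := h2
  refine ⟨a * a', b * b', mul_ne_zero ha ha', mul_ne_zero hb hb', ?_, ?_⟩
  · rw [smul_ideal_mul, ← Ideal.span_singleton_mul_span_singleton,
      ← Ideal.span_singleton_mul_span_singleton]
    calc Ideal.span {a} * Ideal.span {a'} * (σ • I * σ • J)
        = (Ideal.span {a} * σ • I) * (Ideal.span {a'} * σ • J) := by ring
      _ = (Ideal.span {b} * I) * (Ideal.span {b'} * J) := by rw [hab, hab']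
      _ = Ideal.span {b} * Ideal.span {b'} * (I * J) := by ring
  · rw [map_mul, map_mul, hN, hN', Units.val_mul]
    ring

theorem Amb.of_mul_eq_span {σ : Gal(M/F)} {I J : Ideal (𝓞 M)} {ε : (𝓞 F)ˣ} (h1 : Amb σ I ε)
    {γ : 𝓞 M} (hγ : γ ≠ 0) (hIJ : I * J = Ideal.span {γ}) : Amb σ J ε⁻¹ := by
  obtain ⟨a, b, ha, hb, hab, hN⟩ := h1
  have hσγ : σ • γ ≠ 0 := by
    intro h0
    apply hγ
    have := congrArg (fun z => σ⁻¹ • z) h0
    simpa using this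
  refine ⟨b * γ, a * σ • γ, mul_ne_zero hb hγ, mul_ne_zero ha hσγ, ?_, ?_⟩
  · have hσIJ : σ • I * σ • J = Ideal.span {σ • γ} := by
      rw [← smul_ideal_mul, hIJ, smul_span_singleton]
    calc Ideal.span {b * γ} * σ • J
        = (Ideal.span {b} * I) * J * σ • J := by
          rw [← Ideal.span_singleton_mul_span_singleton, ← hIJ]; ring
      _ = (Ideal.span {a} * σ • I) * J * σ • J := by rw [hab]
      _ = Ideal.span {a} * (σ • I * σ • J) * J := by ring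
      _ = Ideal.span {a * σ • γ} * J := by
          rw [hσIJ, Ideal.span_singleton_mul_span_singleton]
  · rw [map_mul, map_mul, nm_smul, hN, ← mul_assoc, ← mul_assoc, Units.inv_mul, one_mul]

/-! ### Class group maps -/

open FirstAbs

variable (F M)

/-- The relative norm on nonzero ideals. -/
noncomputable def relNorm0 : (Ideal (𝓞 M))⁰ →* (Ideal (𝓞 F))⁰ where
  toFun I := ⟨Ideal.relNorm (𝓞 F) (I : Ideal (𝓞 M)), mem_nonZeroDivisors_of_ne_zero (by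
    rw [Ne, Ideal.zero_eq_bot, Ideal.relNorm_eq_bot_iff]
    exact nonZeroDivisors.ne_zero I.2)⟩
  map_one' := Subtype.ext (map_one _)
  map_mul' _ _ := Subtype.ext (map_mul _ _ _)

variable {F M}

@[simp] theorem coe_relNorm0 (I : (Ideal (𝓞 M))⁰) :
    (relNorm0 F M I : Ideal (𝓞 F)) = Ideal.relNorm (𝓞 F) (I : Ideal (𝓞 M)) := rfl

/-- The Galois action on nonzero ideals. -/
noncomputable def smul0 (σ : Gal(M/F)) : (Ideal (𝓞 M))⁰ →* (Ideal (𝓞 M))⁰ where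
  toFun I := ⟨σ • (I : Ideal (𝓞 M)), mem_nonZeroDivisors_of_ne_zero
    (smul_ideal_ne_bot σ (nonZeroDivisors.ne_zero I.2))⟩
  map_one' := Subtype.ext (smul_one σ)
  map_mul' _ _ := Subtype.ext (smul_ideal_mul σ _ _)

@[simp] theorem coe_smul0 (σ : Gal(M/F)) (I : (Ideal (𝓞 M))⁰) :
    (smul0 σ I : Ideal (𝓞 M)) = σ • (I : Ideal (𝓞 M)) := rfl

theorem preserves_relNorm0 : PreservesPrincipal (relNorm0 F M) := by
  intro x hx
  have h : relNorm0 F M (span0 x hx) = span0 (nm F M x) (nm_ne_zero hx) :=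
    Subtype.ext (relNorm_span_singleton x)
  rw [h, mk0_span0]

theorem preserves_smul0 (σ : Gal(M/F)) : PreservesPrincipal (smul0 σ) := by
  intro x hx
  have hσx : σ • x ≠ 0 := by
    intro h0
    apply hx
    have := congrArg (fun z => σ⁻¹ • z) h0
    simpa using this
  have h : smul0 σ (span0 x hx) = span0 (σ • x) hσx :=
    Subtype.ext (smul_span_singleton σ x)
  rw [h, mk0_span0]

variable (F M)

/-- The norm on class groups. -/
noncomputable def classNorm : ClassGroup (𝓞 M) →* ClassGroup (𝓞 F) :=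
  classLift (relNorm0 F M) preserves_relNorm0

variable {F M}

/-- The Galois action on the class group. -/
noncomputable def classSigma (σ : Gal(M/F)) : ClassGroup (𝓞 M) →* ClassGroup (𝓞 M) :=
  classLift (smul0 σ) (preserves_smul0 σ)

theorem classNorm_mk0 (I : (Ideal (𝓞 M))⁰) :
    classNorm F M (ClassGroup.mk0 I) = ClassGroup.mk0 (relNorm0 F M I) :=
  classLift_mk0 _ _ I

theorem classSigma_mk0 (σ : Gal(M/F)) (I : (Ideal (𝓞 M))⁰) :
    classSigma σ (ClassGroup.mk0 I) = ClassGroup.mk0 (smul0 σ I) :=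
  classLift_mk0 _ _ I

theorem classNorm_classSigma (σ : Gal(M/F)) (c : ClassGroup (𝓞 M)) :
    classNorm F M (classSigma σ c) = classNorm F M c := by
  obtain ⟨I, rfl⟩ := ClassGroup.mk0_surjective c
  rw [classSigma_mk0, classNorm_mk0, classNorm_mk0]
  congr 1
  exact Subtype.ext (Ideal.relNorm_smul (𝓞 F) σ (I : Ideal (𝓞 M)))

/-- A fixed class is represented by ambiguous ideals. -/
theorem exists_amb_of_fixed (σ : Gal(M/F)) (I : (Ideal (𝓞 M))⁰)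
    (h : classSigma σ (ClassGroup.mk0 I) = ClassGroup.mk0 I) :
    ∃ ε : (𝓞 F)ˣ, Amb σ (I : Ideal (𝓞 M)) ε := by
  rw [classSigma_mk0] at h
  obtain ⟨x, y, hx, hy, hxy⟩ := ClassGroup.mk0_eq_mk0_iff.mp h
  rw [coe_smul0] at hxy
  have h1 := congrArg (Ideal.relNorm (𝓞 F)) hxy
  rw [map_mul, map_mul, Ideal.relNorm_smul, relNorm_span_singleton, relNorm_span_singleton] at h1
  have hI0 : Ideal.relNorm (𝓞 F) (I : Ideal (𝓞 M)) ≠ 0 := by
    rw [Ne, Ideal.zero_eq_bot, Ideal.relNorm_eq_bot_iff]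
    exact nonZeroDivisors.ne_zero I.2
  have h2 : Ideal.span {nm F M x} = Ideal.span {nm F M y} := mul_right_cancel₀ hI0 h1
  obtain ⟨ε, hε⟩ := Ideal.span_singleton_eq_span_singleton.mp h2
  exact ⟨ε, x, y, hx, hy, hxy, by rw [← hε, mul_comm]⟩

/-! ### The `Ψ`-count: fixed classes modulo extended classes -/

/-- Two fixed classes whose unit invariants agree modulo norms of units differ by an extended
class. -/
theorem inv_mul_mem_range_extendedHom (hunr : IsUnramifiedEverywhere F M) {σ : Gal(M/F)}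
    (hσ : ∀ x, x ∈ Subgroup.zpowers σ) {I I' : (Ideal (𝓞 M))⁰} {ε ε' : (𝓞 F)ˣ}
    (h1 : Amb σ (I : Ideal (𝓞 M)) ε) (h2 : Amb σ (I' : Ideal (𝓞 M)) ε')
    (hεε' : (QuotientGroup.mk ε : (𝓞 F)ˣ ⧸ (unitNorm F M).range) = QuotientGroup.mk ε') :
    (ClassGroup.mk0 I)⁻¹ * ClassGroup.mk0 I' ∈
      (ClassGroup.extendedHom (𝓞 F) (𝓞 M)).range := by
  obtain ⟨w, hw⟩ : ε⁻¹ * ε' ∈ (unitNorm F M).range := QuotientGroup.eq.mp hεε'
  obtain ⟨J, hJ⟩ := ClassGroup.mk0_surjective (ClassGroup.mk0 I)⁻¹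
  have hIJ : ClassGroup.mk0 (I * J) = 1 := by rw [map_mul, hJ, mul_inv_cancel]
  have hIJ0 : ((I * J : (Ideal (𝓞 M))⁰) : Ideal (𝓞 M)) ≠ ⊥ := nonZeroDivisors.ne_zero (I * J).2
  obtain ⟨⟨γ, hγ⟩⟩ := (ClassGroup.mk0_eq_one_iff (I * J).2).mp hIJ
  have hγ' : (I : Ideal (𝓞 M)) * (J : Ideal (𝓞 M)) = Ideal.span {γ} := hγ
  have hγ0 : γ ≠ 0 := by
    rintro rfl
    apply hIJ0
    rw [show ((I * J : (Ideal (𝓞 M))⁰) : Ideal (𝓞 M)) = Ideal.span {(0 : 𝓞 M)} from hγ]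
    simp
  have h3 : Amb σ (J : Ideal (𝓞 M)) ε⁻¹ := h1.of_mul_eq_span hγ0 hγ'
  obtain ⟨a, b, ha, hb, hab, hN⟩ := h3.mul h2
  rw [← hw, coe_unitNorm] at hN
  have hJI' : (J : Ideal (𝓞 M)) * (I' : Ideal (𝓞 M)) ≠ ⊥ :=
    mul_ne_zero (nonZeroDivisors.ne_zero J.2) (nonZeroDivisors.ne_zero I'.2)
  obtain ⟨𝔞, t, h𝔞0, ht0, h𝔞⟩ := exists_extended_of_amb hunr hσ hJI' ha hb hab w hN
  have h𝔞mem : 𝔞 ∈ (Ideal (𝓞 F))⁰ := mem_nonZeroDivisors_of_ne_zero h𝔞0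
  refine ⟨ClassGroup.mk0 ⟨𝔞, h𝔞mem⟩, ?_⟩
  rw [ClassGroup.extendedHom_mk0, ← hJ, ← map_mul]
  refine ClassGroup.mk0_eq_mk0_iff.mpr ⟨1, t, one_ne_zero, ht0, ?_⟩
  rw [Ideal.span_singleton_one, Ideal.top_mul]
  exact h𝔞.symm

/-- The predicate used to define the `Ψ`-invariant of a class. -/
def PsiRel (σ : Gal(M/F)) (c : ClassGroup (𝓞 M)) (ε : (𝓞 F)ˣ) : Prop :=
  ∃ I : (Ideal (𝓞 M))⁰, ClassGroup.mk0 I = c ∧ Amb σ (I : Ideal (𝓞 M)) ε

theorem exists_psiRel {σ : Gal(M/F)} {c : ClassGroup (𝓞 M)} (hc : classSigma σ c = c) :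
    ∃ ε, PsiRel σ c ε := by
  obtain ⟨I, rfl⟩ := ClassGroup.mk0_surjective c
  obtain ⟨ε, hε⟩ := exists_amb_of_fixed σ I hc
  exact ⟨ε, I, rfl, hε⟩

/-- **`Ψ`-count**: `[Cl_M^σ : j(Cl_F) ∩ Cl_M^σ] ≤ [E_F : N E_M]`. -/
theorem relIndex_range_extendedHom_le (hunr : IsUnramifiedEverywhere F M) {σ : Gal(M/F)}
    (hσ : ∀ x, x ∈ Subgroup.zpowers σ) (hfin : (unitNorm F M).range.index ≠ 0) :
    (ClassGroup.extendedHom (𝓞 F) (𝓞 M)).range.relIndex (fixedSub (classSigma σ)) ≤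
      (unitNorm F M).range.index := by
  classical
  have : (unitNorm F M).range.FiniteIndex := ⟨hfin⟩
  have : Finite ((𝓞 F)ˣ ⧸ (unitNorm F M).range) := Subgroup.finite_quotient_of_finiteIndex
  let f : ClassGroup (𝓞 M) → (𝓞 F)ˣ ⧸ (unitNorm F M).range := fun c =>
    QuotientGroup.mk (Classical.epsilon (PsiRel σ c))
  have hf : ∀ x ∈ fixedSub (classSigma σ), ∀ y ∈ fixedSub (classSigma σ), f x = f y →
      x⁻¹ * y ∈ (ClassGroup.extendedHom (𝓞 F) (𝓞 M)).range := by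
    intro x hx y hy hxy
    obtain ⟨I, hI, hIamb⟩ := Classical.epsilon_spec (exists_psiRel (mem_fixedSub.mp hx))
    obtain ⟨I', hI', hI'amb⟩ := Classical.epsilon_spec (exists_psiRel (mem_fixedSub.mp hy))
    have := inv_mul_mem_range_extendedHom hunr hσ hIamb hI'amb hxy
    rwa [hI, hI'] at this
  exact (relIndex_le_card_of_forall _ _ f hf).1

/-! ### The `Φ`-count: units of norm one modulo `(1 - σ)`-images -/

theorem exists_ideal_of_unitNorm_eq_one (hunr : IsUnramifiedEverywhere F M) {σ : Gal(M/F)}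
    (hσ : ∀ x, x ∈ Subgroup.zpowers σ) (u : (𝓞 M)ˣ) (hu : unitNorm F M u = 1) :
    ∃ (𝔞 : (Ideal (𝓞 F))⁰) (t : 𝓞 M), t ≠ 0 ∧ σ • t = (u : 𝓞 M) * t ∧
      (𝔞 : Ideal (𝓞 F)).map (algebraMap (𝓞 F) (𝓞 M)) = Ideal.span {t} := by
  have hnu : nm F M (u : 𝓞 M) = 1 := by rw [← coe_unitNorm, hu]; rfl
  obtain ⟨t, ht0, ht⟩ := exists_smul_eq hσ (a := 1) (b := 1) one_ne_zero u
    (by rw [map_one, hnu, one_mul])
  rw [one_mul, mul_one] at ht
  have hσt : σ • Ideal.span {t} = Ideal.span {t} := by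
    rw [smul_span_singleton, ht, ← Ideal.span_singleton_mul_span_singleton,
      Ideal.span_singleton_eq_top.mpr u.isUnit, Ideal.top_mul]
  obtain ⟨𝔞, h𝔞0, h𝔞⟩ := exists_map_eq_of_forall_smul_eq F M hunr _ (span_singleton_ne_bot ht0)
    (smul_eq_of_generator hσ hσt)
  exact ⟨⟨𝔞, mem_nonZeroDivisors_of_ne_zero h𝔞0⟩, t, ht0, ht, h𝔞⟩

/-- The predicate used to define the `Φ`-invariant of a unit of norm one. -/
def PhiRel (σ : Gal(M/F)) (u : (𝓞 M)ˣ) (c : ClassGroup (𝓞 F)) : Prop :=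
  ∃ (𝔞 : (Ideal (𝓞 F))⁰) (t : 𝓞 M), t ≠ 0 ∧ σ • t = (u : 𝓞 M) * t ∧
    (𝔞 : Ideal (𝓞 F)).map (algebraMap (𝓞 F) (𝓞 M)) = Ideal.span {t} ∧ ClassGroup.mk0 𝔞 = c

theorem exists_phiRel (hunr : IsUnramifiedEverywhere F M) {σ : Gal(M/F)}
    (hσ : ∀ x, x ∈ Subgroup.zpowers σ) {u : (𝓞 M)ˣ} (hu : unitNorm F M u = 1) :
    ∃ c, PhiRel σ u c := by
  obtain ⟨𝔞, t, ht0, ht, h𝔞⟩ := exists_ideal_of_unitNorm_eq_one hunr hσ u hu
  exact ⟨_, 𝔞, t, ht0, ht, h𝔞, rfl⟩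

theorem PhiRel.mem_ker {σ : Gal(M/F)} {u : (𝓞 M)ˣ} {c : ClassGroup (𝓞 F)} (h : PhiRel σ u c) :
    c ∈ (ClassGroup.extendedHom (𝓞 F) (𝓞 M)).ker := by
  obtain ⟨𝔞, t, ht0, -, h𝔞, rfl⟩ := h
  rw [MonoidHom.mem_ker, ClassGroup.extendedHom_mk0]
  exact (ClassGroup.mk0_eq_one_iff _).mpr ⟨⟨t, h𝔞⟩⟩

theorem PhiRel.inv_mul_mem {σ : Gal(M/F)} {u u' : (𝓞 M)ˣ} {c : ClassGroup (𝓞 F)}
    (h : PhiRel σ u c) (h' : PhiRel σ u' c) : u⁻¹ * u' ∈ (unitDelta σ).range := by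
  obtain ⟨𝔞, t, ht0, ht, h𝔞, h1⟩ := h
  obtain ⟨𝔞', t', ht0', ht', h𝔞', h1'⟩ := h'
  obtain ⟨x, y, hx, hy, hxy⟩ := ClassGroup.mk0_eq_mk0_iff.mp (h1.trans h1'.symm)
  have h2 := congrArg (Ideal.map (algebraMap (𝓞 F) (𝓞 M))) hxy
  rw [Ideal.map_mul, Ideal.map_mul, Ideal.map_span, Ideal.map_span, Set.image_singleton,
    Set.image_singleton, h𝔞, h𝔞', Ideal.span_singleton_mul_span_singleton,
    Ideal.span_singleton_mul_span_singleton] at h2
  obtain ⟨v, hv⟩ := Ideal.span_singleton_eq_span_singleton.mp h2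
  have hιx : algebraMap (𝓞 F) (𝓞 M) x ≠ 0 := by
    rw [Ne, map_eq_zero_iff _ (FaithfulSMul.algebraMap_injective (𝓞 F) (𝓞 M))]
    exact hx
  have h3 := congrArg (fun z => σ • z) hv
  simp only [smul_mul', smul_algebraMap, ht, ht'] at h3
  have h4 : algebraMap (𝓞 F) (𝓞 M) x * t * ((u : 𝓞 M) * σ • (v : 𝓞 M)) =
      algebraMap (𝓞 F) (𝓞 M) x * t * ((u' : 𝓞 M) * (v : 𝓞 M)) := by
    calc algebraMap (𝓞 F) (𝓞 M) x * t * ((u : 𝓞 M) * σ • (v : 𝓞 M))
        = algebraMap (𝓞 F) (𝓞 M) x * ((u : 𝓞 M) * t) * σ • (v : 𝓞 M) := by ring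
      _ = algebraMap (𝓞 F) (𝓞 M) y * ((u' : 𝓞 M) * t') := h3
      _ = (u' : 𝓞 M) * (algebraMap (𝓞 F) (𝓞 M) y * t') := by ring
      _ = algebraMap (𝓞 F) (𝓞 M) x * t * ((u' : 𝓞 M) * (v : 𝓞 M)) := by rw [← hv]; ring
  have h5 : (u : 𝓞 M) * σ • (v : 𝓞 M) = (u' : 𝓞 M) * (v : 𝓞 M) :=
    mul_left_cancel₀ (mul_ne_zero hιx ht0) h4
  have h6 : u * unitSigma σ v = u' * v := Units.ext h5
  refine ⟨v⁻¹, ?_⟩
  rw [unitDelta_apply, map_inv, div_eq_mul_inv, inv_inv, eq_inv_mul_iff_mul_eq, ← mul_assoc,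
    mul_comm u, mul_assoc, h6, ← mul_assoc, mul_comm v⁻¹, mul_assoc, inv_mul_cancel, mul_one]

/-- **`Φ`-count**: `[E₁ : (1 - σ) E_M] ≤ |ker j|`. -/
theorem relIndex_range_unitDelta_le (hunr : IsUnramifiedEverywhere F M) {σ : Gal(M/F)}
    (hσ : ∀ x, x ∈ Subgroup.zpowers σ) :
    (unitDelta σ).range.relIndex (unitNorm F M).ker ≤
      Nat.card (ClassGroup.extendedHom (𝓞 F) (𝓞 M)).ker := by
  classical
  let f : (𝓞 M)ˣ → (ClassGroup.extendedHom (𝓞 F) (𝓞 M)).ker := fun u =>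
    if hu : unitNorm F M u = 1 then
      ⟨Classical.epsilon (PhiRel σ u), (Classical.epsilon_spec (exists_phiRel hunr hσ hu)).mem_ker⟩
    else 1
  have hf : ∀ x ∈ (unitNorm F M).ker, ∀ y ∈ (unitNorm F M).ker, f x = f y →
      x⁻¹ * y ∈ (unitDelta σ).range := by
    intro x hx y hy hxy
    have hx' : unitNorm F M x = 1 := hx
    have hy' : unitNorm F M y = 1 := hy
    simp only [f, dif_pos hx', dif_pos hy'] at hxy
    have hxy' : Classical.epsilon (PhiRel σ x) = Classical.epsilon (PhiRel σ y) :=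
      congrArg Subtype.val hxy
    have h1 := Classical.epsilon_spec (exists_phiRel hunr hσ hx')
    have h2 := Classical.epsilon_spec (exists_phiRel hunr hσ hy')
    rw [hxy'] at h1
    exact h1.inv_mul_mem h2
  exact (relIndex_le_card_of_forall _ _ f hf).1

end Fermat.Agent.S14.FirstIdeal
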