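import Mathlib

/-!
# S14, piece COUNT-3: counting ideals in a class with an error term

For a number field `K` of degree `n`, and a class `C` of the class group, the number of nonzero
integral ideals in `C` of norm `≤ s` is `κ * s + O(s ^ (1 - 1 / n))`, where `κ` does not depend
on `C`.

The input is a lattice point counting statement with error term for the dilates of the set
`normLeOne K` (pieces COUNT-1 and COUNT-2), stated as the hypothesis `HasLatticeCountBound K`.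

The proofs of `card_class_eq_card_dvd` and `idealSetNormLeEquiv` are adapted from private lemmas of
Mathlib (`Mathlib/NumberTheory/NumberField/Ideal/Asymptotics.lean`, by Xavier Roblot).
-/

set_option autoImplicit false

noncomputable section

open Ideal NumberField NumberField.InfinitePlace NumberField.mixedEmbedding
  NumberField.mixedEmbedding.euclidean NumberField.mixedEmbedding.fundamentalCone
  NumberField.Units Submodule Filter Topology MeasureTheory

open scoped nonZeroDivisors Real Pointwise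

namespace Fermat.Agent.S14

variable (K : Type*) [Field K] [NumberField K]

/-- The density of ideals in a class: the residue of the Dedekind zeta function divided by the
class number. -/
def idealClassDensity : ℝ :=
  (2 ^ nrRealPlaces K * (2 * π) ^ nrComplexPlaces K * regulator K) /
    (torsionOrder K * Real.sqrt |discr K|)

/-- The region counted: the elements of the fundamental cone of norm `≤ 1`, in the Euclidean
mixed space. -/
def coneRegion : Set (euclidean.mixedSpace K) := toMixed K ⁻¹' normLeOne K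

open scoped Classical in
/-- Lattice point counting with error term for the dilates of `coneRegion K` (pieces COUNT-1 and
COUNT-2). -/
def HasLatticeCountBound : Prop :=
  ∀ (L : Submodule ℤ (euclidean.mixedSpace K)) [DiscreteTopology L] [IsZLattice ℝ L],
    ∃ A : ℝ, ∀ t : ℝ, 1 ≤ t →
      |(Nat.card ↑((t • coneRegion K) ∩ (L : Set (euclidean.mixedSpace K))) : ℝ)
        - t ^ Module.finrank ℚ K * volume.real (coneRegion K) / ZLattice.covolume L|
        ≤ A * t ^ (Module.finrank ℚ K - 1)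

variable {K}

section Aux

variable {C : ClassGroup (𝓞 K)} {J : (Ideal (𝓞 K))⁰} {s : ℝ}

theorem card_class_eq_card_dvd (hJ : ClassGroup.mk0 J = C⁻¹) :
    Nat.card {I : (Ideal (𝓞 K))⁰ // absNorm (I : Ideal (𝓞 K)) ≤ s ∧ ClassGroup.mk0 I = C}
      = Nat.card {I : (Ideal (𝓞 K))⁰ // (J : Ideal (𝓞 K)) ∣ I ∧ IsPrincipal (I : Ideal (𝓞 K)) ∧
        absNorm (I : Ideal (𝓞 K)) ≤ s * absNorm (J : Ideal (𝓞 K))} := by
  simp_rw [← nonZeroDivisors_dvd_iff_dvd_coe]
  refine Nat.card_congr ?_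
  refine ((Equiv.dvd J).subtypeEquiv fun I ↦ ?_).trans
    (Equiv.subtypeSubtypeEquivSubtypeInter (fun I : (Ideal (𝓞 K))⁰ ↦ J ∣ I) _)
  rw [← ClassGroup.mk0_eq_one_iff (SetLike.coe_mem _)]
  simp_rw [Equiv.dvd_apply, Submonoid.coe_mul, ← Submonoid.mul_def, _root_.map_mul, hJ,
    inv_mul_eq_one, Nat.cast_mul, mul_comm s, eq_comm, and_comm, and_congr_left_iff]
  exact fun _ ↦
    (mul_le_mul_iff_of_pos_left (Nat.cast_pos.mpr (absNorm_pos_of_nonZeroDivisors J))).symm

open scoped Classical in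
def idealSetNormLeEquiv :
    ↑({x | x ∈ (toMixed K) ⁻¹' fundamentalCone K ∧ mixedEmbedding.norm ((toMixed K) x) ≤ s} ∩
      (ZLattice.comap ℝ (idealLattice K ((FractionalIdeal.mk0 K) J)) (toMixed K).toLinearMap))
        ≃ {a : idealSet K J // mixedEmbedding.norm (a : mixedSpace K) ≤ s} := by
  rw [ZLattice.coe_comap]
  refine (((toMixed K).toEquiv.image _).trans (Equiv.subtypeEquivProp ?_)).trans
    (Equiv.subtypeSubtypeEquivSubtypeInter _ (mixedEmbedding.norm · ≤ s)).symm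
  ext
  simp_rw [mem_idealSet, Set.mem_image, Set.mem_inter_iff, Set.mem_preimage, SetLike.mem_coe,
    mem_idealLattice, FractionalIdeal.coe_mk0]
  constructor
  · rintro ⟨_, ⟨⟨hx₁, hx₂⟩, _, ⟨x, hx₃, rfl⟩, h⟩, rfl⟩
    exact ⟨⟨hx₁, x, hx₃, h⟩, hx₂⟩
  · rintro ⟨⟨hx₁, ⟨x, hx₂, rfl⟩⟩, hx₃⟩
    exact ⟨(toMixed K).symm (mixedEmbedding K x), ⟨⟨hx₁, hx₃⟩, ⟨(x : K), by simp [hx₂], rfl⟩⟩, rfl⟩

theorem smul_coneRegion {c : ℝ} (hc : 0 < c) :
    c • coneRegion K = {x | x ∈ (toMixed K) ⁻¹' fundamentalCone K ∧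
      mixedEmbedding.norm ((toMixed K) x) ≤ c ^ Module.finrank ℚ K} := by
  ext x
  rw [Set.mem_smul_set_iff_inv_smul_mem₀ hc.ne', coneRegion, Set.mem_preimage, map_smul,
    mem_normLeOne, smul_mem_iff_mem (inv_ne_zero hc.ne'), mixedEmbedding.norm_smul,
    abs_of_pos (inv_pos.mpr hc), inv_pow, inv_mul_le_iff₀ (pow_pos hc _), mul_one]
  rfl

open scoped Classical in
theorem card_class_mul_torsionOrder (hJ : ClassGroup.mk0 J = C⁻¹) (hs : 0 < s) :
    Nat.card {I : (Ideal (𝓞 K))⁰ // absNorm (I : Ideal (𝓞 K)) ≤ s ∧ ClassGroup.mk0 I = C} *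
        torsionOrder K =
      Nat.card ↑(((s * absNorm (J : Ideal (𝓞 K))) ^ ((Module.finrank ℚ K : ℝ)⁻¹) • coneRegion K) ∩
        (ZLattice.comap ℝ (idealLattice K (FractionalIdeal.mk0 K J))
          (toMixed K).toLinearMap : Set (euclidean.mixedSpace K))) := by
  have hNJ : (0 : ℝ) < absNorm (J : Ideal (𝓞 K)) :=
    Nat.cast_pos.mpr (absNorm_pos_of_nonZeroDivisors J)
  have hpos : 0 < s * absNorm (J : Ideal (𝓞 K)) := mul_pos hs hNJ
  have hn : (Module.finrank ℚ K : ℝ) ≠ 0 := Nat.cast_ne_zero.mpr Module.finrank_pos.ne'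
  rw [card_class_eq_card_dvd hJ, card_isPrincipal_dvd_norm_le,
    smul_coneRegion (Real.rpow_pos_of_pos hpos _), ← Real.rpow_natCast,
    Real.rpow_inv_rpow hpos.le hn]
  exact (Nat.card_congr idealSetNormLeEquiv).symm

end Aux

variable (K) in
open scoped Classical in
theorem exists_abs_card_class_sub_le_aux (h : HasLatticeCountBound K) (C : ClassGroup (𝓞 K)) :
    ∃ c A : ℝ, ∀ s : ℝ, 1 ≤ s →
      |(Nat.card {I : (Ideal (𝓞 K))⁰ //
          absNorm (I : Ideal (𝓞 K)) ≤ s ∧ ClassGroup.mk0 I = C} : ℝ) - c * s|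
        ≤ A * s ^ (1 - (Module.finrank ℚ K : ℝ)⁻¹) := by
  obtain ⟨J, hJ⟩ := ClassGroup.mk0_surjective C⁻¹
  set L : Submodule ℤ (euclidean.mixedSpace K) :=
    ZLattice.comap ℝ (idealLattice K (FractionalIdeal.mk0 K J)) (toMixed K).toLinearMap with hL
  obtain ⟨A, hA⟩ := h L
  set n := Module.finrank ℚ K with hn_def
  have hn : (n : ℝ) ≠ 0 := Nat.cast_ne_zero.mpr Module.finrank_pos.ne'
  have hn1 : 1 ≤ n := Module.finrank_pos
  set NJ : ℝ := ((absNorm (J : Ideal (𝓞 K)) : ℕ) : ℝ) with hNJ_def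
  have hNJ : 1 ≤ NJ := by
    have : 1 ≤ absNorm (J : Ideal (𝓞 K)) := absNorm_pos_of_nonZeroDivisors J
    rw [hNJ_def]
    exact_mod_cast this
  set w : ℝ := ((torsionOrder K : ℕ) : ℝ) with hw_def
  have hw : 0 < w := Nat.cast_pos.mpr (torsionOrder_pos K)
  set v : ℝ := volume.real (coneRegion K) / ZLattice.covolume L with hv_def
  refine ⟨NJ * v / w, |A| * NJ ^ (1 - (n : ℝ)⁻¹) / w, fun s hs ↦ ?_⟩
  have hs0 : 0 < s := lt_of_lt_of_le one_pos hs
  have hsNJ : 1 ≤ s * NJ := one_le_mul_of_one_le_of_one_le hs hNJ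
  have hsNJ0 : 0 < s * NJ := lt_of_lt_of_le one_pos hsNJ
  set t : ℝ := (s * NJ) ^ ((n : ℝ)⁻¹) with ht_def
  have ht1 : 1 ≤ t := Real.one_le_rpow hsNJ (inv_nonneg.mpr (Nat.cast_nonneg _))
  have ht0 : 0 < t := lt_of_lt_of_le one_pos ht1
  have htn : t ^ n = s * NJ := by
    rw [ht_def, ← Real.rpow_natCast, Real.rpow_inv_rpow hsNJ0.le hn]
  have htn1 : t ^ (n - 1) = (s * NJ) ^ (1 - (n : ℝ)⁻¹) := by
    rw [ht_def, ← Real.rpow_natCast, ← Real.rpow_mul hsNJ0.le, Nat.cast_sub hn1, Nat.cast_one,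
      inv_mul_eq_div, sub_div, div_self hn, one_div]
  have key := hA t ht1
  have hcard := card_class_mul_torsionOrder (K := K) (C := C) hJ hs0
  rw [← hL, ← ht_def] at hcard
  rw [← hcard, htn, htn1] at key
  push_cast at key
  set N : ℝ := (Nat.card {I : (Ideal (𝓞 K))⁰ //
          absNorm (I : Ideal (𝓞 K)) ≤ s ∧ ClassGroup.mk0 I = C} : ℝ) with hN_def
  have h1 : N - NJ * v / w * s = (N * w - s * NJ * volume.real (coneRegion K) /
      ZLattice.covolume L) / w := by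
    rw [hv_def]
    field_simp
  have h4 : |A| * NJ ^ (1 - (n : ℝ)⁻¹) / w * s ^ (1 - (n : ℝ)⁻¹) =
      (|A| * NJ ^ (1 - (n : ℝ)⁻¹) * s ^ (1 - (n : ℝ)⁻¹)) / w := by ring
  rw [h1, abs_div, abs_of_pos hw, h4, div_le_div_iff_of_pos_right hw]
  refine key.trans ?_
  rw [Real.mul_rpow hs0.le (by positivity : (0:ℝ) ≤ NJ)]
  have h2 : A ≤ |A| := le_abs_self A
  have h3 : 0 ≤ s ^ (1 - (n : ℝ)⁻¹) * NJ ^ (1 - (n : ℝ)⁻¹) := by positivity
  calc A * (s ^ (1 - (n : ℝ)⁻¹) * NJ ^ (1 - (n : ℝ)⁻¹))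
      ≤ |A| * (s ^ (1 - (n : ℝ)⁻¹) * NJ ^ (1 - (n : ℝ)⁻¹)) :=
        mul_le_mul_of_nonneg_right h2 h3
    _ = |A| * NJ ^ (1 - (n : ℝ)⁻¹) * s ^ (1 - (n : ℝ)⁻¹) := by ring

/-- If `f s = c * s + O(s ^ (1 - ε))` and `f s / s → κ`, then `c = κ`. -/
theorem eq_of_abs_sub_le_of_tendsto {f : ℝ → ℝ} {c A κ ε : ℝ} (hε : 0 < ε)
    (h : ∀ s : ℝ, 1 ≤ s → |f s - c * s| ≤ A * s ^ (1 - ε))
    (hlim : Tendsto (fun s ↦ f s / s) atTop (𝓝 κ)) : c = κ := by
  have h1 : Tendsto (fun s : ℝ ↦ A * s ^ (-ε)) atTop (𝓝 (A * 0)) :=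
    (tendsto_rpow_neg_atTop hε).const_mul A
  rw [mul_zero] at h1
  have h2 : Tendsto (fun s ↦ f s / s - c) atTop (𝓝 0) := by
    refine squeeze_zero_norm' ?_ h1
    filter_upwards [eventually_ge_atTop 1] with s hs
    have hs0 : 0 < s := lt_of_lt_of_le one_pos hs
    have h3 : f s / s - c = (f s - c * s) / s := by field_simp
    rw [Real.norm_eq_abs, h3, abs_div, abs_of_pos hs0, div_le_iff₀ hs0]
    refine (h s hs).trans (le_of_eq ?_)
    rw [mul_assoc, ← Real.rpow_add_one hs0.ne']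
    congr 2
    ring
  have h4 : Tendsto (fun s ↦ f s / s) atTop (𝓝 c) := by
    have := h2.add_const c
    simpa using this
  exact tendsto_nhds_unique h4 hlim

variable (K) in
/-- **COUNT-3**: the number of nonzero integral ideals of norm `≤ s` in a class `C` is
`idealClassDensity K * s + O(s ^ (1 - 1 / n))`. -/
theorem exists_abs_card_class_sub_le (h : HasLatticeCountBound K) (C : ClassGroup (𝓞 K)) :
    ∃ A : ℝ, ∀ s : ℝ, 1 ≤ s →
      |(Nat.card {I : (Ideal (𝓞 K))⁰ //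
          absNorm (I : Ideal (𝓞 K)) ≤ s ∧ ClassGroup.mk0 I = C} : ℝ) - idealClassDensity K * s|
        ≤ A * s ^ (1 - (Module.finrank ℚ K : ℝ)⁻¹) := by
  obtain ⟨c, A, hA⟩ := exists_abs_card_class_sub_le_aux K h C
  have hc : c = idealClassDensity K :=
    eq_of_abs_sub_le_of_tendsto
      (inv_pos.mpr (Nat.cast_pos.mpr (Module.finrank_pos (R := ℚ) (M := K)))) hA
      (NumberField.Ideal.tendsto_norm_le_and_mk_eq_div_atTop K C)
  exact ⟨A, hc ▸ hA⟩

variable (K) in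
/-- **COUNT-3**, uniform in the class. -/
theorem exists_forall_abs_card_class_sub_le (h : HasLatticeCountBound K) :
    ∃ A : ℝ, 0 ≤ A ∧ ∀ (C : ClassGroup (𝓞 K)) (s : ℝ), 1 ≤ s →
      |(Nat.card {I : (Ideal (𝓞 K))⁰ //
          absNorm (I : Ideal (𝓞 K)) ≤ s ∧ ClassGroup.mk0 I = C} : ℝ) - idealClassDensity K * s|
        ≤ A * s ^ (1 - (Module.finrank ℚ K : ℝ)⁻¹) := by
  choose A hA using exists_abs_card_class_sub_le K h
  refine ⟨∑ C, |A C|, Finset.sum_nonneg fun _ _ ↦ abs_nonneg _, fun C s hs ↦ ?_⟩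
  refine (hA C s hs).trans ?_
  have hs0 : 0 < s := lt_of_lt_of_le one_pos hs
  refine mul_le_mul_of_nonneg_right ?_ (Real.rpow_nonneg hs0.le _)
  exact (le_abs_self _).trans
    (Finset.single_le_sum (f := fun C ↦ |A C|) (fun _ _ ↦ abs_nonneg _) (Finset.mem_univ C))

end Fermat.Agent.S14
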