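import Fermat.Agent.S14.IdealCount
import Fermat.Agent.S14.IdealCountLip

/-!
# S14, COUNT: bridge between COUNT-1/COUNT-2 and COUNT-3

`hasLatticeCountBound_of_hasLipschitzFrontier`: the hypothesis `HasLatticeCountBound K` of
`Fermat.Agent.S14.exists_forall_abs_card_class_sub_le` (file `IdealCount.lean`) follows from the
Lipschitz parametrisation of the frontier of `normLeOne K` (`IdealCount.HasLipschitzFrontier K`,
the output of piece COUNT-2) by the lattice point counting theorem of piece COUNT-1.
-/

set_option autoImplicit false

namespace Fermat.Agent.S14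

open NumberField NumberField.mixedEmbedding NumberField.mixedEmbedding.euclidean
  NumberField.mixedEmbedding.fundamentalCone MeasureTheory Module
open scoped Pointwise

variable {K : Type*} [Field K] [NumberField K]

open scoped Classical in
theorem hasLatticeCountBound_of_hasLipschitzFrontier (h : IdealCount.HasLipschitzFrontier K) :
    HasLatticeCountBound K := by
  intro L _ _
  obtain ⟨d, J, hJ, ψ, Kc, hd, hψ, hfr⟩ := h.euclidean
  have hb : Bornology.IsBounded (coneRegion K) :=
    (toMixed K).antilipschitz.isBounded_preimage (isBounded_normLeOne K)
  have hm : MeasurableSet (coneRegion K) :=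
    (toMixed K).continuous.measurable (measurableSet_normLeOne K)
  obtain ⟨C, _, hC⟩ := LatticeCount.exists_abs_card_smul_sub_le' L hb hm ψ Kc hψ hfr
  refine ⟨C, fun t ht => ?_⟩
  have := hC t ht
  rw [euclidean.finrank, ← mul_div_assoc] at this
  have hd' : d = finrank ℚ K - 1 := by omega
  rwa [hd'] at this

end Fermat.Agent.S14
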