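import Fermat.Agent.S14.IdealCount

/-!
# S14, piece COUNT-3 (continued): sums of class functions over ideals of bounded norm

* `classSum K g s` : the sum of `g [I]` over the nonzero integral ideals `I` of norm `≤ s`.
* `classCoeff K g k` : the sum of `g [I]` over the nonzero integral ideals `I` of norm `k`
  (the coefficients of the `L`-series `∑ g [I] N(I)^(-s)`).
* `sum_Icc_classCoeff` : `∑ k ∈ Icc 1 N, classCoeff K g k = classSum K g N`.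
* `exists_norm_classSum_le` : for a nontrivial character `χ` of the class group,
  `‖classSum K χ s‖ ≤ A * s ^ (1 - 1 / n)`.
-/

set_option autoImplicit false

noncomputable section

open Ideal NumberField

open scoped nonZeroDivisors

namespace Fermat.Agent.S14

variable (K : Type*) [Field K] [NumberField K]

/-- The sum of `g [I]` over the nonzero integral ideals `I` of norm `≤ s`. -/
def classSum (g : ClassGroup (𝓞 K) → ℂ) (s : ℝ) : ℂ :=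
  ∑ᶠ I : {I : (Ideal (𝓞 K))⁰ // (absNorm (I : Ideal (𝓞 K)) : ℝ) ≤ s}, g (ClassGroup.mk0 I.1)

/-- The sum of `g [I]` over the nonzero integral ideals `I` of norm `k`. -/
def classCoeff (g : ClassGroup (𝓞 K) → ℂ) (k : ℕ) : ℂ :=
  ∑ᶠ I : {I : (Ideal (𝓞 K))⁰ // absNorm (I : Ideal (𝓞 K)) = k}, g (ClassGroup.mk0 I.1)

instance finite_norm_le (s : ℝ) :
    Finite {I : (Ideal (𝓞 K))⁰ // (absNorm (I : Ideal (𝓞 K)) : ℝ) ≤ s} := by
  have hfin : Finite {I : (Ideal (𝓞 K))⁰ // absNorm (I : Ideal (𝓞 K)) ≤ ⌊s⌋₊} :=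
    (Ideal.finite_setOfPred_absNorm_le₀ (S := 𝓞 K) ⌊s⌋₊).to_subtype
  refine Finite.of_injective
    (fun I ↦ (⟨I.1, ?_⟩ : {I : (Ideal (𝓞 K))⁰ // absNorm (I : Ideal (𝓞 K)) ≤ ⌊s⌋₊})) ?_
  · have h0 : 0 ≤ s := le_trans (Nat.cast_nonneg _) I.2
    exact (Nat.le_floor_iff h0).mpr I.2
  · intro I J h
    have h' : I.1 = J.1 := congrArg
      (fun x : {I : (Ideal (𝓞 K))⁰ // absNorm (I : Ideal (𝓞 K)) ≤ ⌊s⌋₊} ↦ x.1) h
    exact Subtype.ext h'

instance finite_norm_eq (k : ℕ) :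
    Finite {I : (Ideal (𝓞 K))⁰ // absNorm (I : Ideal (𝓞 K)) = k} := by
  refine Finite.of_injective
    (fun I ↦ (⟨I.1, ?_⟩ : {I : (Ideal (𝓞 K))⁰ // (absNorm (I : Ideal (𝓞 K)) : ℝ) ≤ (k : ℝ)})) ?_
  · exact_mod_cast I.2.le
  · intro I J h
    have h' : I.1 = J.1 := congrArg
      (fun x : {I : (Ideal (𝓞 K))⁰ // (absNorm (I : Ideal (𝓞 K)) : ℝ) ≤ (k : ℝ)} ↦ x.1) h
    exact Subtype.ext h'

theorem classSum_eq (g : ClassGroup (𝓞 K) → ℂ) (s : ℝ) :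
    classSum K g s = ∑ C, g C * (Nat.card {I : (Ideal (𝓞 K))⁰ //
      absNorm (I : Ideal (𝓞 K)) ≤ s ∧ ClassGroup.mk0 I = C} : ℂ) := by
  classical
  have : Fintype {I : (Ideal (𝓞 K))⁰ // (absNorm (I : Ideal (𝓞 K)) : ℝ) ≤ s} := Fintype.ofFinite _
  rw [classSum, finsum_eq_sum_of_fintype,
    ← Fintype.sum_fiberwise (fun I : {I : (Ideal (𝓞 K))⁰ //
      (absNorm (I : Ideal (𝓞 K)) : ℝ) ≤ s} ↦ ClassGroup.mk0 I.1)]
  refine Finset.sum_congr rfl fun C _ ↦ ?_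
  have h1 : ∀ i : {I : {I : (Ideal (𝓞 K))⁰ // (absNorm (I : Ideal (𝓞 K)) : ℝ) ≤ s} //
      ClassGroup.mk0 I.1 = C}, g (ClassGroup.mk0 i.1.1) = g C := fun i ↦ by rw [i.2]
  rw [Finset.sum_congr rfl fun i _ ↦ h1 i, Finset.sum_const, Finset.card_univ, nsmul_eq_mul,
    mul_comm, ← Nat.card_eq_fintype_card]
  congr 2
  exact Nat.card_congr (Equiv.subtypeSubtypeEquivSubtypeInter
    (fun I : (Ideal (𝓞 K))⁰ ↦ (absNorm (I : Ideal (𝓞 K)) : ℝ) ≤ s)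
    (fun I ↦ ClassGroup.mk0 I = C))

/-- The ideals of norm `k ≤ N` as a fibre of the norm on the ideals of norm `≤ N`. -/
def normFibreEquiv {N k : ℕ} (hk : k ∈ Finset.Icc 1 N)
    (φ : {I : (Ideal (𝓞 K))⁰ // (absNorm (I : Ideal (𝓞 K)) : ℝ) ≤ (N : ℝ)} → Finset.Icc 1 N)
    (hφ : ∀ I, (φ I : ℕ) = absNorm (I.1 : Ideal (𝓞 K))) :
    {I : {I : (Ideal (𝓞 K))⁰ // (absNorm (I : Ideal (𝓞 K)) : ℝ) ≤ (N : ℝ)} // φ I = ⟨k, hk⟩} ≃
      {I : (Ideal (𝓞 K))⁰ // absNorm (I : Ideal (𝓞 K)) = k} where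
  toFun I := ⟨I.1.1, by rw [← hφ I.1, I.2]⟩
  invFun I := ⟨⟨I.1, by
    rw [I.2]
    exact_mod_cast (Finset.mem_Icc.mp hk).2⟩, Subtype.ext (by rw [hφ]; exact I.2)⟩
  left_inv I := rfl
  right_inv I := rfl

theorem sum_Icc_classCoeff (g : ClassGroup (𝓞 K) → ℂ) (N : ℕ) :
    ∑ k ∈ Finset.Icc 1 N, classCoeff K g k = classSum K g N := by
  classical
  have : Fintype {I : (Ideal (𝓞 K))⁰ // (absNorm (I : Ideal (𝓞 K)) : ℝ) ≤ (N : ℝ)} :=
    Fintype.ofFinite _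
  have hmem : ∀ I : {I : (Ideal (𝓞 K))⁰ // (absNorm (I : Ideal (𝓞 K)) : ℝ) ≤ (N : ℝ)},
      absNorm (I.1 : Ideal (𝓞 K)) ∈ Finset.Icc 1 N := fun I ↦
    Finset.mem_Icc.mpr ⟨absNorm_pos_of_nonZeroDivisors I.1, by exact_mod_cast I.2⟩
  let φ : {I : (Ideal (𝓞 K))⁰ // (absNorm (I : Ideal (𝓞 K)) : ℝ) ≤ (N : ℝ)} → Finset.Icc 1 N :=
    fun I ↦ ⟨absNorm (I.1 : Ideal (𝓞 K)), hmem I⟩
  rw [classSum, finsum_eq_sum_of_fintype, ← Fintype.sum_fiberwise φ, ← Finset.sum_coe_sort]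
  refine Finset.sum_congr rfl fun k _ ↦ ?_
  have : Fintype {I : (Ideal (𝓞 K))⁰ // absNorm (I : Ideal (𝓞 K)) = (k : ℕ)} :=
    Fintype.ofFinite _
  rw [classCoeff, finsum_eq_sum_of_fintype]
  exact (Fintype.sum_equiv (normFibreEquiv K k.2 φ fun _ ↦ rfl) _ _ fun _ ↦ rfl).symm

/-- The values of a character of the class group have norm one. -/
theorem norm_classChar_eq_one (χ : ClassGroup (𝓞 K) →* ℂ) (C : ClassGroup (𝓞 K)) : ‖χ C‖ = 1 := by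
  have h1 : χ C ^ Fintype.card (ClassGroup (𝓞 K)) = 1 := by
    rw [← map_pow, pow_card_eq_one, map_one]
  exact Complex.norm_eq_one_of_pow_eq_one h1 Fintype.card_ne_zero

/-- **COUNT-3 for characters**: the partial sums of a nontrivial character of the class group over
the ideals of norm `≤ s` are `O(s ^ (1 - 1 / n))`. -/
theorem exists_norm_classSum_le (h : HasLatticeCountBound K) (χ : ClassGroup (𝓞 K) →* ℂ)
    (hχ : χ ≠ 1) :
    ∃ A : ℝ, 0 ≤ A ∧ ∀ s : ℝ, 1 ≤ s →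
      ‖classSum K χ s‖ ≤ A * s ^ (1 - (Module.finrank ℚ K : ℝ)⁻¹) := by
  obtain ⟨A, hA0, hA⟩ := exists_forall_abs_card_class_sub_le K h
  refine ⟨Fintype.card (ClassGroup (𝓞 K)) * A, by positivity, fun s hs ↦ ?_⟩
  have hsum : ∑ C : ClassGroup (𝓞 K), χ C = 0 := sum_hom_units_eq_zero χ hχ
  have h1 : classSum K χ s = ∑ C, χ C * (((Nat.card {I : (Ideal (𝓞 K))⁰ //
      absNorm (I : Ideal (𝓞 K)) ≤ s ∧ ClassGroup.mk0 I = C} : ℝ) -
        idealClassDensity K * s : ℝ) : ℂ) := by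
    rw [classSum_eq]
    have h2 : ∀ C : ClassGroup (𝓞 K), χ C * (((Nat.card {I : (Ideal (𝓞 K))⁰ //
        absNorm (I : Ideal (𝓞 K)) ≤ s ∧ ClassGroup.mk0 I = C} : ℝ) -
          idealClassDensity K * s : ℝ) : ℂ) =
        χ C * (Nat.card {I : (Ideal (𝓞 K))⁰ //
          absNorm (I : Ideal (𝓞 K)) ≤ s ∧ ClassGroup.mk0 I = C} : ℂ) -
        χ C * ((idealClassDensity K * s : ℝ) : ℂ) := fun C ↦ by
      push_cast
      ring
    rw [Finset.sum_congr rfl fun C _ ↦ h2 C, Finset.sum_sub_distrib, ← Finset.sum_mul, hsum,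
      zero_mul, sub_zero]
  rw [h1]
  refine (norm_sum_le _ _).trans ?_
  have h3 : ∀ C ∈ (Finset.univ : Finset (ClassGroup (𝓞 K))),
      ‖χ C * (((Nat.card {I : (Ideal (𝓞 K))⁰ //
        absNorm (I : Ideal (𝓞 K)) ≤ s ∧ ClassGroup.mk0 I = C} : ℝ) -
          idealClassDensity K * s : ℝ) : ℂ)‖ ≤ A * s ^ (1 - (Module.finrank ℚ K : ℝ)⁻¹) := by
    intro C _
    rw [norm_mul, norm_classChar_eq_one, one_mul, Complex.norm_real, Real.norm_eq_abs]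
    exact hA C s hs
  refine (Finset.sum_le_sum h3).trans (le_of_eq ?_)
  rw [Finset.sum_const, Finset.card_univ, nsmul_eq_mul, mul_assoc]

/-- The partial sums of the coefficients `classCoeff K χ` are `O(N ^ (1 - 1 / n))`. -/
theorem exists_norm_sum_classCoeff_le (h : HasLatticeCountBound K) (χ : ClassGroup (𝓞 K) →* ℂ)
    (hχ : χ ≠ 1) :
    ∃ A : ℝ, 0 ≤ A ∧ ∀ N : ℕ, ‖∑ k ∈ Finset.Icc 1 N, classCoeff K χ k‖ ≤
      A * (N : ℝ) ^ (1 - (Module.finrank ℚ K : ℝ)⁻¹) := by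
  obtain ⟨A, hA0, hA⟩ := exists_norm_classSum_le K h χ hχ
  refine ⟨A, hA0, fun N ↦ ?_⟩
  rcases Nat.eq_zero_or_pos N with rfl | hN
  · simp
    positivity
  · rw [sum_Icc_classCoeff]
    exact hA N (by exact_mod_cast hN)

end Fermat.Agent.S14
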