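import Fermat.Agent.S14.LatticeCountBound
import Fermat.Agent.S14.IdealCountChar

/-!
# S14, COUNT: unconditional forms of `IdealCount.lean` / `IdealCountChar.lean`

The hypothesis `HasLatticeCountBound K` is discharged by `hasLatticeCountBound K`
(`LatticeCountBound.lean`: COUNT-1 + COUNT-2).

* `exists_forall_abs_card_class_sub_le_main K`: the number of integral ideals of norm `≤ s` in a
  class is `idealClassDensity K * s + O(s ^ (1 - 1/n))`, uniformly in the class.
* `exists_norm_sum_classCoeff_le_main K χ hχ`: partial sums of the coefficients of the `L`-series of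
  a nontrivial class group character are `O(N ^ (1 - 1/n))`.

(The unconditional boundedness of the class group `L`-series is `classLSeries_bounded` in
`ClassLSeriesBounded.lean`.)
-/

set_option autoImplicit false

namespace Fermat.Agent.S14

open NumberField Ideal

open scoped nonZeroDivisors

variable (K : Type*) [Field K] [NumberField K]

/-- **COUNT-3**, unconditional, with the explicit density. -/
theorem exists_forall_abs_card_class_sub_le_main :
    ∃ A : ℝ, 0 ≤ A ∧ ∀ (C : ClassGroup (𝓞 K)) (s : ℝ), 1 ≤ s →
      |(Nat.card {I : (Ideal (𝓞 K))⁰ //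
          absNorm (I : Ideal (𝓞 K)) ≤ s ∧ ClassGroup.mk0 I = C} : ℝ) - idealClassDensity K * s|
        ≤ A * s ^ (1 - (Module.finrank ℚ K : ℝ)⁻¹) :=
  exists_forall_abs_card_class_sub_le K (hasLatticeCountBound K)

/-- Partial sums of the coefficients of the `L`-series of a nontrivial class group character,
unconditional. -/
theorem exists_norm_sum_classCoeff_le_main (χ : ClassGroup (𝓞 K) →* ℂ) (hχ : χ ≠ 1) :
    ∃ A : ℝ, 0 ≤ A ∧ ∀ N : ℕ, ‖∑ k ∈ Finset.Icc 1 N, classCoeff K (⇑χ) k‖ ≤
      A * (N : ℝ) ^ (1 - (Module.finrank ℚ K : ℝ)⁻¹) :=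
  exists_norm_sum_classCoeff_le K (hasLatticeCountBound K) χ hχ

end Fermat.Agent.S14
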