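import Mathlib

set_option autoImplicit false
set_option linter.unusedSectionVars false

/-!
# S14, COUNT-1: counting lattice points with an error term

For a bounded measurable set `A ⊆ ι → ℝ`, the number of integer points of `A` differs from the
volume of `A` by at most the number of unit cubes meeting the frontier of `A`. If the frontier of
`s` is covered by finitely many Lipschitz images of the unit cube of dimension `d`, the number of
unit cubes meeting the frontier of `t • s` is `O(t ^ d)`.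
-/

namespace Fermat.Agent.S14

open MeasureTheory Set
open scoped Pointwise

namespace LatticeCount

variable {ι : Type*} [Fintype ι]

/-- The half-open unit cube `∏ (ν i, ν i + 1]`. -/
def ucube (ν : ι → ℤ) : Set (ι → ℝ) := Set.pi Set.univ fun i => Set.Ioc (ν i : ℝ) (ν i + 1)

/-- The unique integer point of `ucube ν`. -/
noncomputable def corner (ν : ι → ℤ) : ι → ℝ := fun i => (ν i : ℝ) + 1

theorem mem_ucube {ν : ι → ℤ} {x : ι → ℝ} :
    x ∈ ucube ν ↔ ∀ i, (ν i : ℝ) < x i ∧ x i ≤ ν i + 1 := by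
  simp [ucube, Set.mem_pi]

theorem corner_mem (ν : ι → ℤ) : corner ν ∈ ucube ν := by
  rw [mem_ucube]; intro i; simp [corner]

/-- The index of the cube containing `x`. -/
noncomputable def idx (x : ι → ℝ) : ι → ℤ := fun i => ⌈x i⌉ - 1

theorem mem_ucube_iff_idx {ν : ι → ℤ} {x : ι → ℝ} : x ∈ ucube ν ↔ idx x = ν := by
  rw [mem_ucube, funext_iff]
  refine forall_congr' fun i => ?_
  simp only [idx]
  constructor
  · rintro ⟨h1, h2⟩
    have : ⌈x i⌉ = ν i + 1 := by
      rw [Int.ceil_eq_iff]
      push_cast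
      constructor <;> linarith
    omega
  · intro h
    have h' : ⌈x i⌉ = ν i + 1 := by omega
    rw [Int.ceil_eq_iff] at h'
    push_cast at h'
    constructor <;> linarith [h'.1, h'.2]

theorem mem_ucube_idx (x : ι → ℝ) : x ∈ ucube (idx x) := mem_ucube_iff_idx.mpr rfl

theorem ucube_disjoint {ν ν' : ι → ℤ} (h : ν ≠ ν') : Disjoint (ucube ν) (ucube ν') := by
  rw [Set.disjoint_left]
  intro x hx hx'
  exact h ((mem_ucube_iff_idx.mp hx).symm.trans (mem_ucube_iff_idx.mp hx'))

theorem measurableSet_ucube (ν : ι → ℤ) : MeasurableSet (ucube ν) :=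
  MeasurableSet.univ_pi fun _ => measurableSet_Ioc

theorem volume_ucube (ν : ι → ℤ) : volume (ucube ν) = 1 := by
  rw [ucube, Real.volume_pi_Ioc]
  simp

theorem isPreconnected_ucube (ν : ι → ℤ) : IsPreconnected (ucube ν) := by
  apply Convex.isPreconnected
  exact convex_pi fun i _ => convex_Ioc _ _

theorem intCast_mem_ucube_iff {ν x : ι → ℤ} :
    (fun i => (x i : ℝ)) ∈ ucube ν ↔ x = ν + 1 := by
  rw [mem_ucube, funext_iff]
  refine forall_congr' fun i => ?_
  simp only [Pi.add_apply, Pi.one_apply]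
  constructor
  · rintro ⟨h1, h2⟩
    have h1' : ν i < x i := by exact_mod_cast h1
    have h2' : x i ≤ ν i + 1 := by exact_mod_cast h2
    omega
  · intro h
    rw [h]; push_cast
    constructor <;> linarith

/-- Number of integer points in `A`. -/
noncomputable def latticeCount (A : Set (ι → ℝ)) : ℕ :=
  Nat.card {x : ι → ℤ // (fun i => (x i : ℝ)) ∈ A}

/-- Indices of the unit cubes meeting `A`. -/
def meet (A : Set (ι → ℝ)) : Set (ι → ℤ) := {ν | (ucube ν ∩ A).Nonempty}

theorem meet_mono {A B : Set (ι → ℝ)} (h : A ⊆ B) : meet A ⊆ meet B :=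
  fun _ ⟨x, hx1, hx2⟩ => ⟨x, hx1, h hx2⟩

theorem mem_meet_iff {A : Set (ι → ℝ)} {ν : ι → ℤ} : ν ∈ meet A ↔ ∃ x ∈ A, idx x = ν := by
  constructor
  · rintro ⟨x, hx1, hx2⟩
    exact ⟨x, hx2, mem_ucube_iff_idx.mp hx1⟩
  · rintro ⟨x, hx, rfl⟩
    exact ⟨x, mem_ucube_idx x, hx⟩

theorem finite_meet {A : Set (ι → ℝ)} (hA : Bornology.IsBounded A) : (meet A).Finite := by
  obtain ⟨R, hR⟩ := hA.subset_closedBall (0 : ι → ℝ)
  have hsub : meet A ⊆ Set.pi Set.univ fun _ : ι => Set.Icc (-⌈R⌉ - 1 : ℤ) ⌈R⌉ := by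
    intro ν hν
    obtain ⟨x, hx, rfl⟩ := mem_meet_iff.mp hν
    intro i _
    have hxR : ‖x‖ ≤ R := by simpa using hR hx
    have hxi : |x i| ≤ R := (norm_le_pi_norm x i).trans hxR
    have h1 : x i ≤ ⌈R⌉ := (le_abs_self _).trans (hxi.trans (Int.le_ceil R))
    have h2 : -(⌈R⌉ : ℝ) ≤ x i := by
      have := neg_abs_le (x i)
      have h3 : (R : ℝ) ≤ ⌈R⌉ := Int.le_ceil R
      linarith
    simp only [idx, Set.mem_Icc]
    constructor
    · have : (-⌈R⌉ : ℤ) ≤ ⌈x i⌉ := by
        rw [Int.le_ceil_iff]; push_cast; linarith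
      omega
    · have : ⌈x i⌉ ≤ ⌈R⌉ := Int.ceil_le.mpr h1
      omega
  exact (Set.Finite.pi fun _ => Set.finite_Icc _ _).subset hsub

/-- `latticeCount` as a sum over the cubes meeting `A`. -/
theorem latticeCount_eq_sum [DecidableEq ι] {A : Set (ι → ℝ)} (hA : Bornology.IsBounded A)
    [DecidablePred fun ν : ι → ℤ => corner ν ∈ A] :
    (latticeCount A : ℝ) =
      ∑ ν ∈ (finite_meet hA).toFinset, (if corner ν ∈ A then (1 : ℝ) else 0) := by
  classical
  rw [Finset.sum_ite, Finset.sum_const_zero, add_zero, Finset.sum_const, nsmul_eq_mul, mul_one]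
  congr 1
  unfold latticeCount
  rw [← Nat.card_eq_finsetCard]
  refine Nat.card_congr ?_
  refine
    { toFun := fun x => ⟨fun i => x.1 i - 1, ?_⟩
      invFun := fun ν => ⟨fun i => ν.1 i + 1, ?_⟩
      left_inv := fun x => by ext i; simp
      right_inv := fun ν => by ext i; simp }
  · have hc : corner (fun i => x.1 i - 1) = fun i => (x.1 i : ℝ) := by
      funext i; simp [corner]
    rw [Finset.mem_filter, Set.Finite.mem_toFinset, hc]
    refine ⟨⟨fun i => (x.1 i : ℝ), ?_, x.2⟩, x.2⟩
    rw [← hc]; exact corner_mem _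
  · have := ν.2
    rw [Finset.mem_filter] at this
    have hc : corner ν.1 = fun i => (((ν.1 i + 1 : ℤ)) : ℝ) := by
      funext i; simp [corner]
    rw [← hc]; exact this.2

/-- The volume of `A` as a sum over the cubes meeting `A`. -/
theorem volume_eq_sum {A : Set (ι → ℝ)} (hA : Bornology.IsBounded A) (hAm : MeasurableSet A) :
    volume.real A = ∑ ν ∈ (finite_meet hA).toFinset, volume.real (A ∩ ucube ν) := by
  classical
  have hU : A = ⋃ ν ∈ (finite_meet hA).toFinset, A ∩ ucube ν := by
    ext x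
    simp only [Set.mem_iUnion, Set.mem_inter_iff, exists_and_left, exists_prop,
      Set.Finite.mem_toFinset]
    constructor
    · intro hx
      exact ⟨hx, idx x, ⟨x, mem_ucube_idx x, hx⟩, mem_ucube_idx x⟩
    · rintro ⟨hx, _⟩
      exact hx
  have hfin : ∀ ν ∈ (finite_meet hA).toFinset, volume (A ∩ ucube ν) ≠ ⊤ := by
    intro ν _
    refine ne_top_of_le_ne_top ?_ (measure_mono Set.inter_subset_right)
    rw [volume_ucube]; exact ENNReal.one_ne_top
  conv_lhs => rw [hU]
  rw [measureReal_def, measure_biUnion_finset, ENNReal.toReal_sum hfin]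
  · rfl
  · intro ν _ ν' _ hne
    exact (ucube_disjoint hne).mono Set.inter_subset_right Set.inter_subset_right
  · intro ν _
    exact hAm.inter (measurableSet_ucube ν)

/-- A cube meeting `A` but not the frontier of `A` is contained in `A`. -/
theorem ucube_subset_of_not_meet_frontier {A : Set (ι → ℝ)} {ν : ι → ℤ} (h1 : ν ∈ meet A)
    (h2 : ν ∉ meet (frontier A)) : ucube ν ⊆ A := by
  have hsub : ucube ν ⊆ interior A ∪ (closure A)ᶜ := by
    intro x hx
    by_cases hxc : x ∈ closure A
    · by_cases hxi : x ∈ interior A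
      · exact Or.inl hxi
      · exact absurd ⟨x, hx, ⟨hxc, hxi⟩⟩ h2
    · exact Or.inr hxc
  have hdisj : Disjoint (interior A) (closure A)ᶜ :=
    Set.disjoint_left.mpr fun x hx hx' => hx' (subset_closure (interior_subset hx))
  rcases (isPreconnected_ucube ν).subset_or_subset isOpen_interior
    isClosed_closure.isOpen_compl hdisj hsub with h | h
  · exact h.trans interior_subset
  · obtain ⟨x, hx1, hx2⟩ := h1
    exact absurd (subset_closure hx2) (h hx1)

/-- **Counting lemma**: the number of integer points of a bounded measurable set differs from its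
volume by at most the number of unit cubes meeting its frontier. -/
theorem abs_latticeCount_sub_volume_le {A : Set (ι → ℝ)} (hA : Bornology.IsBounded A)
    (hAm : MeasurableSet A) :
    |(latticeCount A : ℝ) - volume.real A| ≤ (Nat.card (meet (frontier A)) : ℝ) := by
  classical
  have hfr : (meet (frontier A)).Finite :=
    finite_meet (hA.closure.subset frontier_subset_closure)
  rw [latticeCount_eq_sum hA, volume_eq_sum hA hAm, ← Finset.sum_sub_distrib]
  have hterm : ∀ ν ∈ (finite_meet hA).toFinset,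
      |(if corner ν ∈ A then (1 : ℝ) else 0) - volume.real (A ∩ ucube ν)| ≤
        if ν ∈ meet (frontier A) then 1 else 0 := by
    intro ν hν
    rw [Set.Finite.mem_toFinset] at hν
    have hv0 : 0 ≤ volume.real (A ∩ ucube ν) := measureReal_nonneg
    have hv1 : volume.real (A ∩ ucube ν) ≤ 1 := by
      have h1 : volume (A ∩ ucube ν) ≤ 1 := by
        rw [← volume_ucube ν]; exact measure_mono Set.inter_subset_right
      rw [measureReal_def]
      exact ENNReal.toReal_le_of_le_ofReal zero_le_one (by simpa using h1)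
    by_cases hfrν : ν ∈ meet (frontier A)
    · rw [if_pos hfrν]
      split_ifs
      · rw [abs_le]; constructor <;> linarith
      · rw [abs_le]; constructor <;> linarith
    · rw [if_neg hfrν]
      have hsub := ucube_subset_of_not_meet_frontier hν hfrν
      have hc : corner ν ∈ A := hsub (corner_mem ν)
      have hvol : volume.real (A ∩ ucube ν) = 1 := by
        rw [Set.inter_eq_right.mpr hsub, measureReal_def, volume_ucube]; simp
      rw [if_pos hc, hvol]; simp
  calc |∑ ν ∈ (finite_meet hA).toFinset,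
          ((if corner ν ∈ A then (1 : ℝ) else 0) - volume.real (A ∩ ucube ν))|
      ≤ ∑ ν ∈ (finite_meet hA).toFinset,
          |(if corner ν ∈ A then (1 : ℝ) else 0) - volume.real (A ∩ ucube ν)| :=
        Finset.abs_sum_le_sum_abs _ _
    _ ≤ ∑ ν ∈ (finite_meet hA).toFinset, (if ν ∈ meet (frontier A) then (1 : ℝ) else 0) :=
        Finset.sum_le_sum hterm
    _ = (((finite_meet hA).toFinset.filter fun ν => ν ∈ meet (frontier A)).card : ℝ) := by
        rw [Finset.sum_ite, Finset.sum_const_zero, add_zero, Finset.sum_const, nsmul_eq_mul,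
          mul_one]
    _ ≤ (hfr.toFinset.card : ℝ) := by
        apply Nat.cast_le.mpr
        apply Finset.card_le_card
        intro ν hν
        rw [Finset.mem_filter] at hν
        rw [Set.Finite.mem_toFinset]
        exact hν.2
    _ = (Nat.card (meet (frontier A)) : ℝ) := by
        rw [Nat.card_eq_card_finite_toFinset hfr]

section Boundary

variable {d : ℕ}

/-- Approximation of a point of the unit cube by a point of the grid of mesh `1 / m`. -/
theorem exists_grid_point {m : ℕ} (hm : 0 < m) {u : Fin d → ℝ} (hu : u ∈ Set.Icc (0 : Fin d → ℝ) 1) :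
    ∃ k : Fin d → Fin m, dist u (fun i => ((k i : ℕ) : ℝ) / m) ≤ 1 / m := by
  have hm' : (0 : ℝ) < m := Nat.cast_pos.mpr hm
  have hk : ∀ i, ∃ k : Fin m, |u i - ((k : ℕ) : ℝ) / m| ≤ 1 / m := by
    intro i
    have h0 : 0 ≤ u i := hu.1 i
    have h1 : u i ≤ 1 := hu.2 i
    set a := ⌊(m : ℝ) * u i⌋₊ with ha
    have ha1 : (a : ℝ) ≤ m * u i := Nat.floor_le (by positivity)
    have ha2 : (m : ℝ) * u i < a + 1 := Nat.lt_floor_add_one _
    by_cases hlt : a < m
    · refine ⟨⟨a, hlt⟩, ?_⟩
      simp only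
      rw [abs_le]
      constructor
      · have : (a : ℝ) / m ≤ u i := by rw [div_le_iff₀ hm']; linarith
        have h3 : (0 : ℝ) ≤ 1 / m := by positivity
        linarith
      · have : u i < (a + 1) / m := by rw [lt_div_iff₀ hm']; linarith
        have h3 : ((a : ℝ) + 1) / m = a / m + 1 / m := by ring
        linarith
    · have ham : m ≤ a := not_lt.mp hlt
      have hmu : (m : ℝ) * u i ≤ m := by nlinarith
      have ham' : (m : ℝ) ≤ a := Nat.cast_le.mpr ham
      have hu1 : u i = 1 := by
        have : (m : ℝ) ≤ m * u i := ham'.trans ha1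
        have : 1 ≤ u i := by
          by_contra hcon
          rw [not_le] at hcon
          nlinarith
        linarith
      refine ⟨⟨m - 1, Nat.sub_lt hm one_pos⟩, ?_⟩
      simp only
      rw [hu1, Nat.cast_pred hm]
      have : (1 : ℝ) - ((m : ℝ) - 1) / m = 1 / m := by field_simp; ring
      rw [this, abs_of_nonneg (by positivity)]
  choose k hk using hk
  refine ⟨k, ?_⟩
  rw [dist_pi_le_iff (by positivity)]
  intro i
  rw [Real.dist_eq]
  exact hk i

/-- If two points are at sup-distance `≤ κ` (a natural number), their cube indices differ by at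
most `κ` in each coordinate. -/
theorem idx_sub_idx_mem {x y : ι → ℝ} {κ : ℕ} (h : dist x y ≤ κ) (i : ι) :
    idx x i ∈ Finset.Icc (idx y i - κ) (idx y i + κ) := by
  have hi : |x i - y i| ≤ κ := by
    rw [← Real.dist_eq]; exact (dist_le_pi_dist x y i).trans h
  rw [abs_le] at hi
  simp only [idx, Finset.mem_Icc]
  constructor
  · have : ⌈y i⌉ - κ ≤ ⌈x i⌉ := by
      have h1 : ⌈y i⌉ ≤ ⌈x i + κ⌉ := Int.ceil_le_ceil (by linarith)
      have h2 : ⌈x i + (κ : ℝ)⌉ = ⌈x i⌉ + κ := by
        rw [show (κ : ℝ) = ((κ : ℤ) : ℝ) by simp, Int.ceil_add_intCast]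
      omega
    omega
  · have : ⌈x i⌉ ≤ ⌈y i⌉ + κ := by
      have h1 : ⌈x i⌉ ≤ ⌈y i + κ⌉ := Int.ceil_le_ceil (by linarith)
      have h2 : ⌈y i + (κ : ℝ)⌉ = ⌈y i⌉ + κ := by
        rw [show (κ : ℝ) = ((κ : ℤ) : ℝ) by simp, Int.ceil_add_intCast]
      omega
    omega

/-- **Boundary bound**: the number of unit cubes meeting the dilate by `t ≥ 1` of a Lipschitz
image of the `d`-dimensional unit cube is `O(t ^ d)`. -/
theorem card_meet_smul_image_le [DecidableEq ι] (φ : (Fin d → ℝ) → (ι → ℝ)) (K : NNReal)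
    (hφ : LipschitzWith K φ) {t : ℝ} (ht : 1 ≤ t) :
    Nat.card (meet (t • (φ '' Set.Icc (0 : Fin d → ℝ) 1))) ≤
      ⌈t⌉₊ ^ d * (2 * ⌈(K : ℝ)⌉₊ + 1) ^ Fintype.card ι := by
  classical
  set m := ⌈t⌉₊ with hm
  set κ := ⌈(K : ℝ)⌉₊ with hκ
  have ht0 : 0 < t := lt_of_lt_of_le one_pos ht
  have hm0 : 0 < m := Nat.ceil_pos.mpr ht0
  have htm : t ≤ m := Nat.le_ceil t
  have hKκ : (K : ℝ) ≤ κ := Nat.le_ceil _
  -- the grid points and their images
  let y' : (Fin d → Fin m) → (ι → ℝ) := fun k => t • φ (fun i => ((k i : ℕ) : ℝ) / m)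
  let T : Finset (ι → ℤ) := Finset.univ.biUnion fun k : Fin d → Fin m =>
    Fintype.piFinset fun i => Finset.Icc (idx (y' k) i - κ) (idx (y' k) i + κ)
  have hsub : meet (t • (φ '' Set.Icc (0 : Fin d → ℝ) 1)) ⊆ (T : Set (ι → ℤ)) := by
    intro ν hν
    obtain ⟨y, hy, rfl⟩ := mem_meet_iff.mp hν
    obtain ⟨_, ⟨u, hu, rfl⟩, rfl⟩ := hy
    obtain ⟨k, hk⟩ := exists_grid_point hm0 hu
    have hdist : dist (t • φ u) (y' k) ≤ κ := by
      have h1 : dist (φ u) (φ fun i => ((k i : ℕ) : ℝ) / m) ≤ K * (1 / m) :=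
        (hφ.dist_le_mul _ _).trans (mul_le_mul_of_nonneg_left hk K.2)
      have hm' : (0 : ℝ) < m := Nat.cast_pos.mpr hm0
      calc dist (t • φ u) (y' k) = |t| * dist (φ u) (φ fun i => ((k i : ℕ) : ℝ) / m) := by
            simp only [y']; rw [dist_smul₀, Real.norm_eq_abs]
        _ ≤ t * (K * (1 / m)) := by
            rw [abs_of_pos ht0]; exact mul_le_mul_of_nonneg_left h1 ht0.le
        _ = K * (t / m) := by ring
        _ ≤ K * 1 := by
            apply mul_le_mul_of_nonneg_left _ K.2
            rw [div_le_one hm']; exact htm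
        _ ≤ κ := by rw [mul_one]; exact hKκ
    simp only [T, Finset.coe_biUnion, Finset.coe_univ, Set.mem_univ, Set.iUnion_true,
      Set.mem_iUnion, Finset.mem_coe, Fintype.mem_piFinset]
    exact ⟨k, fun i => idx_sub_idx_mem hdist i⟩
  calc Nat.card (meet (t • (φ '' Set.Icc (0 : Fin d → ℝ) 1)))
      ≤ Nat.card (T : Set (ι → ℤ)) := Nat.card_mono T.finite_toSet hsub
    _ = T.card := by simp
    _ ≤ ∑ k : Fin d → Fin m, (Fintype.piFinset fun i =>
          Finset.Icc (idx (y' k) i - κ) (idx (y' k) i + κ)).card := Finset.card_biUnion_le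
    _ = ∑ _k : Fin d → Fin m, (2 * κ + 1) ^ Fintype.card ι := by
        apply Finset.sum_congr rfl
        intro k _
        rw [Fintype.card_piFinset]
        simp only [Int.card_Icc]
        rw [Finset.prod_congr rfl (g := fun _ => 2 * κ + 1) (fun i _ => by omega),
          Finset.prod_const, Finset.card_univ]
    _ = m ^ d * (2 * κ + 1) ^ Fintype.card ι := by
        rw [Finset.sum_const, Finset.card_univ, smul_eq_mul]
        simp

end Boundary

section Main

variable {d : ℕ}

theorem frontier_smul_set {t : ℝ} (ht : t ≠ 0) (s : Set (ι → ℝ)) :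
    frontier (t • s) = t • frontier s := by
  rw [frontier, frontier, closure_smul₀' ht, interior_smul₀ ht, Set.smul_set_sdiff₀ ht]

theorem meet_iUnion {J : Type*} (A : J → Set (ι → ℝ)) : meet (⋃ j, A j) = ⋃ j, meet (A j) := by
  ext ν
  simp only [meet, Set.mem_ofPred_eq, Set.inter_iUnion, Set.nonempty_iUnion, Set.mem_iUnion]

/-- **Counting with error term**: if the frontier of the bounded measurable set `s` is covered by
finitely many `K`-Lipschitz images of the unit cube of dimension `d`, then for `t ≥ 1` the number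
of integer points of `t • s` is `t ^ n vol(s) + O(t ^ d)`, with an explicit constant. -/
theorem abs_latticeCount_smul_sub_le [DecidableEq ι] {s : Set (ι → ℝ)}
    (hs : Bornology.IsBounded s) (hsm : MeasurableSet s) {J : Type*} [Fintype J]
    (φ : J → (Fin d → ℝ) → (ι → ℝ)) (K : NNReal) (hφ : ∀ j, LipschitzWith K (φ j))
    (hfr : frontier s ⊆ ⋃ j, φ j '' Set.Icc (0 : Fin d → ℝ) 1) {t : ℝ} (ht : 1 ≤ t) :
    |(latticeCount (t • s) : ℝ) - t ^ Fintype.card ι * volume.real s| ≤
      (Fintype.card J : ℝ) * ((⌈t⌉₊ : ℝ) ^ d * (2 * ⌈(K : ℝ)⌉₊ + 1) ^ Fintype.card ι) := by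
  have ht0 : 0 < t := lt_of_lt_of_le one_pos ht
  have hA : Bornology.IsBounded (t • s) := hs.smul₀ t
  have hAm : MeasurableSet (t • s) := hsm.const_smul_of_ne_zero ht0.ne'
  have hvol : volume.real (t • s) = t ^ Fintype.card ι * volume.real s := by
    rw [measureReal_def, Measure.addHaar_smul, Module.finrank_fintype_fun_eq_card,
      ENNReal.toReal_mul, ENNReal.toReal_ofReal (abs_nonneg _), abs_of_pos (pow_pos ht0 _),
      measureReal_def]
  have h1 := abs_latticeCount_sub_volume_le hA hAm
  rw [hvol] at h1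
  refine h1.trans ?_
  -- bound the number of cubes meeting the frontier
  have hsubset : meet (frontier (t • s)) ⊆
      ⋃ j, meet (t • (φ j '' Set.Icc (0 : Fin d → ℝ) 1)) := by
    rw [frontier_smul_set ht0.ne', ← meet_iUnion]
    apply meet_mono
    rw [← Set.smul_set_iUnion]
    exact Set.smul_set_mono hfr
  have hfin : ∀ j, (meet (t • (φ j '' Set.Icc (0 : Fin d → ℝ) 1))).Finite := by
    intro j
    apply finite_meet
    apply Bornology.IsBounded.smul₀ _ t
    exact ((isCompact_Icc.image (hφ j).continuous).isBounded)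
  have hcard : Nat.card (meet (frontier (t • s))) ≤
      ∑ _j : J, ⌈t⌉₊ ^ d * (2 * ⌈(K : ℝ)⌉₊ + 1) ^ Fintype.card ι := by
    calc Nat.card (meet (frontier (t • s)))
        = (meet (frontier (t • s))).ncard := _root_.Nat.card_coe_set_eq _
      _ ≤ (⋃ j, meet (t • (φ j '' Set.Icc (0 : Fin d → ℝ) 1))).ncard :=
          Set.ncard_le_ncard hsubset (Set.finite_iUnion hfin)
      _ ≤ ∑ j, (meet (t • (φ j '' Set.Icc (0 : Fin d → ℝ) 1))).ncard :=
          Set.ncard_iUnion_le_of_fintype _
      _ ≤ ∑ _j : J, ⌈t⌉₊ ^ d * (2 * ⌈(K : ℝ)⌉₊ + 1) ^ Fintype.card ι := by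
          apply Finset.sum_le_sum
          intro j _
          rw [← _root_.Nat.card_coe_set_eq]
          exact card_meet_smul_image_le (φ j) K (hφ j) ht
  calc (Nat.card (meet (frontier (t • s))) : ℝ)
      ≤ ((∑ _j : J, ⌈t⌉₊ ^ d * (2 * ⌈(K : ℝ)⌉₊ + 1) ^ Fintype.card ι : ℕ) : ℝ) :=
        Nat.cast_le.mpr hcard
    _ = _ := by
        rw [Finset.sum_const, Finset.card_univ, smul_eq_mul]
        push_cast
        ring

end Main

end LatticeCount

end Fermat.Agent.S14
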