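import Fermat.Agent.S14.LatticeCountZ
import Fermat.Agent.S14.NormLeOneLipschitz
import Fermat.Agent.S14.IdealCount

/-!
# S14, COUNT glue: `HasLatticeCountBound K`

We combine the lattice point count with error term (COUNT-1, `LatticeCount.exists_abs_card_smul_sub_le'`)
with the Lipschitz parametrisation of the frontier of `normLeOne K` (COUNT-2,
`exists_lipschitzWith_cover_frontier_normLeOne`), transported to the euclidean mixed space, to
prove the hypothesis `HasLatticeCountBound K` of COUNT-3 (`IdealCount.lean`,
`IdealCountChar.lean`) unconditionally.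
-/

set_option autoImplicit false

namespace Fermat.Agent.S14

open NumberField NumberField.InfinitePlace NumberField.mixedEmbedding
  NumberField.mixedEmbedding.euclidean NumberField.mixedEmbedding.fundamentalCone MeasureTheory

open scoped Pointwise

variable (K : Type*) [Field K] [NumberField K]

open scoped Classical in
/-- The frontier of `coneRegion K` (the preimage of `normLeOne K` in the euclidean mixed space) is
covered by finitely many Lipschitz images of the unit cube `[0,1]^d`, `d + 1 = [K : ℚ]`. -/
theorem exists_lipschitzWith_cover_frontier_coneRegion {d : ℕ}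
    (hd : d + 1 = Module.finrank ℚ K) :
    ∃ (m : ℕ) (ψ : Fin m → (Fin d → ℝ) → euclidean.mixedSpace K) (L : NNReal),
      (∀ i, LipschitzWith L (ψ i)) ∧
      frontier (coneRegion K) ⊆ ⋃ i, ψ i '' Set.Icc (0 : Fin d → ℝ) 1 := by
  obtain ⟨m, φ, L, hφ, hcov⟩ := exists_lipschitzWith_cover_frontier_normLeOne K hd
  set e : mixedSpace K ≃L[ℝ] euclidean.mixedSpace K := (toMixed K).symm with he
  refine ⟨m, fun i => e ∘ φ i, ‖(e : mixedSpace K →L[ℝ] euclidean.mixedSpace K)‖₊ * L,
    fun i => e.lipschitz.comp (hφ i), ?_⟩
  have h1 : frontier (coneRegion K) = toMixed K ⁻¹' frontier (normLeOne K) :=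
    ((toMixed K).toHomeomorph.preimage_frontier _).symm
  rw [h1]
  intro x hx
  obtain ⟨i, u, hu, hux⟩ := Set.mem_iUnion.mp (hcov hx)
  refine Set.mem_iUnion.mpr ⟨i, u, hu, ?_⟩
  simp only [Function.comp_apply, hux, he]
  exact (toMixed K).symm_apply_apply x

open scoped Classical in
theorem isBounded_coneRegion : Bornology.IsBounded (coneRegion K) :=
  (toMixed K).antilipschitz.isBounded_preimage (isBounded_normLeOne K)

theorem measurableSet_coneRegion : MeasurableSet (coneRegion K) :=
  (toMixed K).continuous.measurable (measurableSet_normLeOne K)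

open scoped Classical in
/-- **COUNT-1 + COUNT-2**: the lattice point count with error term for the dilates of
`coneRegion K`. -/
theorem hasLatticeCountBound : HasLatticeCountBound K := by
  intro L _ _
  have hn : 0 < Module.finrank ℚ K := Module.finrank_pos
  obtain ⟨d, hd⟩ : ∃ d, d + 1 = Module.finrank ℚ K := ⟨Module.finrank ℚ K - 1, by omega⟩
  obtain ⟨m, ψ, Kc, hψ, hfr⟩ := exists_lipschitzWith_cover_frontier_coneRegion K hd
  obtain ⟨C, _, hC⟩ := LatticeCount.exists_abs_card_smul_sub_le' L (isBounded_coneRegion K)
    (measurableSet_coneRegion K) ψ Kc hψ hfr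
  refine ⟨C, fun t ht => ?_⟩
  have h := hC t ht
  rw [euclidean.finrank, ← mul_div_assoc] at h
  have hd' : Module.finrank ℚ K - 1 = d := by omega
  rw [hd']
  exact h

end Fermat.Agent.S14
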