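import Fermat.Agent.S14.LatticeCount

/-!
# S14, piece COUNT-1 (continued): lattice point counting with error term for general `ℤ`-lattices

Transport of `LatticeCount.abs_latticeCount_smul_sub_le` (standard lattice `ℤ^ι ⊆ ℝ^ι`) to an
arbitrary `ℤ`-lattice `L` of a finite dimensional real normed space `E`, in the style of
`ZLattice.covolume.tendsto_card_le_div'` (of which `exists_abs_card_le_sub_le'` is a quantitative
version).

Main results (namespace `Fermat.Agent.S14.LatticeCount`):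
* `exists_abs_card_smul_sub_le''` (general normed space, volume in coordinates),
* `exists_abs_card_smul_sub_le'` (inner product space, with `ZLattice.covolume`),
* `exists_abs_card_le_sub_le'` (cone `X`, homogeneous `F` of degree `finrank ℝ E`).
-/

set_option autoImplicit false

namespace Fermat.Agent.S14

open MeasureTheory Set Module
open scoped Pointwise

namespace LatticeCount

theorem smul_setOf_le_one_eq {E : Type*} [AddCommGroup E] [Module ℝ E] {X : Set E}
    (hX : ∀ ⦃x⦄ ⦃r : ℝ⦄, x ∈ X → 0 < r → r • x ∈ X)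
    {F : E → ℝ} {n : ℕ} (hF₁ : ∀ x ⦃r : ℝ⦄, 0 ≤ r → F (r • x) = r ^ n * (F x)) {c : ℝ}
    (hc : 0 < c) :
    c • {x ∈ X | F x ≤ 1} = {x ∈ X | F x ≤ c ^ n} := by
  ext x
  simp_rw [Set.mem_smul_set_iff_inv_smul_mem₀ hc.ne', Set.mem_ofPred_eq, hF₁ _
    (inv_pos_of_pos hc).le, inv_pow, inv_mul_le_iff₀ (pow_pos hc _), mul_one, and_congr_left_iff]
  exact fun _ ↦ ⟨fun h ↦ (smul_inv_smul₀ hc.ne' x) ▸ hX h hc, fun h ↦ hX h (inv_pos_of_pos hc)⟩

section General

variable {E : Type*} [NormedAddCommGroup E] [NormedSpace ℝ E] [FiniteDimensional ℝ E]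
variable {L : Submodule ℤ E} [DiscreteTopology L] [IsZLattice ℝ L]
variable {ι : Type*} [Fintype ι] (b : Basis ι ℤ L)

/-- The number of points of `L` in `A` is the `latticeCount` of the image of `A` in the
coordinates given by a `ℤ`-basis of `L`. -/
theorem card_inter_eq_latticeCount (A : Set E) :
    Nat.card (A ∩ L : Set E) = latticeCount ((b.ofZLatticeBasis ℝ L).equivFun '' A) := by
  unfold latticeCount
  refine Nat.card_congr ?_
  refine Equiv.ofBijective (fun a => ⟨fun i => b.repr ⟨a.1, a.2.2⟩ i, ?_⟩) ⟨?_, ?_⟩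
  · refine ⟨a.1, a.2.1, ?_⟩
    ext i
    rw [Basis.equivFun_apply]
    exact b.ofZLatticeBasis_repr_apply ℝ L ⟨a.1, a.2.2⟩ i
  · intro a a' h
    have h' : ∀ i, b.repr ⟨a.1, a.2.2⟩ i = b.repr ⟨a'.1, a'.2.2⟩ i := fun i =>
      congrFun (congrArg Subtype.val h) i
    have h2 : b.repr ⟨a.1, a.2.2⟩ = b.repr ⟨a'.1, a'.2.2⟩ := Finsupp.ext h'
    have h3 := b.repr.injective h2
    exact Subtype.ext (congrArg (fun z : L => (z : E)) h3)
  · rintro ⟨x, a, ha, hax⟩
    have haL : a ∈ L := by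
      rw [← b.ofZLatticeBasis_span ℝ, Basis.mem_span_iff_repr_mem]
      intro i
      have := congrFun hax i
      rw [Basis.equivFun_apply] at this
      exact ⟨x i, by simpa using this.symm⟩
    refine ⟨⟨a, ha, haL⟩, ?_⟩
    apply Subtype.ext
    funext i
    have h1 := b.ofZLatticeBasis_repr_apply ℝ L ⟨a, haL⟩ i
    have h2 := congrFun hax i
    rw [Basis.equivFun_apply] at h2
    have : ((b.repr ⟨a, haL⟩ i : ℤ) : ℝ) = (x i : ℝ) := by rw [← h1, h2]
    exact_mod_cast this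

variable [MeasurableSpace E] [BorelSpace E]

/-- **Lattice point counting with error term** (general normed space version): if the frontier of
the bounded measurable set `s` is covered by finitely many Lipschitz images of the unit cube of
dimension `d`, then the number of points of the lattice `L` in `t • s` is
`t ^ n * vol (s) + O(t ^ d)`, where the volume is computed in coordinates relative to a basis
of `L`. -/
theorem exists_abs_card_smul_sub_le'' {s : Set E} (hs : Bornology.IsBounded s)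
    (hsm : MeasurableSet s) {d : ℕ} {J : Type*} [Fintype J] (φ : J → (Fin d → ℝ) → E) (K : NNReal)
    (hφ : ∀ j, LipschitzWith K (φ j))
    (hfr : frontier s ⊆ ⋃ j, φ j '' Set.Icc (0 : Fin d → ℝ) 1) :
    ∃ C : ℝ, 0 ≤ C ∧ ∀ t : ℝ, 1 ≤ t →
      |(Nat.card (t • s ∩ L : Set E) : ℝ) -
        t ^ Fintype.card ι * volume.real ((b.ofZLatticeBasis ℝ L).equivFun '' s)| ≤ C * t ^ d := by
  classical
  set e : E ≃L[ℝ] (ι → ℝ) := (b.ofZLatticeBasis ℝ L).equivFunL with he
  have hee : ∀ A : Set E, (b.ofZLatticeBasis ℝ L).equivFun '' A = e '' A := fun A => rfl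
  set K' : NNReal := ‖(e : E →L[ℝ] (ι → ℝ))‖₊ * K with hK'
  have hφ' : ∀ j, LipschitzWith K' (e ∘ φ j) := fun j => e.lipschitz.comp (hφ j)
  have hs' : Bornology.IsBounded (e '' s) := e.lipschitz.isBounded_image hs
  have hsm' : MeasurableSet (e '' s) :=
    e.toHomeomorph.toMeasurableEquiv.measurableSet_image.mpr hsm
  have hfr' : frontier (e '' s) ⊆ ⋃ j, (e ∘ φ j) '' Set.Icc (0 : Fin d → ℝ) 1 := by
    have h1 : frontier (e '' s) = e '' frontier s := (e.toHomeomorph.image_frontier s).symm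
    rw [h1]
    refine (Set.image_mono hfr).trans ?_
    rw [Set.image_iUnion]
    refine Set.iUnion_mono fun j => ?_
    rw [Set.image_comp]
  refine ⟨(Fintype.card J : ℝ) * (2 ^ d * (2 * ⌈(K' : ℝ)⌉₊ + 1) ^ Fintype.card ι), by positivity,
    fun t ht => ?_⟩
  have ht0 : 0 < t := lt_of_lt_of_le one_pos ht
  have main := abs_latticeCount_smul_sub_le hs' hsm' (fun j => e ∘ φ j) K' hφ' hfr' ht
  rw [card_inter_eq_latticeCount b, hee, hee, image_smul_set]
  refine main.trans ?_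
  have hceil : (⌈t⌉₊ : ℝ) ≤ 2 * t := by
    have := (Nat.ceil_lt_add_one ht0.le).le
    linarith
  have : (⌈t⌉₊ : ℝ) ^ d ≤ 2 ^ d * t ^ d := by
    rw [← mul_pow]
    exact pow_le_pow_left₀ (Nat.cast_nonneg _) hceil d
  calc (Fintype.card J : ℝ) * ((⌈t⌉₊ : ℝ) ^ d * (2 * ⌈(K' : ℝ)⌉₊ + 1) ^ Fintype.card ι)
      ≤ (Fintype.card J : ℝ) * ((2 ^ d * t ^ d) * (2 * ⌈(K' : ℝ)⌉₊ + 1) ^ Fintype.card ι) := by
        gcongr
    _ = _ := by ring

end General

section InnerProductSpace

variable {E : Type*} [NormedAddCommGroup E] [InnerProductSpace ℝ E] [FiniteDimensional ℝ E]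
  [MeasurableSpace E] [BorelSpace E]
variable (L : Submodule ℤ E) [DiscreteTopology L] [IsZLattice ℝ L]

/-- **Lattice point counting with error term** (inner product space version, with covolume). -/
theorem exists_abs_card_smul_sub_le' {s : Set E} (hs : Bornology.IsBounded s)
    (hsm : MeasurableSet s) {d : ℕ} {J : Type*} [Fintype J] (φ : J → (Fin d → ℝ) → E) (K : NNReal)
    (hφ : ∀ j, LipschitzWith K (φ j))
    (hfr : frontier s ⊆ ⋃ j, φ j '' Set.Icc (0 : Fin d → ℝ) 1) :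
    ∃ C : ℝ, 0 ≤ C ∧ ∀ t : ℝ, 1 ≤ t →
      |(Nat.card (t • s ∩ L : Set E) : ℝ) -
        t ^ finrank ℝ E * (volume.real s / ZLattice.covolume L)| ≤ C * t ^ d := by
  let b := Module.Free.chooseBasis ℤ L
  obtain ⟨C, hC, h⟩ := exists_abs_card_smul_sub_le'' b hs hsm φ K hφ hfr
  refine ⟨C, hC, fun t ht => ?_⟩
  have := h t ht
  rwa [← finrank_eq_card_chooseBasisIndex, ZLattice.rank ℝ L, measureReal_def,
    ZLattice.volume_image_eq_volume_div_covolume' L b hsm.nullMeasurableSet, ENNReal.toReal_div,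
    ENNReal.toReal_ofReal (ZLattice.covolume_pos L volume).le, ← measureReal_def] at this

/-- **Counting lattice points of bounded "norm" in a cone, with error term**: quantitative version
of `ZLattice.covolume.tendsto_card_le_div'`. -/
theorem exists_abs_card_le_sub_le' [Nontrivial E] {X : Set E} {F : E → ℝ}
    (hX : ∀ ⦃x⦄ ⦃r : ℝ⦄, x ∈ X → 0 < r → r • x ∈ X)
    (h₁ : ∀ x ⦃r : ℝ⦄, 0 ≤ r → F (r • x) = r ^ finrank ℝ E * (F x))
    (h₂ : Bornology.IsBounded {x ∈ X | F x ≤ 1}) (h₃ : MeasurableSet {x ∈ X | F x ≤ 1})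
    {d : ℕ} {J : Type*} [Fintype J] (φ : J → (Fin d → ℝ) → E) (K : NNReal)
    (hφ : ∀ j, LipschitzWith K (φ j))
    (hfr : frontier {x ∈ X | F x ≤ 1} ⊆ ⋃ j, φ j '' Set.Icc (0 : Fin d → ℝ) 1) :
    ∃ C : ℝ, 0 ≤ C ∧ ∀ c : ℝ, 1 ≤ c →
      |(Nat.card ({x ∈ X | F x ≤ c} ∩ L : Set E) : ℝ) -
        c * (volume.real {x ∈ X | F x ≤ 1} / ZLattice.covolume L)| ≤
          C * c ^ ((d : ℝ) / (finrank ℝ E : ℝ)) := by
  obtain ⟨C, hC, h⟩ := exists_abs_card_smul_sub_le' L h₂ h₃ φ K hφ hfr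
  refine ⟨C, hC, fun c hc => ?_⟩
  have hc0 : 0 < c := lt_of_lt_of_le one_pos hc
  have hn : (finrank ℝ E : ℝ) ≠ 0 := Nat.cast_ne_zero.mpr finrank_pos.ne'
  set t : ℝ := c ^ ((finrank ℝ E : ℝ))⁻¹ with ht
  have ht1 : 1 ≤ t := Real.one_le_rpow hc (inv_nonneg.mpr (Nat.cast_nonneg _))
  have ht0 : 0 < t := lt_of_lt_of_le one_pos ht1
  have htn : t ^ finrank ℝ E = c := by
    rw [ht, ← Real.rpow_natCast, Real.rpow_inv_rpow hc0.le hn]
  have htd : t ^ d = c ^ ((d : ℝ) / (finrank ℝ E : ℝ)) := by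
    rw [ht, ← Real.rpow_natCast, ← Real.rpow_mul hc0.le, div_eq_inv_mul]
  have := h t ht1
  rwa [smul_setOf_le_one_eq hX h₁ ht0, htn, htd] at this

end InnerProductSpace

end LatticeCount

end Fermat.Agent.S14
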