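import Mathlib
import Fermat.Agent.S14.Defs
import Fermat.Agent.S14.FrobBasic
import Fermat.Agent.S14.FrobSplit
import Fermat.Agent.S14.Zeta
import Fermat.Agent.S14.Graph

/-!
# S14, piece RECIP (assembly): Artin reciprocity from the crossing output

`M/F` is an everywhere unramified abelian extension of number fields of prime degree `p`, and `𝔪` is
a nonzero "bad" modulus. The hypothesis `hcross` is the output of Artin's crossing argument for two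
primes `𝔓₁, 𝔓₂` coprime to `𝔪`: there is an ideal `𝔠` with nontrivial Artin symbol such that
`𝔓ᵢ ≡ 𝔠 ^ dᵢ` modulo the norm classes, where `artin 𝔓ᵢ = artin 𝔠 ^ dᵢ`. Together with the first
inequality (`normClasses F M ≠ ⊤`) this gives: principal ideals coprime to `𝔪` have trivial Artin
symbol (`artin_span_singleton_eq_one_of_cross`).
-/

set_option autoImplicit false
set_option linter.style.haveILetI false

open scoped nonZeroDivisors
open NumberField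

namespace Fermat.Agent.S14

section Abstract

/-- Powers of an element killed by `p` only depend on the exponent modulo `p`. -/
theorem pow_eq_pow_of_pow_eq_one_of_modEq {G : Type*} [Monoid G] {x : G} {p a b : ℕ}
    (hx : x ^ p = 1) (hab : a ≡ b [MOD p]) : x ^ a = x ^ b := by
  rw [pow_eq_pow_mod a hx, pow_eq_pow_mod b hx, hab]

/-- In a group of prime order `p`, a nontrivial element has order `p`. -/
theorem orderOf_eq_of_card_eq_prime {G : Type*} [Group G] {p : ℕ} (hp : p.Prime)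
    (hcard : Nat.card G = p) {g : G} (hg : g ≠ 1) : orderOf g = p := by
  have hdvd : orderOf g ∣ p := hcard ▸ orderOf_dvd_natCard g
  rcases (Nat.dvd_prime hp).mp hdvd with h | h
  · exact absurd (orderOf_eq_one_iff.mp h) hg
  · exact h

/-- In a group of prime order `p`, `g ^ a = g ^ b` for a nontrivial `g` forces `a ≡ b [MOD p]`. -/
theorem modEq_of_pow_eq_pow_of_card_eq_prime {G : Type*} [Group G] {p : ℕ} (hp : p.Prime)
    (hcard : Nat.card G = p) {g : G} (hg : g ≠ 1) {a b : ℕ} (h : g ^ a = g ^ b) :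
    a ≡ b [MOD p] := by
  have := pow_eq_pow_iff_modEq.mp h
  rwa [orderOf_eq_of_card_eq_prime hp hcard hg] at this

end Abstract

section Assembly

variable (F M : Type*) [Field F] [NumberField F] [Field M] [NumberField M] [Algebra F M]

/-- The `[M : F]`-th power of an ideal class of `F` is a norm class. -/
theorem mk0_pow_finrank_mem_normClasses (𝔠 : (Ideal (𝓞 F))⁰) :
    ClassGroup.mk0 𝔠 ^ Module.finrank F M ∈ normClasses F M := by
  have h0 : (𝔠 : Ideal (𝓞 F)).map (algebraMap (𝓞 F) (𝓞 M)) ≠ ⊥ := by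
    rw [Ne, Ideal.map_eq_bot_iff_of_injective (FaithfulSMul.algebraMap_injective (𝓞 F) (𝓞 M))]
    exact nonZeroDivisors.coe_ne_zero 𝔠
  have hmem : ClassGroup.mk0 (relNorm₀ F M ⟨_, mem_nonZeroDivisors_of_ne_zero h0⟩) ∈
      (normClasses F M : Set (ClassGroup (𝓞 F))) := by
    rw [normClasses_eq_range]
    exact ⟨_, rfl⟩
  have heq : relNorm₀ F M ⟨_, mem_nonZeroDivisors_of_ne_zero h0⟩ = 𝔠 ^ Module.finrank F M := by
    apply Subtype.ext
    rw [coe_relNorm₀, SubmonoidClass.coe_pow]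
    change Ideal.relNorm (𝓞 F) ((𝔠 : Ideal (𝓞 F)).map (algebraMap (𝓞 F) (𝓞 M))) = _
    rw [Ideal.relNorm_algebraMap, IsFractionRing.finrank_eq (𝓞 F) F (𝓞 M) M]
  rw [heq, map_pow] at hmem
  exact hmem

open scoped IsMulCommutative in
/-- **RECIP (assembly)**: Artin reciprocity for an everywhere unramified abelian extension of prime
degree from the first inequality and the output of the crossing argument. -/
theorem artin_span_singleton_eq_one_of_cross [IsAbelianGalois F M] {p : ℕ} (hp : p.Prime)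
    (hdeg : Module.finrank F M = p) (hunr : IsUnramifiedEverywhere F M)
    (hfirst : normClasses F M ≠ ⊤)
    (𝔪 : Ideal (𝓞 F)) (h𝔪 : 𝔪 ≠ ⊥)
    (hcross : ∀ 𝔓₁ 𝔓₂ : (Ideal (𝓞 F))⁰, (𝔓₁ : Ideal (𝓞 F)).IsPrime →
      IsCoprime (𝔓₁ : Ideal (𝓞 F)) 𝔪 → (𝔓₂ : Ideal (𝓞 F)).IsPrime →
      IsCoprime (𝔓₂ : Ideal (𝓞 F)) 𝔪 →
      ∃ (𝔠 : (Ideal (𝓞 F))⁰) (d₁ d₂ : ℕ), artin F M (𝔠 : Ideal (𝓞 F)) ≠ 1 ∧
        artin F M (𝔓₁ : Ideal (𝓞 F)) = artin F M (𝔠 : Ideal (𝓞 F)) ^ d₁ ∧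
        ClassGroup.mk0 𝔓₁ / ClassGroup.mk0 𝔠 ^ d₁ ∈ normClasses F M ∧
        artin F M (𝔓₂ : Ideal (𝓞 F)) = artin F M (𝔠 : Ideal (𝓞 F)) ^ d₂ ∧
        ClassGroup.mk0 𝔓₂ / ClassGroup.mk0 𝔠 ^ d₂ ∈ normClasses F M)
    (β : 𝓞 F) (hβ : IsCoprime (Ideal.span {β}) 𝔪) :
    artin F M (Ideal.span {β}) = 1 := by
  classical
  by_cases hβ0 : Ideal.span {β} = (⊥ : Ideal (𝓞 F))
  · rw [hβ0, artin_bot]
  haveI : Fact p.Prime := ⟨hp⟩
  have hcardG : Nat.card Gal(M/F) = p := by rw [IsGalois.card_aut_eq_finrank, hdeg]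
  set N := normClasses F M with hN
  -- `p`-th powers of classes are norm classes
  have hpow : ∀ 𝔠 : (Ideal (𝓞 F))⁰, ClassGroup.mk0 𝔠 ^ p ∈ N := fun 𝔠 => by
    have := mk0_pow_finrank_mem_normClasses F M 𝔠
    rwa [hdeg] at this
  -- the quotient group
  let π : ClassGroup (𝓞 F) →* ClassGroup (𝓞 F) ⧸ N := QuotientGroup.mk' N
  have hπ : ∀ c : ClassGroup (𝓞 F), π c = 1 ↔ c ∈ N := fun c => QuotientGroup.eq_one_iff c
  have hπpow : ∀ 𝔠 : (Ideal (𝓞 F))⁰, π (ClassGroup.mk0 𝔠) ^ p = 1 := fun 𝔠 => by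
    rw [← map_pow, hπ]
    exact hpow 𝔠
  -- a reference prime with nontrivial Frobenius
  have hfin : {𝔭 : Ideal (𝓞 F) | 𝔭 ∈ UniqueFactorizationMonoid.normalizedFactors 𝔪}.Finite :=
    (UniqueFactorizationMonoid.normalizedFactors 𝔪).toFinset.finite_toSet.subset
      (fun 𝔭 h𝔭 => Finset.mem_coe.mpr (Multiset.mem_toFinset.mpr h𝔭))
  obtain ⟨𝔮, h𝔮p, h𝔮0, h𝔮S, h𝔮lt⟩ := exists_prime_not_split F M (hdeg ▸ hp.one_lt) _ hfin
  have hcop_of_prime : ∀ 𝔓 : Ideal (𝓞 F), 𝔓.IsPrime → 𝔓 ≠ ⊥ → ¬ 𝔪 ≤ 𝔓 → IsCoprime 𝔓 𝔪 := by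
    intro 𝔓 h𝔓 h𝔓0 hnle
    have h𝔓m : 𝔓.IsMaximal := Ring.DimensionLEOne.maximalOfPrime h𝔓0 h𝔓
    rw [Ideal.isCoprime_iff_sup_eq]
    by_contra hne
    apply hnle
    have := h𝔓m.eq_of_le hne le_sup_left
    rw [this]
    exact le_sup_right
  have h𝔮cop : IsCoprime 𝔮 𝔪 := hcop_of_prime 𝔮 h𝔮p h𝔮0
    (fun hle => h𝔮S ((Ideal.mem_normalizedFactors_iff h𝔪).mpr ⟨h𝔮p, hle⟩))
  have hg1 : artin F M 𝔮 ≠ 1 := by
    haveI := h𝔮p
    rw [artin_of_isPrime F M 𝔮 h𝔮0]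
    intro h
    have := (frob_eq_one_iff_of_unramified F M hunr 𝔮 h𝔮0).mp h
    omega
  set 𝔮₀ : (Ideal (𝓞 F))⁰ := ⟨𝔮, mem_nonZeroDivisors_of_ne_zero h𝔮0⟩ with h𝔮₀
  set g : Gal(M/F) := artin F M 𝔮 with hg
  set x : ClassGroup (𝓞 F) ⧸ N := π (ClassGroup.mk0 𝔮₀) with hx
  have hxp : x ^ p = 1 := hπpow 𝔮₀
  have hgen : ∀ h : Gal(M/F), ∃ k : ℕ, g ^ k = h := fun h =>
    mem_powers_of_prime_card hcardG hg1 (g' := h)
  -- the key property of an ideal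
  let P : Ideal (𝓞 F) → Prop := fun I =>
    ∃ hI : I ≠ ⊥, ∀ e : ℕ, artin F M I = g ^ e →
      π (ClassGroup.mk0 ⟨I, mem_nonZeroDivisors_of_ne_zero hI⟩) = x ^ e
  -- primes coprime to `𝔪`
  have hprime : ∀ 𝔓 : Ideal (𝓞 F), 𝔓.IsPrime → 𝔓 ≠ ⊥ → IsCoprime 𝔓 𝔪 → P 𝔓 := by
    intro 𝔓 h𝔓 h𝔓0 h𝔓cop
    refine ⟨h𝔓0, fun e he => ?_⟩
    set 𝔓₀ : (Ideal (𝓞 F))⁰ := ⟨𝔓, mem_nonZeroDivisors_of_ne_zero h𝔓0⟩ with h𝔓₀
    obtain ⟨𝔠, d₁, d₂, hτ, ha₁, hc₁, ha₂, hc₂⟩ := hcross 𝔮₀ 𝔓₀ h𝔮p h𝔮cop h𝔓 h𝔓cop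
    set τ : Gal(M/F) := artin F M (𝔠 : Ideal (𝓞 F)) with hτdef
    set y : ClassGroup (𝓞 F) ⧸ N := π (ClassGroup.mk0 𝔠) with hy
    have hyp : y ^ p = 1 := hπpow 𝔠
    -- classes
    have hx_eq : x = y ^ d₁ := by
      have := (hπ _).mpr hc₁
      rw [map_div, map_pow, div_eq_one] at this
      exact this
    have h𝔓_eq : π (ClassGroup.mk0 𝔓₀) = y ^ d₂ := by
      have := (hπ _).mpr hc₂
      rw [map_div, map_pow, div_eq_one] at this
      exact this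
    -- exponents
    have ha₁' : g = τ ^ d₁ := ha₁
    have ha₂' : artin F M 𝔓 = τ ^ d₂ := ha₂
    have hmod : d₂ ≡ d₁ * e [MOD p] := by
      apply modEq_of_pow_eq_pow_of_card_eq_prime hp hcardG hτ
      rw [← ha₂', he, ha₁', ← pow_mul]
    rw [h𝔓_eq, hx_eq, ← pow_mul]
    exact pow_eq_pow_of_pow_eq_one_of_modEq hyp hmod
  -- products
  have hmulP : ∀ I J : Ideal (𝓞 F), P I → P J → P (I * J) := by
    rintro I J ⟨hI0, hI⟩ ⟨hJ0, hJ⟩
    refine ⟨mul_ne_zero hI0 hJ0, fun e he => ?_⟩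
    obtain ⟨a, ha⟩ := hgen (artin F M I)
    obtain ⟨b, hb⟩ := hgen (artin F M J)
    have h1 : (⟨I * J, mem_nonZeroDivisors_of_ne_zero (mul_ne_zero hI0 hJ0)⟩ : (Ideal (𝓞 F))⁰) =
        ⟨I, mem_nonZeroDivisors_of_ne_zero hI0⟩ * ⟨J, mem_nonZeroDivisors_of_ne_zero hJ0⟩ := rfl
    rw [h1, map_mul, map_mul, hI a ha.symm, hJ b hb.symm, ← pow_add]
    apply pow_eq_pow_of_pow_eq_one_of_modEq hxp
    apply modEq_of_pow_eq_pow_of_card_eq_prime hp hcardG hg1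
    rw [pow_add, ha, hb, ← he, artin_mul F M hI0 hJ0]
  have honeP : P 1 := by
    refine ⟨one_ne_zero, fun e he => ?_⟩
    have h1 : (⟨1, mem_nonZeroDivisors_of_ne_zero one_ne_zero⟩ : (Ideal (𝓞 F))⁰) = 1 := rfl
    rw [h1, map_one, map_one]
    rw [artin_one] at he
    have hmod : e ≡ 0 [MOD p] := by
      apply modEq_of_pow_eq_pow_of_card_eq_prime hp hcardG hg1
      rw [← he, pow_zero]
    rw [pow_eq_pow_of_pow_eq_one_of_modEq hxp hmod, pow_zero]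
  -- all ideals coprime to `𝔪`
  have hall : ∀ I : Ideal (𝓞 F), I ≠ ⊥ → IsCoprime I 𝔪 → P I := by
    intro I hI0 hIcop
    rw [← Ideal.prod_normalizedFactors_eq_self hI0]
    refine Multiset.prod_induction P _ hmulP honeP ?_
    intro Q hQ
    have hQ0 : Q ≠ ⊥ := UniqueFactorizationMonoid.ne_zero_of_mem_normalizedFactors hQ
    rw [Ideal.mem_normalizedFactors_iff hI0] at hQ
    refine hprime Q hQ.1 hQ0 (hcop_of_prime Q hQ.1 hQ0 fun hle => ?_)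
    have : (⊤ : Ideal (𝓞 F)) ≤ Q := by
      rw [← Ideal.isCoprime_iff_sup_eq.mp hIcop]
      exact sup_le hQ.2 hle
    exact hQ.1.ne_top (top_le_iff.mp this)
  -- the reference class is not a norm class
  have hx1 : x ≠ 1 := by
    intro hx1
    apply hfirst
    rw [eq_top_iff]
    intro c _
    obtain ⟨𝔄, h𝔄c, h𝔄cop⟩ := exists_mk0_eq_and_isCoprime 𝔪 h𝔪 c
    obtain ⟨hA0, hA⟩ := hall 𝔄 (nonZeroDivisors.coe_ne_zero 𝔄) h𝔄cop
    obtain ⟨e, he⟩ := hgen (artin F M 𝔄)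
    have := hA e he.symm
    rw [hx1, one_pow, hπ] at this
    rw [← h𝔄c]
    exact this
  have hordx : orderOf x = p := by
    have hdvd : orderOf x ∣ p := orderOf_dvd_of_pow_eq_one hxp
    rcases (Nat.dvd_prime hp).mp hdvd with h | h
    · exact absurd (orderOf_eq_one_iff.mp h) hx1
    · exact h
  -- the principal ideal
  obtain ⟨hB0, hB⟩ := hall (Ideal.span {β}) hβ0 hβ
  obtain ⟨e, he⟩ := hgen (artin F M (Ideal.span {β}))
  have h1 := hB e he.symm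
  have hprinc : ClassGroup.mk0 (⟨Ideal.span {β}, mem_nonZeroDivisors_of_ne_zero hB0⟩ :
      (Ideal (𝓞 F))⁰) = 1 := by
    rw [ClassGroup.mk0_eq_one_iff]
    exact ⟨⟨β, rfl⟩⟩
  rw [hprinc, map_one] at h1
  have hdvd : p ∣ e := by
    rw [← hordx]
    exact orderOf_dvd_of_pow_eq_one h1.symm
  obtain ⟨k, rfl⟩ := hdvd
  rw [← he, pow_mul, ← hcardG, pow_card_eq_one', one_pow]

end Assembly

end Fermat.Agent.S14
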