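import Fermat.Agent.S14.Defs
import Fermat.Statements.S14

/-!
# S14 SKELETON (coordination file; contains `sorry`; NEVER import it from a final file)

Each `theorem` below is the EXACT target statement of one piece. Prove it in your own file
`Fermat/Agent/S14/<Piece>.lean` (namespace `Fermat.Agent.S14`, same name, same statement), importing
only `Mathlib`, `Fermat.Agent.S14.Defs` and landed pieces.
-/

set_option autoImplicit false

open NumberField

namespace Fermat.Agent.S14

/-! ## General number field pieces: `F ⊆ M` number fields -/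

section General

variable (F M : Type*) [Field F] [NumberField F] [Field M] [NumberField M] [Algebra F M]

/-- **ZETA**: in a nontrivial extension of number fields, outside any finite set of primes there is
a prime which does not split completely. (From the simple poles of `dedekindZeta F`,
`dedekindZeta M` + Euler products.) -/
theorem exists_prime_not_split (hdeg : 1 < Module.finrank F M) (S : Set (Ideal (𝓞 F)))
    (hS : S.Finite) :
    ∃ 𝔭 : Ideal (𝓞 F), 𝔭.IsPrime ∧ 𝔭 ≠ ⊥ ∧ 𝔭 ∉ S ∧
      (Ideal.primesOver 𝔭 (𝓞 M)).ncard < Module.finrank F M := sorry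

/-- **SECOND** (universal norm index inequality, analytic): the classes of norms of ideals of `M`
have index at most `[M : F]` in the class group of `F`, for `M/F` Galois. (Needs class group
`L`-series bounded at `s = 1`: pieces COUNT, LFUN.) -/
theorem card_quotient_normClasses_le [IsGalois F M] :
    Nat.card (ClassGroup (𝓞 F) ⧸ normClasses F M) ≤ Module.finrank F M := sorry

/-- **FIRST** (algebraic, Herbrand quotient of units / ambiguous classes): for an everywhere
unramified Galois extension of prime degree `p` of a totally complex field containing the `p`-th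
roots of unity, the norm classes are a proper subgroup of the class group. -/
theorem normClasses_ne_top [IsGalois F M] {p : ℕ} (hp : p.Prime) (hp2 : p ≠ 2)
    (hdeg : Module.finrank F M = p) (hunr : IsUnramifiedEverywhere F M)
    (hζ : ∃ ζ : F, IsPrimitiveRoot ζ p) :
    normClasses F M ≠ ⊤ := sorry

end General

/-- **ARTLEM** (Artin's lemma for a prime exponent): given `a > 1` and a finite set `B` of
excluded primes, there are distinct primes `r₁, r₂ ∉ B`, not dividing `a`, such that the orders of
`a` modulo `r₁` and `r₂` are `p ^ k₁` and `p ^ k₂` with `1 ≤ k₁ ≤ k₂`.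
(Prime divisors `≠ p` of `Φ_{p^k}(a)` have `ord_r(a) = p^k`.) -/
theorem artin_lemma {p : ℕ} (hp : p.Prime) {a : ℕ} (ha : 1 < a) (B : Finset ℕ) :
    ∃ r₁ r₂ : ℕ, r₁.Prime ∧ r₂.Prime ∧ r₁ ≠ r₂ ∧ r₁ ∉ B ∧ r₂ ∉ B ∧ ¬ r₁ ∣ a ∧ ¬ r₂ ∣ a ∧
      ∃ k₁ k₂ : ℕ, 1 ≤ k₁ ∧ k₁ ≤ k₂ ∧ orderOf (a : ZMod r₁) = p ^ k₁ ∧
        orderOf (a : ZMod r₂) = p ^ k₂ := sorry

/-! ## The cyclotomic field `K = ℚ(ζ_p)` -/

section Jacobi

open scoped Pointwise

variable {p : ℕ} [Fact p.Prime] (K : Type*) [Field K] [NumberField K]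
  [IsCyclotomicExtension {p} ℚ K]

/-- **JACOBI** (Stickelberger for Jacobi sums): for a prime `𝔮` of `𝓞 K` of residue degree one over
a rational prime `q ≠ p`, the product of the conjugates `σ_u⁻¹ 𝔮`, `u ∈ (ZMod p)ˣ` with
`u.val ≤ p / 2`, is a principal ideal (generated by the Jacobi sum `J(χ, χ)`, `χ` the `p`-th power
residue character modulo `𝔮`). Here `σ_u ζ = ζ ^ u`. -/
theorem exists_jacobi_generator (hp2 : p ≠ 2) (𝔮 : Ideal (𝓞 K)) [𝔮.IsPrime] {q : ℕ} (hq : q.Prime)
    (hqp : q ≠ p) (hN : Ideal.absNorm 𝔮 = q) :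
    ∃ J : 𝓞 K, J ≠ 0 ∧ Ideal.span {J} =
      ∏ u ∈ Finset.filter (fun u : (ZMod p)ˣ => (u : ZMod p).val ≤ p / 2) Finset.univ,
        ((IsCyclotomicExtension.Rat.galEquivZMod p K).symm u)⁻¹ • 𝔮 := sorry

end Jacobi

/-! ## The main number field theorem -/

section Main

open scoped Pointwise

variable (p : ℕ) [Fact p.Prime] (L : Type*) [Field L] [NumberField L] [IsGalois ℚ L]
  (K : IntermediateField ℚ L) [IsCyclotomicExtension {p} ℚ K]

/-- The conjugation action of `Gal(L/ℚ)` on `Gal(L/K)` is through the inverse of the cyclotomic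
character: if `σ ζ = ζ ^ k` for all `p`-th roots of unity `ζ`, then `σ⁻¹ n σ = n ^ k`. -/
def ConjActsByInvCyclo : Prop :=
  ∀ (σ : Gal(L/ℚ)) (k : ℕ), (∀ ζ : L, ζ ^ p = 1 → σ ζ = ζ ^ k) →
    ∀ n : Gal(L/K), σ⁻¹ * n.restrictScalars ℚ * σ = (n.restrictScalars ℚ) ^ k

/-- **RECIP** (Artin reciprocity for the unramified cyclic degree `p` extension `L/K`): principal
ideals prime to `p` have trivial Artin symbol. (Pieces FROB, CROSS, TAME + FIRST, SECOND, ZETA,
ARTLEM.) -/
theorem artin_span_singleton_eq_one (hp2 : p ≠ 2) [IsAbelianGalois K L]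
    (hdeg : Module.finrank K L = p) (hunr : IsUnramifiedEverywhere K L)
    (hact : ConjActsByInvCyclo p L K) (β : 𝓞 K) (hβ : IsCoprime (Ideal.span {β})
      (Ideal.span {(p : 𝓞 K)})) :
    artin K L (Ideal.span {β}) = 1 := sorry

/-- **NF** (main number field theorem; piece FINAL): there is no such extension. -/
theorem no_unramified_extension (hp2 : p ≠ 2) (hdeg : Module.finrank K L = p)
    (hunr : IsUnramifiedEverywhere K L)
    (hsplit : ∀ Q : Ideal (𝓞 L), Q.IsPrime → (p : 𝓞 L) ∈ Q →
      MulAction.stabilizer Gal(L/K) Q = ⊥)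
    (hact : ConjActsByInvCyclo p L K) : False := sorry

end Main

/-! ## From the Galois representation to the number field (pieces ALG, TRANS) -/

section Trans

open ExtCitation
open scoped Pointwise

variable {p : ℕ} [Fact p.Prime]

/-- **ALG + TRANS**: a non-split admissible extension produces a number field as in
`no_unramified_extension`. -/
theorem exists_field_of_not_splitsGlobally (h3 : 3 ≤ p)
    (V : Type) [AddCommGroup V] [Module (ZMod p) V]
    [DistribMulAction (AlgebraicClosure ℚ ≃ₐ[ℚ] AlgebraicClosure ℚ) V]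
    [SMulCommClass (AlgebraicClosure ℚ ≃ₐ[ℚ] AlgebraicClosure ℚ) (ZMod p) V]
    (C : Submodule (ZMod p) V) (hadm : IsAdmissibleExtensionCts p V C)
    (hns : ¬ SplitsGlobally C) :
    ∃ (L : Type) (_ : Field L) (_ : NumberField L) (_ : IsGalois ℚ L)
      (K : IntermediateField ℚ L) (_ : IsCyclotomicExtension {p} ℚ K),
      Module.finrank K L = p ∧ IsUnramifiedEverywhere K L ∧
      (∀ Q : Ideal (𝓞 L), Q.IsPrime → (p : 𝓞 L) ∈ Q → MulAction.stabilizer Gal(L/K) Q = ⊥) ∧
      ConjActsByInvCyclo p L K := sorry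

end Trans

end Fermat.Agent.S14
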